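/-
S52K (3–5 switch), layer K1: Klein's icosahedral forms and the universal point of order 5.

For a commutative ring `R` and `x y : R`:
* `fK x y`, `HK x y`, `TK x y` : Klein's forms of degrees 12, 20, 30, with `TK² + HK³ = 1728 fK⁵`;
* `XP x y`, `YP x y` : forms of degrees 10, 15 with integer coefficients such that
  `(XP, YP)` is a point of `Y² = X³ + 27 HK X + 54 TK`, and its double is `(XP, YP)(y, -x)`.
All statements are polynomial identities proved by `ring`.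
-/
import Mathlib

set_option autoImplicit false

namespace Fermat.Agent.S52K.Klein

variable {R : Type*} [CommRing R]

/-- Klein's form of degree 12 (the vertices of the icosahedron). -/
def fK (x y : R) : R := x * y * (x ^ 10 + 11 * x ^ 5 * y ^ 5 - y ^ 10)

/-- Klein's form of degree 20 (the faces). -/
def HK (x y : R) : R :=
  -(x ^ 20) - y ^ 20 + 228 * (x ^ 15 * y ^ 5 - x ^ 5 * y ^ 15) - 494 * x ^ 10 * y ^ 10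

/-- Klein's form of degree 30 (the edges). -/
def TK (x y : R) : R :=
  x ^ 30 + y ^ 30 + 522 * (x ^ 25 * y ^ 5 - x ^ 5 * y ^ 25)
    - 10005 * (x ^ 20 * y ^ 10 + x ^ 10 * y ^ 20)

/-- The `X`-coordinate of the universal point of order 5. -/
def XP (x y : R) : R :=
  3 * y ^ 10 + 36 * x * y ^ 9 + 72 * x ^ 2 * y ^ 8 + 108 * x ^ 3 * y ^ 7 + 180 * x ^ 4 * y ^ 6
    + 90 * x ^ 5 * y ^ 5 + 72 * x ^ 6 * y ^ 4 - 36 * x ^ 7 * y ^ 3 + 36 * x ^ 8 * y ^ 2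
    + 3 * x ^ 10

/-- The `Y`-coordinate of the universal point of order 5. -/
def YP (x y : R) : R :=
  108 * x * y ^ 14 + 432 * x ^ 2 * y ^ 13 + 972 * x ^ 3 * y ^ 12 + 1620 * x ^ 4 * y ^ 11
    + 2700 * x ^ 5 * y ^ 10 + 3132 * x ^ 6 * y ^ 9 + 2268 * x ^ 7 * y ^ 8 + 648 * x ^ 8 * y ^ 7
    + 540 * x ^ 9 * y ^ 6 + 432 * x ^ 11 * y ^ 4 + 108 * x ^ 12 * y ^ 3 + 108 * x ^ 13 * y ^ 2

/-- The icosahedral syzygy. -/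
theorem syzygy (x y : R) : TK x y ^ 2 + HK x y ^ 3 = 1728 * fK x y ^ 5 := by
  simp only [fK, HK, TK]; ring

/-- `(XP, YP)` lies on `Y² = X³ + 27 HK X + 54 TK`. -/
theorem curve_eq (x y : R) :
    YP x y ^ 2 = XP x y ^ 3 + 27 * HK x y * XP x y + 54 * TK x y := by
  simp only [HK, TK, XP, YP]; ring

/-- The forms are invariant under `S̃ : (x, y) ↦ (y, -x)`. -/
theorem HK_S (x y : R) : HK y (-x) = HK x y := by simp only [HK]; ring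
theorem TK_S (x y : R) : TK y (-x) = TK x y := by simp only [TK]; ring
theorem fK_S (x y : R) : fK y (-x) = fK x y := by simp only [fK]; ring

/-- Duplication, `X`-coordinate: `X(2P) = XP (y, -x)`. -/
theorem dup_X (x y : R) :
    (3 * XP x y ^ 2 + 27 * HK x y) ^ 2 - 8 * XP x y * YP x y ^ 2
      = 4 * YP x y ^ 2 * XP y (-x) := by
  simp only [HK, XP, YP]; ring

/-- Duplication, `Y`-coordinate: `Y(2P) = YP (y, -x)`. -/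
theorem dup_Y (x y : R) :
    YP y (-x) * (2 * YP x y)
      = -(2 * YP x y ^ 2) - (3 * XP x y ^ 2 + 27 * HK x y) * (XP y (-x) - XP x y) := by
  simp only [HK, XP, YP]; ring

/-- `YP` vanishes only at the cusps. -/
theorem YP_mul (x y : R) :
    YP x y * (x * y ^ 8 - 4 * x ^ 2 * y ^ 7 + 7 * x ^ 3 * y ^ 6 - 7 * x ^ 4 * y ^ 5
      + 7 * x ^ 6 * y ^ 3 - 3 * x ^ 7 * y ^ 2 - x ^ 8 * y + x ^ 9) = 108 * fK x y ^ 2 := by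
  simp only [fK, YP]; ring

/-- `XP - X(2P)` vanishes only at the cusps. -/
theorem XP_sub_mul (x y : R) :
    (XP x y - XP y (-x)) * (x ^ 2 + x * y - y ^ 2) = 36 * fK x y := by
  simp only [fK, XP]; ring

/-! ### Further forms (layer K2 definitions) -/

/-- `∂fK/∂x`. -/
def fKx (x y : R) : R := 11 * x ^ 10 * y + 66 * x ^ 5 * y ^ 6 - y ^ 11

/-- `∂fK/∂y`. -/
def fKy (x y : R) : R := x ^ 11 + 66 * x ^ 6 * y ^ 5 - 11 * x * y ^ 10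

/-- The entries of `5 Ũ = [[uA, uB], [uB, -uA]]`. -/
def uA (ζ : R) : R := -1 - 2 * ζ - 3 * ζ ^ 2 + ζ ^ 3
def uB (ζ : R) : R := 2 + 4 * ζ + ζ ^ 2 + 3 * ζ ^ 3

/-- `√5 = -1 - 2ζ² - 2ζ³`. -/
def s5 (ζ : R) : R := -1 - 2 * ζ ^ 2 - 2 * ζ ^ 3

/-- `5 · X(Q_w)`, where `Q_w = P_{Ũ w}`. -/
def XQ5 (ζ x y : R) : R :=
  -36 * ζ ^ 3 * x ^ 10 - 36 * ζ ^ 2 * x ^ 10 - 93 * x ^ 10 - 396 * ζ ^ 3 * x ^ 5 * y ^ 5 - 396 * ζ ^ 2 * x ^ 5 * y ^ 5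
  - 198 * x ^ 5 * y ^ 5 + 36 * ζ ^ 3 * y ^ 10 + 36 * ζ ^ 2 * y ^ 10 - 57 * y ^ 10

/-- `5 · Y(Q_w)`. -/
def YQ5 (ζ x y : R) : R :=
  -324 * ζ ^ 3 * x ^ 15 + 108 * ζ ^ 2 * x ^ 15 - 216 * ζ * x ^ 15 - 108 * x ^ 15 - 3456 * ζ ^ 3 * x ^ 10 * y ^ 5
  + 1512 * ζ ^ 2 * x ^ 10 * y ^ 5 - 1944 * ζ * x ^ 10 * y ^ 5 - 972 * x ^ 10 * y ^ 5 + 1512 * ζ ^ 3 * x ^ 5 * y ^ 10
  + 3456 * ζ ^ 2 * x ^ 5 * y ^ 10 + 4968 * ζ * x ^ 5 * y ^ 10 + 2484 * x ^ 5 * y ^ 10 - 108 * ζ ^ 3 * y ^ 15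
  - 324 * ζ ^ 2 * y ^ 15 - 432 * ζ * y ^ 15 - 216 * y ^ 15

/-- `X(P_{T̃ w})`, `T̃ = diag(ζ³, ζ²)`, reduced. -/
def XPT (ζ x y : R) : R :=
  3 * x ^ 10 + 36 * ζ ^ 3 * x ^ 8 * y ^ 2 - 36 * ζ ^ 2 * x ^ 7 * y ^ 3 + 72 * ζ * x ^ 6 * y ^ 4 + 90 * x ^ 5 * y ^ 5
  - 180 * ζ ^ 3 * x ^ 4 * y ^ 6 - 180 * ζ ^ 2 * x ^ 4 * y ^ 6 - 180 * ζ * x ^ 4 * y ^ 6 - 180 * x ^ 4 * y ^ 6
  + 108 * ζ ^ 3 * x ^ 3 * y ^ 7 + 72 * ζ ^ 2 * x ^ 2 * y ^ 8 + 36 * ζ * x * y ^ 9 + 3 * y ^ 10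

/-- `Y(P_{T̃ w})`, reduced. -/
def YPT (ζ x y : R) : R :=
  108 * ζ ^ 3 * x ^ 13 * y ^ 2 + 108 * ζ ^ 2 * x ^ 12 * y ^ 3 + 432 * ζ * x ^ 11 * y ^ 4 - 540 * ζ ^ 3 * x ^ 9 * y ^ 6
  - 540 * ζ ^ 2 * x ^ 9 * y ^ 6 - 540 * ζ * x ^ 9 * y ^ 6 - 540 * x ^ 9 * y ^ 6 + 648 * ζ ^ 3 * x ^ 8 * y ^ 7
  + 2268 * ζ ^ 2 * x ^ 7 * y ^ 8 + 3132 * ζ * x ^ 6 * y ^ 9 + 2700 * x ^ 5 * y ^ 10 - 1620 * ζ ^ 3 * x ^ 4 * y ^ 11
  - 1620 * ζ ^ 2 * x ^ 4 * y ^ 11 - 1620 * ζ * x ^ 4 * y ^ 11 - 1620 * x ^ 4 * y ^ 11 + 972 * ζ ^ 3 * x ^ 3 * y ^ 12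
  + 432 * ζ ^ 2 * x ^ 2 * y ^ 13 + 108 * ζ * x * y ^ 14

theorem fK_smul (c x y : R) : fK (c * x) (c * y) = c ^ 12 * fK x y := by simp only [fK]; ring
theorem HK_smul (c x y : R) : HK (c * x) (c * y) = c ^ 20 * HK x y := by simp only [HK]; ring
theorem TK_smul (c x y : R) : TK (c * x) (c * y) = c ^ 30 * TK x y := by simp only [TK]; ring
theorem XP_smul (c x y : R) : XP (c * x) (c * y) = c ^ 10 * XP x y := by simp only [XP]; ring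
theorem YP_smul (c x y : R) : YP (c * x) (c * y) = c ^ 15 * YP x y := by simp only [YP]; ring
theorem fKx_smul (c x y : R) : fKx (c * x) (c * y) = c ^ 11 * fKx x y := by simp only [fKx]; ring
theorem fKy_smul (c x y : R) : fKy (c * x) (c * y) = c ^ 11 * fKy x y := by simp only [fKy]; ring

/-- Euler's identity for `fK`. -/
theorem euler (x y : R) : x * fKx x y + y * fKy x y = 12 * fK x y := by
  simp only [fK, fKx, fKy]; ring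

end Fermat.Agent.S52K.Klein
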