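/-
S52K (3–5 switch) — the interface file (architect: helper34).

Every brick of the S52 build is stated here as a `Prop`-valued definition, so that producers and
the assemblies can work in parallel.  Nothing is proved here.

Route: `W` semistable with `W[5]` irreducible and `W[3]` reducible.  Klein's icosahedral forms
`fK, HK, TK` (`KleinForms.lean`) give the universal curve `Y² = X³ + 27 HK(w) X + 54 TK(w)` with an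
explicit full level-5 structure `PK w, QK w`.  A base vector `v₀` with `HK v₀ = -c₄(W)`,
`TK v₀ = -c₆(W)` and `v₁ = J∇fK(v₀)` span a rational plane of the twisted cone; its integral points
`l v₀ + m v₁` give models `W'` with `W'[5] ≅ W[5]`.  A fibre congruent mod an auxiliary prime `r`
to a quadratic twist of `W` has `a_r(W') = -a_r(W)`, which is incompatible with `W'[3]` reducible.
-/
import Mathlib
import Fermat.Agent.S58.Interfaces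
import Fermat.Agent.S52K.KleinForms

set_option autoImplicit false

namespace Fermat.Agent.S52K

open Fermat.Agent.S58 WeierstrassCurve
open scoped WeierstrassCurve.Affine

/-! ## Top bricks (statements about integral models only) -/

/-- `Cong5 W W'`: an additive, injective, Galois-equivariant map `W[5] → W'[5]`. -/
def Cong5 (W W' : WeierstrassCurve ℤ) : Prop :=
  ∃ ψ : EPt W → EPt W',
    (∀ P Q : EPt W, (5 : ℕ) • P = 0 → (5 : ℕ) • Q = 0 → ψ (P + Q) = ψ P + ψ Q) ∧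
    (∀ P : EPt W, (5 : ℕ) • P = 0 → ψ P = 0 → P = 0) ∧
    (∀ (σ : GQ) (P : EPt W), (5 : ℕ) • P = 0 → ψ (σ • P) = σ • ψ P)

/-- **(F)** isomorphic 5-torsion gives congruent `a_ℓ` at common good primes `ℓ ≠ 5`. -/
def Cong5Ap : Prop :=
  ∀ W W' : WeierstrassCurve ℤ, W.Δ ≠ 0 → W'.Δ ≠ 0 → Cong5 W W' →
    ∀ ℓ : ℕ, ℓ.Prime → W.IsGoodPrimeFor ℓ → W'.IsGoodPrimeFor ℓ → ℓ ≠ 5 →
      (5 : ℤ) ∣ (W'.apOfModel ℓ - W.apOfModel ℓ)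

/-- **(IRR3)** semistable with reducible 3-torsion: `a_r ≡ r + 1 (mod 3)` at every good prime
`r ≡ 1 (mod 3)`. -/
def Irr3 : Prop :=
  ∀ W : WeierstrassCurve ℤ, W.Δ ≠ 0 → W.IsSemistableModel → ¬ W.ModRepIsIrreducible 3 →
    ∀ r : ℕ, r.Prime → r % 3 = 1 → ¬ (r : ℤ) ∣ W.Δ → (3 : ℤ) ∣ W.apOfModel r - 2

/-- **(TWIST)** a model congruent mod a good prime `r ≥ 5` to the quadratic twist by a non-residue
has good reduction at `r` and the opposite `a_r`. -/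
def TwistAp : Prop :=
  ∀ (W W' : WeierstrassCurve ℤ) (r : ℕ), r.Prime → 5 ≤ r → ¬ (r : ℤ) ∣ W.Δ →
    ∀ d : ℤ, ¬ IsSquare (d : ZMod r) →
      (r : ℤ) ∣ W'.c₄ - d ^ 2 * W.c₄ → (r : ℤ) ∣ W'.c₆ - d ^ 3 * W.c₆ →
        ¬ (r : ℤ) ∣ W'.Δ ∧ W'.apOfModel r = - W.apOfModel r

/-- `φ` acts on `W[5]` with eigenvalues `+1` and `-1`. -/
def PlusMinus (W : WeierstrassCurve ℤ) (φ : GQ) : Prop :=
  ∃ Pp Pm : EPt W, Pp ≠ 0 ∧ Pm ≠ 0 ∧ (5 : ℕ) • Pp = 0 ∧ (5 : ℕ) • Pm = 0 ∧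
    φ • Pp = Pp ∧ φ • Pm = -Pm

/-- **(AUX)** an auxiliary prime `r ≡ 1 (mod 3)` outside `S` with a Frobenius acting on `W[5]`
like complex conjugation. -/
def AuxPrime : Prop :=
  ∀ W : WeierstrassCurve ℤ, W.Δ ≠ 0 → W.IsSemistableModel → ∀ S : Finset ℕ,
    ∃ r : ℕ, r.Prime ∧ r ∉ S ∧ r % 3 = 1 ∧ ∃ (A : ValuationSubring Qb) (φ : GQ),
      A.LiesOverPrime r ∧ A.IsFrobeniusAt φ r ∧ PlusMinus W φ

/-- **(FAM)** the family through `W`. -/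
def FamilyExists : Prop :=
  ∀ W : WeierstrassCurve ℤ, W.Δ ≠ 0 → W.IsSemistableModel →
    ∃ (n : ℕ) (Wf : ℤ → ℤ → WeierstrassCurve ℤ), 0 < n ∧ (30 * W.Δ.natAbs) ∣ n ∧
      (∀ l m : ℤ, IsCoprime l m → (n : ℤ) ∣ l - 1 → (n : ℤ) ∣ m →
        (Wf l m).Δ ≠ 0 ∧ (Wf l m).IsSemistableModel ∧ Cong5 W (Wf l m)) ∧
      (∀ r : ℕ, r.Prime → ¬ r ∣ n → ∀ (A : ValuationSubring Qb) (φ : GQ),
        A.LiesOverPrime r → A.IsFrobeniusAt φ r → PlusMinus W φ →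
        ∃ l₀ m₀ d : ℤ, ¬ ((r : ℤ) ∣ l₀ ∧ (r : ℤ) ∣ m₀) ∧ ¬ IsSquare (d : ZMod r) ∧
          ∀ l m : ℤ, IsCoprime l m → (n : ℤ) ∣ l - 1 → (n : ℤ) ∣ m →
            (r : ℤ) ∣ l - l₀ → (r : ℤ) ∣ m - m₀ →
              (r : ℤ) ∣ (Wf l m).c₄ - d ^ 2 * W.c₄ ∧ (r : ℤ) ∣ (Wf l m).c₆ - d ^ 3 * W.c₆)

/-- **The top seam** (assembly `Asm.lean`): the five bricks give the frozen statement. -/
def TopSeam : Prop :=
  FamilyExists → Cong5Ap → Irr3 → TwistAp → AuxPrime →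
    ∀ (W : WeierstrassCurve ℤ), W.Δ ≠ 0 → W.IsSemistableModel → W.ModRepIsIrreducible 5 →
      ∃ W' : WeierstrassCurve ℤ, W'.Δ ≠ 0 ∧ W'.IsSemistableModel ∧ W'.ModRepIsIrreducible 3 ∧
        ∀ ℓ : ℕ, ℓ.Prime → W.IsGoodPrimeFor ℓ → W'.IsGoodPrimeFor ℓ → ℓ ≠ 5 →
          (5 : ℤ) ∣ (W'.apOfModel ℓ - W.apOfModel ℓ)

/-! ## The Klein layer over `ℚ̄` -/

namespace Klein

/-- `ζ` is a primitive 5th root of unity. -/
def IsZ5 (ζ : Qb) : Prop := ζ ^ 4 + ζ ^ 3 + ζ ^ 2 + ζ + 1 = 0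

/-- `S̃ : (x, y) ↦ (y, -x)`. -/
noncomputable def Sm : Matrix (Fin 2) (Fin 2) Qb := !![0, 1; -1, 0]

/-- `T̃ = diag(ζ³, ζ²)`. -/
noncomputable def Tm (ζ : Qb) : Matrix (Fin 2) (Fin 2) Qb := !![ζ ^ 3, 0; 0, ζ ^ 2]

/-- `Ũ = (1/5) [[uA, uB], [uB, -uA]]`. -/
noncomputable def Um (ζ : Qb) : Matrix (Fin 2) (Fin 2) Qb :=
  !![uA ζ / 5, uB ζ / 5; uB ζ / 5, -(uA ζ) / 5]

/-- The binary icosahedral group (as a monoid closure; `T̃⁵ = 1`, `Ũ⁴ = 1`). -/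
noncomputable def Gam (ζ : Qb) : Submonoid (Matrix (Fin 2) (Fin 2) Qb) :=
  Submonoid.closure {Tm ζ, Um ζ}

/-- `E` is the Klein curve `Y² = X³ + 27 HK(w) X + 54 TK(w)` of a vector `w` with `fK w ≠ 0`. -/
def IsKl (E : WeierstrassCurve Qb) (w : Fin 2 → Qb) : Prop :=
  E.a₁ = 0 ∧ E.a₂ = 0 ∧ E.a₃ = 0 ∧ E.a₄ = 27 * HK (w 0) (w 1) ∧ E.a₆ = 54 * TK (w 0) (w 1) ∧
    fK (w 0) (w 1) ≠ 0

/-- The universal point of order 5 (junk value `0` off the Klein curve). -/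
noncomputable def PK (E : WeierstrassCurve Qb) (w : Fin 2 → Qb) : E.toAffine.Point :=
  open Classical in
  if h : E.toAffine.Nonsingular (XP (w 0) (w 1)) (YP (w 0) (w 1)) then .some _ _ h else 0

/-- The second point of the level structure: `QK w = PK (Ũ w)`. -/
noncomputable def QK (ζ : Qb) (E : WeierstrassCurve Qb) (w : Fin 2 → Qb) : E.toAffine.Point :=
  PK E ((Um ζ).mulVec w)

/-- `γ` preserves the forms and acts on the level structure by `!![p, q; r, s]`: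
`B_{γ w} = B_w ∘ !![p, q; r, s]`. -/
def Rel (ζ : Qb) (γ : Matrix (Fin 2) (Fin 2) Qb) (p q r s : ℤ) : Prop :=
  γ.det = 1 ∧
  (∀ w : Fin 2 → Qb, fK (γ.mulVec w 0) (γ.mulVec w 1) = fK (w 0) (w 1) ∧
    HK (γ.mulVec w 0) (γ.mulVec w 1) = HK (w 0) (w 1) ∧
    TK (γ.mulVec w 0) (γ.mulVec w 1) = TK (w 0) (w 1) ∧
    (![-(fKy (γ.mulVec w 0) (γ.mulVec w 1)), fKx (γ.mulVec w 0) (γ.mulVec w 1)] : Fin 2 → Qb)
      = γ.mulVec ![-(fKy (w 0) (w 1)), fKx (w 0) (w 1)]) ∧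
  ∀ (E : WeierstrassCurve Qb) (w : Fin 2 → Qb), IsKl E w →
    PK E (γ.mulVec w) = p • PK E w + r • QK ζ E w ∧
    QK ζ E (γ.mulVec w) = q • PK E w + s • QK ζ E w

/-- **(K3-pt)** `PK` is the point `(XP, YP)`, of exact order 5; its double is `PK (S̃ w)`; it is
odd in `w` and invariant under `μ₅`. -/
def PKSpec : Prop :=
  ∀ (E : WeierstrassCurve Qb) (w : Fin 2 → Qb), IsKl E w →
    (∃ h, PK E w = .some (XP (w 0) (w 1)) (YP (w 0) (w 1)) h) ∧ (5 : ℕ) • PK E w = 0 ∧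
      PK E (Sm.mulVec w) = (2 : ℕ) • PK E w ∧ PK E (-w) = - PK E w ∧
      ∀ η : Qb, η ^ 5 = 1 → PK E (η • w) = PK E w

/-- **(K3-gen)** the generators: `T̃ ↦ !![1, 0; 1, 1]`, `Ũ ↦ !![0, -1; 1, 0]`. -/
def RelGen : Prop :=
  ∀ ζ : Qb, IsZ5 ζ → Rel ζ (Tm ζ) 1 0 1 1 ∧ Rel ζ (Um ζ) 0 (-1) 1 0

/-- **(K3-surj)** every matrix of `SL₂(𝔽₅)` is realised by `Γ`, and every element of `Γ` acts by
some matrix. -/
def RelSurj : Prop :=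
  ∀ ζ : Qb, IsZ5 ζ →
    (∀ p q r s : ℤ, (5 : ℤ) ∣ p * s - q * r - 1 → ∃ γ ∈ Gam ζ, Rel ζ γ p q r s) ∧
    (∀ γ ∈ Gam ζ, ∃ p q r s : ℤ, (5 : ℤ) ∣ p * s - q * r - 1 ∧ Rel ζ γ p q r s)

/-- **(K3-indep)** `PK w, QK w` are independent over `𝔽₅`. -/
def Indep : Prop :=
  ∀ ζ : Qb, IsZ5 ζ → ∀ (E : WeierstrassCurve Qb) (w : Fin 2 → Qb), IsKl E w →
    ∀ a b : ℤ, a • PK E w + b • QK ζ E w = 0 → (5 : ℤ) ∣ a ∧ (5 : ℤ) ∣ b

/-- **(K3-rigid)** the level structure determines the vector up to `μ₅`. -/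
def Rigid : Prop :=
  ∀ ζ : Qb, IsZ5 ζ → ∀ (E : WeierstrassCurve Qb) (w w' : Fin 2 → Qb), IsKl E w → IsKl E w' →
    PK E w' = PK E w → QK ζ E w' = QK ζ E w → ∃ η : Qb, η ^ 5 = 1 ∧ w' = η • w

/-- **(K3-gal)** Galois acts on the level structure through the vector and the cyclotomic
character. -/
def GalCompat : Prop :=
  ∀ ζ : Qb, IsZ5 ζ → ∀ (E₀ : WeierstrassCurve ℚ) (w : Fin 2 → Qb), IsKl (E₀.toAffine⁄Qb) w →
    ∀ σ : GQ, σ • PK (E₀.toAffine⁄Qb) w = PK (E₀.toAffine⁄Qb) (fun i => σ (w i)) ∧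
      ∀ k : ℕ, σ ζ = ζ ^ k →
        σ • QK ζ (E₀.toAffine⁄Qb) w = k • QK ζ (E₀.toAffine⁄Qb) (fun i => σ (w i))

/-- **(CONE)** the cone over any `(h, t)` with `t² + h³ ≠ 0` is non-empty. -/
def ConeNonempty : Prop :=
  ∀ h t : Qb, t ^ 2 + h ^ 3 ≠ 0 → ∃ w : Fin 2 → Qb, HK (w 0) (w 1) = h ∧ TK (w 0) (w 1) = t

/-- **(BEZ)** `HK` and `fK` have no common zero modulo a prime of residue characteristic `≠ 5`
(`A.nonunits` is the maximal ideal of `A`). -/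
def Bezout : Prop :=
  ∀ A : ValuationSubring Qb, (5 : Qb) ∉ A.nonunits → ∀ x y : Qb, x ∈ A → y ∈ A →
    HK x y ∈ A.nonunits → fK x y ∈ A.nonunits → x ∈ A.nonunits ∧ y ∈ A.nonunits

end Klein

/-! ## The twist layer -/

open Klein

/-- The short integral model `Y² = X³ - 27 c₄ X - 54 c₆`. -/
def Ws (c4 c6 : ℤ) : WeierstrassCurve ℤ := ⟨0, 0, 0, -27 * c4, -54 * c6⟩

/-- `v` is a base vector for `(c₄, c₆)`: it lies on the cone and all its Galois conjugates are in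
its `Γ·μ₅`-orbit. -/
def IsBase (ζ : Qb) (c4 c6 : ℤ) (v : Fin 2 → Qb) : Prop :=
  HK (v 0) (v 1) = -(c4 : Qb) ∧ TK (v 0) (v 1) = -(c6 : Qb) ∧
    ∀ σ : GQ, ∃ γ ∈ Gam ζ, ∃ η : Qb, η ^ 5 = 1 ∧ (fun i => σ (v i)) = η • γ.mulVec v

/-- The family vector `l v + m J∇fK(v)`. -/
noncomputable def vLM (v : Fin 2 → Qb) (l m : Qb) : Fin 2 → Qb :=
  ![l * v 0 - m * fKy (v 0) (v 1), l * v 1 + m * fKx (v 0) (v 1)]

/-- **(A)** base vectors exist. -/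
def BaseExists : Prop :=
  ∀ ζ : Qb, IsZ5 ζ → ∀ c4 c6 : ℤ, c4 ^ 3 - c6 ^ 2 ≠ 0 → ∃ v, IsBase ζ c4 c6 v

/-- **(FAM-5)** the fibres over the rational plane have the same 5-torsion. -/
def KleinCong5 : Prop :=
  ∀ ζ : Qb, IsZ5 ζ → ∀ (c4 c6 : ℤ) (v : Fin 2 → Qb), c4 ^ 3 - c6 ^ 2 ≠ 0 → IsBase ζ c4 c6 v →
    ∀ l m c4' c6' : ℤ, HK (vLM v l m 0) (vLM v l m 1) = -(c4' : Qb) →
      TK (vLM v l m 0) (vLM v l m 1) = -(c6' : Qb) → c4' ^ 3 - c6' ^ 2 ≠ 0 →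
        Cong5 (Ws c4 c6) (Ws c4' c6')

/-- **(INT)** integrality and continuity of the family. -/
def FamInt : Prop :=
  ∀ ζ : Qb, IsZ5 ζ → ∀ (c4 c6 : ℤ) (v : Fin 2 → Qb), c4 ^ 3 - c6 ^ 2 ≠ 0 → IsBase ζ c4 c6 v →
    ∃ D : ℤ, 0 < D ∧ ∀ l m n : ℤ, D * n ∣ l - 1 → D * n ∣ m →
      ∃ c4' c6' : ℤ, HK (vLM v l m 0) (vLM v l m 1) = -(c4' : Qb) ∧
        TK (vLM v l m 0) (vLM v l m 1) = -(c6' : Qb) ∧ n ∣ c4' - c4 ∧ n ∣ c6' - c6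

/-- **(SSB)** semistability of the fibres outside `30 Δ`. -/
def FamSS : Prop :=
  ∀ ζ : Qb, IsZ5 ζ → ∀ (c4 c6 : ℤ) (v : Fin 2 → Qb), c4 ^ 3 - c6 ^ 2 ≠ 0 → IsBase ζ c4 c6 v →
    ∀ l m c4' c6' : ℤ, IsCoprime l m → HK (vLM v l m 0) (vLM v l m 1) = -(c4' : Qb) →
      TK (vLM v l m 0) (vLM v l m 1) = -(c6' : Qb) →
        ∀ p : ℕ, p.Prime → ¬ (p : ℤ) ∣ 30 * (c4 ^ 3 - c6 ^ 2) →
          (p : ℤ) ∣ c4' ^ 3 - c6' ^ 2 → ¬ (p : ℤ) ∣ c4'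

/-- **(TW)** at a Frobenius prime of type `(+1, -1)` some fibre is a quadratic twist mod `r`. -/
def FamTwist : Prop :=
  ∀ ζ : Qb, IsZ5 ζ → ∀ (c4 c6 : ℤ) (v : Fin 2 → Qb), c4 ^ 3 - c6 ^ 2 ≠ 0 → IsBase ζ c4 c6 v →
    ∀ r : ℕ, r.Prime → ¬ (r : ℤ) ∣ 30 * (c4 ^ 3 - c6 ^ 2) →
      ∀ (A : ValuationSubring Qb) (φ : GQ), A.LiesOverPrime r → A.IsFrobeniusAt φ r →
        PlusMinus (Ws c4 c6) φ →
        ∃ l₀ m₀ d : ℤ, ¬ ((r : ℤ) ∣ l₀ ∧ (r : ℤ) ∣ m₀) ∧ ¬ IsSquare (d : ZMod r) ∧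
          ∀ l m c4' c6' : ℤ, (r : ℤ) ∣ l - l₀ → (r : ℤ) ∣ m - m₀ →
            HK (vLM v l m 0) (vLM v l m 1) = -(c4' : Qb) →
            TK (vLM v l m 0) (vLM v l m 1) = -(c6' : Qb) →
              (r : ℤ) ∣ c4' - d ^ 2 * c4 ∧ (r : ℤ) ∣ c6' - d ^ 3 * c6

/-- **(SHORT)** a model and its short model have the same 5-torsion (both directions). -/
def ShortCong : Prop :=
  ∀ W : WeierstrassCurve ℤ, W.Δ ≠ 0 →
    Cong5 W (Ws W.c₄ W.c₆) ∧ Cong5 (Ws W.c₄ W.c₆) W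

/-- **(MODEL)** a model with prescribed `(c₄, c₆)` close to those of `W`. -/
def ModelExists : Prop :=
  ∀ (W : WeierstrassCurve ℤ) (c4' c6' N : ℤ), 1728 * N ∣ c4' - W.c₄ → 1728 * N ∣ c6' - W.c₆ →
    ∃ W' : WeierstrassCurve ℤ, W'.c₄ = c4' ∧ W'.c₆ = c6' ∧ N ∣ W'.Δ - W.Δ

/-- **The family seam** (assembly `FamAsm.lean`). -/
def FamSeam : Prop :=
  BaseExists → KleinCong5 → FamInt → FamSS → FamTwist → ShortCong → ModelExists → FamilyExists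

end Fermat.Agent.S52K
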