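/-
S52K (3–5 switch), brick (AUX), helper44: the auxiliary prime.

For a semistable integral model `W` and a finite set `S` of primes there is a prime `r ∉ S`,
`r ≡ 1 (mod 3)`, and a Frobenius lift `φ` at a place over `r` acting on `W[5]` with eigenvalues
`+1` and `-1`.

Proof.  Let `c` be complex conjugation: on `W[5]` it is an involution of determinant `-1`
(`S58.EpRep.det_involution`), so it has eigenvectors for `+1` and for `-1`.  Let `ι` be an element
of an inertia group at `3` with mod `3` cyclotomic character `-1` (`PT.G.exists_inertia_cycloChar_eq`).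
On `W[5]` the fifth power of `ι` is trivial: at a good prime by `S58.FrobFinal.goodUnram`, at a
multiplicative prime the characteristic polynomial is `(X - 1) ^ 2` (`S58.Final.tMult`) and
`X ^ 5 - 1 = (X - 1) ^ 5` over `ZMod 5`.  Hence `g = c * ι ^ 5` acts on `W[5]` like `c` and fixes
the cube roots of unity.  Frobenius density (`Frob.exists_frobenius_generating`) on the field
generated by `W[5]` and a primitive cube root of unity gives a Frobenius lift `φ` at some `r ∉ S`,
`r ≠ 3`, generating the same cyclic group as `g` there: `φ` acts on `W[5]` like `c` (an odd power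
of `c`) and fixes the cube roots of unity, i.e. `r ≡ 1 (mod 3)` (`PT.G.cycloChar_frobenius`).
-/
import Mathlib
import Fermat.Agent.S52K.Interfaces
import Fermat.Agent.S58.Final
import Fermat.Agent.S58.EpRep
import Fermat.Agent.S58.OddInvolution
import Fermat.Agent.Frob.Main
import Fermat.Agent.PT.G.CycloField
import Fermat.Agent.PT.LevelTwist
import Fermat.Agent.EC.FrobFixed.NonEisenstein
import Fermat.Agent.Lib.ECBiquad.Main
import Fermat.Agent.Lib.FrobeniusExists
import Fermat.Agent.Lib.GalQbar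

set_option autoImplicit false

namespace Fermat.Agent.S52K.AuxPrime44

open Fermat.Agent.S58 WeierstrassCurve Polynomial ExtCitation
open scoped WeierstrassCurve.Affine

/-- An involution of a module which is neither `1` nor `-1` has a nonzero fixed vector and a
nonzero anti-fixed vector. -/
theorem exists_eigen_of_involution {k V : Type*} [Field k] [AddCommGroup V] [Module k V]
    (f : Module.End k V) (hf : f * f = 1) (h1 : f ≠ 1) (h2 : f ≠ -1) :
    (∃ x : V, x ≠ 0 ∧ f x = x) ∧ (∃ y : V, y ≠ 0 ∧ f y = -y) := by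
  have hff : ∀ x, f (f x) = x := fun x => by
    have := congrArg (fun g : Module.End k V => g x) hf
    simpa using this
  constructor
  · have hex : ∃ y, f y ≠ -y := by
      by_contra hcon
      exact h2 (LinearMap.ext fun y => by
        by_contra hy
        exact hcon ⟨y, by simpa using hy⟩)
    obtain ⟨y, hy⟩ := hex
    refine ⟨f y + y, fun h0 => hy (eq_neg_of_add_eq_zero_left h0), ?_⟩
    rw [map_add, hff, add_comm]
  · have hex : ∃ x, f x ≠ x := by
      by_contra hcon
      exact h1 (LinearMap.ext fun y => by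
        by_contra hy
        exact hcon ⟨y, by simpa using hy⟩)
    obtain ⟨x, hx⟩ := hex
    refine ⟨f x - x, fun h0 => hx (sub_eq_zero.mp h0), ?_⟩
    rw [map_sub, hff, neg_sub]

/-- Over `ZMod 5` an endomorphism with characteristic polynomial `(X - 1) ^ 2` has order dividing
`5`. -/
theorem pow_five_eq_one_of_charpoly {V : Type*} [AddCommGroup V] [Module (ZMod 5) V]
    [Module.Free (ZMod 5) V] [Module.Finite (ZMod 5) V]
    (f : Module.End (ZMod 5) V) (h : f.charpoly = (X - 1) ^ 2) : f ^ 5 = 1 := by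
  have : Fact (Nat.Prime 5) := ⟨by norm_num⟩
  have h0 := LinearMap.aeval_self_charpoly f
  rw [h] at h0
  have hfact : (X ^ 5 - 1 : (ZMod 5)[X]) = (X - 1) ^ 2 * (X - 1) ^ 3 := by
    rw [← pow_add]
    have h5 := sub_pow_char (X : (ZMod 5)[X]) 1 (p := 5)
    rw [one_pow] at h5
    exact h5.symm
  have h1 : aeval f (X ^ 5 - 1 : (ZMod 5)[X]) = 0 := by
    rw [hfact, map_mul, h0, zero_mul]
  rw [map_sub, map_pow, aeval_X, map_one, sub_eq_zero] at h1
  exact h1

theorem zmod5_one_ne_neg_one : (1 : ZMod 5) ≠ -1 := by decide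

theorem zmod5_neg_one_sq : (-1 : ZMod 5) ^ 2 * 1 = 1 := by decide

theorem units3_neg_one_mul : (-1 : (ZMod 3)ˣ) * (-1) ^ 5 = 1 := by decide

/-- In `(ZMod 3)ˣ` an element different from `1` is `-1`. -/
theorem units_zmod_three (u : (ZMod 3)ˣ) (hu : u ≠ 1) : u = -1 := by
  revert u
  decide

/-- **(AUX)** the auxiliary prime. -/
theorem auxPrime : AuxPrime := by
  intro W hΔ hss S
  have : Fact (Nat.Prime 5) := ⟨by norm_num⟩
  have : Fact (Nat.Prime 3) := ⟨by norm_num⟩
  have h3 : Nat.Prime 3 := by norm_num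
  have h5 : Nat.Prime 5 := by norm_num
  have hfinmod : Module.Finite (ZMod 5) (EpRep.Ep W 5) := EpRep.finite_torsion hΔ
  have hrank : Module.finrank (ZMod 5) (EpRep.Ep W 5) = 2 := EpRep.finrank_torsion hΔ
  -- complex conjugation on `W[5]`
  have hcc : complexConjugation * complexConjugation = 1 := complexConjugation_mul_self
  have hc1 : complexConjugation ≠ 1 := DetCyclo.complexConjugation_ne_one
  set f : Module.End (ZMod 5) (EpRep.Ep W 5) := EpRep.rhoE W 5 complexConjugation with hf
  have hdet : LinearMap.det f = -1 :=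
    EpRep.det_involution hΔ (by norm_num) complexConjugation hcc hc1
  have hff : f * f = 1 := by rw [hf, ← map_mul, hcc, map_one]
  have hf1 : f ≠ 1 := by
    intro h
    rw [h, map_one] at hdet
    exact zmod5_one_ne_neg_one hdet
  have hf2 : f ≠ -1 := by
    intro h
    have hd : LinearMap.det f = 1 := by
      have hs := LinearMap.det_smul (-1 : ZMod 5) (1 : Module.End (ZMod 5) (EpRep.Ep W 5))
      rw [hrank, map_one] at hs
      rw [h, show (-1 : Module.End (ZMod 5) (EpRep.Ep W 5)) = (-1 : ZMod 5) • 1 by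
        rw [neg_smul, one_smul], hs]
      exact zmod5_neg_one_sq
    rw [hd] at hdet
    exact zmod5_one_ne_neg_one hdet
  obtain ⟨⟨xp, hxp0, hxp⟩, ⟨xm, hxm0, hxm⟩⟩ := exists_eigen_of_involution f hff hf1 hf2
  -- an inertia element at `3` with cyclotomic character `-1`
  obtain ⟨A3, hA3⟩ := Fermat.Agent.Lib.FrobeniusExists.exists_liesOverPrime h3
  obtain ⟨ι, hι, hιχ⟩ := Fermat.Agent.PT.G.exists_inertia_cycloChar_eq 3 A3 hA3 (-1)
  have hι5 : EpRep.rhoE W 5 ι ^ 5 = 1 := by
    by_cases hbad : ((3 : ℕ) : ℤ) ∣ W.Δ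
    · have hc4 : ¬ ((3 : ℕ) : ℤ) ∣ W.c₄ := hss 3 h3 hbad
      obtain ⟨D⟩ := Tate.tateExists W hΔ 5
      have hu := Final.tMult W 5 D hΔ 3 h3 (by norm_num) hbad hc4 A3 hA3 ι hι
      apply pow_five_eq_one_of_charpoly
      rw [EpRep.charpoly_eq_map hΔ D ι, hu, Polynomial.map_pow, Polynomial.map_sub,
        Polynomial.map_X, Polynomial.map_one]
    · have hgu := FrobFinal.goodUnram W 3 h3 hbad A3 hA3 ι hι 5 (by norm_num)
      have h1 : EpRep.rhoE W 5 ι = 1 := by
        apply LinearMap.ext
        intro x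
        apply Subtype.ext
        have hx : (5 : ℕ) • (x : EPt W) = 0 := by
          have := x.2
          rwa [Submodule.mem_torsionBy_iff, Nat.cast_smul_eq_nsmul] at this
        exact hgu (x : EPt W) hx
      rw [h1, one_pow]
  -- a primitive cube root of unity
  obtain ⟨ζ, hζ⟩ := Fermat.Agent.PT.Levels.exists_primitiveRoot_Qbar 3
  have hcχ : cycloChar 3 complexConjugation = -1 := by
    apply units_zmod_three
    intro h
    have h1 := (Fermat.Agent.PT.Levels.cycloChar_eq_one_iff 3 complexConjugation hζ).mp h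
    rw [OddInvolution.map_eq_inv_of_involution complexConjugation hcc hc1 (by decide : Odd 3)
      hζ.pow_eq_one] at h1
    have hζ0 : ζ ≠ 0 := hζ.ne_zero (by norm_num)
    have h2 : ζ ^ 2 = 1 := by
      rw [pow_two]
      nth_rewrite 1 [← h1]
      exact inv_mul_cancel₀ hζ0
    exact hζ.pow_ne_one_of_pos_of_lt (by norm_num) (by norm_num) h2
  -- the element `g`
  set g : GQ := complexConjugation * ι ^ 5 with hg
  have hgf : EpRep.rhoE W 5 g = f := by
    rw [hg, map_mul, map_pow, hι5, mul_one]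
  have hgχ : cycloChar 3 g = 1 := by
    rw [hg, map_mul, map_pow, hιχ, hcχ]
    exact units3_neg_one_mul
  -- the field
  have hEΔ : (EQ W).Δ ≠ 0 := by
    rw [map_Δ, eq_intCast]
    exact_mod_cast hΔ
  have hfin : Finite (Submodule.torsionBy ℤ ((EQ W)⁄Qb).Point (5 : ℕ)) :=
    Lib.ECBiquad.finite_torsionBy_rat (EQ W) hEΔ h5.ne_zero
  have hFD1 := Fermat.Agent.EC.FrobFixed.finiteDimensional_torsionField (EQ W) 5
  have halg : Algebra.IsAlgebraic ℚ Qb := Lib.GalQbar.isAlgebraic_rat
  have hFD2 : FiniteDimensional ℚ (IntermediateField.adjoin ℚ {ζ}) :=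
    IntermediateField.adjoin.finiteDimensional (halg.isAlgebraic ζ).isIntegral
  let F : IntermediateField ℚ Qb :=
    Fermat.Agent.EC.FrobFixed.torsionField (EQ W) 5 ⊔ IntermediateField.adjoin ℚ {ζ}
  have hFD3 : FiniteDimensional ℚ F := IntermediateField.finiteDimensional_sup _ _
  have hζF : ζ ∈ F :=
    (le_sup_right : IntermediateField.adjoin ℚ {ζ} ≤ F)
      (IntermediateField.subset_adjoin ℚ _ (Set.mem_singleton ζ))
  obtain ⟨r, hr, hrS, A, σ, k, j, hA, hσ, hgσ, hσg⟩ :=
    Fermat.Agent.Frob.exists_frobenius_generating F (insert 3 S) g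
  have hr3 : r ≠ 3 := fun h => hrS (h ▸ Finset.mem_insert_self 3 S)
  have hrS' : r ∉ S := fun h => hrS (Finset.mem_insert_of_mem h)
  -- the action of `σ` on `W[5]`
  have hσj : EpRep.rhoE W 5 σ = f ^ j := by
    rw [← hgf, ← map_pow]
    apply LinearMap.ext
    intro P
    exact Fermat.Agent.EC.FrobFixed.smul_eq_of_agree (EQ W) 5 σ (g ^ j)
      (fun z hz => hσg z ((le_sup_left : _ ≤ F) hz)) P
  have hfk : f = EpRep.rhoE W 5 σ ^ k := by
    rw [← hgf, ← map_pow]
    apply LinearMap.ext
    intro P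
    exact Fermat.Agent.EC.FrobFixed.smul_eq_of_agree (EQ W) 5 g (σ ^ k)
      (fun z hz => hgσ z ((le_sup_left : _ ≤ F) hz)) P
  have hσf : EpRep.rhoE W 5 σ = f := by
    rcases Nat.even_or_odd' j with ⟨m, hm | hm⟩
    · exfalso
      apply hf1
      have h1 : EpRep.rhoE W 5 σ = 1 := by
        rw [hσj, hm, pow_mul, pow_two, hff, one_pow]
      rw [hfk, h1, one_pow]
    · rw [hσj, hm, pow_succ, pow_mul, pow_two, hff, one_pow, one_mul]
  -- `σ` fixes `ζ`
  have hσζ : σ ζ = ζ := by
    rw [hσg ζ hζF]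
    have h1 : cycloChar 3 (g ^ j) = 1 := by rw [map_pow, hgχ, one_pow]
    exact (Fermat.Agent.PT.Levels.cycloChar_eq_one_iff 3 (g ^ j) hζ).mp h1
  have hσχ : cycloChar 3 σ = 1 :=
    (Fermat.Agent.PT.Levels.cycloChar_eq_one_iff 3 σ hζ).mpr hσζ
  have hrmod : r % 3 = 1 := by
    have h1 := Fermat.Agent.PT.G.cycloChar_frobenius 3 hr hr3 A hA hσ
    rw [hσχ, Units.val_one] at h1
    have h2 : ((r : ℕ) : ZMod 3) = ((1 : ℕ) : ZMod 3) := by rw [← h1, Nat.cast_one]
    have h3' := (ZMod.natCast_eq_natCast_iff' r 1 3).mp h2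
    simpa using h3'
  refine ⟨r, hr, hrS', hrmod, A, σ, hA, hσ, (xp : EPt W), (xm : EPt W), ?_, ?_, ?_, ?_, ?_, ?_⟩
  · exact fun h => hxp0 (Subtype.ext h)
  · exact fun h => hxm0 (Subtype.ext h)
  · have := xp.2
    rwa [Submodule.mem_torsionBy_iff, Nat.cast_smul_eq_nsmul] at this
  · have := xm.2
    rwa [Submodule.mem_torsionBy_iff, Nat.cast_smul_eq_nsmul] at this
  · have h1 : EpRep.rhoE W 5 σ xp = xp := by rw [hσf, hxp]
    exact congrArg Subtype.val h1
  · have h1 : EpRep.rhoE W 5 σ xm = -xm := by rw [hσf, hxm]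
    exact congrArg Subtype.val h1

end Fermat.Agent.S52K.AuxPrime44
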