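/-
S52K (3–5 switch, project (K)), brick `BaseExists` (helper88).

`baseExists : ConeNonempty → PKSpec → RelSurj → Indep → Rigid → GalCompat → BaseExists`.

A vector `v` on the cone over `(-c₄, -c₆)` exists by `ConeNonempty`; the short curve `Ws c₄ c₆`
over `ℚ̄` is its Klein curve, and `(PK v, QK v)` is an `𝔽₅`-basis of its 5-torsion (`Indep` and
the count `#E[5] = 25`).  For `σ ∈ Gal(ℚ̄/ℚ)` the level structure of `σ v` is
`(σ PK v, k⁻¹ σ QK v)` (`GalCompat`, `σ ζ = ζ ^ k`), i.e. the level structure of `v` composed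
with a matrix of determinant `χ₅(σ) / k = 1` (the determinant of `E[5]` is the cyclotomic
character, `S58.EpRep.det_eq`).  `RelSurj` realises that matrix by some `γ ∈ Γ`, and `Rigid`
gives `σ v = η • γ v`.
-/
import Mathlib
import Fermat.Agent.S52K.Interfaces
import Fermat.Agent.S58.EpRep

set_option autoImplicit false

namespace Fermat.Agent.S52K.BaseExists88

open Fermat.Agent.S58 WeierstrassCurve Fermat.Agent.S52K.Klein
open scoped WeierstrassCurve.Affine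

/-! ### The short model -/

theorem Ws_Δ (c4 c6 : ℤ) : (Ws c4 c6).Δ = 1259712 * (c4 ^ 3 - c6 ^ 2) := by
  simp only [Ws, WeierstrassCurve.Δ, WeierstrassCurve.b₂, WeierstrassCurve.b₄,
    WeierstrassCurve.b₆, WeierstrassCurve.b₈]
  ring

theorem Ws_Δ_ne_zero {c4 c6 : ℤ} (h : c4 ^ 3 - c6 ^ 2 ≠ 0) : (Ws c4 c6).Δ ≠ 0 := by
  rw [Ws_Δ]
  exact mul_ne_zero (by norm_num) h

/-- The short curve over `ℚ̄`. -/
noncomputable abbrev EK (c4 c6 : ℤ) : WeierstrassCurve Qb := (EQ (Ws c4 c6)).toAffine⁄Qb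

/-- The short curve over `ℚ̄` is the Klein curve of every vector on the cone. -/
theorem isKl_of_cone {c4 c6 : ℤ} (h : c4 ^ 3 - c6 ^ 2 ≠ 0) {v : Fin 2 → Qb}
    (hH : HK (v 0) (v 1) = -(c4 : Qb)) (hT : TK (v 0) (v 1) = -(c6 : Qb)) :
    IsKl (EK c4 c6) v := by
  refine ⟨?_, ?_, ?_, ?_, ?_, ?_⟩
  · simp [EK, Ws, WeierstrassCurve.baseChange]
  · simp [EK, Ws, WeierstrassCurve.baseChange]
  · simp [EK, Ws, WeierstrassCurve.baseChange]
  · rw [hH]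
    simp [EK, Ws, WeierstrassCurve.baseChange]
  · rw [hT]
    simp [EK, Ws, WeierstrassCurve.baseChange]
  · intro hf
    have hs := syzygy (v 0) (v 1)
    rw [hf, hH, hT] at hs
    apply h
    have h2 : ((c4 ^ 3 - c6 ^ 2 : ℤ) : Qb) = 0 := by
      push_cast
      linear_combination -hs
    exact_mod_cast h2

/-- The Klein property only depends on the values of the three forms. -/
theorem isKl_congr {E : WeierstrassCurve Qb} {w w' : Fin 2 → Qb} (h : IsKl E w)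
    (hf : fK (w' 0) (w' 1) = fK (w 0) (w 1)) (hH : HK (w' 0) (w' 1) = HK (w 0) (w 1))
    (hT : TK (w' 0) (w' 1) = TK (w 0) (w 1)) : IsKl E w' := by
  obtain ⟨h1, h2, h3, h4, h6, h0⟩ := h
  exact ⟨h1, h2, h3, by rw [h4, hH], by rw [h6, hT], by rw [hf]; exact h0⟩

/-- Elements of `Γ` preserve the Klein property. -/
theorem isKl_gam (hSurj : RelSurj) {ζ : Qb} (hζ : IsZ5 ζ) {γ : Matrix (Fin 2) (Fin 2) Qb}
    (hγ : γ ∈ Gam ζ) {E : WeierstrassCurve Qb} {w : Fin 2 → Qb} (h : IsKl E w) :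
    IsKl E (γ.mulVec w) := by
  obtain ⟨p, q, r, s, -, -, hinv, -⟩ := (hSurj ζ hζ).2 γ hγ
  obtain ⟨hf, hH, hT, -⟩ := hinv w
  exact isKl_congr h hf hH hT

/-- Galois conjugation preserves the Klein property of a curve defined over `ℚ`. -/
theorem isKl_conj {c4 c6 : ℤ} (h : c4 ^ 3 - c6 ^ 2 ≠ 0) {v : Fin 2 → Qb}
    (hH : HK (v 0) (v 1) = -(c4 : Qb)) (hT : TK (v 0) (v 1) = -(c6 : Qb)) (σ : GQ) :
    IsKl (EK c4 c6) (fun i => σ (v i)) := by
  refine isKl_of_cone h ?_ ?_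
  · have e : HK (σ (v 0)) (σ (v 1)) = σ (HK (v 0) (v 1)) := by
      simp only [HK, map_sub, map_add, map_neg, map_mul, map_pow, map_ofNat]
    show HK (σ (v 0)) (σ (v 1)) = _
    rw [e, hH, map_neg, map_intCast]
  · have e : TK (σ (v 0)) (σ (v 1)) = σ (TK (v 0) (v 1)) := by
      simp only [TK, map_sub, map_add, map_mul, map_pow, map_ofNat]
    show TK (σ (v 0)) (σ (v 1)) = _
    rw [e, hT, map_neg, map_intCast]

/-! ### Two independent points of order 5 span the 5-torsion -/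

section Span

variable {W : WeierstrassCurve ℤ}

theorem mem_torsion5 {R : EPt W} (hR : (5 : ℕ) • R = 0) :
    R ∈ Submodule.torsionBy ℤ (EPt W) ((5 : ℕ) : ℤ) := by
  rw [Submodule.mem_torsionBy_iff, natCast_zsmul]
  exact hR

theorem combo_mem (P Q : EPt W) (hP : (5 : ℕ) • P = 0) (hQ : (5 : ℕ) • Q = 0) (a b : ℤ) :
    (5 : ℕ) • (a • P + b • Q) = 0 := by
  rw [nsmul_add, smul_comm (5 : ℕ) a P, smul_comm (5 : ℕ) b Q, hP, hQ, smul_zero, smul_zero,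
    add_zero]

/-- Two independent points of order 5 span `E[5]`. -/
theorem exists_combo (hΔ : W.Δ ≠ 0) (P Q : EPt W) (hP : (5 : ℕ) • P = 0) (hQ : (5 : ℕ) • Q = 0)
    (hind : ∀ a b : ℤ, a • P + b • Q = 0 → (5 : ℤ) ∣ a ∧ (5 : ℤ) ∣ b)
    (R : EPt W) (hR : (5 : ℕ) • R = 0) : ∃ a b : ℤ, R = a • P + b • Q := by
  have hcard : Nat.card (Submodule.torsionBy ℤ (EPt W) ((5 : ℕ) : ℤ)) = 5 ^ 2 :=
    Fermat.Agent.Lib.ECBiquad.card_torsionBy_int (W := W) hΔ (n := 5) (by norm_num)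
  have hfin : Finite (Submodule.torsionBy ℤ (EPt W) ((5 : ℕ) : ℤ)) :=
    Fermat.Agent.Lib.ECBiquad.finite_torsionBy_int (W := W) hΔ (n := 5) (by norm_num)
  let f : Fin 5 × Fin 5 → Submodule.torsionBy ℤ (EPt W) ((5 : ℕ) : ℤ) := fun x =>
    ⟨((x.1 : ℕ) : ℤ) • P + ((x.2 : ℕ) : ℤ) • Q, mem_torsion5 (combo_mem P Q hP hQ _ _)⟩
  have hinj : Function.Injective f := by
    intro x y hxy
    have h1 : ((x.1 : ℕ) : ℤ) • P + ((x.2 : ℕ) : ℤ) • Q
        = ((y.1 : ℕ) : ℤ) • P + ((y.2 : ℕ) : ℤ) • Q := congrArg Subtype.val hxy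
    have h2 : (((x.1 : ℕ) : ℤ) - ((y.1 : ℕ) : ℤ)) • P + (((x.2 : ℕ) : ℤ) - ((y.2 : ℕ) : ℤ)) • Q
        = 0 := by
      rw [sub_smul, sub_smul]
      have : ((x.1 : ℕ) : ℤ) • P - ((y.1 : ℕ) : ℤ) • P + (((x.2 : ℕ) : ℤ) • Q
          - ((y.2 : ℕ) : ℤ) • Q) = (((x.1 : ℕ) : ℤ) • P + ((x.2 : ℕ) : ℤ) • Q)
            - (((y.1 : ℕ) : ℤ) • P + ((y.2 : ℕ) : ℤ) • Q) := by abel
      rw [this, h1, sub_self]
    obtain ⟨d1, d2⟩ := hind _ _ h2
    have b1 := x.1.isLt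
    have b2 := x.2.isLt
    have b3 := y.1.isLt
    have b4 := y.2.isLt
    refine Prod.ext (Fin.ext ?_) (Fin.ext ?_) <;> omega
  have hbij : Function.Bijective f := by
    refine hinj.bijective_of_nat_card_le ?_
    rw [hcard]
    simp
  obtain ⟨x, hx⟩ := hbij.2 ⟨R, mem_torsion5 hR⟩
  exact ⟨((x.1 : ℕ) : ℤ), ((x.2 : ℕ) : ℤ), (congrArg Subtype.val hx).symm⟩

/-- The determinant of `σ` on `E[5]` read off on two independent points of order 5. -/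
theorem det_of_combo (hΔ : W.Δ ≠ 0) (P Q : EPt W) (hP : (5 : ℕ) • P = 0) (hQ : (5 : ℕ) • Q = 0)
    (hind : ∀ a b : ℤ, a • P + b • Q = 0 → (5 : ℤ) ∣ a ∧ (5 : ℤ) ∣ b)
    (σ : GQ) (a b c d : ℤ) (h1 : σ • P = a • P + c • Q) (h2 : σ • Q = b • P + d • Q) :
    LinearMap.det (EpRep.rhoE W 5 σ) = ((a * d - b * c : ℤ) : ZMod 5) := by
  classical
  have : Fact (Nat.Prime 5) := ⟨by norm_num⟩
  have := EpRep.finite_torsion (p := 5) hΔ
  let P' : EpRep.Ep W 5 := ⟨P, mem_torsion5 hP⟩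
  let Q' : EpRep.Ep W 5 := ⟨Q, mem_torsion5 hQ⟩
  have hli : LinearIndependent (ZMod 5) ![P', Q'] := by
    rw [LinearIndependent.pair_iff]
    intro s t hst
    have e1 : s • P' = (ZMod.cast s : ℤ) • P' := by
      rw [← Int.cast_smul_eq_zsmul (ZMod 5), ZMod.intCast_zmod_cast]
    have e2 : t • Q' = (ZMod.cast t : ℤ) • Q' := by
      rw [← Int.cast_smul_eq_zsmul (ZMod 5), ZMod.intCast_zmod_cast]
    rw [e1, e2] at hst
    have h3 : (ZMod.cast s : ℤ) • P + (ZMod.cast t : ℤ) • Q = 0 := congrArg Subtype.val hst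
    obtain ⟨d1, d2⟩ := hind _ _ h3
    constructor
    · rw [← ZMod.intCast_zmod_cast s]
      exact (ZMod.intCast_zmod_eq_zero_iff_dvd _ 5).mpr d1
    · rw [← ZMod.intCast_zmod_cast t]
      exact (ZMod.intCast_zmod_eq_zero_iff_dvd _ 5).mpr d2
  let bs : Module.Basis (Fin 2) (ZMod 5) (EpRep.Ep W 5) :=
    basisOfLinearIndependentOfCardEqFinrank hli (by
      rw [EpRep.finrank_torsion hΔ]; rfl)
  have hbs : ⇑bs = ![P', Q'] := coe_basisOfLinearIndependentOfCardEqFinrank hli _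
  have hb0 : bs 0 = P' := by rw [hbs]; rfl
  have hb1 : bs 1 = Q' := by rw [hbs]; rfl
  let M : Matrix (Fin 2) (Fin 2) (ZMod 5) := !![(a : ZMod 5), (b : ZMod 5); (c : ZMod 5), (d : ZMod 5)]
  have hM : EpRep.rhoE W 5 σ = Matrix.toLin bs bs M := by
    refine bs.ext fun i => ?_
    rw [Matrix.toLin_self, Fin.sum_univ_two, hb0, hb1]
    fin_cases i
    · show EpRep.rhoE W 5 σ (bs 0) = M 0 0 • P' + M 1 0 • Q'
      rw [hb0, EpRep.rhoE_apply]
      apply Subtype.ext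
      show σ • P = _
      rw [h1]
      show a • P + c • Q = (((a : ZMod 5) • P' + (c : ZMod 5) • Q' : EpRep.Ep W 5) : EPt W)
      rw [Int.cast_smul_eq_zsmul, Int.cast_smul_eq_zsmul]
      rfl
    · show EpRep.rhoE W 5 σ (bs 1) = M 0 1 • P' + M 1 1 • Q'
      rw [hb1, EpRep.rhoE_apply]
      apply Subtype.ext
      show σ • Q = _
      rw [h2]
      show b • P + d • Q = (((b : ZMod 5) • P' + (d : ZMod 5) • Q' : EpRep.Ep W 5) : EPt W)
      rw [Int.cast_smul_eq_zsmul, Int.cast_smul_eq_zsmul]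
      rfl
  rw [hM, LinearMap.det_toLin, Matrix.det_fin_two]
  simp only [M, Matrix.of_apply, Matrix.cons_val', Matrix.cons_val_zero, Matrix.cons_val_one,
    Matrix.cons_val_fin_one]
  push_cast
  ring

end Span

/-! ### Roots of unity and the cyclotomic character -/

theorem isZ5_pow_five {ζ : Qb} (hζ : IsZ5 ζ) : ζ ^ 5 = 1 := by
  have h : ζ ^ 4 + ζ ^ 3 + ζ ^ 2 + ζ + 1 = 0 := hζ
  linear_combination (ζ - 1) * h

theorem isZ5_ne_one {ζ : Qb} (hζ : IsZ5 ζ) : ζ ≠ 1 := by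
  intro h
  have h0 : ζ ^ 4 + ζ ^ 3 + ζ ^ 2 + ζ + 1 = 0 := hζ
  rw [h] at h0
  norm_num at h0

theorem isZ5_primitive {ζ : Qb} (hζ : IsZ5 ζ) : IsPrimitiveRoot ζ 5 := by
  have h5 : Fact (Nat.Prime 5) := ⟨by norm_num⟩
  have h := orderOf_eq_prime (isZ5_pow_five hζ) (isZ5_ne_one hζ)
  have h2 := IsPrimitiveRoot.orderOf ζ
  rwa [h] at h2

/-- Every automorphism raises `ζ` to a power `k` with `0 < k < 5`. -/
theorem exists_pow_eq {ζ : Qb} (hζ : IsZ5 ζ) (σ : GQ) : ∃ k : ℕ, 0 < k ∧ k < 5 ∧ σ ζ = ζ ^ k := by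
  have h1 : (σ ζ) ^ 5 = 1 := by rw [← map_pow, isZ5_pow_five hζ, map_one]
  obtain ⟨k, hk, hk2⟩ := (isZ5_primitive hζ).eq_pow_of_pow_eq_one h1
  refine ⟨k, ?_, hk, hk2.symm⟩
  rcases Nat.eq_zero_or_pos k with h0 | h0
  · exfalso
    rw [h0, pow_zero] at hk2
    apply isZ5_ne_one hζ
    apply σ.injective
    rw [← hk2, map_one]
  · exact h0

/-- The determinant of `σ` on `E[5]` is `k` when `σ ζ = ζ ^ k`. -/
theorem det_eq_natCast {W : WeierstrassCurve ℤ} (hΔ : W.Δ ≠ 0) {ζ : Qb} (hζ : IsZ5 ζ) (σ : GQ)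
    (k : ℕ) (hk : σ ζ = ζ ^ k) : LinearMap.det (EpRep.rhoE W 5 σ) = (k : ZMod 5) := by
  have : Fact (Nat.Prime 5) := ⟨by norm_num⟩
  rw [EpRep.det_eq hΔ σ]
  have hprim : IsPrimitiveRoot ζ (5 ^ 1) := by
    rw [pow_one]
    exact isZ5_primitive hζ
  have h2 := Fermat.Agent.ESJ.Rep.Cyclo.toZModPow_cyclo_eq 5 1 σ k hprim hk
  have h3 : ((Fermat.Agent.ESJ.Rep.cyclo 5 σ : ℤ_[5]ˣ) : ℤ_[5]) - (k : ℤ_[5]) ∈
      Ideal.span {((5 : ℕ) : ℤ_[5]) ^ 1} := by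
    rw [← PadicInt.ker_toZModPow, RingHom.mem_ker, map_sub, map_natCast, h2, sub_self]
  rw [Ideal.mem_span_singleton] at h3
  obtain ⟨c, hc⟩ := h3
  have h4 : ((Fermat.Agent.ESJ.Rep.cyclo 5 σ : ℤ_[5]ˣ) : ℤ_[5]) = (k : ℤ_[5]) + ((5 : ℕ) : ℤ_[5]) ^ 1 * c := by
    rw [← hc]; ring
  rw [h4, map_add, map_mul, map_pow, map_natCast, map_natCast, ZMod.natCast_self]
  simp

/-! ### The brick -/

/-- **(A)** base vectors exist. -/
theorem baseExists (hCone : ConeNonempty) (hSpec : PKSpec) (hSurj : RelSurj) (hInd : Indep)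
    (hRig : Rigid) (hGal : GalCompat) : BaseExists := by
  intro ζ hζ c4 c6 hne
  have : Fact (Nat.Prime 5) := ⟨by norm_num⟩
  have hΔ : (Ws c4 c6).Δ ≠ 0 := Ws_Δ_ne_zero hne
  -- a vector on the cone
  have hne' : (-(c6 : Qb)) ^ 2 + (-(c4 : Qb)) ^ 3 ≠ 0 := by
    intro h0
    apply hne
    have h2 : ((c4 ^ 3 - c6 ^ 2 : ℤ) : Qb) = 0 := by
      push_cast
      linear_combination -h0
    exact_mod_cast h2
  obtain ⟨v, hH, hT⟩ := hCone (-(c4 : Qb)) (-(c6 : Qb)) hne'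
  refine ⟨v, hH, hT, fun σ => ?_⟩
  have hKv : IsKl (EK c4 c6) v := isKl_of_cone hne hH hT
  have hKσ : IsKl (EK c4 c6) (fun i => σ (v i)) := isKl_conj hne hH hT σ
  have hUm : Um ζ ∈ Gam ζ := Submonoid.subset_closure (by simp)
  -- the two level structures
  set P : EPt (Ws c4 c6) := PK (EK c4 c6) v with hPdef
  set Q : EPt (Ws c4 c6) := QK ζ (EK c4 c6) v with hQdef
  set P' : EPt (Ws c4 c6) := PK (EK c4 c6) (fun i => σ (v i)) with hP'def
  set Q' : EPt (Ws c4 c6) := QK ζ (EK c4 c6) (fun i => σ (v i)) with hQ'def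
  have hP : (5 : ℕ) • P = 0 := (hSpec _ _ hKv).2.1
  have hQ : (5 : ℕ) • Q = 0 := (hSpec _ _ (isKl_gam hSurj hζ hUm hKv)).2.1
  have hP' : (5 : ℕ) • P' = 0 := (hSpec _ _ hKσ).2.1
  have hQ' : (5 : ℕ) • Q' = 0 := (hSpec _ _ (isKl_gam hSurj hζ hUm hKσ)).2.1
  have hind : ∀ a b : ℤ, a • P + b • Q = 0 → (5 : ℤ) ∣ a ∧ (5 : ℤ) ∣ b :=
    hInd ζ hζ (EK c4 c6) v hKv
  -- Galois
  obtain ⟨k, hk0, hk5, hk⟩ := exists_pow_eq hζ σ
  obtain ⟨hσP, hσQ⟩ := hGal ζ hζ (EQ (Ws c4 c6)) v hKv σ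
  have hσQ' := hσQ k hk
  -- coordinates of the conjugate level structure
  obtain ⟨a, c, hac⟩ := exists_combo hΔ P Q hP hQ hind P' hP'
  obtain ⟨q, s, hqs⟩ := exists_combo hΔ P Q hP hQ hind Q' hQ'
  have h1 : σ • P = a • P + c • Q := by rw [← hac]; exact hσP
  have h2 : σ • Q = ((k : ℤ) * q) • P + ((k : ℤ) * s) • Q := by
    have : σ • Q = k • Q' := hσQ'
    rw [this, hqs, nsmul_add, mul_smul, mul_smul, natCast_zsmul, natCast_zsmul]
  have hdet := det_of_combo hΔ P Q hP hQ hind σ a ((k : ℤ) * q) c ((k : ℤ) * s) h1 h2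
  rw [det_eq_natCast hΔ hζ σ k hk] at hdet
  have hk' : ((k : ℤ) : ZMod 5) ≠ 0 := by
    rw [Ne, ZMod.intCast_zmod_eq_zero_iff_dvd]
    intro hdvd
    have := Int.le_of_dvd (by exact_mod_cast hk0) hdvd
    omega
  have hdvd : (5 : ℤ) ∣ a * s - q * c - 1 := by
    apply (ZMod.intCast_zmod_eq_zero_iff_dvd _ 5).mp
    have e : ((k : ℤ) : ZMod 5) * ((a * s - q * c - 1 : ℤ) : ZMod 5) = 0 := by
      have : ((k : ℕ) : ZMod 5) = ((k : ℤ) : ZMod 5) := by push_cast; rfl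
      rw [this] at hdet
      push_cast at hdet ⊢
      linear_combination -hdet
    exact (mul_eq_zero.mp e).resolve_left hk'
  -- realise the matrix
  obtain ⟨γ, hγ, hrel⟩ := (hSurj ζ hζ).1 a q c s hdvd
  obtain ⟨hrP, hrQ⟩ := hrel.2.2 (EK c4 c6) v hKv
  have hKγ : IsKl (EK c4 c6) (γ.mulVec v) := isKl_gam hSurj hζ hγ hKv
  have e1 : PK (EK c4 c6) (fun i => σ (v i)) = PK (EK c4 c6) (γ.mulVec v) := by
    rw [hrP]; exact hac
  have e2 : QK ζ (EK c4 c6) (fun i => σ (v i)) = QK ζ (EK c4 c6) (γ.mulVec v) := by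
    rw [hrQ]; exact hqs
  obtain ⟨η, hη, hηv⟩ := hRig ζ hζ (EK c4 c6) (γ.mulVec v) (fun i => σ (v i)) hKγ hKσ e1 e2
  exact ⟨γ, hγ, η, hη, hηv⟩

end Fermat.Agent.S52K.BaseExists88

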