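/-
S52K (3–5 switch, Klein route) — the cone over `(h, t)` is non-empty (core, Mathlib only).

Klein's forms `H` (degree 20) and `T` (degree 30) are written out literally (`hK`, `tK`), so that
this file depends on Mathlib alone.  Over an algebraically closed field of characteristic zero,
every pair `(h, t)` with `t² + h³ ≠ 0` is of the form `(H(w), T(w))`.

Route: `w = c • (z, 1)`.
* `H(z, 1)` and `T(z, 1)` have no common zero (an explicit Bezout identity in `u = z⁵`);
* `z` is a root of `(t² + h³) H(z,1)³ - 1728 h³ f(z,1)⁵`, a polynomial of degree exactly 60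
  (`f` is Klein's form of degree 12; `T² + H³ = 1728 f⁵`), hence `t² H(z,1)³ = h³ T(z,1)²`;
* `c` is a suitable root, found from `H` and `T` being homogeneous.
-/
import Mathlib

set_option autoImplicit false

namespace Fermat.Agent.S52K.ConeCore10

open Polynomial

section Forms

variable {R : Type*} [CommRing R]

/-- Klein's form of degree 12, written out. -/
def fK (x y : R) : R := x * y * (x ^ 10 + 11 * x ^ 5 * y ^ 5 - y ^ 10)

/-- Klein's form of degree 20, written out. -/
def hK (x y : R) : R :=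
  -(x ^ 20) - y ^ 20 + 228 * (x ^ 15 * y ^ 5 - x ^ 5 * y ^ 15) - 494 * x ^ 10 * y ^ 10

/-- Klein's form of degree 30, written out. -/
def tK (x y : R) : R :=
  x ^ 30 + y ^ 30 + 522 * (x ^ 25 * y ^ 5 - x ^ 5 * y ^ 25)
    - 10005 * (x ^ 20 * y ^ 10 + x ^ 10 * y ^ 20)

theorem syzygy (x y : R) : tK x y ^ 2 + hK x y ^ 3 = 1728 * fK x y ^ 5 := by
  simp only [fK, hK, tK]; ring

theorem hK_smul (c x y : R) : hK (c * x) (c * y) = c ^ 20 * hK x y := by
  simp only [hK]; ring

theorem tK_smul (c x y : R) : tK (c * x) (c * y) = c ^ 30 * tK x y := by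
  simp only [tK]; ring

/-- The Bezout identity for `H(z, 1)` and `T(z, 1)`. -/
theorem bezout (z : R) :
    (-950431323 - 20237705983 * z ^ 5 + 103588896 * z ^ 10 - 20237108822 * z ^ 15
        + 1055557719 * z ^ 20 + 2022161 * z ^ 25) * hK z 1
      + (455818677 + 1001301767 * z ^ 5 - 461063031 * z ^ 10 + 2022161 * z ^ 15) * tK z 1
      = 1406250000 := by
  simp only [hK, tK]; ring

end Forms

section Field

variable {K : Type*} [Field K]

/-- `H(z, 1)` and `T(z, 1)` have no common zero in characteristic zero. -/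
theorem not_both_zero [CharZero K] (z : K) (h1 : hK z 1 = 0) (h2 : tK z 1 = 0) : False := by
  have h := bezout z
  rw [h1, h2, mul_zero, mul_zero, add_zero] at h
  exact absurd h.symm (by norm_num)

/-- The polynomial whose roots are the `z` with `j(z, 1) = j(h, t)`. -/
noncomputable def coneP (h t : K) : K[X] :=
  C (t ^ 2 + h ^ 3) * hK (X : K[X]) 1 ^ 3 - C (1728 * h ^ 3) * fK (X : K[X]) 1 ^ 5

theorem eval_hK (z : K) : eval z (hK (X : K[X]) 1) = hK z 1 := by
  simp [hK]

theorem eval_fK (z : K) : eval z (fK (X : K[X]) 1) = fK z 1 := by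
  simp [fK]

theorem eval_coneP (h t z : K) :
    eval z (coneP h t) = (t ^ 2 + h ^ 3) * hK z 1 ^ 3 - 1728 * h ^ 3 * fK z 1 ^ 5 := by
  simp only [coneP, eval_sub, eval_mul, eval_pow, eval_C, eval_hK, eval_fK]

theorem natDegree_coneP [CharZero K] (h t : K) (ht : t ^ 2 + h ^ 3 ≠ 0) :
    (coneP h t).natDegree = 60 := by
  simp only [coneP, hK, fK]
  compute_degree!
  intro h0
  exact ht (by linear_combination -h0)

/-- A `z` with `t² H(z,1)³ = h³ T(z,1)²`. -/
theorem exists_ratio [IsAlgClosed K] [CharZero K] (h t : K) (ht : t ^ 2 + h ^ 3 ≠ 0) :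
    ∃ z : K, t ^ 2 * hK z 1 ^ 3 = h ^ 3 * tK z 1 ^ 2 := by
  have hdeg : (coneP h t).degree ≠ 0 := by
    intro h0
    have h1 := natDegree_eq_zero_iff_degree_le_zero.mpr (le_of_eq h0)
    rw [natDegree_coneP h t ht] at h1
    exact absurd h1 (by norm_num)
  obtain ⟨z, hz⟩ := IsAlgClosed.exists_root (coneP h t) hdeg
  refine ⟨z, ?_⟩
  have h1 : (t ^ 2 + h ^ 3) * hK z 1 ^ 3 - 1728 * h ^ 3 * fK z 1 ^ 5 = 0 := by
    rw [← eval_coneP]; exact hz
  have h2 := syzygy z (1 : K)
  linear_combination h1 - h ^ 3 * h2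

/-- **The cone is non-empty**: every `(h, t)` with `t² + h³ ≠ 0` is `(H(x, y), T(x, y))`. -/
theorem exists_cone [IsAlgClosed K] [CharZero K] (h t : K) (ht : t ^ 2 + h ^ 3 ≠ 0) :
    ∃ x y : K, hK x y = h ∧ tK x y = t := by
  obtain ⟨z, hz⟩ := exists_ratio h t ht
  -- it suffices to find the scalar
  suffices hc : ∃ c : K, c ^ 20 * hK z 1 = h ∧ c ^ 30 * tK z 1 = t by
    obtain ⟨c, hc1, hc2⟩ := hc
    refine ⟨c * z, c * 1, ?_, ?_⟩
    · rw [hK_smul, hc1]
    · rw [tK_smul, hc2]
  by_cases hh : h = 0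
  · -- `h = 0`: then `t ≠ 0`, `H(z,1) = 0`, `T(z,1) ≠ 0`
    subst hh
    have ht0 : t ≠ 0 := by
      rintro rfl
      exact ht (by ring)
    have hH : hK z 1 = 0 := by
      have h1 : t ^ 2 * hK z 1 ^ 3 = 0 := by rw [hz]; ring
      rcases mul_eq_zero.mp h1 with h2 | h2
      · exact absurd ((pow_eq_zero_iff (two_ne_zero)).mp h2) ht0
      · exact (pow_eq_zero_iff (three_ne_zero)).mp h2
    have hT : tK z 1 ≠ 0 := fun hT => not_both_zero z hH hT
    obtain ⟨c, hc⟩ := IsAlgClosed.exists_pow_nat_eq (t / tK z 1) (n := 30) (by norm_num)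
    refine ⟨c, by rw [hH, mul_zero], ?_⟩
    rw [hc]; field_simp
  by_cases ht0 : t = 0
  · -- `t = 0`, `h ≠ 0`: then `T(z,1) = 0`, `H(z,1) ≠ 0`
    subst ht0
    have hT : tK z 1 = 0 := by
      have h1 : h ^ 3 * tK z 1 ^ 2 = 0 := by rw [← hz]; ring
      rcases mul_eq_zero.mp h1 with h2 | h2
      · exact absurd ((pow_eq_zero_iff (three_ne_zero)).mp h2) hh
      · exact (pow_eq_zero_iff (two_ne_zero)).mp h2
    have hH : hK z 1 ≠ 0 := fun hH => not_both_zero z hH hT
    obtain ⟨c, hc⟩ := IsAlgClosed.exists_pow_nat_eq (h / hK z 1) (n := 20) (by norm_num)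
    refine ⟨c, ?_, by rw [hT, mul_zero]⟩
    rw [hc]; field_simp
  -- the generic case
  have hH : hK z 1 ≠ 0 := by
    intro hH
    have h1 : h ^ 3 * tK z 1 ^ 2 = 0 := by rw [← hz, hH]; ring
    rcases mul_eq_zero.mp h1 with h2 | h2
    · exact hh ((pow_eq_zero_iff (three_ne_zero)).mp h2)
    · exact not_both_zero z hH ((pow_eq_zero_iff (two_ne_zero)).mp h2)
  have hT : tK z 1 ≠ 0 := by
    intro hT
    have h1 : t ^ 2 * hK z 1 ^ 3 = 0 := by rw [hz, hT]; ring
    rcases mul_eq_zero.mp h1 with h2 | h2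
    · exact ht0 ((pow_eq_zero_iff (two_ne_zero)).mp h2)
    · exact hH ((pow_eq_zero_iff (three_ne_zero)).mp h2)
  -- `a = h / H`, `b = t / T`, `b² = a³`; `c¹⁰ = b / a`
  obtain ⟨c, hc⟩ := IsAlgClosed.exists_pow_nat_eq ((t / tK z 1) / (h / hK z 1)) (n := 10)
    (by norm_num)
  have h20 : c ^ 20 = h / hK z 1 := by
    have : c ^ 20 = (c ^ 10) ^ 2 := by ring
    rw [this, hc]
    field_simp
    linear_combination hz
  have h30 : c ^ 30 = t / tK z 1 := by
    have : c ^ 30 = (c ^ 10) ^ 3 := by ring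
    rw [this, hc]
    field_simp
    linear_combination hz
  refine ⟨c, ?_, ?_⟩
  · rw [h20]; field_simp
  · rw [h30]; field_simp

end Field

end Fermat.Agent.S52K.ConeCore10
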