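/-
S52K (3–5 switch, Klein route) — brick `Klein.ConeNonempty` of the interface.

The mathematics is in `ConeCore10.lean` (Mathlib only, any algebraically closed field of
characteristic zero); this file specialises it to `ℚ̄` and to the forms `HK`, `TK` of
`KleinForms.lean`.
-/
import Mathlib
import Fermat.Agent.S52K.Interfaces
import Fermat.Agent.S52K.ConeCore10

set_option autoImplicit false

namespace Fermat.Agent.S52K.ConeNonempty10

open Fermat.Agent.S58 Fermat.Agent.S52K Fermat.Agent.S52K.Klein

/-- **(CONE)** the cone over any `(h, t)` with `t² + h³ ≠ 0` is non-empty. -/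
theorem coneNonempty : Klein.ConeNonempty := by
  intro h t ht
  obtain ⟨x, y, hx, hy⟩ := ConeCore10.exists_cone h t ht
  exact ⟨![x, y], hx, hy⟩

end Fermat.Agent.S52K.ConeNonempty10
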