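/-
S52K (3–5 switch), brick **(F)** `Cong5Ap` (helper58): an additive, injective, Galois-equivariant
map `W[5] → W'[5]` forces `a_ℓ(W') ≡ a_ℓ(W) (mod 5)` at every common good prime `ℓ ≠ 5`.

Proof: a Frobenius lift `σ` at `ℓ` satisfies `σ² - a_ℓ(W) σ + ℓ = 0` on `W[5]` and
`σ² - a_ℓ(W') σ + ℓ = 0` on `W'[5]` (`S58.FrobFinal.frobQuad`).  Transporting the first relation
along the map and subtracting gives `(a_ℓ(W') - a_ℓ(W)) • σ P' = 0` for the image `P'` of a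
nonzero point of order 5; if `5 ∤ a_ℓ(W') - a_ℓ(W)` this forces `P' = 0`.
-/
import Mathlib
import Fermat.Agent.S52K.Interfaces
import Fermat.Agent.S58.FrobFinal
import Fermat.Agent.Lib.FrobeniusExists
import Fermat.Agent.Lib.ECBiquad.Main

set_option autoImplicit false

namespace Fermat.Agent.S52K.Cong5Ap58

open Fermat.Agent.S58 WeierstrassCurve
open scoped WeierstrassCurve.Affine

/-- the Galois action commutes with natural multiples. -/
theorem smul_nsmul_pt (W : WeierstrassCurve ℤ) (σ : GQ) (n : ℕ) (P : EPt W) :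
    σ • (n • P) = n • (σ • P) :=
  map_nsmul (DistribSMul.toAddMonoidHom (EPt W) σ) n P

theorem tors_smul (W : WeierstrassCurve ℤ) (σ : GQ) {P : EPt W} (hP : (5 : ℕ) • P = 0) :
    (5 : ℕ) • (σ • P) = 0 := by
  rw [← smul_nsmul_pt, hP]
  exact map_zero (DistribSMul.toAddMonoidHom (EPt W) σ)

theorem tors_add {W : WeierstrassCurve ℤ} {P Q : EPt W} (hP : (5 : ℕ) • P = 0)
    (hQ : (5 : ℕ) • Q = 0) : (5 : ℕ) • (P + Q) = 0 := by
  rw [nsmul_add, hP, hQ, add_zero]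

theorem tors_neg {W : WeierstrassCurve ℤ} {P : EPt W} (hP : (5 : ℕ) • P = 0) :
    (5 : ℕ) • (-P) = 0 := by
  rw [neg_nsmul, hP, neg_zero]

theorem tors_zsmul {W : WeierstrassCurve ℤ} (n : ℤ) {P : EPt W} (hP : (5 : ℕ) • P = 0) :
    (5 : ℕ) • (n • P) = 0 := by
  rw [← natCast_zsmul, ← mul_zsmul, mul_comm, mul_zsmul, natCast_zsmul, hP, zsmul_zero]

theorem tors_nsmul {W : WeierstrassCurve ℤ} (n : ℕ) {P : EPt W} (hP : (5 : ℕ) • P = 0) :
    (5 : ℕ) • (n • P) = 0 := by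
  have h := tors_zsmul (n : ℤ) hP
  rwa [natCast_zsmul] at h

section Transport

variable {W W' : WeierstrassCurve ℤ} (ψ : EPt W → EPt W')
  (hadd : ∀ P Q : EPt W, (5 : ℕ) • P = 0 → (5 : ℕ) • Q = 0 → ψ (P + Q) = ψ P + ψ Q)
include hadd

theorem psi_zero : ψ 0 = 0 := by
  have h := hadd 0 0 (nsmul_zero 5) (nsmul_zero 5)
  rw [add_zero] at h
  have h2 : ψ 0 + 0 = ψ 0 + ψ 0 := by rw [add_zero]; exact h
  exact (add_left_cancel h2).symm

theorem psi_neg {P : EPt W} (hP : (5 : ℕ) • P = 0) : ψ (-P) = -ψ P := by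
  have h := hadd P (-P) hP (tors_neg hP)
  rw [add_neg_cancel, psi_zero ψ hadd] at h
  exact (neg_eq_of_add_eq_zero_right h.symm).symm

theorem psi_nsmul (n : ℕ) {P : EPt W} (hP : (5 : ℕ) • P = 0) : ψ (n • P) = n • ψ P := by
  induction n with
  | zero => rw [zero_nsmul, zero_nsmul]; exact psi_zero ψ hadd
  | succ n ih => rw [succ_nsmul, succ_nsmul, hadd _ _ (tors_nsmul n hP) hP, ih]

theorem psi_zsmul (n : ℤ) {P : EPt W} (hP : (5 : ℕ) • P = 0) : ψ (n • P) = n • ψ P := by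
  obtain ⟨k, rfl | rfl⟩ := Int.eq_nat_or_neg n
  · rw [natCast_zsmul, natCast_zsmul]; exact psi_nsmul ψ hadd k hP
  · rw [neg_zsmul, neg_zsmul, natCast_zsmul, natCast_zsmul,
      psi_neg ψ hadd (tors_nsmul k hP), psi_nsmul ψ hadd k hP]

theorem psi_tors {P : EPt W} (hP : (5 : ℕ) • P = 0) : (5 : ℕ) • ψ P = 0 := by
  rw [← psi_nsmul ψ hadd 5 hP, hP]; exact psi_zero ψ hadd

end Transport

/-- **(F)** `Cong5Ap`. -/
theorem cong5Ap : Cong5Ap := by
  intro W W' hΔ hΔ' hcong ℓ hℓ hg hg' hℓ5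
  obtain ⟨ψ, hadd, hinj, heq⟩ := hcong
  obtain ⟨A, σ, hA, hσ⟩ := Fermat.Agent.Lib.FrobeniusExists.exists_isFrobeniusAt hℓ
  -- a nonzero point of order 5 on `W`
  have := Fermat.Agent.Lib.ECBiquad.nontrivial_torsionBy_int W hΔ (n := 5) (by norm_num)
  obtain ⟨x, hx⟩ := exists_ne (0 : Submodule.torsionBy ℤ
      ((W.map (Int.castRingHom ℚ))⁄(AlgebraicClosure ℚ)).Point ((5 : ℕ) : ℤ))
  have hP5 : (5 : ℕ) • (x : EPt W) = 0 := by
    have h := x.2
    rw [Submodule.mem_torsionBy_iff] at h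
    rw [← natCast_zsmul]; exact h
  have hP0 : (x : EPt W) ≠ 0 := fun h => hx (Subtype.ext h)
  generalize (x : EPt W) = P at hP5 hP0
  have hcop : (5 : ℕ).Coprime ℓ := by
    rw [Nat.coprime_primes (by norm_num) hℓ]; exact fun h => hℓ5 h.symm
  -- the two quadratic relations
  have h1 := FrobFinal.frobQuad W ℓ hℓ hg A hA σ hσ 5 hcop P hP5
  have hP'5 : (5 : ℕ) • ψ P = 0 := psi_tors ψ hadd hP5
  have h2 := FrobFinal.frobQuad W' ℓ hℓ hg' A hA σ hσ 5 hcop (ψ P) hP'5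
  -- transport the first relation
  have hσP : (5 : ℕ) • (σ • P) = 0 := tors_smul W σ hP5
  have hσσP : (5 : ℕ) • (σ • σ • P) = 0 := tors_smul W σ hσP
  have h1' : σ • σ • ψ P - W.apOfModel ℓ • σ • ψ P + (ℓ : ℤ) • ψ P = 0 := by
    have e := congrArg ψ h1
    rw [psi_zero ψ hadd, sub_eq_add_neg,
      hadd _ _ (tors_add hσσP (tors_neg (tors_zsmul _ hσP))) (tors_zsmul _ hP5),
      hadd _ _ hσσP (tors_neg (tors_zsmul _ hσP)),
      psi_neg ψ hadd (tors_zsmul _ hσP), psi_zsmul ψ hadd _ hσP, psi_zsmul ψ hadd _ hP5,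
      heq σ _ hσP, heq σ _ hP5, ← sub_eq_add_neg] at e
    exact e
  -- subtract
  have h3 : (W'.apOfModel ℓ - W.apOfModel ℓ) • (σ • ψ P) = 0 := by
    have : (W'.apOfModel ℓ - W.apOfModel ℓ) • (σ • ψ P) =
        (σ • σ • ψ P - W.apOfModel ℓ • σ • ψ P + (ℓ : ℤ) • ψ P) -
        (σ • σ • ψ P - W'.apOfModel ℓ • σ • ψ P + (ℓ : ℤ) • ψ P) := by
      rw [sub_zsmul]; abel
    rw [this, h1', h2, sub_zero]
  by_contra hndvd
  have hco : IsCoprime (W'.apOfModel ℓ - W.apOfModel ℓ) (5 : ℤ) := by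
    have hp5 : Prime (5 : ℤ) := by norm_num
    exact (hp5.coprime_iff_not_dvd.mpr hndvd).symm
  obtain ⟨u, v, huv⟩ := hco
  have hσP' : (5 : ℕ) • (σ • ψ P) = 0 := tors_smul W' σ hP'5
  have h4 : σ • ψ P = 0 := by
    have h5 : (5 : ℤ) • (σ • ψ P) = 0 := by
      have := hσP'
      rw [← natCast_zsmul] at this
      exact_mod_cast this
    calc σ • ψ P = (1 : ℤ) • (σ • ψ P) := (one_zsmul _).symm
      _ = (u * (W'.apOfModel ℓ - W.apOfModel ℓ) + v * 5) • (σ • ψ P) := by rw [huv]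
      _ = 0 := by rw [add_zsmul, mul_zsmul, mul_zsmul, h3, h5, zsmul_zero, zsmul_zero, add_zero]
  have h6 : ψ P = 0 := (smul_eq_zero_iff_eq σ).mp h4
  exact hP0 (hinj P hP5 h6)

end Fermat.Agent.S52K.Cong5Ap58
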