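/-
S52K (3–5 switch), brick (INT) `FamInt` (helper72).

For a base vector `v` (`HK v = -c4`, `TK v = -c6`, Galois conjugates in the `Γ·μ₅`-orbit) the
polynomials `pH = HK (v + X · J∇fK(v))`, `pT = TK (v + X · J∇fK(v))` of `ℚ̄[X]` have rational
coefficients (they are fixed by Galois, pointwise by the invariance of `HK`, `TK` under `Γ·μ₅` and
the covariance of `J∇fK`).  Clearing the denominators of their coefficients gives `D`; for
`l ≡ 1`, `m ≡ 0` modulo `D n` the values `HK (l v + m J∇fK(v))`, `TK (…)` are integers congruent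
to `-c4`, `-c6` modulo `n`.

* `famInt_of_inv` : `FamInt` from the invariance of the forms under `Gam ζ`;
* `famInt`        : `RelSurj → FamInt` (the brick of the interface).
-/
import Mathlib
import Fermat.Agent.S52K.Interfaces

set_option autoImplicit false

namespace Fermat.Agent.S52K.FamInt72

open Polynomial Fermat.Agent.S58 Fermat.Agent.S52K Fermat.Agent.S52K.Klein

/-! ### Elementary arithmetic -/

/-- A common denominator for finitely many rationals. -/
theorem exists_common_den (N : ℕ) (q : ℕ → ℚ) :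
    ∃ D : ℤ, 0 < D ∧ ∀ i < N, ∃ z : ℤ, (z : ℚ) = D * q i := by
  induction N with
  | zero => exact ⟨1, one_pos, fun i hi => absurd hi (Nat.not_lt_zero i)⟩
  | succ N ih =>
    obtain ⟨D, hD, h⟩ := ih
    refine ⟨D * (q N).den, mul_pos hD (by exact_mod_cast (q N).den_pos), fun i hi => ?_⟩
    rcases Nat.lt_succ_iff_lt_or_eq.1 hi with hi | rfl
    · obtain ⟨z, hz⟩ := h i hi
      refine ⟨z * (q N).den, ?_⟩
      push_cast
      rw [hz]
      ring
    · refine ⟨D * (q i).num, ?_⟩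
      push_cast
      have := Rat.den_mul_eq_num (q i)
      rw [mul_assoc, this]

/-- The key computation: a polynomial of degree `≤ N` with Galois-fixed coefficients and integral
constant term `-c` takes, after homogenisation, integral values congruent to `-c` modulo `n` at
`l ≡ 1`, `m ≡ 0` modulo `D₀ n`. -/
theorem exists_den_of_fixed (N : ℕ) (p : Qb[X]) (hdeg : p.natDegree ≤ N)
    (hfix : ∀ (σ : GQ) (i : ℕ), σ (p.coeff i) = p.coeff i) (c : ℤ)
    (h0 : p.eval 0 = -(c : Qb)) :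
    ∃ D₀ : ℤ, 0 < D₀ ∧ ∀ l m n : ℤ, l ≠ 0 → D₀ * n ∣ l - 1 → D₀ * n ∣ m →
      ∃ c' : ℤ, (l : Qb) ^ N * p.eval ((m : Qb) / l) = -(c' : Qb) ∧ n ∣ c' - c := by
  -- the coefficients are rational
  have hAlg : Algebra.IsAlgebraic ℚ Qb := AlgebraicClosure.isAlgebraic ℚ
  have hCl : IsAlgClosure ℚ Qb := ⟨inferInstance, inferInstance⟩
  have hNorm : Normal ℚ Qb := IsAlgClosure.normal ℚ Qb
  have hSep : Algebra.IsSeparable ℚ Qb := Algebra.IsAlgebraic.isSeparable_of_perfectField
  have hGal : IsGalois ℚ Qb := ⟨⟩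
  have hrat : ∀ i : ℕ, ∃ h : ℚ, algebraMap ℚ Qb h = p.coeff i := fun i =>
    (InfiniteGalois.mem_range_algebraMap_iff_fixed (k := ℚ) (K := Qb) (p.coeff i)).2
      fun σ => hfix σ i
  choose h hh using hrat
  obtain ⟨D₀, hD₀, hz⟩ := exists_common_den (N + 1) h
  refine ⟨D₀, hD₀, fun l m n hl hl1 hm => ?_⟩
  choose! z hz using hz
  obtain ⟨m', rfl⟩ := hm
  have hlQ : (l : Qb) ≠ 0 := by exact_mod_cast hl
  -- the integer
  refine ⟨-(∑ i ∈ Finset.range N, z (i + 1) * (n * m') * (D₀ * n * m') ^ i * l ^ (N - (i + 1)))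
      + c * l ^ N, ?_, ?_⟩
  · rw [eval_eq_sum_range' (Nat.lt_succ_of_le hdeg), Finset.mul_sum, Finset.sum_range_succ']
    have hc0 : p.coeff 0 = -(c : Qb) := by rw [← h0, ← coeff_zero_eq_eval_zero]
    have hterm : ∀ i ∈ Finset.range N,
        (l : Qb) ^ N * (p.coeff (i + 1) * (((D₀ * n * m' : ℤ) : Qb) / l) ^ (i + 1))
          = ((z (i + 1) * (n * m') * (D₀ * n * m') ^ i * l ^ (N - (i + 1)) : ℤ) : Qb) := by
      intro i hi
      have hiN : i + 1 ≤ N := Finset.mem_range.1 hi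
      have hzi : ((z (i + 1) : ℤ) : Qb) = (D₀ : Qb) * p.coeff (i + 1) := by
        rw [← hh (i + 1)]
        have := congrArg (algebraMap ℚ Qb) (hz (i + 1) (Nat.succ_lt_succ (Finset.mem_range.1 hi)))
        rw [map_mul, map_intCast, map_intCast] at this
        exact this
      have hpow : (l : Qb) ^ N = (l : Qb) ^ (N - (i + 1)) * (l : Qb) ^ (i + 1) := by
        rw [← pow_add, Nat.sub_add_cancel hiN]
      push_cast
      rw [hzi, hpow, div_pow]
      field_simp
      ring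
    rw [Finset.sum_congr rfl hterm]
    rw [hc0]
    push_cast
    ring
  · have h1 : n ∣ ∑ i ∈ Finset.range N,
        z (i + 1) * (n * m') * (D₀ * n * m') ^ i * l ^ (N - (i + 1)) := by
      refine Finset.dvd_sum fun i _ => ?_
      exact Dvd.dvd.mul_right (Dvd.dvd.mul_right (Dvd.dvd.mul_left (Dvd.intro _ rfl) _) _) _
    have h2 : n ∣ l ^ N - 1 := by
      have h3 : l - 1 ∣ l ^ N - 1 := by
        have := sub_dvd_pow_sub_pow l 1 N
        rwa [one_pow] at this
      exact (Dvd.intro_left _ rfl).trans (hl1.trans h3)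
    have h4 : -(∑ i ∈ Finset.range N,
        z (i + 1) * (n * m') * (D₀ * n * m') ^ i * l ^ (N - (i + 1))) + c * l ^ N - c
          = -(∑ i ∈ Finset.range N,
              z (i + 1) * (n * m') * (D₀ * n * m') ^ i * l ^ (N - (i + 1)))
            + c * (l ^ N - 1) := by ring
    rw [h4]
    exact dvd_add ((dvd_neg).2 h1) (Dvd.dvd.mul_left h2 c)

/-! ### The forms along the line `v + X · J∇fK(v)` -/

theorem eval_HK (μ : Qb) (P Q : Qb[X]) : (HK P Q).eval μ = HK (P.eval μ) (Q.eval μ) := by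
  simp only [HK, eval_add, eval_sub, eval_mul, eval_pow, eval_neg, eval_ofNat]

theorem eval_TK (μ : Qb) (P Q : Qb[X]) : (TK P Q).eval μ = TK (P.eval μ) (Q.eval μ) := by
  simp only [TK, eval_add, eval_sub, eval_mul, eval_pow, eval_ofNat]

theorem map_HK (f : Qb →+* Qb) (P Q : Qb[X]) : (HK P Q).map f = HK (P.map f) (Q.map f) := by
  simp only [HK, Polynomial.map_add, Polynomial.map_sub, Polynomial.map_mul, Polynomial.map_pow,
    Polynomial.map_neg, Polynomial.map_ofNat]

theorem map_TK (f : Qb →+* Qb) (P Q : Qb[X]) : (TK P Q).map f = TK (P.map f) (Q.map f) := by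
  simp only [TK, Polynomial.map_add, Polynomial.map_sub, Polynomial.map_mul, Polynomial.map_pow,
    Polynomial.map_ofNat]

theorem HK_smul (t x y : Qb) : HK (t * x) (t * y) = t ^ 20 * HK x y := by
  simp only [HK]; ring

theorem TK_smul (t x y : Qb) : TK (t * x) (t * y) = t ^ 30 * TK x y := by
  simp only [TK]; ring

theorem fKx_smul (t x y : Qb) : fKx (t * x) (t * y) = t ^ 11 * fKx x y := by
  simp only [fKx]; ring

theorem fKy_smul (t x y : Qb) : fKy (t * x) (t * y) = t ^ 11 * fKy x y := by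
  simp only [fKy]; ring

theorem map_fKx (σ : GQ) (x y : Qb) : σ (fKx x y) = fKx (σ x) (σ y) := by
  simp only [fKx, map_add, map_sub, map_mul, map_pow, map_ofNat]

theorem map_fKy (σ : GQ) (x y : Qb) : σ (fKy x y) = fKy (σ x) (σ y) := by
  simp only [fKy, map_add, map_sub, map_mul, map_pow, map_ofNat]

/-- The first coordinate of the line. -/
noncomputable def lineX (v : Fin 2 → Qb) : Qb[X] := C (v 0) - X * C (fKy (v 0) (v 1))

/-- The second coordinate of the line. -/
noncomputable def lineY (v : Fin 2 → Qb) : Qb[X] := C (v 1) + X * C (fKx (v 0) (v 1))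

theorem eval_lineX (v : Fin 2 → Qb) (μ : Qb) :
    (lineX v).eval μ = v 0 - μ * fKy (v 0) (v 1) := by
  simp only [lineX, eval_sub, eval_mul, eval_C, eval_X]

theorem eval_lineY (v : Fin 2 → Qb) (μ : Qb) :
    (lineY v).eval μ = v 1 + μ * fKx (v 0) (v 1) := by
  simp only [lineY, eval_add, eval_mul, eval_C, eval_X]

theorem natDegree_HK_line (v : Fin 2 → Qb) : (HK (lineX v) (lineY v)).natDegree ≤ 20 := by
  simp only [HK, lineX, lineY]
  compute_degree

theorem natDegree_TK_line (v : Fin 2 → Qb) : (TK (lineX v) (lineY v)).natDegree ≤ 30 := by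
  simp only [TK, lineX, lineY]
  compute_degree

/-- The Galois conjugate of the line is its image under `η·γ`. -/
theorem conj_line {ζ : Qb} {v : Fin 2 → Qb} {γ : Matrix (Fin 2) (Fin 2) Qb} {η : Qb}
    (hη : η ^ 5 = 1) (σ : GQ) (hσ : (fun i => σ (v i)) = η • γ.mulVec v)
    (hcov : (![-(fKy (γ.mulVec v 0) (γ.mulVec v 1)), fKx (γ.mulVec v 0) (γ.mulVec v 1)] :
      Fin 2 → Qb) = γ.mulVec ![-(fKy (v 0) (v 1)), fKx (v 0) (v 1)]) (μ : Qb) :
    σ (v 0) - μ * σ (fKy (v 0) (v 1))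
        = η * γ.mulVec ![v 0 - μ * fKy (v 0) (v 1), v 1 + μ * fKx (v 0) (v 1)] 0 ∧
      σ (v 1) + μ * σ (fKx (v 0) (v 1))
        = η * γ.mulVec ![v 0 - μ * fKy (v 0) (v 1), v 1 + μ * fKx (v 0) (v 1)] 1 := by
  have _hζ : ζ = ζ := rfl
  have h0 : σ (v 0) = η * γ.mulVec v 0 := by
    have := congrFun hσ 0
    simpa using this
  have h1 : σ (v 1) = η * γ.mulVec v 1 := by
    have := congrFun hσ 1
    simpa using this
  have hη11 : η ^ 11 = η := by
    calc η ^ 11 = (η ^ 5) ^ 2 * η := by ring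
      _ = η := by rw [hη]; ring
  have hc0 : -(fKy (γ.mulVec v 0) (γ.mulVec v 1))
      = γ.mulVec ![-(fKy (v 0) (v 1)), fKx (v 0) (v 1)] 0 := by
    have := congrFun hcov 0
    simpa using this
  have hc1 : fKx (γ.mulVec v 0) (γ.mulVec v 1)
      = γ.mulVec ![-(fKy (v 0) (v 1)), fKx (v 0) (v 1)] 1 := by
    have := congrFun hcov 1
    simpa using this
  have hw : (![v 0 - μ * fKy (v 0) (v 1), v 1 + μ * fKx (v 0) (v 1)] : Fin 2 → Qb)
      = v + μ • ![-(fKy (v 0) (v 1)), fKx (v 0) (v 1)] := by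
    ext i
    fin_cases i
    · simp
      ring
    · simp
  rw [hw, Matrix.mulVec_add, Matrix.mulVec_smul]
  constructor
  · rw [map_fKy, h0, h1, fKy_smul, hη11, Pi.add_apply, Pi.smul_apply, smul_eq_mul, ← hc0]
    ring
  · rw [map_fKx, h0, h1, fKx_smul, hη11, Pi.add_apply, Pi.smul_apply, smul_eq_mul, ← hc1]
    ring

/-! ### The brick -/

/-- **(INT)** from the invariance of `HK`, `TK` and the covariance of `J∇fK` under `Gam ζ`. -/
theorem famInt_of_inv
    (hinv : ∀ ζ : Qb, IsZ5 ζ → ∀ γ ∈ Gam ζ, ∀ w : Fin 2 → Qb,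
      HK (γ.mulVec w 0) (γ.mulVec w 1) = HK (w 0) (w 1) ∧
      TK (γ.mulVec w 0) (γ.mulVec w 1) = TK (w 0) (w 1) ∧
      (![-(fKy (γ.mulVec w 0) (γ.mulVec w 1)), fKx (γ.mulVec w 0) (γ.mulVec w 1)] :
        Fin 2 → Qb) = γ.mulVec ![-(fKy (w 0) (w 1)), fKx (w 0) (w 1)]) :
    FamInt := by
  intro ζ hζ c4 c6 v _ hbase
  obtain ⟨hH, hT, hgal⟩ := hbase
  -- Galois invariance of the two polynomials
  have hfixH : ∀ (σ : GQ) (i : ℕ),
      σ ((HK (lineX v) (lineY v)).coeff i) = (HK (lineX v) (lineY v)).coeff i := by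
    intro σ i
    have hmap : (HK (lineX v) (lineY v)).map (σ : Qb →+* Qb) = HK (lineX v) (lineY v) := by
      refine Polynomial.funext fun μ => ?_
      obtain ⟨γ, hγ, η, hη, hσ⟩ := hgal σ
      obtain ⟨hHinv, -, hcov⟩ := hinv ζ hζ γ hγ
        ![v 0 - μ * fKy (v 0) (v 1), v 1 + μ * fKx (v 0) (v 1)]
      obtain ⟨e0, e1⟩ := conj_line (ζ := ζ) hη σ hσ (hinv ζ hζ γ hγ v).2.2 μ
      rw [map_HK, eval_HK, eval_HK, eval_lineX, eval_lineY]
      have hX : ((lineX v).map (σ : Qb →+* Qb)).eval μ = σ (v 0) - μ * σ (fKy (v 0) (v 1)) := by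
        rw [lineX, Polynomial.map_sub, Polynomial.map_mul, Polynomial.map_C, Polynomial.map_C,
          Polynomial.map_X, eval_sub, eval_mul, eval_C, eval_C, eval_X]
        rfl
      have hY : ((lineY v).map (σ : Qb →+* Qb)).eval μ = σ (v 1) + μ * σ (fKx (v 0) (v 1)) := by
        rw [lineY, Polynomial.map_add, Polynomial.map_mul, Polynomial.map_C, Polynomial.map_C,
          Polynomial.map_X, eval_add, eval_mul, eval_C, eval_C, eval_X]
        rfl
      rw [hX, hY, e0, e1, HK_smul, hHinv]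
      have hη20 : η ^ 20 = 1 := by
        calc η ^ 20 = (η ^ 5) ^ 4 := by ring
          _ = 1 := by rw [hη]; ring
      rw [hη20, one_mul]
      simp
    have := congrArg (fun q : Qb[X] => q.coeff i) hmap
    simpa [coeff_map] using this
  have hfixT : ∀ (σ : GQ) (i : ℕ),
      σ ((TK (lineX v) (lineY v)).coeff i) = (TK (lineX v) (lineY v)).coeff i := by
    intro σ i
    have hmap : (TK (lineX v) (lineY v)).map (σ : Qb →+* Qb) = TK (lineX v) (lineY v) := by
      refine Polynomial.funext fun μ => ?_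
      obtain ⟨γ, hγ, η, hη, hσ⟩ := hgal σ
      obtain ⟨-, hTinv, hcov⟩ := hinv ζ hζ γ hγ
        ![v 0 - μ * fKy (v 0) (v 1), v 1 + μ * fKx (v 0) (v 1)]
      obtain ⟨e0, e1⟩ := conj_line (ζ := ζ) hη σ hσ (hinv ζ hζ γ hγ v).2.2 μ
      rw [map_TK, eval_TK, eval_TK, eval_lineX, eval_lineY]
      have hX : ((lineX v).map (σ : Qb →+* Qb)).eval μ = σ (v 0) - μ * σ (fKy (v 0) (v 1)) := by
        rw [lineX, Polynomial.map_sub, Polynomial.map_mul, Polynomial.map_C, Polynomial.map_C,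
          Polynomial.map_X, eval_sub, eval_mul, eval_C, eval_C, eval_X]
        rfl
      have hY : ((lineY v).map (σ : Qb →+* Qb)).eval μ = σ (v 1) + μ * σ (fKx (v 0) (v 1)) := by
        rw [lineY, Polynomial.map_add, Polynomial.map_mul, Polynomial.map_C, Polynomial.map_C,
          Polynomial.map_X, eval_add, eval_mul, eval_C, eval_C, eval_X]
        rfl
      rw [hX, hY, e0, e1, TK_smul, hTinv]
      have hη30 : η ^ 30 = 1 := by
        calc η ^ 30 = (η ^ 5) ^ 6 := by ring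
          _ = 1 := by rw [hη]; ring
      rw [hη30, one_mul]
      simp
    have := congrArg (fun q : Qb[X] => q.coeff i) hmap
    simpa [coeff_map] using this
  have h0H : (HK (lineX v) (lineY v)).eval 0 = -(c4 : Qb) := by
    rw [eval_HK, eval_lineX, eval_lineY, zero_mul, zero_mul, sub_zero, add_zero, hH]
  have h0T : (TK (lineX v) (lineY v)).eval 0 = -(c6 : Qb) := by
    rw [eval_TK, eval_lineX, eval_lineY, zero_mul, zero_mul, sub_zero, add_zero, hT]
  obtain ⟨DH, hDH, keyH⟩ := exists_den_of_fixed 20 _ (natDegree_HK_line v) hfixH c4 h0H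
  obtain ⟨DT, hDT, keyT⟩ := exists_den_of_fixed 30 _ (natDegree_TK_line v) hfixT c6 h0T
  refine ⟨2 * DH * DT, by positivity, fun l m n hl hm => ?_⟩
  -- `l ≠ 0`
  have hl0 : l ≠ 0 := by
    rintro rfl
    have h2 : (2 : ℤ) ∣ 0 - 1 :=
      (Dvd.intro _ (by ring : 2 * (DH * DT * n) = 2 * DH * DT * n)).trans hl
    norm_num at h2
  have hlQ : (l : Qb) ≠ 0 := by exact_mod_cast hl0
  have dH : ∀ x : ℤ, 2 * DH * DT * n ∣ x → DH * n ∣ x := fun x hx =>
    (Dvd.intro (2 * DT) (by ring : DH * n * (2 * DT) = 2 * DH * DT * n)).trans hx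
  have dT : ∀ x : ℤ, 2 * DH * DT * n ∣ x → DT * n ∣ x := fun x hx =>
    (Dvd.intro (2 * DH) (by ring : DT * n * (2 * DH) = 2 * DH * DT * n)).trans hx
  obtain ⟨c4', e4, hc4'⟩ := keyH l m n hl0 (dH _ hl) (dH _ hm)
  obtain ⟨c6', e6, hc6'⟩ := keyT l m n hl0 (dT _ hl) (dT _ hm)
  refine ⟨c4', c6', ?_, ?_, hc4', hc6'⟩
  · rw [← e4, eval_HK, eval_lineX, eval_lineY, ← HK_smul]
    have a0 : vLM v l m 0 = (l : Qb) * (v 0 - (m : Qb) / l * fKy (v 0) (v 1)) := by
      simp only [vLM, Matrix.cons_val_zero]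
      field_simp
    have a1 : vLM v l m 1 = (l : Qb) * (v 1 + (m : Qb) / l * fKx (v 0) (v 1)) := by
      simp only [vLM, Matrix.cons_val_one, Matrix.cons_val_fin_one]
      field_simp
    rw [a0, a1]
  · rw [← e6, eval_TK, eval_lineX, eval_lineY, ← TK_smul]
    have a0 : vLM v l m 0 = (l : Qb) * (v 0 - (m : Qb) / l * fKy (v 0) (v 1)) := by
      simp only [vLM, Matrix.cons_val_zero]
      field_simp
    have a1 : vLM v l m 1 = (l : Qb) * (v 1 + (m : Qb) / l * fKx (v 0) (v 1)) := by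
      simp only [vLM, Matrix.cons_val_one, Matrix.cons_val_fin_one]
      field_simp
    rw [a0, a1]

/-- **(INT)**, the brick of the interface: `RelSurj → FamInt`. -/
theorem famInt (h : RelSurj) : FamInt :=
  famInt_of_inv fun ζ hζ γ hγ w => by
    obtain ⟨p, q, r, s, -, hrel⟩ := (h ζ hζ).2 γ hγ
    obtain ⟨-, hHinv, hTinv, hcov⟩ := hrel.2.1 w
    exact ⟨hHinv, hTinv, hcov⟩

end Fermat.Agent.S52K.FamInt72
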