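/-
S52K (3–5 switch), brick (SSB) = `FamSS` (helper70).

Semistability of the fibres of the Klein family outside `30 Δ`: for a base vector `v` of
`(c₄, c₆)` and coprime integers `l, m`, a prime `p ∤ 30 (c₄³ − c₆²)` dividing the discriminant
`c₄'³ − c₆'²` of the fibre over `l v + m J∇fK(v)` does not divide `c₄'`.

Argument: take a valuation ring `A` of `ℚ̄` over `p`.  `v` is integral at `A` (Bezout for `HK`, `fK`
applied to `v / λ`; `fK(v)⁵ = (c₆² − c₄³)/1728` is a unit at `p`), hence so is `J∇fK(v)`.  If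
`p ∣ c₄'` then `HK` and `fK` of `V = l v + m J∇fK(v)` lie in the maximal ideal, so `V ≡ 0` by
Bezout again; Cramer's rule with `det (v, J∇fK v) = 12 fK(v)` (Euler), a unit, gives `p ∣ l` and
`p ∣ m`.
-/
import Mathlib
import Fermat.Agent.S52K.Interfaces
import Fermat.Agent.Lib.FrobeniusExists

set_option autoImplicit false

namespace Fermat.Agent.S52K.FamSS70

open Fermat.Agent.S58 Fermat.Agent.S52K Fermat.Agent.S52K.Klein

/-! ### Polynomial identities -/

section Identities

variable {R : Type*} [CommRing R]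

/-- Euler's identity for the form `fK` of degree 12. -/
theorem euler_fK (x y : R) : x * fKx x y + y * fKy x y = 12 * fK x y := by
  simp only [fK, fKx, fKy]; ring

theorem HK_smul (t x y : R) : HK (t * x) (t * y) = t ^ 20 * HK x y := by
  simp only [HK]; ring

theorem fK_smul (t x y : R) : fK (t * x) (t * y) = t ^ 12 * fK x y := by
  simp only [fK]; ring

/-- Cramer's rule, first coordinate. -/
theorem cramer_l (l m x y : R) :
    (l * x - m * fKy x y) * fKx x y + (l * y + m * fKx x y) * fKy x y = l * (12 * fK x y) := by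
  rw [← euler_fK]; ring

/-- Cramer's rule, second coordinate. -/
theorem cramer_m (l m x y : R) :
    x * (l * y + m * fKx x y) - y * (l * x - m * fKy x y) = m * (12 * fK x y) := by
  rw [← euler_fK]; ring

end Identities

/-! ### Integers in a valuation ring of `ℚ̄` over `p` -/

section Val

variable (A : ValuationSubring Qb)

theorem intCast_mem' (n : ℤ) : (n : Qb) ∈ A := intCast_mem A n

theorem val_intCast_le (n : ℤ) : A.valuation (n : Qb) ≤ 1 :=
  (A.valuation_le_one_iff _).2 (intCast_mem' A n)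

variable {A} {p : ℕ}

/-- Multiples of `p` lie in the maximal ideal. -/
theorem val_intCast_lt_of_dvd (hA : A.LiesOverPrime p) {n : ℤ} (h : (p : ℤ) ∣ n) :
    A.valuation (n : Qb) < 1 := by
  obtain ⟨k, rfl⟩ := h
  have hp : A.valuation (p : Qb) < 1 := hA
  have hk := val_intCast_le A k
  push_cast
  rw [map_mul]
  calc A.valuation (p : Qb) * A.valuation (k : Qb) ≤ A.valuation (p : Qb) * 1 :=
        mul_le_mul' le_rfl hk
    _ = A.valuation (p : Qb) := mul_one _
    _ < 1 := hp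

/-- An integer in the maximal ideal is a multiple of `p`. -/
theorem dvd_of_val_intCast_lt (hp : p.Prime) (hA : A.LiesOverPrime p) {n : ℤ}
    (h : A.valuation (n : Qb) < 1) : (p : ℤ) ∣ n := by
  by_contra hn
  have hcop : IsCoprime (p : ℤ) n :=
    (Int.isCoprime_iff_gcd_eq_one).2
      ((Nat.Coprime.gcd_eq_one ((Nat.Prime.coprime_iff_not_dvd hp).2 fun hd =>
        hn (Int.natCast_dvd.2 hd))))
  obtain ⟨a, b, hab⟩ := hcop
  have h1 : A.valuation ((a : Qb) * (p : Qb) + (b : Qb) * (n : Qb)) < 1 := by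
    refine lt_of_le_of_lt (A.valuation.map_add _ _) (max_lt ?_ ?_)
    · rw [map_mul]
      have hp' : A.valuation (p : Qb) < 1 := hA
      calc A.valuation (a : Qb) * A.valuation (p : Qb) ≤ 1 * A.valuation (p : Qb) :=
            mul_le_mul' (val_intCast_le A a) le_rfl
        _ = A.valuation (p : Qb) := one_mul _
        _ < 1 := hp'
    · rw [map_mul]
      calc A.valuation (b : Qb) * A.valuation (n : Qb) ≤ 1 * A.valuation (n : Qb) :=
            mul_le_mul' (val_intCast_le A b) le_rfl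
        _ = A.valuation (n : Qb) := one_mul _
        _ < 1 := h
  have h2 : ((a : Qb) * (p : Qb) + (b : Qb) * (n : Qb)) = 1 := by
    have := congrArg (fun z : ℤ => (z : Qb)) hab
    simpa using this
  rw [h2, map_one] at h1
  exact lt_irrefl _ h1

/-- An integer prime to `p` is a unit of `A`. -/
theorem val_intCast_eq_one (hp : p.Prime) (hA : A.LiesOverPrime p) {n : ℤ}
    (h : ¬ (p : ℤ) ∣ n) : A.valuation (n : Qb) = 1 :=
  le_antisymm (val_intCast_le A n) (not_lt.1 fun hlt => h (dvd_of_val_intCast_lt hp hA hlt))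

end Val

/-! ### The argument -/

section Main

variable {A : ValuationSubring Qb}

theorem fKx_mem {x y : Qb} (hx : x ∈ A) (hy : y ∈ A) : fKx x y ∈ A := by
  unfold fKx
  exact sub_mem (add_mem (mul_mem (mul_mem (ofNat_mem A 11) (pow_mem hx 10)) hy)
    (mul_mem (mul_mem (ofNat_mem A 66) (pow_mem hx 5)) (pow_mem hy 6))) (pow_mem hy 11)

theorem fKy_mem {x y : Qb} (hx : x ∈ A) (hy : y ∈ A) : fKy x y ∈ A := by
  unfold fKy
  exact sub_mem (add_mem (pow_mem hx 11)
    (mul_mem (mul_mem (ofNat_mem A 66) (pow_mem hx 6)) (pow_mem hy 5)))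
    (mul_mem (mul_mem (ofNat_mem A 11) hx) (pow_mem hy 10))

/-- A vector whose `HK` is integral and whose `fK` is a unit is integral (`5` a unit of `A`). -/
theorem mem_of_cone (hB : Klein.Bezout) (h5 : (5 : Qb) ∉ A.nonunits) {x y : Qb}
    (hH : A.valuation (HK x y) ≤ 1) (hf : A.valuation (fK x y) = 1) :
    A.valuation x ≤ 1 ∧ A.valuation y ≤ 1 := by
  have key : ∀ lam : Qb, 1 < A.valuation lam → A.valuation x ≤ A.valuation lam →
      A.valuation y ≤ A.valuation lam → x / lam ∈ A.nonunits ∧ y / lam ∈ A.nonunits := by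
    intro lam hlam hx hy
    have hpos : (0 : A.ValueGroup) < A.valuation lam := lt_trans zero_lt_one hlam
    have hx' : x / lam ∈ A :=
      (A.valuation_le_one_iff _).1 (by rw [map_div₀]; exact (div_le_one₀ hpos).2 hx)
    have hy' : y / lam ∈ A :=
      (A.valuation_le_one_iff _).1 (by rw [map_div₀]; exact (div_le_one₀ hpos).2 hy)
    have e1 : HK (x / lam) (y / lam) = (lam⁻¹) ^ 20 * HK x y := by
      rw [← HK_smul, div_eq_inv_mul, div_eq_inv_mul]
    have e2 : fK (x / lam) (y / lam) = (lam⁻¹) ^ 12 * fK x y := by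
      rw [← fK_smul, div_eq_inv_mul, div_eq_inv_mul]
    have hinv : A.valuation lam⁻¹ < 1 := by
      rw [map_inv₀]
      exact inv_lt_one_of_one_lt₀ hlam
    have hinv0 : (0 : A.ValueGroup) ≤ A.valuation lam⁻¹ := zero_le
    refine hB A h5 _ _ hx' hy' ?_ ?_
    · show A.valuation (HK (x / lam) (y / lam)) < 1
      rw [e1, map_mul, map_pow]
      calc A.valuation lam⁻¹ ^ 20 * A.valuation (HK x y)
          ≤ A.valuation lam⁻¹ ^ 20 * 1 := mul_le_mul' le_rfl hH
        _ = A.valuation lam⁻¹ ^ 20 := mul_one _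
        _ < 1 := pow_lt_one₀ hinv0 hinv (by norm_num)
    · show A.valuation (fK (x / lam) (y / lam)) < 1
      rw [e2, map_mul, map_pow, hf, mul_one]
      exact pow_lt_one₀ hinv0 hinv (by norm_num)
  have hone : ¬ ((1 : Qb) ∈ A.nonunits) := by
    intro h
    have h' : A.valuation (1 : Qb) < 1 := h
    rw [map_one] at h'
    exact lt_irrefl _ h'
  by_contra hcon
  rcases le_total (A.valuation x) (A.valuation y) with hxy | hyx
  · have hy1 : 1 < A.valuation y := by
      by_contra h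
      exact hcon ⟨hxy.trans (not_lt.1 h), not_lt.1 h⟩
    have hy0 : y ≠ 0 := by
      rintro rfl
      rw [map_zero] at hy1
      exact not_lt_of_gt hy1 zero_lt_one
    obtain ⟨-, h2⟩ := key y hy1 hxy le_rfl
    rw [div_self hy0] at h2
    exact hone h2
  · have hx1 : 1 < A.valuation x := by
      by_contra h
      exact hcon ⟨not_lt.1 h, hyx.trans (not_lt.1 h)⟩
    have hx0 : x ≠ 0 := by
      rintro rfl
      rw [map_zero] at hx1
      exact not_lt_of_gt hx1 zero_lt_one
    obtain ⟨h1, -⟩ := key x hx1 le_rfl hyx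
    rw [div_self hx0] at h1
    exact hone h1

/-- **(SSB), core.** -/
theorem famSS_core (hB : Klein.Bezout) {c4 c6 : ℤ} {v : Fin 2 → Qb}
    (hH : HK (v 0) (v 1) = -(c4 : Qb)) (hT : TK (v 0) (v 1) = -(c6 : Qb))
    {l m c4' c6' : ℤ} (hlm : IsCoprime l m)
    (hH' : HK (vLM v l m 0) (vLM v l m 1) = -(c4' : Qb))
    (hT' : TK (vLM v l m 0) (vLM v l m 1) = -(c6' : Qb))
    {p : ℕ} (hp : p.Prime) (hp30 : ¬ (p : ℤ) ∣ 30 * (c4 ^ 3 - c6 ^ 2))
    (hpΔ : (p : ℤ) ∣ c4' ^ 3 - c6' ^ 2) : ¬ (p : ℤ) ∣ c4' := by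
  intro hp4
  obtain ⟨A, hA⟩ := Fermat.Agent.Lib.FrobeniusExists.exists_liesOverPrime hp
  have hpi : Prime (p : ℤ) := Nat.prime_iff_prime_int.mp hp
  -- the small primes and the discriminant are units at `p`
  have hp30' : ¬ (p : ℤ) ∣ 30 := fun h => hp30 (Dvd.dvd.mul_right h _)
  have hpΔ0 : ¬ (p : ℤ) ∣ (c6 ^ 2 - c4 ^ 3) := fun h =>
    hp30 (Dvd.dvd.mul_left (by
      have : c4 ^ 3 - c6 ^ 2 = -(c6 ^ 2 - c4 ^ 3) := by ring
      rw [this]
      exact (dvd_neg).2 h) _)
  have hp2 : ¬ (p : ℤ) ∣ 2 := fun h => hp30' (h.trans ⟨15, by norm_num⟩)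
  have hp3 : ¬ (p : ℤ) ∣ 3 := fun h => hp30' (h.trans ⟨10, by norm_num⟩)
  have hp5 : ¬ (p : ℤ) ∣ 5 := fun h => hp30' (h.trans ⟨6, by norm_num⟩)
  have hp12 : ¬ (p : ℤ) ∣ 12 := by
    intro h
    have e : (12 : ℤ) = 2 * (2 * 3) := by norm_num
    rw [e] at h
    rcases hpi.dvd_or_dvd h with h | h
    · exact hp2 h
    · rcases hpi.dvd_or_dvd h with h | h
      · exact hp2 h
      · exact hp3 h
  have hp1728 : ¬ (p : ℤ) ∣ 1728 := by
    intro h
    have e : (1728 : ℤ) = 12 ^ 3 := by norm_num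
    rw [e] at h
    exact hp12 (hpi.dvd_of_dvd_pow h)
  have h5 : (5 : Qb) ∉ A.nonunits := by
    intro h
    have h' : A.valuation ((5 : ℤ) : Qb) < 1 := by
      have : ((5 : ℤ) : Qb) = 5 := by norm_num
      rw [this]
      exact h
    exact hp5 (dvd_of_val_intCast_lt hp hA h')
  have hv12 : A.valuation (12 : Qb) = 1 := by
    have h := val_intCast_eq_one hp hA hp12
    have e : ((12 : ℤ) : Qb) = 12 := by norm_num
    rwa [e] at h
  have hv1728 : A.valuation (1728 : Qb) = 1 := by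
    have h := val_intCast_eq_one hp hA hp1728
    have e : ((1728 : ℤ) : Qb) = 1728 := by norm_num
    rwa [e] at h
  -- `fK v` is a unit
  have hsyz := syzygy (v 0) (v 1)
  rw [hH, hT] at hsyz
  have hfv : A.valuation (fK (v 0) (v 1)) = 1 := by
    have e : (1728 : Qb) * fK (v 0) (v 1) ^ 5 = ((c6 ^ 2 - c4 ^ 3 : ℤ) : Qb) := by
      rw [← hsyz]
      push_cast
      ring
    have h1 := congrArg A.valuation e
    rw [map_mul, map_pow, hv1728, one_mul, val_intCast_eq_one hp hA hpΔ0] at h1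
    exact (pow_eq_one_iff_of_nonneg zero_le (by norm_num)).1 h1
  -- `v` is integral
  have hHv : A.valuation (HK (v 0) (v 1)) ≤ 1 := by
    rw [hH, Valuation.map_neg]
    exact val_intCast_le A c4
  obtain ⟨hx, hy⟩ := mem_of_cone hB h5 hHv hfv
  have hxA : v 0 ∈ A := (A.valuation_le_one_iff _).1 hx
  have hyA : v 1 ∈ A := (A.valuation_le_one_iff _).1 hy
  have hfxA : fKx (v 0) (v 1) ∈ A := fKx_mem hxA hyA
  have hfyA : fKy (v 0) (v 1) ∈ A := fKy_mem hxA hyA
  -- the family vector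
  have hV0 : vLM v l m 0 = (l : Qb) * v 0 - (m : Qb) * fKy (v 0) (v 1) := rfl
  have hV1 : vLM v l m 1 = (l : Qb) * v 1 + (m : Qb) * fKx (v 0) (v 1) := rfl
  have hV0A : vLM v l m 0 ∈ A := by
    rw [hV0]
    exact sub_mem (mul_mem (intCast_mem' A l) hxA) (mul_mem (intCast_mem' A m) hfyA)
  have hV1A : vLM v l m 1 ∈ A := by
    rw [hV1]
    exact add_mem (mul_mem (intCast_mem' A l) hyA) (mul_mem (intCast_mem' A m) hfxA)
  -- `HK V` and `fK V` lie in the maximal ideal
  have hHV : HK (vLM v l m 0) (vLM v l m 1) ∈ A.nonunits := by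
    show A.valuation (HK (vLM v l m 0) (vLM v l m 1)) < 1
    rw [hH', Valuation.map_neg]
    exact val_intCast_lt_of_dvd hA hp4
  have hsyz' := syzygy (vLM v l m 0) (vLM v l m 1)
  rw [hH', hT'] at hsyz'
  have hfV : fK (vLM v l m 0) (vLM v l m 1) ∈ A.nonunits := by
    show A.valuation (fK (vLM v l m 0) (vLM v l m 1)) < 1
    have e : (1728 : Qb) * fK (vLM v l m 0) (vLM v l m 1) ^ 5
        = ((-(c4' ^ 3 - c6' ^ 2) : ℤ) : Qb) := by
      rw [← hsyz']
      push_cast
      ring
    have h1 := congrArg A.valuation e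
    rw [map_mul, map_pow, hv1728, one_mul] at h1
    have h2 : A.valuation (((-(c4' ^ 3 - c6' ^ 2) : ℤ) : Qb)) < 1 :=
      val_intCast_lt_of_dvd hA ((dvd_neg).2 hpΔ)
    rw [← h1] at h2
    by_contra hge
    have hge' : 1 ≤ A.valuation (fK (vLM v l m 0) (vLM v l m 1)) := not_lt.1 hge
    exact not_le_of_gt h2 (one_le_pow₀ hge')
  obtain ⟨hV0m, hV1m⟩ := hB A h5 _ _ hV0A hV1A hHV hfV
  have hV0m' : A.valuation (vLM v l m 0) < 1 := hV0m
  have hV1m' : A.valuation (vLM v l m 1) < 1 := hV1m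
  -- Cramer
  have hmul_lt : ∀ a b : Qb, A.valuation a < 1 → A.valuation b ≤ 1 → A.valuation (a * b) < 1 := by
    intro a b ha hb
    rw [map_mul]
    calc A.valuation a * A.valuation b ≤ A.valuation a * 1 := mul_le_mul' le_rfl hb
      _ = A.valuation a := mul_one _
      _ < 1 := ha
  have hl : A.valuation (l : Qb) < 1 := by
    have e := cramer_l (l : Qb) (m : Qb) (v 0) (v 1)
    rw [← hV0, ← hV1] at e
    have h1 : A.valuation ((l : Qb) * (12 * fK (v 0) (v 1))) < 1 := by
      rw [← e]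
      refine lt_of_le_of_lt (A.valuation.map_add _ _) (max_lt ?_ ?_)
      · exact hmul_lt _ _ hV0m' ((A.valuation_le_one_iff _).2 hfxA)
      · exact hmul_lt _ _ hV1m' ((A.valuation_le_one_iff _).2 hfyA)
    rwa [map_mul, map_mul, hv12, hfv, mul_one, mul_one] at h1
  have hm : A.valuation (m : Qb) < 1 := by
    have e := cramer_m (l : Qb) (m : Qb) (v 0) (v 1)
    rw [← hV0, ← hV1] at e
    have h1 : A.valuation ((m : Qb) * (12 * fK (v 0) (v 1))) < 1 := by
      rw [← e]
      refine lt_of_le_of_lt (A.valuation.map_sub _ _) (max_lt ?_ ?_)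
      · rw [mul_comm]
        exact hmul_lt _ _ hV1m' hx
      · rw [mul_comm]
        exact hmul_lt _ _ hV0m' hy
    rwa [map_mul, map_mul, hv12, hfv, mul_one, mul_one] at h1
  have hpl : (p : ℤ) ∣ l := dvd_of_val_intCast_lt hp hA hl
  have hpm : (p : ℤ) ∣ m := dvd_of_val_intCast_lt hp hA hm
  obtain ⟨a, b, hab⟩ := hlm
  have hp1 : (p : ℤ) ∣ 1 := by
    rw [← hab]
    exact dvd_add (Dvd.dvd.mul_left hpl a) (Dvd.dvd.mul_left hpm b)
  exact hpi.not_dvd_one hp1

/-- **(SSB)** = `FamSS`, from the Bezout brick. -/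
theorem famSS (hB : Klein.Bezout) : FamSS := by
  intro ζ _ c4 c6 v _ hbase l m c4' c6' hlm hH' hT' p hp hp30 hpΔ
  exact famSS_core hB hbase.1 hbase.2.1 hlm hH' hT' hp hp30 hpΔ

end Main

end Fermat.Agent.S52K.FamSS70
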