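/-
S52K (3–5 switch), assembly `FamSeam` (helper46): the family through `W`.

From the Klein-layer bricks (a base vector `v₀` of `(c₄, c₆)(W)`, integrality of the plane
`l v₀ + m J∇f(v₀)`, equality of 5-torsion along the plane, semistability outside `30 Δ`, the
twist fibre at a `(+1, -1)`-Frobenius prime) and the two model bricks (`ShortCong`,
`ModelExists`) we get `FamilyExists`: with `N = 30 Δ²` and `n = D · 1728 · N`, for
`(l, m) ≡ (1, 0) (mod n)` the fibre has invariants `(c₄', c₆') ≡ (c₄, c₆) (mod 1728 N)`, hence a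
model `W'` with `Δ' ≡ Δ (mod N)`; so `Δ' ≠ 0`, `W'` is semistable at the primes dividing `30 Δ`
by closeness and elsewhere by `FamSS`, and `W'[5] ≅ W[5]` through the short models.
-/
import Mathlib
import Fermat.Agent.S52K.Interfaces

set_option autoImplicit false

namespace Fermat.Agent.S52K.FamSeam46

open Fermat.Agent.S58 WeierstrassCurve Fermat.Agent.S52K Fermat.Agent.S52K.Klein

/-! ### A primitive fifth root of unity -/

theorem exists_isZ5 : ∃ ζ : Qb, IsZ5 ζ := by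
  have hdeg : (Polynomial.X ^ 4 + Polynomial.X ^ 3 + Polynomial.X ^ 2 + Polynomial.X + 1 :
      Polynomial Qb).natDegree = 4 := by compute_degree!
  have hne : (Polynomial.X ^ 4 + Polynomial.X ^ 3 + Polynomial.X ^ 2 + Polynomial.X + 1 :
      Polynomial Qb).degree ≠ 0 := by
    intro h0
    have := Polynomial.natDegree_eq_of_degree_eq_some h0
    rw [hdeg] at this
    norm_num at this
  obtain ⟨ζ, hζ⟩ := IsAlgClosed.exists_root _ hne
  refine ⟨ζ, ?_⟩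
  have := hζ
  simp only [Polynomial.IsRoot, Polynomial.eval_add, Polynomial.eval_pow, Polynomial.eval_X,
    Polynomial.eval_one] at this
  exact this

/-! ### `Cong5` is transitive and transports `PlusMinus` -/

section Cong

variable {W W' : WeierstrassCurve ℤ} {ψ : EPt W → EPt W'}

theorem map_zero_of_add
    (hadd : ∀ P Q : EPt W, (5 : ℕ) • P = 0 → (5 : ℕ) • Q = 0 → ψ (P + Q) = ψ P + ψ Q) :
    ψ 0 = 0 := by
  have h := hadd 0 0 (nsmul_zero _) (nsmul_zero _)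
  rw [add_zero] at h
  exact (add_eq_left.1 h.symm)

theorem map_nsmul_of_add
    (hadd : ∀ P Q : EPt W, (5 : ℕ) • P = 0 → (5 : ℕ) • Q = 0 → ψ (P + Q) = ψ P + ψ Q)
    {P : EPt W} (hP : (5 : ℕ) • P = 0) (k : ℕ) : ψ (k • P) = k • ψ P := by
  induction k with
  | zero => rw [zero_nsmul, zero_nsmul]; exact map_zero_of_add hadd
  | succ k ih =>
    have hk : (5 : ℕ) • (k • P) = 0 := by
      rw [← mul_nsmul', mul_comm, mul_nsmul', hP, nsmul_zero]
    rw [succ_nsmul, succ_nsmul, hadd _ _ hk hP, ih]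

theorem torsion_of_add
    (hadd : ∀ P Q : EPt W, (5 : ℕ) • P = 0 → (5 : ℕ) • Q = 0 → ψ (P + Q) = ψ P + ψ Q)
    {P : EPt W} (hP : (5 : ℕ) • P = 0) : (5 : ℕ) • ψ P = 0 := by
  rw [← map_nsmul_of_add hadd hP 5, hP]
  exact map_zero_of_add hadd

theorem map_neg_of_add
    (hadd : ∀ P Q : EPt W, (5 : ℕ) • P = 0 → (5 : ℕ) • Q = 0 → ψ (P + Q) = ψ P + ψ Q)
    {P : EPt W} (hP : (5 : ℕ) • P = 0) : ψ (-P) = -ψ P := by
  have hP' : (5 : ℕ) • (-P) = 0 := by rw [neg_nsmul, hP, neg_zero]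
  have h := hadd P (-P) hP hP'
  rw [add_neg_cancel, map_zero_of_add hadd] at h
  exact (neg_eq_of_add_eq_zero_right h.symm).symm

end Cong

theorem cong5_trans {W₁ W₂ W₃ : WeierstrassCurve ℤ} (h₁₂ : Cong5 W₁ W₂) (h₂₃ : Cong5 W₂ W₃) :
    Cong5 W₁ W₃ := by
  obtain ⟨ψ₁, hadd₁, hinj₁, heq₁⟩ := h₁₂
  obtain ⟨ψ₂, hadd₂, hinj₂, heq₂⟩ := h₂₃
  refine ⟨fun P => ψ₂ (ψ₁ P), ?_, ?_, ?_⟩
  · intro P Q hP hQ
    show ψ₂ (ψ₁ (P + Q)) = ψ₂ (ψ₁ P) + ψ₂ (ψ₁ Q)
    rw [hadd₁ P Q hP hQ, hadd₂ _ _ (torsion_of_add hadd₁ hP) (torsion_of_add hadd₁ hQ)]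
  · intro P hP h0
    exact hinj₁ P hP (hinj₂ _ (torsion_of_add hadd₁ hP) h0)
  · intro σ P hP
    show ψ₂ (ψ₁ (σ • P)) = σ • ψ₂ (ψ₁ P)
    rw [heq₁ σ P hP, heq₂ σ _ (torsion_of_add hadd₁ hP)]

theorem plusMinus_of_cong5 {W W' : WeierstrassCurve ℤ} (h : Cong5 W W') {φ : GQ}
    (hpm : PlusMinus W φ) : PlusMinus W' φ := by
  obtain ⟨ψ, hadd, hinj, heq⟩ := h
  obtain ⟨Pp, Pm, hp0, hm0, hp5, hm5, hpf, hmf⟩ := hpm
  refine ⟨ψ Pp, ψ Pm, fun h0 => hp0 (hinj Pp hp5 h0), fun h0 => hm0 (hinj Pm hm5 h0),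
    torsion_of_add hadd hp5, torsion_of_add hadd hm5, ?_, ?_⟩
  · rw [← heq φ Pp hp5, hpf]
  · rw [← heq φ Pm hm5, hmf, map_neg_of_add hadd hm5]

/-! ### Arithmetic of the modulus -/

/-- A prime dividing `1728` divides `30`. -/
theorem prime_dvd_thirty_of_dvd {p : ℕ} (hp : p.Prime) (h : (p : ℤ) ∣ 1728) : (p : ℤ) ∣ 30 := by
  have hpprime : Prime (p : ℤ) := Nat.prime_iff_prime_int.1 hp
  have h1 : (p : ℤ) ∣ 30 ^ 6 := h.trans ⟨421875, by norm_num⟩
  exact hpprime.dvd_of_dvd_pow h1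

/-! ### The family seam -/

/-- **The family seam.** -/
theorem famSeam : FamSeam := by
  intro hBase hK5 hInt hSS hTw hShort hModel W hΔ hss
  obtain ⟨ζ, hζ⟩ := exists_isZ5
  have hrel : W.c₄ ^ 3 - W.c₆ ^ 2 = 1728 * W.Δ := (W.c_relation).symm
  have hne : W.c₄ ^ 3 - W.c₆ ^ 2 ≠ 0 := by
    rw [hrel]
    exact mul_ne_zero (by norm_num) hΔ
  obtain ⟨v, hv⟩ := hBase ζ hζ W.c₄ W.c₆ hne
  obtain ⟨D, hD, hDspec⟩ := hInt ζ hζ W.c₄ W.c₆ v hne hv
  -- the moduli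
  set N : ℤ := 30 * W.Δ ^ 2 with hN
  have hΔ2 : 0 < W.Δ ^ 2 := by positivity
  have hNpos : 0 < N := by rw [hN]; positivity
  have hMpos : 0 < D * (1728 * N) := by positivity
  set n : ℕ := (D * (1728 * N)).natAbs with hn
  have hncast : (n : ℤ) = D * (1728 * N) := by
    rw [hn, Int.natCast_natAbs, abs_of_pos hMpos]
  -- the fibres
  have hex : ∀ l m : ℤ, (n : ℤ) ∣ l - 1 → (n : ℤ) ∣ m →
      ∃ (W' : WeierstrassCurve ℤ) (c4' c6' : ℤ),
        HK (vLM v l m 0) (vLM v l m 1) = -(c4' : Qb) ∧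
        TK (vLM v l m 0) (vLM v l m 1) = -(c6' : Qb) ∧
        W'.c₄ = c4' ∧ W'.c₆ = c6' ∧ N ∣ W'.Δ - W.Δ ∧ N ∣ c4' - W.c₄ := by
    intro l m hl hm
    rw [hncast] at hl hm
    obtain ⟨c4', c6', hH, hT, h4, h6⟩ := hDspec l m (1728 * N) hl hm
    obtain ⟨W', e4, e6, hΔ'⟩ := hModel W c4' c6' N h4 h6
    exact ⟨W', c4', c6', hH, hT, e4, e6, hΔ', (dvd_mul_left N 1728).trans h4⟩
  choose! Wf c4f c6f hf using hex
  refine ⟨n, Wf, ?_, ?_, ?_, ?_⟩
  · -- `0 < n`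
    rw [hn]
    exact Int.natAbs_pos.2 hMpos.ne'
  · -- `30 |Δ| ∣ n`
    rw [hn, ← Int.natCast_dvd]
    push_cast
    obtain ⟨c, hc⟩ : (W.Δ.natAbs : ℤ) ∣ W.Δ := Int.natAbs_dvd.2 dvd_rfl
    refine ⟨D * 1728 * c * W.Δ, ?_⟩
    rw [hN]
    have : (W.Δ.natAbs : ℤ) = |W.Δ| := Int.natCast_natAbs _
    rw [← this]
    linear_combination (D * 1728 * 30 * W.Δ) * hc
  · -- the fibres: non-singular, semistable, same 5-torsion
    intro l m hlm hl hm
    obtain ⟨hH, hT, e4, e6, hNΔ, hN4⟩ := hf l m hl hm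
    have hΔ' : (Wf l m).Δ ≠ 0 := by
      intro h0
      rw [h0, zero_sub, dvd_neg] at hNΔ
      obtain ⟨c, hc⟩ := hNΔ
      have h1 : W.Δ * (30 * (W.Δ * c) - 1) = 0 := by
        rw [hN] at hc
        linear_combination -hc
      rcases mul_eq_zero.1 h1 with h2 | h2
      · exact hΔ h2
      · have h3 : (30 : ℤ) ∣ 1 := ⟨W.Δ * c, by linear_combination -h2⟩
        norm_num at h3
    have hrel' : (c4f l m) ^ 3 - (c6f l m) ^ 2 = 1728 * (Wf l m).Δ := by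
      rw [← e4, ← e6]
      exact ((Wf l m).c_relation).symm
    refine ⟨hΔ', ?_, ?_⟩
    · -- semistability
      intro p hp hpΔ' hpc4
      rw [e4] at hpc4
      have hpprime : Prime (p : ℤ) := Nat.prime_iff_prime_int.1 hp
      by_cases hp30 : (p : ℤ) ∣ 30 * W.Δ
      · -- closeness
        have hpN : (p : ℤ) ∣ N := by
          rw [hN]
          exact hp30.trans ⟨W.Δ, by ring⟩
        have hpΔ : (p : ℤ) ∣ W.Δ := by
          have h1 := dvd_sub hpΔ' (hpN.trans hNΔ)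
          rwa [sub_sub_cancel] at h1
        have hpc : (p : ℤ) ∣ W.c₄ := by
          have h1 := dvd_sub hpc4 (hpN.trans hN4)
          rwa [sub_sub_cancel] at h1
        exact hss p hp hpΔ hpc
      · -- outside `30 Δ`: brick `FamSS`
        refine hSS ζ hζ W.c₄ W.c₆ v hne hv l m (c4f l m) (c6f l m) hlm hH hT p hp ?_ ?_ hpc4
        · intro hdvd
          rw [hrel] at hdvd
          have h1 : (p : ℤ) ∣ 1728 * (30 * W.Δ) := by
            have e : (30 : ℤ) * (1728 * W.Δ) = 1728 * (30 * W.Δ) := by ring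
            rwa [e] at hdvd
          rcases hpprime.dvd_or_dvd h1 with h2 | h2
          · exact hp30 ((prime_dvd_thirty_of_dvd hp h2).trans (dvd_mul_right _ _))
          · exact hp30 h2
        · rw [hrel']
          exact hpΔ'.trans (dvd_mul_left _ _)
    · -- `Cong5 W (Wf l m)`
      have hne' : (c4f l m) ^ 3 - (c6f l m) ^ 2 ≠ 0 := by
        rw [hrel']
        exact mul_ne_zero (by norm_num) hΔ'
      have h1 : Cong5 W (Ws W.c₄ W.c₆) := (hShort W hΔ).1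
      have h2 : Cong5 (Ws W.c₄ W.c₆) (Ws (c4f l m) (c6f l m)) :=
        hK5 ζ hζ W.c₄ W.c₆ v hne hv l m (c4f l m) (c6f l m) hH hT hne'
      have h3 : Cong5 (Ws (c4f l m) (c6f l m)) (Wf l m) := by
        have := (hShort (Wf l m) hΔ').2
        rwa [e4, e6] at this
      exact cong5_trans (cong5_trans h1 h2) h3
  · -- the twist fibre
    intro r hr hrn A φ hA hφ hPM
    have hr' : ¬ (r : ℤ) ∣ 30 * (W.c₄ ^ 3 - W.c₆ ^ 2) := by
      intro hdvd
      apply hrn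
      rw [← Int.natCast_dvd_natCast, hncast]
      refine hdvd.trans ⟨D * W.Δ, ?_⟩
      rw [hrel, hN]
      ring
    have hPM' : PlusMinus (Ws W.c₄ W.c₆) φ := plusMinus_of_cong5 (hShort W hΔ).1 hPM
    obtain ⟨l₀, m₀, d, hnot, hd, hcong⟩ :=
      hTw ζ hζ W.c₄ W.c₆ v hne hv r hr hr' A φ hA hφ hPM'
    refine ⟨l₀, m₀, d, hnot, hd, fun l m _hlm hl hm hlr hmr => ?_⟩
    obtain ⟨hH, hT, e4, e6, -, -⟩ := hf l m hl hm
    have := hcong l m (c4f l m) (c6f l m) hlr hmr hH hT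
    rw [e4, e6]
    exact this

end Fermat.Agent.S52K.FamSeam46
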