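/-
S52K (3–5 switch), brick `FamTwist` (twin seat, helper68; route of report #4555).

`famTwist : PKSpec → RelSurj → Indep → Rigid → GalCompat → Bezout → FamTwist`.

Sketch.  `E : Y² = X³ - 27 c₄ X - 54 c₆`, `v` on its cone, `r ∤ 30 (c₄³ - c₆²)`, `φ` a Frobenius
at `A | r` with eigenvectors `P₊` (eigenvalue `1`) and `P₋` (eigenvalue `-1`) on `E[5]`.
* `det φ = -1 = r` on `E[5]`, so `r ≡ 4 (mod 5)` and `φ η = η⁴` for every fifth root of unity.
* Some `γ` of the icosahedral group moves the level structure of `v` to `(P₊, c P₋)`; by Galois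
  compatibility and rigidity `φ (γ v) = η (γ v)` with `η⁵ = 1`, and `ũ := η³ γ v` is fixed by `φ`.
* `φ (Ũ) = -Ũ` and `φ s = -s` for `s² = e`, `e` a non-residue mod `r`; so `w̃ := s Ũ ũ` is fixed by
  `φ`, and so are its coordinates `a, b` in the basis `ũ, J∇f(ũ)` (determinant `12 f(ũ)`, a unit
  of `A`).  They are congruent to integers `l₀, m₀` modulo the maximal ideal of `A`.
* `HK w̃ = e¹⁰ HK ũ`, `TK w̃ = e¹⁵ TK ũ`: the fibres with `(l, m) ≡ (l₀, m₀)` are congruent mod `r`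
  to the quadratic twist by `d = e⁵`.
-/
import Mathlib
import Fermat.Agent.S52K.Interfaces
import Fermat.Agent.S58.EpRep
import Fermat.Agent.PT.G.CycloField
import Fermat.Agent.Lib.FinFlat.DescentUnram
import Fermat.Agent.Lib.FinFlat.Conn
import Fermat.Agent.Lib.ValuationIntegral

set_option autoImplicit false
set_option linter.unusedSimpArgs false
set_option linter.unusedVariables false

namespace Fermat.Agent.S52K.FamTwist68

open Fermat.Agent.S58 WeierstrassCurve Fermat.Agent.S52K.Klein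
open scoped WeierstrassCurve.Affine

/-! ### Ring homomorphisms commute with the forms -/

section maps

variable {R S F : Type*} [CommRing R] [CommRing S] [FunLike F R S] [RingHomClass F R S] (f : F)

theorem map_HK (x y : R) : f (HK x y) = HK (f x) (f y) := by
  simp only [HK, map_add, map_sub, map_mul, map_pow, map_neg, map_ofNat]

theorem map_TK (x y : R) : f (TK x y) = TK (f x) (f y) := by
  simp only [TK, map_add, map_sub, map_mul, map_pow, map_neg, map_ofNat]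

theorem map_fK (x y : R) : f (fK x y) = fK (f x) (f y) := by
  simp only [fK, map_add, map_sub, map_mul, map_pow, map_neg, map_ofNat]

theorem map_fKx (x y : R) : f (fKx x y) = fKx (f x) (f y) := by
  simp only [fKx, map_add, map_sub, map_mul, map_pow, map_neg, map_ofNat]

theorem map_fKy (x y : R) : f (fKy x y) = fKy (f x) (f y) := by
  simp only [fKy, map_add, map_sub, map_mul, map_pow, map_neg, map_ofNat]

theorem map_uA (z : R) : f (uA z) = uA (f z) := by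
  simp only [uA, map_add, map_sub, map_mul, map_pow, map_neg, map_ofNat, map_one]

theorem map_uB (z : R) : f (uB z) = uB (f z) := by
  simp only [uB, map_add, map_sub, map_mul, map_pow, map_neg, map_ofNat, map_one]

end maps

theorem uA_pow_four {R : Type*} [CommRing R] (ζ : R) (hζ : ζ ^ 4 + ζ ^ 3 + ζ ^ 2 + ζ + 1 = 0) :
    uA (ζ ^ 4) = -uA ζ := by
  simp only [uA]
  linear_combination (ζ ^ 8 - ζ ^ 7 - 3 * ζ ^ 4 + 4 * ζ ^ 3 - ζ ^ 2 - 2) * hζ

theorem uB_pow_four {R : Type*} [CommRing R] (ζ : R) (hζ : ζ ^ 4 + ζ ^ 3 + ζ ^ 2 + ζ + 1 = 0) :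
    uB (ζ ^ 4) = -uB ζ := by
  simp only [uB]
  linear_combination (3 * ζ ^ 8 - 3 * ζ ^ 7 + ζ ^ 4 + 2 * ζ ^ 3 - 3 * ζ ^ 2 + 4) * hζ

/-! ### Valuation subrings of `ℚ̄` -/

section val

open Fermat.Agent.Lib.FinFlat

variable (A : ValuationSubring Qb)

theorem pow_mem_nonunits {c : Qb} (hc : c ∈ A.nonunits) {n : ℕ} (hn : n ≠ 0) :
    c ^ n ∈ A.nonunits := by
  obtain ⟨k, rfl⟩ := Nat.exists_eq_succ_of_ne_zero hn
  rw [pow_succ]
  exact nonunits_mul_mem_left (pow_mem (mem_of_mem_nonunits hc) k) hc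

theorem inv_mem_nonunits {x : Qb} (hx : x ∉ A) : x⁻¹ ∈ A.nonunits := by
  rw [Fermat.Agent.PT.Levels.mem_nonunits_iff_inv, inv_inv]
  exact Or.inr hx

theorem mem_of_pow_mem {x : Qb} {n : ℕ} (hn : n ≠ 0) (h : x ^ n ∈ A) : x ∈ A := by
  by_contra hx
  have h2 : (x⁻¹) ^ n ∈ A.nonunits := pow_mem_nonunits A (inv_mem_nonunits A hx) hn
  have hx0 : x ≠ 0 := by
    rintro rfl
    exact hx A.zero_mem
  have h3 : x ^ n * (x⁻¹) ^ n = 1 := by
    rw [← mul_pow, mul_inv_cancel₀ hx0, one_pow]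
  exact one_notMem_nonunits A (h3 ▸ nonunits_mul_mem_left h h2)

theorem notMem_nonunits_of_pow {x : Qb} {n : ℕ} (hn : n ≠ 0) (h : x ^ n ∉ A.nonunits) :
    x ∉ A.nonunits := fun hx => h (pow_mem_nonunits A hx hn)

variable {A} {r : ℕ} (hr : r.Prime) (hA : A.LiesOverPrime r)

include hr hA in
theorem dvd_of_mem_nonunits {n : ℤ} (h : (n : Qb) ∈ A.nonunits) : (r : ℤ) ∣ n := by
  by_contra hn
  exact Fermat.Agent.Lib.ValuationIntegral.intCast_notMem_nonunits A hr hA hn h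

include hA in
theorem mem_nonunits_of_dvd {n : ℤ} (h : (r : ℤ) ∣ n) : (n : Qb) ∈ A.nonunits := by
  obtain ⟨k, rfl⟩ := h
  have h1 : (r : Qb) ∈ A.nonunits := hA
  have h2 : (((r : ℤ) * k : ℤ) : Qb) = (r : Qb) * (k : Qb) := by push_cast; ring
  rw [h2]
  exact nonunits_mul_mem_right h1 (intCast_mem A k)

include hr hA in
theorem inv_intCast_mem {n : ℤ} (hn : ¬ (r : ℤ) ∣ n) : ((n : Qb))⁻¹ ∈ A :=
  inv_mem_of_notMem_nonunits (intCast_mem A n) (fun h => hn (dvd_of_mem_nonunits hr hA h))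

variable (A)

theorem residue_eq_of_sub_mem {x y : Qb} (hx : x ∈ A) (hy : y ∈ A) (h : x - y ∈ A.nonunits) :
    IsLocalRing.residue A ⟨x, hx⟩ = IsLocalRing.residue A ⟨y, hy⟩ := by
  rw [← sub_eq_zero, ← map_sub, IsLocalRing.residue_eq_zero_iff]
  obtain ⟨ha, hm⟩ := ValuationSubring.mem_nonunits_iff_exists_mem_maximalIdeal.mp h
  exact hm

theorem sub_mem_of_residue_eq {X Y : A} (h : IsLocalRing.residue A X = IsLocalRing.residue A Y) :
    (X : Qb) - (Y : Qb) ∈ A.nonunits := by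
  rw [← sub_eq_zero, ← map_sub, IsLocalRing.residue_eq_zero_iff] at h
  rw [ValuationSubring.mem_nonunits_iff_exists_mem_maximalIdeal]
  exact ⟨(X - Y).2, h⟩

theorem cong_HK {x y x' y' : Qb} (hx : x ∈ A) (hy : y ∈ A) (hx' : x' ∈ A) (hy' : y' ∈ A)
    (h1 : x - x' ∈ A.nonunits) (h2 : y - y' ∈ A.nonunits) :
    HK x y - HK x' y' ∈ A.nonunits := by
  have e1 := residue_eq_of_sub_mem A hx hx' h1
  have e2 := residue_eq_of_sub_mem A hy hy' h2
  have h3 : IsLocalRing.residue A (HK ⟨x, hx⟩ ⟨y, hy⟩) =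
      IsLocalRing.residue A (HK ⟨x', hx'⟩ ⟨y', hy'⟩) := by
    rw [map_HK, map_HK, e1, e2]
  have h4 := sub_mem_of_residue_eq A h3
  have c1 : ((HK (⟨x, hx⟩ : A) ⟨y, hy⟩ : A) : Qb) = HK x y := map_HK A.subtype _ _
  have c2 : ((HK (⟨x', hx'⟩ : A) ⟨y', hy'⟩ : A) : Qb) = HK x' y' := map_HK A.subtype _ _
  rwa [c1, c2] at h4

theorem cong_TK {x y x' y' : Qb} (hx : x ∈ A) (hy : y ∈ A) (hx' : x' ∈ A) (hy' : y' ∈ A)
    (h1 : x - x' ∈ A.nonunits) (h2 : y - y' ∈ A.nonunits) :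
    TK x y - TK x' y' ∈ A.nonunits := by
  have e1 := residue_eq_of_sub_mem A hx hx' h1
  have e2 := residue_eq_of_sub_mem A hy hy' h2
  have h3 : IsLocalRing.residue A (TK ⟨x, hx⟩ ⟨y, hy⟩) =
      IsLocalRing.residue A (TK ⟨x', hx'⟩ ⟨y', hy'⟩) := by
    rw [map_TK, map_TK, e1, e2]
  have h4 := sub_mem_of_residue_eq A h3
  have c1 : ((TK (⟨x, hx⟩ : A) ⟨y, hy⟩ : A) : Qb) = TK x y := map_TK A.subtype _ _
  have c2 : ((TK (⟨x', hx'⟩ : A) ⟨y', hy'⟩ : A) : Qb) = TK x' y' := map_TK A.subtype _ _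
  rwa [c1, c2] at h4

/-- A vector whose `HK` and `fK` are integral at `A` (residue characteristic `≠ 5`) is integral
at `A`. -/
theorem cone_mem (hBez : Klein.Bezout) (h5 : (5 : Qb) ∉ A.nonunits) {x y : Qb}
    (hH : HK x y ∈ A) (hf : fK x y ∈ A) : x ∈ A ∧ y ∈ A := by
  by_contra hcon
  have key : ∃ c : Qb, c ∈ A.nonunits ∧ c * x ∈ A ∧ c * y ∈ A ∧ (c * x = 1 ∨ c * y = 1) := by
    rcases le_total (A.valuation x) (A.valuation y) with hxy | hxy
    · have hy : y ∉ A := fun hy => hcon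
        ⟨(A.valuation_le_one_iff x).mp (hxy.trans ((A.valuation_le_one_iff y).mpr hy)), hy⟩
      have hy0 : y ≠ 0 := fun h => hy (h ▸ A.zero_mem)
      have hvy : A.valuation y ≠ 0 := (Valuation.ne_zero_iff _).mpr hy0
      refine ⟨y⁻¹, inv_mem_nonunits A hy, ?_, ?_, Or.inr (inv_mul_cancel₀ hy0)⟩
      · rw [← A.valuation_le_one_iff, map_mul, map_inv₀,
          inv_mul_le_iff₀ (zero_lt_iff.mpr hvy), mul_one]
        exact hxy
      · rw [inv_mul_cancel₀ hy0]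
        exact A.one_mem
    · have hx : x ∉ A := fun hx => hcon
        ⟨hx, (A.valuation_le_one_iff y).mp (hxy.trans ((A.valuation_le_one_iff x).mpr hx))⟩
      have hx0 : x ≠ 0 := fun h => hx (h ▸ A.zero_mem)
      have hvx : A.valuation x ≠ 0 := (Valuation.ne_zero_iff _).mpr hx0
      refine ⟨x⁻¹, inv_mem_nonunits A hx, ?_, ?_, Or.inl (inv_mul_cancel₀ hx0)⟩
      · rw [inv_mul_cancel₀ hx0]
        exact A.one_mem
      · rw [← A.valuation_le_one_iff, map_mul, map_inv₀,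
          inv_mul_le_iff₀ (zero_lt_iff.mpr hvx), mul_one]
        exact hxy
  obtain ⟨c, hc, hcx, hcy, h1⟩ := key
  have hH' : HK (c * x) (c * y) ∈ A.nonunits := by
    rw [HK_smul]
    exact nonunits_mul_mem_right (pow_mem_nonunits A hc (by norm_num)) hH
  have hf' : fK (c * x) (c * y) ∈ A.nonunits := by
    rw [fK_smul]
    exact nonunits_mul_mem_right (pow_mem_nonunits A hc (by norm_num)) hf
  obtain ⟨h1x, h1y⟩ := hBez A h5 (c * x) (c * y) hcx hcy hH' hf'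
  rcases h1 with h | h
  · exact one_notMem_nonunits A (h ▸ h1x)
  · exact one_notMem_nonunits A (h ▸ h1y)

end val

/-! ### Frobenius elements -/

section frob

open Fermat.Agent.Lib.FinFlat

variable {A : ValuationSubring Qb} {r : ℕ} {φ : GQ} (hr : r.Prime) (hA : A.LiesOverPrime r)
  (hφ : A.IsFrobeniusAt φ r)

include hr hA hφ in
/-- An element of `A` fixed by a Frobenius is congruent to an integer. -/
theorem frob_fixed_int {x : Qb} (hx : x ∈ A) (hfix : φ x = x) :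
    ∃ n : ℤ, x - (n : Qb) ∈ A.nonunits := by
  have h := Fermat.Agent.PT.G.frobenius_sub_pow_mem_nonunits A φ r hφ hx
  rw [hfix] at h
  exact Fermat.Agent.PT.G.exists_int_sub_mem_nonunits hr A hA hx h

include hr hA hφ in
/-- A Frobenius at `r` negates the square roots of the non-residues mod `r`. -/
theorem frob_sqrt (hr2 : r ≠ 2) {e : ℤ} (he : ¬ IsSquare (e : ZMod r)) {s : Qb}
    (hs : s ^ 2 = (e : Qb)) : φ s = -s := by
  have : Fact r.Prime := ⟨hr⟩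
  have hsA : s ∈ A := mem_of_pow_mem A two_ne_zero (hs ▸ intCast_mem A e)
  have he0 : (e : ZMod r) ≠ 0 := fun h => he (h ▸ IsSquare.zero)
  have hE : (e : ZMod r) ^ (r / 2) = -1 := by
    rcases ZMod.pow_div_two_eq_neg_one_or_one r he0 with h | h
    · exact absurd ((ZMod.euler_criterion r he0).mpr h) he
    · exact h
  have hdvd : (r : ℤ) ∣ e ^ (r / 2) + 1 := by
    rw [← ZMod.intCast_zmod_eq_zero_iff_dvd]
    push_cast
    rw [hE]
    ring
  have h1 : ((e ^ (r / 2) + 1 : ℤ) : Qb) ∈ A.nonunits := mem_nonunits_of_dvd hA hdvd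
  have hodd : r = 2 * (r / 2) + 1 := by
    have := hr.eq_two_or_odd
    omega
  have h2 : s ^ r + s = s * ((e ^ (r / 2) + 1 : ℤ) : Qb) := by
    conv_lhs => rw [hodd]
    rw [pow_succ, pow_mul, hs]
    push_cast
    ring
  have h3 : s ^ r + s ∈ A.nonunits := h2 ▸ nonunits_mul_mem_left hsA h1
  have h4 := Fermat.Agent.PT.G.frobenius_sub_pow_mem_nonunits A φ r hφ hsA
  have h5 : φ s + s ∈ A.nonunits := by
    have h45 := nonunits_add_mem h4 h3
    have e45 : φ s - s ^ r + (s ^ r + s) = φ s + s := by ring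
    rwa [e45] at h45
  have h6 : φ s ^ 2 = s ^ 2 := by rw [← map_pow, hs, map_intCast]
  rcases sq_eq_sq_iff_eq_or_eq_neg.mp h6 with h | h
  · exfalso
    rw [h] at h5
    have h7 : ((4 * e : ℤ) : Qb) ∈ A.nonunits := by
      have : ((4 * e : ℤ) : Qb) = (s + s) * (s + s) := by
        push_cast
        rw [← hs]
        ring
      rw [this]
      exact nonunits_mul_mem_left (mem_of_mem_nonunits h5) h5
    have h8 := dvd_of_mem_nonunits hr hA h7
    have h9 : (r : ℤ) ∣ e := by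
      rcases (Nat.prime_iff_prime_int.mp hr).dvd_or_dvd h8 with h | h
      · exfalso
        have h10 : r ∣ 2 ^ 2 := by
          have : (r : ℤ) ∣ ((2 ^ 2 : ℕ) : ℤ) := by simpa using h
          exact Int.natCast_dvd_natCast.mp this
        exact hr2 ((Nat.prime_dvd_prime_iff_eq hr Nat.prime_two).mp (hr.dvd_of_dvd_pow h10))
      · exact h
    exact he0 ((ZMod.intCast_zmod_eq_zero_iff_dvd e r).mpr h9)
  · exact h

end frob

/-! ### The curve, the cone and the covariance -/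

/-- The curve `Y² = X³ - 27 c₄ X - 54 c₆` over `ℚ̄`. -/
noncomputable abbrev EK (c4 c6 : ℤ) : WeierstrassCurve Qb := (EQ (Ws c4 c6)).toAffine⁄Qb

theorem isKl_of (c4 c6 : ℤ) (hd : c4 ^ 3 - c6 ^ 2 ≠ 0) (w : Fin 2 → Qb)
    (h4 : HK (w 0) (w 1) = -(c4 : Qb)) (h6 : TK (w 0) (w 1) = -(c6 : Qb)) :
    IsKl (EK c4 c6) w := by
  refine ⟨?_, ?_, ?_, ?_, ?_, ?_⟩
  · simp [EK, Ws, EQ]
  · simp [EK, Ws, EQ]
  · simp [EK, Ws, EQ]
  · rw [h4]; simp [EK, Ws, EQ]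
  · rw [h6]; simp [EK, Ws, EQ]
  · intro hf
    have hs := syzygy (w 0) (w 1)
    rw [h4, h6, hf] at hs
    apply hd
    have : ((c4 ^ 3 - c6 ^ 2 : ℤ) : Qb) = 0 := by
      push_cast
      linear_combination -hs
    exact_mod_cast this

theorem Ws_Δ (c4 c6 : ℤ) : (Ws c4 c6).Δ = 1259712 * (c4 ^ 3 - c6 ^ 2) := by
  simp only [Ws, WeierstrassCurve.Δ, WeierstrassCurve.b₂, WeierstrassCurve.b₄, WeierstrassCurve.b₆,
    WeierstrassCurve.b₈]
  ring

theorem mulVec_zero (γ : Matrix (Fin 2) (Fin 2) Qb) (w : Fin 2 → Qb) :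
    γ.mulVec w 0 = γ 0 0 * w 0 + γ 0 1 * w 1 := by
  simp [Matrix.mulVec, dotProduct, Fin.sum_univ_two]

theorem mulVec_one (γ : Matrix (Fin 2) (Fin 2) Qb) (w : Fin 2 → Qb) :
    γ.mulVec w 1 = γ 1 0 * w 0 + γ 1 1 * w 1 := by
  simp [Matrix.mulVec, dotProduct, Fin.sum_univ_two]

/-- Invariance of the forms and covariance of `J∇fK` under a matrix, in coordinates. -/
def Cov (γ : Matrix (Fin 2) (Fin 2) Qb) : Prop :=
  ∀ X Y : Qb,
    fK (γ 0 0 * X + γ 0 1 * Y) (γ 1 0 * X + γ 1 1 * Y) = fK X Y ∧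
    HK (γ 0 0 * X + γ 0 1 * Y) (γ 1 0 * X + γ 1 1 * Y) = HK X Y ∧
    TK (γ 0 0 * X + γ 0 1 * Y) (γ 1 0 * X + γ 1 1 * Y) = TK X Y ∧
    -(fKy (γ 0 0 * X + γ 0 1 * Y) (γ 1 0 * X + γ 1 1 * Y)) =
      γ 0 0 * (-(fKy X Y)) + γ 0 1 * fKx X Y ∧
    fKx (γ 0 0 * X + γ 0 1 * Y) (γ 1 0 * X + γ 1 1 * Y) =
      γ 1 0 * (-(fKy X Y)) + γ 1 1 * fKx X Y

theorem cov_of_rel {ζ : Qb} {γ : Matrix (Fin 2) (Fin 2) Qb} {p q r s : ℤ}
    (h : Rel ζ γ p q r s) : Cov γ := by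
  intro X Y
  obtain ⟨h1, h2, h3, h4⟩ := h.2.1 ![X, Y]
  rw [mulVec_zero, mulVec_one] at h1 h2 h3
  simp only [Matrix.cons_val_zero, Matrix.cons_val_one] at h1 h2 h3
  refine ⟨h1, h2, h3, ?_, ?_⟩
  · have := congrFun h4 0
    rw [mulVec_zero, mulVec_zero, mulVec_one] at this
    simpa using this
  · have := congrFun h4 1
    rw [mulVec_one, mulVec_zero, mulVec_one] at this
    simpa using this

theorem isKl_mulVec {γ : Matrix (Fin 2) (Fin 2) Qb} (hγ : Cov γ) {E : WeierstrassCurve Qb}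
    {w : Fin 2 → Qb} (hw : IsKl E w) : IsKl E (γ.mulVec w) := by
  obtain ⟨h1, h2, h3, h4, h6, hf⟩ := hw
  obtain ⟨c1, c2, c3, -, -⟩ := hγ (w 0) (w 1)
  refine ⟨h1, h2, h3, ?_, ?_, ?_⟩
  · rw [mulVec_zero, mulVec_one, c2]; exact h4
  · rw [mulVec_zero, mulVec_one, c3]; exact h6
  · rw [mulVec_zero, mulVec_one, c1]; exact hf

/-- Transport of the family along `lam • γ`, `lam⁵ = 1`. -/
theorem vLM_transport {γ : Matrix (Fin 2) (Fin 2) Qb} (hγ : Cov γ) {lam : Qb} (hlam : lam ^ 5 = 1)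
    (X Y l m : Qb) :
    HK (l * (lam * (γ 0 0 * X + γ 0 1 * Y))
          - m * fKy (lam * (γ 0 0 * X + γ 0 1 * Y)) (lam * (γ 1 0 * X + γ 1 1 * Y)))
        (l * (lam * (γ 1 0 * X + γ 1 1 * Y))
          + m * fKx (lam * (γ 0 0 * X + γ 0 1 * Y)) (lam * (γ 1 0 * X + γ 1 1 * Y)))
      = HK (l * X - m * fKy X Y) (l * Y + m * fKx X Y) ∧
    TK (l * (lam * (γ 0 0 * X + γ 0 1 * Y))
          - m * fKy (lam * (γ 0 0 * X + γ 0 1 * Y)) (lam * (γ 1 0 * X + γ 1 1 * Y)))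
        (l * (lam * (γ 1 0 * X + γ 1 1 * Y))
          + m * fKx (lam * (γ 0 0 * X + γ 0 1 * Y)) (lam * (γ 1 0 * X + γ 1 1 * Y)))
      = TK (l * X - m * fKy X Y) (l * Y + m * fKx X Y) := by
  obtain ⟨-, -, -, c4, c5⟩ := hγ X Y
  obtain ⟨-, d2, d3, -, -⟩ := hγ (l * X - m * fKy X Y) (l * Y + m * fKx X Y)
  have h10 : lam ^ 10 = 1 := by
    have : lam ^ 10 = (lam ^ 5) ^ 2 := by ring
    rw [this, hlam, one_pow]
  have h11 : lam ^ 11 = lam := by
    have : lam ^ 11 = (lam ^ 5) ^ 2 * lam := by ring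
    rw [this, hlam, one_pow, one_mul]
  have e1 : l * (lam * (γ 0 0 * X + γ 0 1 * Y))
      - m * fKy (lam * (γ 0 0 * X + γ 0 1 * Y)) (lam * (γ 1 0 * X + γ 1 1 * Y))
      = lam * (γ 0 0 * (l * X - m * fKy X Y) + γ 0 1 * (l * Y + m * fKx X Y)) := by
    rw [fKy_smul, h11]
    linear_combination (m * lam) * c4
  have e2 : l * (lam * (γ 1 0 * X + γ 1 1 * Y))
      + m * fKx (lam * (γ 0 0 * X + γ 0 1 * Y)) (lam * (γ 1 0 * X + γ 1 1 * Y))
      = lam * (γ 1 0 * (l * X - m * fKy X Y) + γ 1 1 * (l * Y + m * fKx X Y)) := by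
    rw [fKx_smul, h11]
    linear_combination (m * lam) * c5
  rw [e1, e2, HK_smul, TK_smul, d2, d3]
  have h20 : lam ^ 20 = 1 := by
    have : lam ^ 20 = (lam ^ 5) ^ 4 := by ring
    rw [this, hlam, one_pow]
  have h30 : lam ^ 30 = 1 := by
    have : lam ^ 30 = (lam ^ 5) ^ 6 := by ring
    rw [this, hlam, one_pow]
  rw [h20, h30, one_mul, one_mul]
  exact ⟨rfl, rfl⟩

/-! ### The 5-torsion -/

theorem zmod5_five : (5 : ZMod 5) = 0 := by decide

theorem zmod5_neg_one : (-1 : ZMod 5) = ((4 : ℕ) : ZMod 5) := by decide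

theorem five_zsmul {G : Type*} [AddCommGroup G] {P : G} (hP : (5 : ℕ) • P = 0) :
    (5 : ℤ) • P = 0 := by
  have h : ((5 : ℕ) : ℤ) • P = 0 := by rw [natCast_zsmul]; exact hP
  exact_mod_cast h

theorem zsmul_of_dvd {G : Type*} [AddCommGroup G] {P : G} (hP : (5 : ℕ) • P = 0) {a : ℤ}
    (h : (5 : ℤ) ∣ a) : a • P = 0 := by
  obtain ⟨k, rfl⟩ := h
  rw [mul_comm, mul_smul, five_zsmul hP, smul_zero]

theorem mem_tors (W : WeierstrassCurve ℤ) (Y : EPt W) (hY : (5 : ℕ) • Y = 0) :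
    Y ∈ Submodule.torsionBy ℤ (EPt W) ((5 : ℕ) : ℤ) := by
  rw [Submodule.mem_torsionBy_iff, Nat.cast_smul_eq_nsmul]
  exact hY

theorem span_of_indep (W : WeierstrassCurve ℤ) (hΔ : W.Δ ≠ 0) (P Q : EPt W)
    (hP : (5 : ℕ) • P = 0) (hQ : (5 : ℕ) • Q = 0)
    (hind : ∀ a b : ℤ, a • P + b • Q = 0 → (5 : ℤ) ∣ a ∧ (5 : ℤ) ∣ b) (X : EPt W)
    (hX : (5 : ℕ) • X = 0) : ∃ a b : ℤ, X = a • P + b • Q := by
  have : Fact (Nat.Prime 5) := ⟨by norm_num⟩
  let f : Fin 5 × Fin 5 → EpRep.Ep W 5 := fun ij =>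
    ⟨(ij.1 : ℕ) • P + (ij.2 : ℕ) • Q, mem_tors W _ (by
      linear_combination (norm := module) (ij.1 : ℕ) • hP + (ij.2 : ℕ) • hQ)⟩
  have hinj : Function.Injective f := by
    rintro ⟨i, j⟩ ⟨i', j'⟩ h
    have h1 : (i : ℕ) • P + (j : ℕ) • Q = (i' : ℕ) • P + (j' : ℕ) • Q := congrArg Subtype.val h
    have h2 : (((i : ℕ) : ℤ) - ((i' : ℕ) : ℤ)) • P + (((j : ℕ) : ℤ) - ((j' : ℕ) : ℤ)) • Q = 0 := by
      linear_combination (norm := module) h1
    obtain ⟨d1, d2⟩ := hind _ _ h2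
    have hi := i.2
    have hi' := i'.2
    have hj := j.2
    have hj' := j'.2
    have e1 : (i : ℕ) = i' := by omega
    have e2 : (j : ℕ) = j' := by omega
    exact Prod.ext (Fin.ext e1) (Fin.ext e2)
  have hcard : Nat.card (EpRep.Ep W 5) = 25 := by
    have := EpRep.finite_torsion (p := 5) hΔ
    rw [Module.natCard_eq_pow_finrank (K := ZMod 5), EpRep.finrank_torsion hΔ, Nat.card_zmod]
    norm_num
  have : Finite (EpRep.Ep W 5) := Nat.finite_of_card_ne_zero (by rw [hcard]; norm_num)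
  have hbij := hinj.bijective_of_nat_card_le (by rw [hcard]; simp)
  obtain ⟨⟨i, j⟩, hij⟩ := hbij.2 ⟨X, mem_tors W X hX⟩
  refine ⟨((i : ℕ) : ℤ), ((j : ℕ) : ℤ), ?_⟩
  have h3 : (i : ℕ) • P + (j : ℕ) • Q = X := congrArg Subtype.val hij
  rw [natCast_zsmul, natCast_zsmul]
  exact h3.symm

theorem r_mod_five (W : WeierstrassCurve ℤ) (hΔ : W.Δ ≠ 0) {r : ℕ} (hr : r.Prime) (hr5 : r ≠ 5)
    (hgood : ¬ (r : ℤ) ∣ W.Δ) (A : ValuationSubring Qb) (hA : A.LiesOverPrime r) (φ : GQ)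
    (hφ : A.IsFrobeniusAt φ r) (hPM : PlusMinus W φ) : r % 5 = 4 := by
  have : Fact (Nat.Prime 5) := ⟨by norm_num⟩
  obtain ⟨Pp, Pm, hp0, hm0, hp5, hm5, hpφ, hmφ⟩ := hPM
  let xp : EpRep.Ep W 5 := ⟨Pp, mem_tors W Pp hp5⟩
  let xm : EpRep.Ep W 5 := ⟨Pm, mem_tors W Pm hm5⟩
  have hxp : EpRep.rhoE W 5 φ xp = xp := Subtype.ext hpφ
  have hxm : EpRep.rhoE W 5 φ xm = -xm := Subtype.ext hmφ
  have c1 := EpRep.cayley (p := 5) hΔ φ xp
  have c2 := EpRep.cayley (p := 5) hΔ φ xm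
  rw [hxp, hxp] at c1
  rw [hxm, map_neg, hxm, neg_neg] at c2
  generalize LinearMap.trace (ZMod 5) (EpRep.Ep W 5) (EpRep.rhoE W 5 φ) = t at c1 c2
  have hdet := EpRep.det_frob (p := 5) hΔ hr hr5 hgood A hA φ hφ
  generalize LinearMap.det (EpRep.rhoE W 5 φ) = d at c1 c2 hdet
  have e1 : (1 - t + d) • xp = 0 := by
    rw [add_smul, sub_smul, one_smul]
    exact c1
  have e2 : (1 + t + d) • xm = 0 := by
    rw [add_smul, add_smul, one_smul]
    rw [smul_neg, sub_neg_eq_add] at c2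
    exact c2
  have hxp0 : xp ≠ 0 := fun h => hp0 (congrArg Subtype.val h)
  have hxm0 : xm ≠ 0 := fun h => hm0 (congrArg Subtype.val h)
  have f1 : 1 - t + d = 0 := (smul_eq_zero.mp e1).resolve_right hxp0
  have f2 : 1 + t + d = 0 := (smul_eq_zero.mp e2).resolve_right hxm0
  have hd : d = -1 := by
    have h5 : (5 : ZMod 5) = 0 := zmod5_five
    linear_combination 3 * f1 + 3 * f2 - (1 + d) * h5
  have h4 : ((r : ℕ) : ZMod 5) = ((4 : ℕ) : ZMod 5) := by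
    rw [← hdet, hd]
    exact zmod5_neg_one
  exact (ZMod.natCast_eq_natCast_iff' r 4 5).mp h4

/-! ### A vector of the orbit fixed by the Frobenius -/

section fixed

variable {A : ValuationSubring Qb} {r : ℕ} {φ : GQ}

theorem frob_fifth (hr : r.Prime) (hA : A.LiesOverPrime r) (hφ : A.IsFrobeniusAt φ r)
    (hr5 : r % 5 = 4) {η : Qb} (hη : η ^ 5 = 1) : φ η = η ^ 4 := by
  have hn : ¬ r ∣ 5 := by
    intro h
    have := (Nat.prime_dvd_prime_iff_eq hr Nat.prime_five).mp h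
    omega
  rw [Fermat.Agent.Lib.FinFlat.DescentUnram.frob_root A hr hA hφ hn hη]
  have h4 : r = 5 * (r / 5) + 4 := by omega
  rw [h4, pow_add, pow_mul, hη, one_pow, one_mul]

theorem prime_five_int : Prime (5 : ℤ) := by
  exact_mod_cast Nat.prime_iff_prime_int.mp Nat.prime_five

theorem exists_fixed (hSpec : Klein.PKSpec) (hSurj : Klein.RelSurj) (hInd : Klein.Indep)
    (hRig : Klein.Rigid) (hGal : Klein.GalCompat) {ζ : Qb} (hζ : IsZ5 ζ) {c4 c6 : ℤ}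
    (hd : c4 ^ 3 - c6 ^ 2 ≠ 0) {v : Fin 2 → Qb} (hv4 : HK (v 0) (v 1) = -(c4 : Qb))
    (hv6 : TK (v 0) (v 1) = -(c6 : Qb)) (hr : r.Prime) (hr5 : r % 5 = 4)
    (hA : A.LiesOverPrime r) (hφ : A.IsFrobeniusAt φ r) (hPM : PlusMinus (Ws c4 c6) φ) :
    ∃ (γ : Matrix (Fin 2) (Fin 2) Qb) (lam : Qb), Cov γ ∧ lam ^ 5 = 1 ∧
      φ (lam * (γ 0 0 * v 0 + γ 0 1 * v 1)) = lam * (γ 0 0 * v 0 + γ 0 1 * v 1) ∧
      φ (lam * (γ 1 0 * v 0 + γ 1 1 * v 1)) = lam * (γ 1 0 * v 0 + γ 1 1 * v 1) := by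
  have hΔ : (Ws c4 c6).Δ ≠ 0 := by
    rw [Ws_Δ]
    exact mul_ne_zero (by norm_num) hd
  have hKl : IsKl (EK c4 c6) v := isKl_of c4 c6 hd v hv4 hv6
  -- the matrix `Ũ`
  obtain ⟨pU, qU, rU, sU, -, hRelU⟩ :=
    (hSurj ζ hζ).2 (Um ζ) (Submonoid.subset_closure (by simp))
  have hCovU : Cov (Um ζ) := cov_of_rel hRelU
  -- the level structure of `v`
  obtain ⟨P₀, hP₀⟩ : ∃ P : EPt (Ws c4 c6), P = PK (EK c4 c6) v := ⟨_, rfl⟩
  obtain ⟨Q₀, hQ₀⟩ : ∃ Q : EPt (Ws c4 c6), Q = QK ζ (EK c4 c6) v := ⟨_, rfl⟩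
  have hP5 : (5 : ℕ) • P₀ = 0 := by
    rw [hP₀]
    exact (hSpec (EK c4 c6) v hKl).2.1
  have hQ5 : (5 : ℕ) • Q₀ = 0 := by
    rw [hQ₀]
    exact (hSpec (EK c4 c6) _ (isKl_mulVec hCovU hKl)).2.1
  have hind : ∀ a b : ℤ, a • P₀ + b • Q₀ = 0 → (5 : ℤ) ∣ a ∧ (5 : ℤ) ∣ b := by
    rw [hP₀, hQ₀]
    exact hInd ζ hζ (EK c4 c6) v hKl
  obtain ⟨Pp, Pm, hp0, hm0, hp5, hm5, hpφ, hmφ⟩ := hPM
  obtain ⟨ap, bp, hPp⟩ := span_of_indep (Ws c4 c6) hΔ P₀ Q₀ hP5 hQ5 hind Pp hp5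
  obtain ⟨am, bm, hPm⟩ := span_of_indep (Ws c4 c6) hΔ P₀ Q₀ hP5 hQ5 hind Pm hm5
  -- the eigenvectors are independent
  have hδ : ¬ (5 : ℤ) ∣ ap * bm - am * bp := by
    intro h
    have h1 : bm • Pp - bp • Pm = 0 := by
      have e : bm • Pp - bp • Pm = (ap * bm - am * bp) • P₀ := by
        rw [hPp, hPm]
        module
      rw [e]
      exact zsmul_of_dvd hP5 h
    have h2 : am • Pp - ap • Pm = 0 := by
      have e : am • Pp - ap • Pm = (-(ap * bm - am * bp)) • Q₀ := by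
        rw [hPp, hPm]
        module
      rw [e]
      exact zsmul_of_dvd hQ5 (dvd_neg.mpr h)
    have h1' : bm • Pp + bp • Pm = 0 := by
      have e := congrArg (fun X => φ • X) h1
      simp only [smul_sub, smul_zero] at e
      rw [Affine.Point.algEquiv_smul_zsmul, Affine.Point.algEquiv_smul_zsmul, hpφ, hmφ, smul_neg,
        sub_neg_eq_add] at e
      exact e
    have h2' : am • Pp + ap • Pm = 0 := by
      have e := congrArg (fun X => φ • X) h2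
      simp only [smul_sub, smul_zero] at e
      rw [Affine.Point.algEquiv_smul_zsmul, Affine.Point.algEquiv_smul_zsmul, hpφ, hmφ, smul_neg,
        sub_neg_eq_add] at e
      exact e
    have e5 := five_zsmul hm5
    have h3 : bp • Pm = 0 := by
      have e : (2 * bp) • Pm = 0 := by linear_combination (norm := module) h1' - h1
      linear_combination (norm := module) bp • e5 - (2 : ℤ) • e
    have h4 : ap • Pm = 0 := by
      have e : (2 * ap) • Pm = 0 := by linear_combination (norm := module) h2' - h2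
      linear_combination (norm := module) ap • e5 - (2 : ℤ) • e
    have key : ∀ n : ℤ, n • Pm = 0 → (5 : ℤ) ∣ n := by
      intro n hn
      by_contra hnd
      obtain ⟨u, w, huw⟩ := prime_five_int.irreducible.coprime_iff_not_dvd.mpr hnd
      apply hm0
      have e : Pm = (u * 5 + w * n) • Pm := by rw [huw, one_smul]
      rw [e]
      linear_combination (norm := module) u • e5 + w • hn
    apply hp0
    rw [hPp, zsmul_of_dvd hP5 (key ap h4), zsmul_of_dvd hQ5 (key bp h3), add_zero]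
  obtain ⟨c, hc⟩ : ∃ c : ℤ, (5 : ℤ) ∣ c * (ap * bm - am * bp) - 1 := by
    obtain ⟨u, w, huw⟩ := prime_five_int.irreducible.coprime_iff_not_dvd.mpr hδ
    exact ⟨w, ⟨-u, by linear_combination huw⟩⟩
  obtain ⟨γ, -, hRel⟩ := (hSurj ζ hζ).1 ap (c * am) bp (c * bm) (by
    have e : ap * (c * bm) - c * am * bp - 1 = c * (ap * bm - am * bp) - 1 := by ring
    rw [e]
    exact hc)
  have hCov : Cov γ := cov_of_rel hRel
  obtain ⟨u₁, hu₁⟩ : ∃ u : Fin 2 → Qb, u = γ.mulVec v := ⟨_, rfl⟩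
  have hu10 : u₁ 0 = γ 0 0 * v 0 + γ 0 1 * v 1 := by rw [hu₁, mulVec_zero]
  have hu11 : u₁ 1 = γ 1 0 * v 0 + γ 1 1 * v 1 := by rw [hu₁, mulVec_one]
  have h14 : HK (u₁ 0) (u₁ 1) = -(c4 : Qb) := by
    rw [hu10, hu11, (hCov (v 0) (v 1)).2.1]
    exact hv4
  have h16 : TK (u₁ 0) (u₁ 1) = -(c6 : Qb) := by
    rw [hu10, hu11, (hCov (v 0) (v 1)).2.2.1]
    exact hv6
  have hKl1 : IsKl (EK c4 c6) u₁ := isKl_of c4 c6 hd u₁ h14 h16
  obtain ⟨hPK1, hQK1⟩ := hRel.2.2 (EK c4 c6) v hKl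
  rw [← hu₁, ← hP₀, ← hQ₀] at hPK1 hQK1
  have hPKu : PK (EK c4 c6) u₁ = Pp := by rw [hPp]; exact hPK1
  have hQKu : QK ζ (EK c4 c6) u₁ = c • Pm := by
    rw [hPm, hQK1]
    module
  -- the conjugate vector
  obtain ⟨u₂, hu₂⟩ : ∃ u : Fin 2 → Qb, u = fun i => φ (u₁ i) := ⟨_, rfl⟩
  have hu20 : u₂ 0 = φ (u₁ 0) := by rw [hu₂]
  have hu21 : u₂ 1 = φ (u₁ 1) := by rw [hu₂]
  have hKl2 : IsKl (EK c4 c6) u₂ := by
    apply isKl_of c4 c6 hd
    · rw [hu20, hu21, ← map_HK, h14, map_neg, map_intCast]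
    · rw [hu20, hu21, ← map_TK, h16, map_neg, map_intCast]
  have hz5 : ζ ^ 5 = 1 := by
    have h : ζ ^ 4 + ζ ^ 3 + ζ ^ 2 + ζ + 1 = 0 := hζ
    linear_combination (ζ - 1) * h
  have hφζ : φ ζ = ζ ^ 4 := frob_fifth hr hA hφ hr5 hz5
  obtain ⟨g1, g2⟩ := hGal ζ hζ (EQ (Ws c4 c6)) u₁ hKl1 φ
  have g2' := g2 4 hφζ
  rw [← hu₂] at g1 g2'
  have hPK2 : PK (EK c4 c6) u₂ = PK (EK c4 c6) u₁ := by
    rw [← g1, hPKu, hpφ]
  have hQ5' : (5 : ℕ) • QK ζ (EK c4 c6) u₂ = 0 :=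
    (hSpec (EK c4 c6) _ (isKl_mulVec hCovU hKl2)).2.1
  have hQK2 : QK ζ (EK c4 c6) u₂ = QK ζ (EK c4 c6) u₁ := by
    rw [hQKu] at g2' ⊢
    rw [Affine.Point.algEquiv_smul_zsmul, hmφ] at g2'
    linear_combination (norm := module) hQ5' + g2'
  obtain ⟨η, hη5, hη⟩ := hRig ζ hζ (EK c4 c6) u₁ u₂ hKl1 hKl2 hPK2 hQK2
  have hη0 : φ (u₁ 0) = η * u₁ 0 := by
    rw [← hu20, hη]
    rfl
  have hη1 : φ (u₁ 1) = η * u₁ 1 := by
    rw [← hu21, hη]
    rfl
  have hlam : (η ^ 3) ^ 5 = 1 := by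
    have e : (η ^ 3) ^ 5 = (η ^ 5) ^ 3 := by ring
    rw [e, hη5, one_pow]
  have hφlam : φ (η ^ 3) = (η ^ 3) ^ 4 := frob_fifth hr hA hφ hr5 hlam
  refine ⟨γ, η ^ 3, hCov, hlam, ?_, ?_⟩
  · rw [← hu10, map_mul, hφlam, hη0]
    have e : (η ^ 3) ^ 4 * (η * u₁ 0) = η ^ 3 * u₁ 0 * (η ^ 5) ^ 2 := by ring
    rw [e, hη5, one_pow, mul_one]
  · rw [← hu11, map_mul, hφlam, hη1]
    have e : (η ^ 3) ^ 4 * (η * u₁ 1) = η ^ 3 * u₁ 1 * (η ^ 5) ^ 2 := by ring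
    rw [e, hη5, one_pow, mul_one]

end fixed

/-! ### The arithmetic half: a fixed vector gives a twist modulo `r` -/

section arith

open Fermat.Agent.Lib.FinFlat

variable {A : ValuationSubring Qb} {r : ℕ} {φ : GQ}

theorem twist_of_fixed (hBez : Klein.Bezout) {ζ : Qb} (hζ : IsZ5 ζ) (hCovU : Cov (Um ζ))
    {c4 c6 : ℤ} (hr : r.Prime) (hr30 : ¬ (r : ℤ) ∣ 30 * (c4 ^ 3 - c6 ^ 2)) (hr5 : r % 5 = 4)
    (hA : A.LiesOverPrime r) (hφ : A.IsFrobeniusAt φ r) {x y : Qb}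
    (hx4 : HK x y = -(c4 : Qb)) (hx6 : TK x y = -(c6 : Qb)) (hφx : φ x = x) (hφy : φ y = y) :
    ∃ l₀ m₀ d : ℤ, ¬ ((r : ℤ) ∣ l₀ ∧ (r : ℤ) ∣ m₀) ∧ ¬ IsSquare (d : ZMod r) ∧
      ∀ l m c4' c6' : ℤ, (r : ℤ) ∣ l - l₀ → (r : ℤ) ∣ m - m₀ →
        HK ((l : Qb) * x - (m : Qb) * fKy x y) ((l : Qb) * y + (m : Qb) * fKx x y)
          = -(c4' : Qb) →
        TK ((l : Qb) * x - (m : Qb) * fKy x y) ((l : Qb) * y + (m : Qb) * fKx x y)
          = -(c6' : Qb) →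
          (r : ℤ) ∣ c4' - d ^ 2 * c4 ∧ (r : ℤ) ∣ c6' - d ^ 3 * c6 := by
  have : Fact r.Prime := ⟨hr⟩
  have hp := Nat.prime_iff_prime_int.mp hr
  -- small primes
  have hr30' : ¬ (r : ℤ) ∣ 30 := fun h => hr30 (Dvd.dvd.mul_right h _)
  have hrd : ¬ (r : ℤ) ∣ c4 ^ 3 - c6 ^ 2 := fun h => hr30 (Dvd.dvd.mul_left h _)
  have hr2 : r ≠ 2 := by
    rintro rfl
    exact hr30' ⟨15, by norm_num⟩
  have hr5' : ¬ (r : ℤ) ∣ 5 := fun h => hr30' (h.trans ⟨6, by norm_num⟩)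
  have hr12 : ¬ (r : ℤ) ∣ 12 := fun h =>
    hr30' (hp.dvd_of_dvd_pow (h.trans (⟨75, by norm_num⟩ : (12 : ℤ) ∣ 30 ^ 2)))
  have hr1728 : ¬ (r : ℤ) ∣ 1728 := fun h =>
    hr30' (hp.dvd_of_dvd_pow (h.trans (⟨421875, by norm_num⟩ : (1728 : ℤ) ∣ 30 ^ 6)))
  have hr144 : ¬ (r : ℤ) ∣ 144 * (c6 ^ 2 - c4 ^ 3) := by
    intro h
    rcases hp.dvd_or_dvd h with h | h
    · exact hr30' (hp.dvd_of_dvd_pow (h.trans (⟨5625, by norm_num⟩ : (144 : ℤ) ∣ 30 ^ 4)))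
    · apply hrd
      have h' := dvd_neg.mpr h
      rwa [neg_sub] at h'
  have hn5 : (5 : Qb) ∉ A.nonunits := by
    have h := Fermat.Agent.Lib.ValuationIntegral.intCast_notMem_nonunits A hr hA hr5'
    simpa using h
  have h5A : (5 : Qb) ∈ A := by
    have h := intCast_mem A (5 : ℤ)
    exact_mod_cast h
  have h12A : (12 : Qb) ∈ A := by
    have h := intCast_mem A (12 : ℤ)
    exact_mod_cast h
  have h5inv : (5 : Qb)⁻¹ ∈ A := inv_mem_of_notMem_nonunits h5A hn5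
  -- the root of unity
  have hz : ζ ^ 4 + ζ ^ 3 + ζ ^ 2 + ζ + 1 = 0 := hζ
  have hz5 : ζ ^ 5 = 1 := by linear_combination (ζ - 1) * hz
  have hζA : ζ ∈ A := by
    have h := Fermat.Agent.PT.G.pow_mem_of_pow_eq_one A (N := 5) (by norm_num) hz5 1
    simpa using h
  have hφζ : φ ζ = ζ ^ 4 := frob_fifth hr hA hφ hr5 hz5
  -- `f = fK x y` is a unit of `A`
  obtain ⟨f, hf⟩ : ∃ f : Qb, f = fK x y := ⟨_, rfl⟩
  have hsyz : 1728 * f ^ 5 = ((c6 ^ 2 - c4 ^ 3 : ℤ) : Qb) := by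
    have h := syzygy x y
    rw [hx4, hx6, ← hf] at h
    push_cast
    linear_combination -h
  have h1728 : ((1728 : ℤ) : Qb)⁻¹ ∈ A := inv_intCast_mem hr hA hr1728
  have h1728' : ((1728 : ℤ) : Qb) ≠ 0 := by norm_num
  have hf5A : f ^ 5 ∈ A := by
    have e : f ^ 5 = ((1728 : ℤ) : Qb)⁻¹ * ((c6 ^ 2 - c4 ^ 3 : ℤ) : Qb) := by
      rw [← hsyz]
      push_cast
      field_simp
    rw [e]
    exact mul_mem h1728 (intCast_mem A _)
  have hfA : f ∈ A := mem_of_pow_mem A (by norm_num) hf5A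
  obtain ⟨hxA, hyA⟩ := cone_mem A hBez hn5 (x := x) (y := y)
    (by rw [hx4]; exact neg_mem (intCast_mem A c4)) (by rw [← hf]; exact hfA)
  obtain ⟨D, hD⟩ : ∃ D : Qb, D = 12 * f := ⟨_, rfl⟩
  have hD5 : D ^ 5 = ((144 * (c6 ^ 2 - c4 ^ 3) : ℤ) : Qb) := by
    rw [hD]
    push_cast
    push_cast at hsyz
    linear_combination 144 * hsyz
  have hDA : D ∈ A := by
    rw [hD]
    exact mul_mem h12A hfA
  have hDn : D ∉ A.nonunits := notMem_nonunits_of_pow A (n := 5) (by norm_num) (by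
    rw [hD5]
    exact Fermat.Agent.Lib.ValuationIntegral.intCast_notMem_nonunits A hr hA hr144)
  have hDinv : D⁻¹ ∈ A := inv_mem_of_notMem_nonunits hDA hDn
  have hD0 : D ≠ 0 := fun h => hDn (h ▸ nonunits_zero_mem A)
  have hDD : D * D⁻¹ = 1 := mul_inv_cancel₀ hD0
  have hφD : φ D = D := by
    rw [hD, hf, map_mul, map_fK, hφx, hφy, map_ofNat]
  -- a non-residue and its square root
  obtain ⟨e0, he0⟩ := FiniteField.exists_nonsquare (F := ZMod r) (by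
    rw [ZMod.ringChar_zmod_n]
    exact hr2)
  obtain ⟨e, rfl⟩ := ZMod.intCast_surjective e0
  obtain ⟨s, hs⟩ := IsAlgClosed.exists_pow_nat_eq ((e : ℤ) : Qb) (n := 2) (by norm_num)
  have hφs : φ s = -s := frob_sqrt hr hA hφ hr2 he0 hs
  have hsA : s ∈ A := mem_of_pow_mem A two_ne_zero (hs ▸ intCast_mem A e)
  have he0' : (e : ZMod r) ≠ 0 := fun h => he0 (h ▸ IsSquare.zero)
  have hre : ¬ (r : ℤ) ∣ e := fun h => he0' ((ZMod.intCast_zmod_eq_zero_iff_dvd e r).mpr h)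
  -- the entries of `Ũ`
  obtain ⟨a', ha'⟩ : ∃ a' : Qb, a' = uA ζ / 5 := ⟨_, rfl⟩
  obtain ⟨b', hb'⟩ : ∃ b' : Qb, b' = uB ζ / 5 := ⟨_, rfl⟩
  have huAA : uA ζ ∈ A := by
    have e1 : ((uA (⟨ζ, hζA⟩ : A) : A) : Qb) = uA ζ := map_uA A.subtype _
    rw [← e1]
    exact (uA (⟨ζ, hζA⟩ : A)).2
  have huBA : uB ζ ∈ A := by
    have e1 : ((uB (⟨ζ, hζA⟩ : A) : A) : Qb) = uB ζ := map_uB A.subtype _
    rw [← e1]
    exact (uB (⟨ζ, hζA⟩ : A)).2
  have ha'A : a' ∈ A := by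
    rw [ha', div_eq_mul_inv]
    exact mul_mem huAA h5inv
  have hb'A : b' ∈ A := by
    rw [hb', div_eq_mul_inv]
    exact mul_mem huBA h5inv
  have hφa' : φ a' = -a' := by
    rw [ha', map_div₀, map_uA, hφζ, uA_pow_four ζ hz, map_ofNat, neg_div]
  have hφb' : φ b' = -b' := by
    rw [hb', map_div₀, map_uB, hφζ, uB_pow_four ζ hz, map_ofNat, neg_div]
  -- the second basis vector
  obtain ⟨x', hx'⟩ : ∃ x' : Qb, x' = -(fKy x y) := ⟨_, rfl⟩
  obtain ⟨y', hy'⟩ : ∃ y' : Qb, y' = fKx x y := ⟨_, rfl⟩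
  have hx'A : x' ∈ A := by
    have e1 : ((fKy (⟨x, hxA⟩ : A) ⟨y, hyA⟩ : A) : Qb) = fKy x y := map_fKy A.subtype _ _
    rw [hx', ← e1]
    exact neg_mem (fKy (⟨x, hxA⟩ : A) ⟨y, hyA⟩).2
  have hy'A : y' ∈ A := by
    have e1 : ((fKx (⟨x, hxA⟩ : A) ⟨y, hyA⟩ : A) : Qb) = fKx x y := map_fKx A.subtype _ _
    rw [hy', ← e1]
    exact (fKx (⟨x, hxA⟩ : A) ⟨y, hyA⟩).2
  have hφx' : φ x' = x' := by rw [hx', map_neg, map_fKy, hφx, hφy]
  have hφy' : φ y' = y' := by rw [hy', map_fKx, hφx, hφy]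
  have hdet : x * y' - y * x' = D := by
    rw [hx', hy', hD, hf]
    linear_combination euler x y
  -- the twisted vector
  obtain ⟨w0, hw0⟩ : ∃ w0 : Qb, w0 = s * (a' * x + b' * y) := ⟨_, rfl⟩
  obtain ⟨w1, hw1⟩ : ∃ w1 : Qb, w1 = s * (b' * x + -a' * y) := ⟨_, rfl⟩
  have hw0A : w0 ∈ A := by
    rw [hw0]
    exact mul_mem hsA (add_mem (mul_mem ha'A hxA) (mul_mem hb'A hyA))
  have hw1A : w1 ∈ A := by
    rw [hw1]
    exact mul_mem hsA (add_mem (mul_mem hb'A hxA) (mul_mem (neg_mem ha'A) hyA))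
  have hφw0 : φ w0 = w0 := by
    rw [hw0]
    simp only [map_mul, map_add, hφs, hφa', hφb', hφx, hφy]
    ring
  have hφw1 : φ w1 = w1 := by
    rw [hw1]
    simp only [map_mul, map_add, map_neg, hφs, hφa', hφb', hφx, hφy]
    ring
  have hUm : (Um ζ) 0 0 = a' ∧ (Um ζ) 0 1 = b' ∧ (Um ζ) 1 0 = b' ∧ (Um ζ) 1 1 = -a' := by
    rw [ha', hb']
    simp [Um, neg_div]
  obtain ⟨-, cU2, cU3, -, -⟩ := hCovU x y
  rw [hUm.1, hUm.2.1, hUm.2.2.1, hUm.2.2.2] at cU2 cU3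
  have hHw : HK w0 w1 = -((e ^ 10 * c4 : ℤ) : Qb) := by
    rw [hw0, hw1, HK_smul, cU2, hx4]
    have e1 : s ^ 20 = ((e : ℤ) : Qb) ^ 10 := by
      rw [← hs]
      ring
    rw [e1]
    push_cast
    ring
  have hTw : TK w0 w1 = -((e ^ 15 * c6 : ℤ) : Qb) := by
    rw [hw0, hw1, TK_smul, cU3, hx6]
    have e1 : s ^ 30 = ((e : ℤ) : Qb) ^ 15 := by
      rw [← hs]
      ring
    rw [e1]
    push_cast
    ring
  -- the coordinates of the twisted vector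
  obtain ⟨a, ha⟩ : ∃ a : Qb, a = (w0 * y' - w1 * x') * D⁻¹ := ⟨_, rfl⟩
  obtain ⟨b, hb⟩ : ∃ b : Qb, b = (x * w1 - y * w0) * D⁻¹ := ⟨_, rfl⟩
  have haA : a ∈ A := by
    rw [ha]
    exact mul_mem (sub_mem (mul_mem hw0A hy'A) (mul_mem hw1A hx'A)) hDinv
  have hbA : b ∈ A := by
    rw [hb]
    exact mul_mem (sub_mem (mul_mem hxA hw1A) (mul_mem hyA hw0A)) hDinv
  have hφa : φ a = a := by
    rw [ha]
    simp only [map_mul, map_sub, map_inv₀, hφD, hφw0, hφw1, hφx', hφy']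
  have hφb : φ b = b := by
    rw [hb]
    simp only [map_mul, map_sub, map_inv₀, hφD, hφw0, hφw1, hφx, hφy]
  have hax : a * x + b * x' = w0 := by
    linear_combination x * ha + x' * hb + (w0 * D⁻¹) * hdet + w0 * hDD
  have hay : a * y + b * y' = w1 := by
    linear_combination y * ha + y' * hb + (w1 * D⁻¹) * hdet + w1 * hDD
  obtain ⟨l₀, hl₀⟩ := frob_fixed_int hr hA hφ haA hφa
  obtain ⟨m₀, hm₀⟩ := frob_fixed_int hr hA hφ hbA hφb
  refine ⟨l₀, m₀, e ^ 5, ?_, ?_, ?_⟩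
  · rintro ⟨h1, h2⟩
    have haM : a ∈ A.nonunits := by
      have h := nonunits_add_mem hl₀ (mem_nonunits_of_dvd hA h1)
      rwa [sub_add_cancel] at h
    have hbM : b ∈ A.nonunits := by
      have h := nonunits_add_mem hm₀ (mem_nonunits_of_dvd hA h2)
      rwa [sub_add_cancel] at h
    have hw0M : w0 ∈ A.nonunits := by
      rw [← hax]
      exact nonunits_add_mem (nonunits_mul_mem_right haM hxA) (nonunits_mul_mem_right hbM hx'A)
    have hw1M : w1 ∈ A.nonunits := by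
      rw [← hay]
      exact nonunits_add_mem (nonunits_mul_mem_right haM hyA) (nonunits_mul_mem_right hbM hy'A)
    have hH0 : HK w0 w1 ∈ A.nonunits := by
      have h := cong_HK A hw0A hw1A A.zero_mem A.zero_mem (by rwa [sub_zero]) (by rwa [sub_zero])
      have e0 : HK (0 : Qb) 0 = 0 := by simp [HK]
      rwa [e0, sub_zero] at h
    have hT0 : TK w0 w1 ∈ A.nonunits := by
      have h := cong_TK A hw0A hw1A A.zero_mem A.zero_mem (by rwa [sub_zero]) (by rwa [sub_zero])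
      have e0 : TK (0 : Qb) 0 = 0 := by simp [TK]
      rwa [e0, sub_zero] at h
    rw [hHw] at hH0
    rw [hTw] at hT0
    have d4 : (r : ℤ) ∣ e ^ 10 * c4 := dvd_of_mem_nonunits hr hA (by
      have h := nonunits_neg_mem hH0
      rwa [neg_neg] at h)
    have d6 : (r : ℤ) ∣ e ^ 15 * c6 := dvd_of_mem_nonunits hr hA (by
      have h := nonunits_neg_mem hT0
      rwa [neg_neg] at h)
    have d4' : (r : ℤ) ∣ c4 :=
      (hp.dvd_or_dvd d4).resolve_left (fun h => hre (hp.dvd_of_dvd_pow h))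
    have d6' : (r : ℤ) ∣ c6 :=
      (hp.dvd_or_dvd d6).resolve_left (fun h => hre (hp.dvd_of_dvd_pow h))
    exact hrd (dvd_sub (dvd_pow d4' (by norm_num)) (dvd_pow d6' (by norm_num)))
  · push_cast
    intro hsq
    apply he0
    have h4 : IsSquare ((e : ZMod r) ^ 4) := ⟨(e : ZMod r) ^ 2, by ring⟩
    have e1 : (e : ZMod r) = (e : ZMod r) ^ 5 / (e : ZMod r) ^ 4 := by
      field_simp
    rw [e1]
    exact hsq.div h4
  · intro l m c4' c6' hl hm hH hT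
    have hla : (l : Qb) - a ∈ A.nonunits := by
      have h1 : ((l - l₀ : ℤ) : Qb) ∈ A.nonunits := mem_nonunits_of_dvd hA hl
      have h := nonunits_sub_mem h1 hl₀
      have e1 : ((l - l₀ : ℤ) : Qb) - (a - (l₀ : Qb)) = (l : Qb) - a := by
        push_cast
        ring
      rwa [e1] at h
    have hmb : (m : Qb) - b ∈ A.nonunits := by
      have h1 : ((m - m₀ : ℤ) : Qb) ∈ A.nonunits := mem_nonunits_of_dvd hA hm
      have h := nonunits_sub_mem h1 hm₀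
      have e1 : ((m - m₀ : ℤ) : Qb) - (b - (m₀ : Qb)) = (m : Qb) - b := by
        push_cast
        ring
      rwa [e1] at h
    have ev0 : (l : Qb) * x - (m : Qb) * fKy x y = (l : Qb) * x + (m : Qb) * x' := by
      rw [hx']
      ring
    have ev1 : (l : Qb) * y + (m : Qb) * fKx x y = (l : Qb) * y + (m : Qb) * y' := by
      rw [hy']
    rw [ev0, ev1] at hH hT
    have hv0A : (l : Qb) * x + (m : Qb) * x' ∈ A :=
      add_mem (mul_mem (intCast_mem A l) hxA) (mul_mem (intCast_mem A m) hx'A)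
    have hv1A : (l : Qb) * y + (m : Qb) * y' ∈ A :=
      add_mem (mul_mem (intCast_mem A l) hyA) (mul_mem (intCast_mem A m) hy'A)
    have h0 : ((l : Qb) * x + (m : Qb) * x') - w0 ∈ A.nonunits := by
      have e1 : ((l : Qb) * x + (m : Qb) * x') - w0
          = ((l : Qb) - a) * x + ((m : Qb) - b) * x' := by
        rw [← hax]
        ring
      rw [e1]
      exact nonunits_add_mem (nonunits_mul_mem_right hla hxA) (nonunits_mul_mem_right hmb hx'A)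
    have h1 : ((l : Qb) * y + (m : Qb) * y') - w1 ∈ A.nonunits := by
      have e1 : ((l : Qb) * y + (m : Qb) * y') - w1
          = ((l : Qb) - a) * y + ((m : Qb) - b) * y' := by
        rw [← hay]
        ring
      rw [e1]
      exact nonunits_add_mem (nonunits_mul_mem_right hla hyA) (nonunits_mul_mem_right hmb hy'A)
    have cH := cong_HK A hv0A hv1A hw0A hw1A h0 h1
    have cT := cong_TK A hv0A hv1A hw0A hw1A h0 h1
    rw [hH, hHw] at cH
    rw [hT, hTw] at cT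
    constructor
    · apply dvd_of_mem_nonunits hr hA
      have e1 : (((c4' - (e ^ 5) ^ 2 * c4 : ℤ)) : Qb)
          = -(-(c4' : Qb) - -((e ^ 10 * c4 : ℤ) : Qb)) := by
        push_cast
        ring
      rw [e1]
      exact nonunits_neg_mem cH
    · apply dvd_of_mem_nonunits hr hA
      have e1 : (((c6' - (e ^ 5) ^ 3 * c6 : ℤ)) : Qb)
          = -(-(c6' : Qb) - -((e ^ 15 * c6 : ℤ) : Qb)) := by
        push_cast
        ring
      rw [e1]
      exact nonunits_neg_mem cT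

end arith

/-! ### The brick -/

/-- **(TW)** at a Frobenius prime of type `(+1, -1)` some fibre is a quadratic twist mod `r`. -/
theorem famTwist (hSpec : Klein.PKSpec) (hSurj : Klein.RelSurj) (hInd : Klein.Indep)
    (hRig : Klein.Rigid) (hGal : Klein.GalCompat) (hBez : Klein.Bezout) : FamTwist := by
  intro ζ hζ c4 c6 v hd hbase r hr hr30 A φ hA hφ hPM
  obtain ⟨hv4, hv6, -⟩ := hbase
  have hp := Nat.prime_iff_prime_int.mp hr
  have hΔ : (Ws c4 c6).Δ ≠ 0 := by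
    rw [Ws_Δ]
    exact mul_ne_zero (by norm_num) hd
  have hr30' : ¬ (r : ℤ) ∣ 30 := fun h => hr30 (Dvd.dvd.mul_right h _)
  have hrd : ¬ (r : ℤ) ∣ c4 ^ 3 - c6 ^ 2 := fun h => hr30 (Dvd.dvd.mul_left h _)
  have hr5ne : r ≠ 5 := by
    rintro rfl
    exact hr30' ⟨6, by norm_num⟩
  have hgood : ¬ (r : ℤ) ∣ (Ws c4 c6).Δ := by
    rw [Ws_Δ]
    intro h
    rcases hp.dvd_or_dvd h with h | h
    · exact hr30' (hp.dvd_of_dvd_pow
        (h.trans (⟨15625000, by norm_num⟩ : (1259712 : ℤ) ∣ 30 ^ 9)))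
    · exact hrd h
  have hr5 : r % 5 = 4 := r_mod_five (Ws c4 c6) hΔ hr hr5ne hgood A hA φ hφ hPM
  obtain ⟨pU, qU, rU, sU, -, hRelU⟩ :=
    (hSurj ζ hζ).2 (Um ζ) (Submonoid.subset_closure (by simp))
  have hCovU : Cov (Um ζ) := cov_of_rel hRelU
  obtain ⟨γ, lam, hCov, hlam, hfix0, hfix1⟩ :=
    exists_fixed hSpec hSurj hInd hRig hGal hζ hd hv4 hv6 hr hr5 hA hφ hPM
  have tr := fun l m : Qb => vLM_transport hCov hlam (v 0) (v 1) l m
  have hx4 : HK (lam * (γ 0 0 * v 0 + γ 0 1 * v 1)) (lam * (γ 1 0 * v 0 + γ 1 1 * v 1))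
      = -(c4 : Qb) := by
    have h := (tr 1 0).1
    simp only [one_mul, zero_mul, sub_zero, add_zero] at h
    rw [h]
    exact hv4
  have hx6 : TK (lam * (γ 0 0 * v 0 + γ 0 1 * v 1)) (lam * (γ 1 0 * v 0 + γ 1 1 * v 1))
      = -(c6 : Qb) := by
    have h := (tr 1 0).2
    simp only [one_mul, zero_mul, sub_zero, add_zero] at h
    rw [h]
    exact hv6
  obtain ⟨l₀, m₀, d, h1, h2, h3⟩ :=
    twist_of_fixed hBez hζ hCovU hr hr30 hr5 hA hφ hx4 hx6 hfix0 hfix1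
  refine ⟨l₀, m₀, d, h1, h2, ?_⟩
  intro l m c4' c6' hl hm hH hT
  apply h3 l m c4' c6' hl hm
  · rw [(tr l m).1]
    exact hH
  · rw [(tr l m).2]
    exact hT

end Fermat.Agent.S52K.FamTwist68
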