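/-
S52K brick `Klein.GalCompat` (helper90): Galois acts on the level structure `(PK, QK)` through
the vector and the cyclotomic character.

* `σ • PK E w = PK E (σ w)` because `XP`, `YP` have integer coefficients;
* `σ ζ = ζ ^ k` gives `σ (Ũ_ζ w) = Ũ_{ζ^k} (σ w)`, and `Ũ_{ζ²} = S̃ Ũ_ζ`, `PK (S̃ u) = 2 • PK u`.
-/
import Mathlib
import Fermat.Agent.S52K.Interfaces

set_option autoImplicit false

namespace Fermat.Agent.S52K.GalCompat90

open Fermat.Agent.S58 WeierstrassCurve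
open Fermat.Agent.S52K Fermat.Agent.S52K.Klein
open scoped WeierstrassCurve.Affine

/-! ### The forms commute with field automorphisms -/

theorem XP_map (σ : GQ) (x y : Qb) : XP (σ x) (σ y) = σ (XP x y) := by
  simp only [XP, map_add, map_sub, map_mul, map_pow, map_ofNat]

theorem YP_map (σ : GQ) (x y : Qb) : YP (σ x) (σ y) = σ (YP x y) := by
  simp only [YP, map_add, map_mul, map_pow, map_ofNat]

theorem HK_map (σ : GQ) (x y : Qb) : HK (σ x) (σ y) = σ (HK x y) := by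
  simp only [HK, map_add, map_sub, map_neg, map_mul, map_pow, map_ofNat]

theorem TK_map (σ : GQ) (x y : Qb) : TK (σ x) (σ y) = σ (TK x y) := by
  simp only [TK, map_add, map_sub, map_mul, map_pow, map_ofNat]

theorem fK_map (σ : GQ) (x y : Qb) : fK (σ x) (σ y) = σ (fK x y) := by
  simp only [fK, map_add, map_sub, map_mul, map_pow, map_ofNat]

/-! ### `σ • PK w = PK (σ w)` -/

theorem some_congr {E : WeierstrassCurve Qb} {x y x' y' : Qb} (h : E.toAffine.Nonsingular x y)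
    (h' : E.toAffine.Nonsingular x' y') (hx : x = x') (hy : y = y') :
    (Affine.Point.some x y h : E.toAffine.Point) = Affine.Point.some x' y' h' := by
  subst hx; subst hy; rfl

theorem smul_PK (E₀ : WeierstrassCurve ℚ) (w : Fin 2 → Qb) (σ : GQ) :
    σ • PK (E₀.toAffine⁄Qb) w = PK (E₀.toAffine⁄Qb) (fun i => σ (w i)) := by
  have hns : (E₀.toAffine⁄Qb).Nonsingular (XP (σ (w 0)) (σ (w 1))) (YP (σ (w 0)) (σ (w 1))) ↔
      (E₀.toAffine⁄Qb).Nonsingular (XP (w 0) (w 1)) (YP (w 0) (w 1)) := by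
    rw [XP_map, YP_map]
    exact E₀.toAffine.baseChange_nonsingular (f := σ.toAlgHom) σ.injective _ _
  unfold PK
  by_cases h : (E₀.toAffine⁄Qb).toAffine.Nonsingular (XP (w 0) (w 1)) (YP (w 0) (w 1))
  · rw [dif_pos h, dif_pos (hns.mpr h), Affine.Point.algEquiv_smul_def, Affine.Point.map_some]
    exact some_congr _ _ (XP_map σ _ _).symm (YP_map σ _ _).symm
  · rw [dif_neg h, dif_neg (fun h' => h (hns.mp h'))]
    rfl

/-! ### The matrices `Ũ_{ζ^k}` -/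

theorem pow_five {ζ : Qb} (hζ : IsZ5 ζ) : ζ ^ 5 = 1 := by
  unfold IsZ5 at hζ
  linear_combination (ζ - 1) * hζ

theorem isZ5_sq {ζ : Qb} (hζ : IsZ5 ζ) : IsZ5 (ζ ^ 2) := by
  unfold IsZ5 at hζ ⊢
  linear_combination (ζ ^ 4 - ζ ^ 3 + ζ ^ 2 - ζ + 1) * hζ

theorem Um_sq {ζ : Qb} (hζ : IsZ5 ζ) : Um (ζ ^ 2) = Sm * Um ζ := by
  unfold IsZ5 at hζ
  have hA : uA (ζ ^ 2) = uB ζ := by
    unfold uA uB; linear_combination (ζ ^ 2 - ζ - 3) * hζ
  have hB : uB (ζ ^ 2) = - uA ζ := by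
    unfold uA uB; linear_combination (3 * ζ ^ 2 - 3 * ζ + 1) * hζ
  ext i j
  fin_cases i <;> fin_cases j <;>
    simp [Um, Sm, Matrix.mul_apply, Fin.sum_univ_two, hA, hB] <;> ring

/-! ### The Klein condition is stable under `σ`, `S̃`, `Ũ` -/

theorem isKl_map (E₀ : WeierstrassCurve ℚ) {w : Fin 2 → Qb} (hw : IsKl (E₀.toAffine⁄Qb) w)
    (σ : GQ) : IsKl (E₀.toAffine⁄Qb) (fun i => σ (w i)) := by
  obtain ⟨h1, h2, h3, h4, h6, hf⟩ := hw
  refine ⟨h1, h2, h3, ?_, ?_, ?_⟩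
  · have : σ ((E₀.toAffine⁄Qb).a₄) = (E₀.toAffine⁄Qb).a₄ := by
      change σ (algebraMap ℚ Qb E₀.a₄) = algebraMap ℚ Qb E₀.a₄
      exact σ.commutes _
    rw [HK_map, ← this, h4, map_mul, map_ofNat]
  · have : σ ((E₀.toAffine⁄Qb).a₆) = (E₀.toAffine⁄Qb).a₆ := by
      change σ (algebraMap ℚ Qb E₀.a₆) = algebraMap ℚ Qb E₀.a₆
      exact σ.commutes _
    rw [TK_map, ← this, h6, map_mul, map_ofNat]
  · rw [fK_map]
    exact fun h => hf (by simpa using h)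

theorem isKl_Sm {E : WeierstrassCurve Qb} {u : Fin 2 → Qb} (hu : IsKl E u) :
    IsKl E (Sm.mulVec u) := by
  obtain ⟨h1, h2, h3, h4, h6, hf⟩ := hu
  have e0 : Sm.mulVec u 0 = u 1 := by simp [Sm, Matrix.mulVec, dotProduct, Fin.sum_univ_two]
  have e1 : Sm.mulVec u 1 = - u 0 := by simp [Sm, Matrix.mulVec, dotProduct, Fin.sum_univ_two]
  refine ⟨h1, h2, h3, ?_, ?_, ?_⟩
  · rw [e0, e1, HK_S]; exact h4
  · rw [e0, e1, TK_S]; exact h6
  · rw [e0, e1, fK_S]; exact hf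

theorem isKl_Um (hGen : RelGen) {ζ : Qb} (hζ : IsZ5 ζ) {E : WeierstrassCurve Qb}
    {u : Fin 2 → Qb} (hu : IsKl E u) : IsKl E ((Um ζ).mulVec u) := by
  obtain ⟨h1, h2, h3, h4, h6, hf⟩ := hu
  obtain ⟨hfK, hHK, hTK, -⟩ := (hGen ζ hζ).2.2.1 u
  refine ⟨h1, h2, h3, ?_, ?_, ?_⟩
  · rw [hHK]; exact h4
  · rw [hTK]; exact h6
  · rw [hfK]; exact hf

/-! ### The brick -/

theorem nsmul_mod_five {G : Type*} [AddCommGroup G] (P : G) (h5 : (5 : ℕ) • P = 0) (k : ℕ) :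
    k • P = (k % 5) • P := by
  conv_lhs => rw [← Nat.div_add_mod k 5]
  rw [add_smul, mul_comm, mul_smul, h5, smul_zero, zero_add]

/-- **(K3-gal)** Galois acts on the level structure through the vector and the cyclotomic
character. -/
theorem galCompat (hSpec : PKSpec) (hGen : RelGen) : GalCompat := by
  intro ζ hζ E₀ w hw σ
  refine ⟨smul_PK E₀ w σ, ?_⟩
  intro k hk
  have hw' : IsKl (E₀.toAffine⁄Qb) (fun i => σ (w i)) := isKl_map E₀ hw σ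
  have hu : IsKl (E₀.toAffine⁄Qb) ((Um ζ).mulVec (fun i => σ (w i))) := isKl_Um hGen hζ hw'
  -- `σ • QK w = PK (Ũ_{σ ζ} (σ w))`
  have h1 : σ • QK ζ (E₀.toAffine⁄Qb) w
      = PK (E₀.toAffine⁄Qb) ((Um (σ ζ)).mulVec (fun i => σ (w i))) := by
    unfold QK
    rw [smul_PK]
    congr 1
    funext i
    fin_cases i <;>
      simp [Um, uA, uB, Matrix.mulVec, dotProduct, Fin.sum_univ_two, map_div₀, map_ofNat]
  have h5 : ζ ^ 5 = 1 := pow_five hζ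
  have hkmod : ζ ^ k = ζ ^ (k % 5) := pow_eq_pow_mod k h5
  have hP5 : (5 : ℕ) • PK (E₀.toAffine⁄Qb) ((Um ζ).mulVec (fun i => σ (w i))) = 0 :=
    (hSpec _ _ hu).2.1
  -- doubling along `S̃`
  have hS : ∀ u : Fin 2 → Qb, IsKl (E₀.toAffine⁄Qb) u →
      PK (E₀.toAffine⁄Qb) (Sm.mulVec u) = (2 : ℕ) • PK (E₀.toAffine⁄Qb) u :=
    fun u hu => (hSpec _ _ hu).2.2.1
  have hζ2 : IsZ5 (ζ ^ 2) := isZ5_sq hζ
  have hζ4 : IsZ5 ((ζ ^ 2) ^ 2) := isZ5_sq hζ2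
  have hU2 : PK (E₀.toAffine⁄Qb) ((Um (ζ ^ 2)).mulVec (fun i => σ (w i)))
      = (2 : ℕ) • PK (E₀.toAffine⁄Qb) ((Um ζ).mulVec (fun i => σ (w i))) := by
    rw [Um_sq hζ, ← Matrix.mulVec_mulVec, hS _ hu]
  have hU4 : PK (E₀.toAffine⁄Qb) ((Um ((ζ ^ 2) ^ 2)).mulVec (fun i => σ (w i)))
      = (4 : ℕ) • PK (E₀.toAffine⁄Qb) ((Um ζ).mulVec (fun i => σ (w i))) := by
    rw [Um_sq hζ2, Um_sq hζ, ← Matrix.mulVec_mulVec, ← Matrix.mulVec_mulVec,
      hS _ (isKl_Sm hu), hS _ hu, ← mul_smul]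
    norm_num
  have hU8 : PK (E₀.toAffine⁄Qb) ((Um (((ζ ^ 2) ^ 2) ^ 2)).mulVec (fun i => σ (w i)))
      = (8 : ℕ) • PK (E₀.toAffine⁄Qb) ((Um ζ).mulVec (fun i => σ (w i))) := by
    rw [Um_sq hζ4, Um_sq hζ2, Um_sq hζ, ← Matrix.mulVec_mulVec, ← Matrix.mulVec_mulVec,
      ← Matrix.mulVec_mulVec, hS _ (isKl_Sm (isKl_Sm hu)), hS _ (isKl_Sm hu), hS _ hu,
      ← mul_smul, ← mul_smul]
    norm_num
  rw [h1, hk, hkmod]
  change _ = k • PK (E₀.toAffine⁄Qb) ((Um ζ).mulVec (fun i => σ (w i)))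
  rw [nsmul_mod_five _ hP5 k]
  have hlt : k % 5 < 5 := Nat.mod_lt _ (by norm_num)
  interval_cases hj : k % 5
  · -- `σ ζ = 1` is impossible
    exfalso
    rw [hkmod, pow_zero] at hk
    have hζ1 : ζ = 1 := by
      apply σ.injective
      rw [hk, map_one]
    rw [hζ1] at hζ
    unfold IsZ5 at hζ
    norm_num at hζ
  · rw [pow_one, one_smul]
  · exact hU2
  · have e : ζ ^ 3 = ((ζ ^ 2) ^ 2) ^ 2 := by
      rw [← pow_mul, ← pow_mul]
      calc ζ ^ 3 = ζ ^ 3 * ζ ^ 5 := by rw [h5, mul_one]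
        _ = ζ ^ (2 * 2 * 2) := by ring
    rw [e, hU8]
    rw [nsmul_mod_five _ hP5 8]
  · have e : ζ ^ 4 = (ζ ^ 2) ^ 2 := by ring
    rw [e, hU4]

end Fermat.Agent.S52K.GalCompat90
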