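/-
S52K (3–5 switch), brick (K3-indep) `Indep` (helper14).

`PK E w` and `QK ζ E w` are independent over `𝔽₅`.  No polynomial identity is needed beyond the
two generator relations of `RelGen`: if `Q_w = c • P_w` then along `w ↦ T̃ w` the ratio moves by
`c ↦ c / (1 + c)`, and every orbit of this map on `𝔽₅` runs into `c = -1`, where
`P_{T̃ w} = P_w + Q_w = 0`, which is impossible (`P` is never `0`).
-/
import Mathlib
import Fermat.Agent.S52K.Interfaces

set_option autoImplicit false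

namespace Fermat.Agent.S52K.Indep14

open Fermat.Agent.S58 WeierstrassCurve
open Fermat.Agent.S52K Fermat.Agent.S52K.Klein

variable {ζ : Qb} {E : WeierstrassCurve Qb} {w : Fin 2 → Qb}

theorem isKl_of_rel {γ : Matrix (Fin 2) (Fin 2) Qb} {p q r s : ℤ} (h : Rel ζ γ p q r s)
    (hK : IsKl E w) : IsKl E (γ.mulVec w) := by
  obtain ⟨h1, h2, h3, h4, h6, hf⟩ := hK
  obtain ⟨hfK, hHK, hTK, -⟩ := h.2.1 w
  exact ⟨h1, h2, h3, by rw [hHK]; exact h4, by rw [hTK]; exact h6, by rw [hfK]; exact hf⟩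

theorem pk_ne (hS : PKSpec) (hK : IsKl E w) : PK E w ≠ 0 := by
  obtain ⟨⟨h, e⟩, -⟩ := hS E w hK
  rw [e]
  exact Affine.Point.some_ne_zero h

theorem pk5 (hS : PKSpec) (hK : IsKl E w) : (5 : ℤ) • PK E w = 0 := by
  have := (hS E w hK).2.1
  exact_mod_cast this

theorem smul_congr5 (hS : PKSpec) (hK : IsKl E w) {c c' : ℤ} (h : (5 : ℤ) ∣ c - c') :
    c • PK E w = c' • PK E w := by
  obtain ⟨k, hk⟩ := h
  have : c = c' + k * 5 := by linear_combination hk
  rw [this, add_zsmul, mul_zsmul, pk5 hS hK, zsmul_zero, add_zero]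

/-- The step `w ↦ T̃ w`: the ratio `c` becomes `c / (1 + c)`. -/
theorem step (hS : PKSpec) (hT : Rel ζ (Tm ζ) 1 0 1 1) (hK : IsKl E w) {c : ℤ}
    (hQ : QK ζ E w = c • PK E w) (c' : ℤ) (hc : (5 : ℤ) ∣ c' * (1 + c) - c) :
    QK ζ E ((Tm ζ).mulVec w) = c' • PK E ((Tm ζ).mulVec w) := by
  obtain ⟨e1, e2⟩ := hT.2.2 E w hK
  rw [e1, e2, hQ, zero_zsmul, zero_add, one_zsmul, one_zsmul, zsmul_add, ← mul_zsmul]
  have h1 : c' • PK E w + (c' * c) • PK E w = (c' * (1 + c)) • PK E w := by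
    rw [mul_add, mul_one, add_zsmul]
  rw [h1]
  exact (smul_congr5 hS hK hc).symm

theorem not_neg_one (hS : PKSpec) (hT : Rel ζ (Tm ζ) 1 0 1 1) (hK : IsKl E w) :
    QK ζ E w ≠ (-1 : ℤ) • PK E w := by
  intro hQ
  obtain ⟨e1, -⟩ := hT.2.2 E w hK
  rw [hQ, one_zsmul, one_zsmul, neg_one_zsmul, add_neg_cancel] at e1
  exact pk_ne hS (isKl_of_rel hT hK) e1

theorem not_two (hS : PKSpec) (hT : Rel ζ (Tm ζ) 1 0 1 1) (hK : IsKl E w) :
    QK ζ E w ≠ (2 : ℤ) • PK E w := fun hQ =>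
  not_neg_one hS hT (isKl_of_rel hT hK) (step hS hT hK hQ (-1) (by norm_num))

theorem not_three (hS : PKSpec) (hT : Rel ζ (Tm ζ) 1 0 1 1) (hK : IsKl E w) :
    QK ζ E w ≠ (3 : ℤ) • PK E w := fun hQ =>
  not_two hS hT (isKl_of_rel hT hK) (step hS hT hK hQ 2 (by norm_num))

theorem not_one (hS : PKSpec) (hT : Rel ζ (Tm ζ) 1 0 1 1) (hK : IsKl E w) :
    QK ζ E w ≠ (1 : ℤ) • PK E w := fun hQ =>
  not_three hS hT (isKl_of_rel hT hK) (step hS hT hK hQ 3 (by norm_num))

theorem qk_ne_zero (hS : PKSpec) (hU : Rel ζ (Um ζ) 0 (-1) 1 0) (hK : IsKl E w) :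
    QK ζ E w ≠ 0 :=
  pk_ne hS (isKl_of_rel hU hK)

theorem qk5 (hS : PKSpec) (hU : Rel ζ (Um ζ) 0 (-1) 1 0) (hK : IsKl E w) :
    (5 : ℤ) • QK ζ E w = 0 :=
  pk5 hS (isKl_of_rel hU hK)

/-- `QK ζ E w` is not a multiple of `PK E w`. -/
theorem qk_ne_smul (hS : PKSpec) (hT : Rel ζ (Tm ζ) 1 0 1 1) (hU : Rel ζ (Um ζ) 0 (-1) 1 0)
    (hK : IsKl E w) (c : ℤ) : QK ζ E w ≠ c • PK E w := by
  intro hQ
  have hc : c • PK E w = (c % 5) • PK E w :=
    smul_congr5 hS hK (by
      have := Int.emod_add_mul_ediv c 5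
      exact ⟨c / 5, by linarith⟩)
  rw [hc] at hQ
  have h0 : 0 ≤ c % 5 := Int.emod_nonneg c (by norm_num)
  have h5 : c % 5 < 5 := Int.emod_lt_of_pos c (by norm_num)
  generalize c % 5 = d at hQ h0 h5
  interval_cases d
  · rw [zero_zsmul] at hQ; exact qk_ne_zero hS hU hK hQ
  · exact not_one hS hT hK hQ
  · exact not_two hS hT hK hQ
  · exact not_three hS hT hK hQ
  · refine not_neg_one hS hT hK ?_
    rw [hQ]
    exact smul_congr5 hS hK (by norm_num)

/-- **(K3-indep)** from the point spec and the generator relations. -/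
theorem indep (hS : PKSpec) (hG : RelGen) : Indep := by
  intro ζ hζ E w hK a b hab
  obtain ⟨hT, hU⟩ := hG ζ hζ
  have hb : (5 : ℤ) ∣ b := by
    by_contra hb
    have hcop : IsCoprime b 5 := by
      rw [Int.isCoprime_iff_gcd_eq_one]
      have h5 : Nat.Prime 5 := by norm_num
      have hg : Int.gcd b 5 ∣ 5 := Int.gcd_dvd_natAbs_right b 5
      rcases (Nat.dvd_prime h5).mp hg with h | h
      · exact h
      · exfalso; apply hb
        have := Int.gcd_dvd_left b 5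
        rw [h] at this
        exact_mod_cast this
    obtain ⟨u, v, huv⟩ := hcop
    -- `u * b + v * 5 = 1`
    have hbQ : b • QK ζ E w = (-a) • PK E w := by
      rw [neg_zsmul]; exact eq_neg_of_add_eq_zero_right hab
    have : QK ζ E w = (u * -a) • PK E w := by
      calc QK ζ E w = (1 : ℤ) • QK ζ E w := (one_zsmul _).symm
        _ = (u * b + v * 5) • QK ζ E w := by rw [huv]
        _ = u • (b • QK ζ E w) + v • ((5 : ℤ) • QK ζ E w) := by
            rw [add_zsmul, mul_zsmul, mul_zsmul]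
        _ = (u * -a) • PK E w := by
            rw [hbQ, qk5 hS hU hK, zsmul_zero, add_zero, mul_zsmul]
    exact qk_ne_smul hS hT hU hK _ this
  have hbQ : b • QK ζ E w = 0 := by
    obtain ⟨k, rfl⟩ := hb
    rw [mul_comm, mul_zsmul, qk5 hS hU hK, zsmul_zero]
  rw [hbQ, add_zero] at hab
  refine ⟨?_, hb⟩
  by_contra ha
  have hcop : IsCoprime a 5 := by
    rw [Int.isCoprime_iff_gcd_eq_one]
    have h5 : Nat.Prime 5 := by norm_num
    have hg : Int.gcd a 5 ∣ 5 := Int.gcd_dvd_natAbs_right a 5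
    rcases (Nat.dvd_prime h5).mp hg with h | h
    · exact h
    · exfalso; apply ha
      have := Int.gcd_dvd_left a 5
      rw [h] at this
      exact_mod_cast this
  obtain ⟨u, v, huv⟩ := hcop
  have : PK E w = 0 := by
    calc PK E w = (1 : ℤ) • PK E w := (one_zsmul _).symm
      _ = (u * a + v * 5) • PK E w := by rw [huv]
      _ = u • (a • PK E w) + v • ((5 : ℤ) • PK E w) := by rw [add_zsmul, mul_zsmul, mul_zsmul]
      _ = 0 := by rw [hab, pk5 hS hK, zsmul_zero, zsmul_zero, add_zero]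
  exact pk_ne hS hK this

end Fermat.Agent.S52K.Indep14
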