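import Mathlib
import Fermat.Agent.S58.EpRep
import Fermat.Agent.S58.Mult.Main
import Fermat.Agent.Lib.TameProp
import Fermat.Agent.Lib.InertiaLift
import Fermat.Agent.Lib.ValConj
import Fermat.Agent.Lib.FrobeniusExists
import Fermat.Agent.PT.G.CycloLocNorm
import Fermat.Agent.EC.FrobFixed.NonEisenstein
import Fermat.Agent.ESJ.Rep.Cyclo

/-!
# S52 (K) — brick `Irr3` (helper62)

A semistable integral model `W` whose `3`-torsion is reducible has `a_r ≡ 1 + r ≡ 2 (mod 3)` at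
every good prime `r ≡ 1 (mod 3)`.

Proof.  A stable line `⟨v⟩ ⊆ W[3]` gives a character `ε : G_ℚ → {±1}`, `g • v = ε(g) v`; put
`δ = det ρ` (the mod `3` cyclotomic character).  Both are trivial on inertia at every `q ≠ 3`
(good: the whole of `W[3]` is fixed; multiplicative: a fixed point of order `3` and Cayley–Hamilton).
On an inertia group at `3` the two `𝔽₂`-valued functions `log ε`, `log δ` are proportional (tame
inertia is procyclic) and `log δ ≠ 0`, so `ε = 1` or `ε = δ` there.  Hence `ε` or `ε δ` is trivial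
on all inertia groups, hence trivial.  At a Frobenius `σ` at `r ≡ 1 (mod 3)`, `δ(σ) = r = 1`, so
`σ v = v`, and Cayley–Hamilton gives `tr ρ(σ) = 2`.
-/

set_option autoImplicit false

namespace Fermat.Agent.S52K.Irr3_62

open Fermat.Agent.S58 Fermat.Agent.S58.EpRep WeierstrassCurve
open scoped WeierstrassCurve.Affine

/-! ### `{±1} = (ℤ/3)ˣ` -/

theorem units_mul_self (a : (ZMod 3)ˣ) : a * a = 1 := by revert a; decide

theorem units_eq_one_or (a : (ZMod 3)ˣ) : a = 1 ∨ a = -1 := by revert a; decide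

/-- The `𝔽₂`-valued logarithm on `{±1}`. -/
def lg (a : (ZMod 3)ˣ) : ZMod 2 := if a = 1 then 0 else 1

theorem lg_mul (a b : (ZMod 3)ˣ) : lg (a * b) = lg a + lg b := by revert a b; decide

theorem lg_eq_zero_iff (a : (ZMod 3)ˣ) : lg a = 0 ↔ a = 1 := by revert a; decide

theorem lg_eq_iff (a b : (ZMod 3)ˣ) : lg a = lg b ↔ a = b := by revert a b; decide


/-! ### The two characters -/

variable {W : WeierstrassCurve ℤ}

/-- The determinant character `δ = det ρ_{W,3}`. -/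
noncomputable def dch (W : WeierstrassCurve ℤ) : GQ →* (ZMod 3)ˣ :=
  ((LinearMap.det : Module.End (ZMod 3) (Ep W 3) →* ZMod 3).comp (rhoE W 3)).toHomUnits

theorem dch_val (g : GQ) : ((dch W g : (ZMod 3)ˣ) : ZMod 3) = LinearMap.det (rhoE W 3 g) := rfl

theorem neg_ne_self {v : Ep W 3} (hv0 : v ≠ 0) : -v ≠ v := by
  intro h
  have h2 : (2 : ZMod 3) • v = 0 := by
    rw [two_smul]
    nth_rewrite 1 [← h]
    exact neg_add_cancel v
  rcases smul_eq_zero.mp h2 with h3 | h3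
  · exact absurd h3 (by decide)
  · exact hv0 h3

open Classical in
/-- The character `ε` of a stable line `⟨v⟩`: `g • v = ε(g) v`. -/
noncomputable def lch (v : Ep W 3) (hv0 : v ≠ 0) (hv : ∀ g : GQ, g • v = v ∨ g • v = -v) :
    GQ →* (ZMod 3)ˣ :=
  MonoidHom.mk' (fun g => if g • v = v then 1 else -1) (by
    intro a b
    have hne := neg_ne_self hv0
    rcases hv a with ha | ha <;> rcases hv b with hb | hb <;>
      simp [mul_smul, ha, hb, hne, smul_neg])

open Classical in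
theorem lch_eq_one_iff (v : Ep W 3) (hv0 : v ≠ 0) (hv : ∀ g : GQ, g • v = v ∨ g • v = -v)
    (g : GQ) : lch v hv0 hv g = 1 ↔ g • v = v := by
  show (if g • v = v then (1 : (ZMod 3)ˣ) else -1) = 1 ↔ g • v = v
  by_cases h : g • v = v
  · simp [h]
  · simp only [h, if_false, iff_false]
    decide

/-! ### Level constancy -/

theorem finite_Ep (hΔ : W.Δ ≠ 0) : Finite (Ep W 3) := by
  have := finite_torsion (p := 3) hΔ
  exact Module.finite_of_finite (ZMod 3)

theorem smul_eq_self_of_fix (s : GQ)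
    (hs : ∀ x ∈ EC.FrobFixed.torsionField (EQ W) 3, s x = x) (P : Ep W 3) : s • P = P := by
  have h := EC.FrobFixed.smul_eq_of_agree (EQ W) 3 s 1 (fun z hz => by simpa using hs z hz) P
  rw [one_smul] at h
  exact h

theorem dch_eq_one_of_fix (s : GQ)
    (hs : ∀ x ∈ EC.FrobFixed.torsionField (EQ W) 3, s x = x) : dch W s = 1 := by
  apply Units.ext
  rw [dch_val, Units.val_one]
  have h1 : rhoE W 3 s = 1 := by
    apply LinearMap.ext
    intro P
    rw [rhoE_apply]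
    exact smul_eq_self_of_fix s hs P
  rw [h1, map_one]

theorem lch_eq_one_of_fix (v : Ep W 3) (hv0 : v ≠ 0) (hv : ∀ g : GQ, g • v = v ∨ g • v = -v)
    (s : GQ) (hs : ∀ x ∈ EC.FrobFixed.torsionField (EQ W) 3, s x = x) :
    lch v hv0 hv s = 1 :=
  (lch_eq_one_iff v hv0 hv s).mpr (smul_eq_self_of_fix s hs v)

theorem isOpen_ker_of_fix (hΔ : W.Δ ≠ 0) (f : GQ →* (ZMod 3)ˣ)
    (hf : ∀ s : GQ, (∀ x ∈ EC.FrobFixed.torsionField (EQ W) 3, s x = x) → f s = 1) :
    IsOpen (f.ker : Set GQ) := by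
  have := finite_Ep hΔ
  have := EC.FrobFixed.finiteDimensional_torsionField (EQ W) 3
  refine Subgroup.isOpen_mono (H₁ := (EC.FrobFixed.torsionField (EQ W) 3).fixingSubgroup) ?_
    (IntermediateField.fixingSubgroup_isOpen _)
  intro s hs
  rw [MonoidHom.mem_ker]
  exact hf s fun x hx => (IntermediateField.mem_fixingSubgroup_iff _ s).mp hs x hx

/-! ### Inertia at `q ≠ 3` -/

theorem dch_inertia (hΔ : W.Δ ≠ 0) {q : ℕ} (hq : q.Prime) (hq3 : q ≠ 3)
    (A : ValuationSubring Qb) (hA : A.LiesOverPrime q) (τ : GQ)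
    (hτ : τ ∈ A.inertiaSubgroupIn ℚ) : dch W τ = 1 := by
  apply Units.ext
  rw [dch_val, Units.val_one, det_eq hΔ τ, ESJ.Rep.cyclo_inertia 3 hq hq3 A hA τ hτ,
    Units.val_one, map_one]

/-- If `g` fixes a nonzero `P` and negates a nonzero `v`, then `det ρ(g) = -1`
(Cayley–Hamilton at `P` and at `v`). -/
theorem det_eq_neg_one (hΔ : W.Δ ≠ 0) (g : GQ) {P v : Ep W 3} (hP0 : P ≠ 0) (hv0 : v ≠ 0)
    (hP : g • P = P) (hv : g • v = -v) : LinearMap.det (rhoE W 3 g) = -1 := by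
  have h1 := cayley hΔ g P
  have h2 := cayley hΔ g v
  simp only [rhoE_apply] at h1 h2
  rw [hP, hP] at h1
  rw [hv, smul_neg, hv, neg_neg] at h2
  set t := LinearMap.trace (ZMod 3) (Ep W 3) (rhoE W 3 g) with ht
  set d := LinearMap.det (rhoE W 3 g) with hd
  have e1 : (1 - t + d) • P = 0 := by
    rw [add_smul, sub_smul, one_smul]
    exact h1
  have e2 : (1 + t + d) • v = 0 := by
    rw [add_smul, add_smul, one_smul]
    rw [smul_neg, sub_neg_eq_add] at h2
    exact h2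
  have e1' : 1 - t + d = 0 := (smul_eq_zero.mp e1).resolve_right hP0
  have e2' : 1 + t + d = 0 := (smul_eq_zero.mp e2).resolve_right hv0
  have h : (2 : ZMod 3) * (1 + d) = 0 := by linear_combination e1' + e2'
  rcases mul_eq_zero.mp h with h | h
  · exact absurd h (by decide)
  · linear_combination h

theorem lch_inertia (hΔ : W.Δ ≠ 0) (hW : W.IsSemistableModel) (v : Ep W 3) (hv0 : v ≠ 0)
    (hv : ∀ g : GQ, g • v = v ∨ g • v = -v) {q : ℕ} (hq : q.Prime) (hq3 : q ≠ 3)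
    (A : ValuationSubring Qb) (hA : A.LiesOverPrime q) (τ : GQ)
    (hτ : τ ∈ A.inertiaSubgroupIn ℚ) : lch v hv0 hv τ = 1 := by
  rw [lch_eq_one_iff]
  by_cases hbad : (q : ℤ) ∣ W.Δ
  · obtain ⟨P, hP3, hP0, hPfix⟩ := Mult.multFixed W q hq hΔ hbad (hW q hq hbad) A hA 3
      Nat.prime_three (Ne.symm hq3) 0
    rcases hv τ with h | h
    · exact h
    · exfalso
      have hPmem : P ∈ Submodule.torsionBy ℤ (EPt W) (3 : ℕ) := by
        rw [Submodule.mem_torsionBy_iff, Nat.cast_smul_eq_nsmul]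
        simpa using hP3
      have hP'0 : (⟨P, hPmem⟩ : Ep W 3) ≠ 0 := fun h0 => hP0 (by
        have := congrArg Subtype.val h0
        simpa using this)
      have hP'fix : τ • (⟨P, hPmem⟩ : Ep W 3) = ⟨P, hPmem⟩ := Subtype.ext (hPfix τ hτ)
      have hd := det_eq_neg_one hΔ τ hP'0 hv0 hP'fix h
      have hd1 := dch_inertia hΔ hq hq3 A hA τ hτ
      have h1 : LinearMap.det (rhoE W 3 τ) = 1 := by rw [← dch_val, hd1, Units.val_one]
      rw [hd] at h1
      exact absurd h1 (by decide)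
  · apply Subtype.ext
    have h3v : (3 : ℕ) • (v : EPt W) = 0 := by
      have := v.2
      rwa [Submodule.mem_torsionBy_iff, Nat.cast_smul_eq_nsmul] at this
    exact FrobFinal.goodUnram W q hq hbad A hA τ hτ 3
      ((Nat.coprime_primes Nat.prime_three hq).mpr (Ne.symm hq3)) (v : EPt W) h3v

/-! ### Inertia at `3` -/

theorem exists_inertia_dch_ne_one (hΔ : W.Δ ≠ 0) (A : ValuationSubring Qb)
    (hA : A.LiesOverPrime 3) : ∃ σ ∈ A.inertiaSubgroupIn ℚ, dch W σ ≠ 1 := by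
  obtain ⟨σ, hσ, hgen⟩ := PT.G.exists_inertia_zpowers_cycloChar_eq_top 3 A hA
  refine ⟨σ, hσ, fun h1 => ?_⟩
  obtain ⟨ζ, hζ⟩ := ESJ.Rep.Cyclo.exists_primitiveRoot 3 1
  have hζ3 : IsPrimitiveRoot ζ 3 := by simpa using hζ
  have hc : ExtCitation.cycloChar 3 σ ≠ 1 := by
    intro h
    rw [h] at hgen
    have hm : (-1 : (ZMod 3)ˣ) ∈ Subgroup.zpowers (1 : (ZMod 3)ˣ) := by
      rw [hgen]
      trivial
    rw [Subgroup.zpowers_one_eq_bot, Subgroup.mem_bot] at hm
    exact absurd hm (by decide)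
  apply hc
  rw [PT.Levels.cycloChar_eq_one_iff 3 σ hζ3]
  have hdet : PadicInt.toZMod ((ESJ.Rep.cyclo 3 σ : ℤ_[3]ˣ) : ℤ_[3]) = 1 := by
    rw [← det_eq hΔ σ, ← dch_val, h1, Units.val_one]
  have hmem : ((ESJ.Rep.cyclo 3 σ : ℤ_[3]ˣ) : ℤ_[3]) - 1 ∈
      RingHom.ker (PadicInt.toZModPow (p := 3) 1) := by
    rw [PadicInt.ker_toZModPow, pow_one, ← PadicInt.maximalIdeal_eq_span_p, ← PadicInt.ker_toZMod,
      RingHom.mem_ker, map_sub, hdet, map_one, sub_self]
  rw [RingHom.mem_ker, map_sub, map_one, sub_eq_zero] at hmem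
  have hs := ESJ.Rep.Cyclo.cyclo_spec 3 1 σ ζ hζ.pow_eq_one
  rw [hmem] at hs
  have hval : ((1 : ZMod (3 ^ 1))).val = 1 := by decide
  rw [hval, pow_one] at hs
  exact hs

theorem at_three (hΔ : W.Δ ≠ 0) (v : Ep W 3) (hv0 : v ≠ 0)
    (hv : ∀ g : GQ, g • v = v ∨ g • v = -v) (A₀ : ValuationSubring Qb)
    (hA₀ : A₀.LiesOverPrime 3) :
    (∀ σ ∈ A₀.inertiaSubgroupIn ℚ, lch v hv0 hv σ = 1) ∨
      (∀ σ ∈ A₀.inertiaSubgroupIn ℚ, lch v hv0 hv σ = dch W σ) := by
  have hF : FiniteDimensional ℚ (EC.FrobFixed.torsionField (EQ W) 3) := by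
    have := finite_Ep hΔ
    exact EC.FrobFixed.finiteDimensional_torsionField (EQ W) 3
  obtain ⟨x, hx⟩ := Lib.TameProp.tame_proportional (k := ZMod 2) 2 3 Nat.prime_two
    Nat.prime_three (by norm_num) (by decide) A₀ hA₀
    (fun σ => lg (lch v hv0 hv σ)) (fun σ => lg (dch W σ))
    (fun σ _ τ _ => by simp only [map_mul, lg_mul])
    ⟨_, hF, fun g s hs => by simp only [map_mul, lch_eq_one_of_fix v hv0 hv s hs, mul_one]⟩
    (fun σ _ τ _ => by simp only [map_mul, lg_mul])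
    ⟨_, hF, fun g s hs => by simp only [map_mul, dch_eq_one_of_fix s hs, mul_one]⟩
    (by
      obtain ⟨σ, hσ, hne⟩ := exists_inertia_dch_ne_one hΔ A₀ hA₀
      exact ⟨σ, hσ, fun h => hne ((lg_eq_zero_iff _).mp h)⟩)
  have h01 : ∀ y : ZMod 2, y = 0 ∨ y = 1 := by decide
  rcases h01 x with rfl | rfl
  · left
    intro σ hσ
    have := hx σ hσ
    rw [zero_mul] at this
    exact (lg_eq_zero_iff _).mp this
  · right
    intro σ hσ
    have := hx σ hσ
    rw [one_mul] at this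
    exact (lg_eq_iff _ _).mp this

/-! ### The brick -/

theorem conj_apply (f : GQ →* (ZMod 3)ˣ) (g τ : GQ) : f (g⁻¹ * τ * g) = f τ := by
  rw [map_mul, map_mul, map_inv, mul_comm, ← mul_assoc, mul_inv_cancel, one_mul]

/-- **(IRR3)** semistable with reducible `3`-torsion: `a_r ≡ 2 (mod 3)` at every good prime
`r ≡ 1 (mod 3)`. -/
theorem irr3 (W : WeierstrassCurve ℤ) (hΔ : W.Δ ≠ 0) (hW : W.IsSemistableModel)
    (h3 : ¬ W.ModRepIsIrreducible 3) (r : ℕ) (hr : r.Prime) (hr3 : r % 3 = 1)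
    (hg : ¬ (r : ℤ) ∣ W.Δ) : (3 : ℤ) ∣ W.apOfModel r - 2 := by
  have hfr := finrank_torsion (p := 3) hΔ
  have hfin := finite_torsion (p := 3) hΔ
  have hnt : Nontrivial (Ep W 3) :=
    Module.nontrivial_of_finrank_pos (R := ZMod 3) (by rw [hfr]; norm_num)
  have h3' : ¬ (Nontrivial (Ep W 3) ∧ ∀ N : Submodule (ZMod 3) (Ep W 3),
      Affine.Point.IsGaloisStable ℚ N → N = ⊥ ∨ N = ⊤) := h3
  have h3'' : ¬ ∀ N : Submodule (ZMod 3) (Ep W 3),
      Affine.Point.IsGaloisStable ℚ N → N = ⊥ ∨ N = ⊤ := fun h => h3' ⟨hnt, h⟩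
  obtain ⟨N, hN⟩ := not_forall.mp h3''
  obtain ⟨hNst, hN2⟩ := Classical.not_imp.mp hN
  obtain ⟨hNbot, hNtop⟩ := not_or.mp hN2
  obtain ⟨v, hvN, hv0⟩ := (Submodule.ne_bot_iff N).mp hNbot
  have hvN0 : (⟨v, hvN⟩ : N) ≠ 0 := fun h => hv0 (congrArg Subtype.val h)
  have hN1 : Module.finrank (ZMod 3) N = 1 := by
    have hlt : Module.finrank (ZMod 3) N < Module.finrank (ZMod 3) (Ep W 3) :=
      Submodule.finrank_lt hNtop
    have hpos : 0 < Module.finrank (ZMod 3) N :=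
      Module.finrank_pos_iff_exists_ne_zero.mpr ⟨⟨v, hvN⟩, hvN0⟩
    omega
  have hv : ∀ g : GQ, g • v = v ∨ g • v = -v := by
    intro g
    have hgv : g • v ∈ N := hNst g v hvN
    obtain ⟨c, hc⟩ := (finrank_eq_one_iff_of_nonzero' (⟨v, hvN⟩ : N) hvN0).mp hN1 ⟨g • v, hgv⟩
    have hc' : c • v = g • v := congrArg Subtype.val hc
    have h012 : ∀ y : ZMod 3, y = 0 ∨ y = 1 ∨ y = -1 := by decide
    rcases h012 c with rfl | rfl | rfl
    · exfalso
      rw [zero_smul] at hc'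
      exact hv0 ((smul_eq_zero_iff_eq g).mp hc'.symm)
    · left
      rw [← hc', one_smul]
    · right
      rw [← hc', neg_smul, one_smul]
  obtain ⟨A₀, -, hA₀, -⟩ := Lib.FrobeniusExists.exists_isFrobeniusAt Nat.prime_three
  obtain ⟨A, σ, hA, hσ⟩ := Lib.FrobeniusExists.exists_isFrobeniusAt hr
  have hr3' : r ≠ 3 := by
    rintro rfl
    norm_num at hr3
  have hdσ : dch W σ = 1 := by
    apply Units.ext
    rw [dch_val, det_frob hΔ hr hr3' hg A hA σ hσ, Units.val_one, ← ZMod.natCast_mod, hr3,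
      Nat.cast_one]
  have hεσ : lch v hv0 hv σ = 1 := by
    rcases at_three hΔ v hv0 hv A₀ hA₀ with h | h
    · refine Lib.InertiaLift.monoidHom_eq_one_of_inertia (lch v hv0 hv)
        (isOpen_ker_of_fix hΔ _ (lch_eq_one_of_fix v hv0 hv)) (fun ℓ hℓ B hB τ hτ => ?_) σ
      by_cases hℓ3 : ℓ = 3
      · subst hℓ3
        obtain ⟨g, rfl⟩ := Lib.ValConj.exists_smul_eq_of_liesOverPrime Nat.prime_three A₀ B hA₀ hB
        have := h _ ((Lib.ValConj.mem_inertiaSubgroupIn_smul_iff g τ A₀).mp hτ)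
        rwa [conj_apply] at this
      · exact lch_inertia hΔ hW v hv0 hv hℓ hℓ3 B hB τ hτ
    · have key := Lib.InertiaLift.monoidHom_eq_one_of_inertia (lch v hv0 hv * dch W)
        (isOpen_ker_of_fix hΔ _ (fun s hs => by
          rw [MonoidHom.mul_apply, lch_eq_one_of_fix v hv0 hv s hs, dch_eq_one_of_fix s hs,
            mul_one]))
        (fun ℓ hℓ B hB τ hτ => by
          by_cases hℓ3 : ℓ = 3
          · subst hℓ3
            obtain ⟨g, rfl⟩ :=
              Lib.ValConj.exists_smul_eq_of_liesOverPrime Nat.prime_three A₀ B hA₀ hB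
            have := h _ ((Lib.ValConj.mem_inertiaSubgroupIn_smul_iff g τ A₀).mp hτ)
            rw [conj_apply, conj_apply] at this
            rw [MonoidHom.mul_apply, this, units_mul_self]
          · rw [MonoidHom.mul_apply, lch_inertia hΔ hW v hv0 hv hℓ hℓ3 B hB τ hτ,
              dch_inertia hΔ hℓ hℓ3 B hB τ hτ, mul_one]) σ
      rw [MonoidHom.mul_apply, hdσ, mul_one] at key
      exact key
  have hσv : σ • v = v := (lch_eq_one_iff v hv0 hv σ).mp hεσ
  have hc := cayley hΔ σ v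
  simp only [rhoE_apply] at hc
  have hdet : LinearMap.det (rhoE W 3 σ) = 1 := by rw [← dch_val, hdσ, Units.val_one]
  rw [hσv, hσv, hdet, trace_frob hΔ hr hr3' hg A hA σ hσ, one_smul] at hc
  have hc2 : ((2 : ZMod 3) - ((W.apOfModel r : ℤ) : ZMod 3)) • v = 0 := by
    rw [sub_smul, two_smul, ← hc]
    abel
  have hz : (2 : ZMod 3) - ((W.apOfModel r : ℤ) : ZMod 3) = 0 :=
    (smul_eq_zero.mp hc2).resolve_right hv0
  have hcast : (((W.apOfModel r - 2 : ℤ)) : ZMod 3) = 0 := by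
    push_cast
    linear_combination -hz
  exact (ZMod.intCast_zmod_eq_zero_iff_dvd _ 3).mp hcast

end Fermat.Agent.S52K.Irr3_62
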