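import Fermat.Agent.S52K.Interfaces
import Fermat.Agent.S52K.Irr3_62

/-!
# S52 (K) — brick `Irr3` in the interface form (helper62)

`Irr3_62.irr3` restated as the `Prop`-valued definition `Irr3` of `S52K/Interfaces.lean`.
-/

set_option autoImplicit false

namespace Fermat.Agent.S52K.Irr3Brick62

/-- **(IRR3)**, the interface form. -/
theorem irr3 : Fermat.Agent.S52K.Irr3 := Fermat.Agent.S52K.Irr3_62.irr3

end Fermat.Agent.S52K.Irr3Brick62
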