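/-
S52K (3–5 switch), brick (FAM-5) `KleinCong5` (helper76).

For a base vector `v` of `(c₄, c₆)` and the family vector `v' = l v + m J∇fK(v)` lying over
`(c₄', c₆')`, the two short curves `Ws c₄ c₆`, `Ws c₄' c₆'` have Galois-isomorphic 5-torsion:
the level structures `(PK v, QK v)` and `(PK v', QK v')` are bases of the two 5-torsion groups on
which every `σ ∈ Gal(ℚ̄/ℚ)` acts by the same integer matrix, because `σ v = η γ v` forces
`σ v' = η γ v'` (covariance of `J∇fK` under `γ`, and `η¹¹ = η`).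

Inputs: the Klein bricks `PKSpec`, `RelSurj`, `Indep`, `GalCompat` of `Interfaces.lean`, and the
cardinality `#E[5] = 25` from `Lib/ECBiquad`.
-/
import Mathlib
import Fermat.Agent.S52K.Interfaces
import Fermat.Agent.Lib.ECBiquad.Main

set_option autoImplicit false

namespace Fermat.Agent.S52K.KleinCong5_76

open Fermat.Agent.S58 WeierstrassCurve
open scoped WeierstrassCurve.Affine
open Fermat.Agent.S52K Fermat.Agent.S52K.Klein

/-! ## Abstract part: two groups with a common "matrix" action on bases of the 5-torsion -/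

section Abstract

variable {G : Type*} [AddCommGroup G]

theorem five_zsmul {P : G} (h5 : (5 : ℕ) • P = 0) : (5 : ℤ) • P = 0 := by
  have h : ((5 : ℕ) : ℤ) • P = 0 := by rw [natCast_zsmul]; exact h5
  simpa using h

theorem zsmul_eq_of_dvd {P : G} (h5 : (5 : ℕ) • P = 0) {a a' : ℤ} (h : (5 : ℤ) ∣ a - a') :
    a • P = a' • P := by
  obtain ⟨k, hk⟩ := h
  have ha : a = a' + k * 5 := by linarith
  rw [ha, add_zsmul, mul_zsmul, five_zsmul h5, smul_zero, add_zero]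

theorem five_nsmul_comb {P0 Q0 : G} (hP : (5 : ℕ) • P0 = 0) (hQ : (5 : ℕ) • Q0 = 0) (a b : ℤ) :
    (5 : ℕ) • (a • P0 + b • Q0) = 0 := by
  rw [nsmul_add, smul_comm (5 : ℕ) a P0, smul_comm (5 : ℕ) b Q0, hP, hQ, smul_zero, smul_zero,
    add_zero]

theorem nsmul_comb (k : ℕ) (q s : ℤ) (X Y : G) :
    k • (q • X + s • Y) = ((k : ℤ) * q) • X + ((k : ℤ) * s) • Y := by
  rw [← natCast_zsmul, smul_add, mul_smul, mul_smul]

/-- Two independent points of order dividing 5 span a 5-torsion group of order 25. -/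
theorem span_of_card (hcard : Nat.card (Submodule.torsionBy ℤ G ((5 : ℕ) : ℤ)) = 5 ^ 2)
    {P0 Q0 : G} (hP : (5 : ℕ) • P0 = 0) (hQ : (5 : ℕ) • Q0 = 0)
    (hind : ∀ a b : ℤ, a • P0 + b • Q0 = 0 → (5 : ℤ) ∣ a ∧ (5 : ℤ) ∣ b)
    (P : G) (h5 : (5 : ℕ) • P = 0) : ∃ a b : ℤ, P = a • P0 + b • Q0 := by
  classical
  have hmem : ∀ R : G, (5 : ℕ) • R = 0 → R ∈ Submodule.torsionBy ℤ G ((5 : ℕ) : ℤ) := by
    intro R hR
    rw [Submodule.mem_torsionBy_iff, natCast_zsmul]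
    exact hR
  let f : Fin 5 × Fin 5 → Submodule.torsionBy ℤ G ((5 : ℕ) : ℤ) := fun ij =>
    ⟨((ij.1 : ℕ) : ℤ) • P0 + ((ij.2 : ℕ) : ℤ) • Q0, hmem _ (five_nsmul_comb hP hQ _ _)⟩
  have hfin : Finite (Submodule.torsionBy ℤ G ((5 : ℕ) : ℤ)) :=
    Nat.finite_of_card_ne_zero (by rw [hcard]; norm_num)
  have hinj : Function.Injective f := by
    rintro ⟨i, j⟩ ⟨i', j'⟩ hij
    have h0 : ((i : ℕ) : ℤ) • P0 + ((j : ℕ) : ℤ) • Q0
        = ((i' : ℕ) : ℤ) • P0 + ((j' : ℕ) : ℤ) • Q0 := congrArg Subtype.val hij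
    have h1 : (((i : ℕ) : ℤ) - ((i' : ℕ) : ℤ)) • P0 + (((j : ℕ) : ℤ) - ((j' : ℕ) : ℤ)) • Q0 = 0 := by
      rw [sub_zsmul, sub_zsmul]
      have := sub_eq_zero.mpr h0
      rw [← this]; abel
    obtain ⟨hi, hj⟩ := hind _ _ h1
    have hi5 := i.isLt
    have hi5' := i'.isLt
    have hj5 := j.isLt
    have hj5' := j'.isLt
    have e1 : (i : ℕ) = i' := by omega
    have e2 : (j : ℕ) = j' := by omega
    exact Prod.ext (Fin.ext e1) (Fin.ext e2)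
  have hle : Nat.card (Submodule.torsionBy ℤ G ((5 : ℕ) : ℤ)) ≤ Nat.card (Fin 5 × Fin 5) := by
    rw [hcard, Nat.card_prod, Nat.card_fin]
    norm_num
  have hbij := hinj.bijective_of_nat_card_le hle
  obtain ⟨⟨i, j⟩, hij⟩ := hbij.2 ⟨P, hmem P h5⟩
  exact ⟨((i : ℕ) : ℤ), ((j : ℕ) : ℤ), (congrArg Subtype.val hij).symm⟩

/-- The abstract transport: bases with the same matrices of the action give an additive,
injective, equivariant map between the 5-torsion groups. -/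
theorem exists_map {M G0 G1 : Type*} [Monoid M] [AddCommGroup G0] [AddCommGroup G1]
    [DistribMulAction M G0] [DistribMulAction M G1]
    {P0 Q0 : G0} {P1 Q1 : G1}
    (hspan : ∀ P : G0, (5 : ℕ) • P = 0 → ∃ a b : ℤ, P = a • P0 + b • Q0)
    (hP0 : (5 : ℕ) • P0 = 0) (hQ0 : (5 : ℕ) • Q0 = 0)
    (hP1 : (5 : ℕ) • P1 = 0) (hQ1 : (5 : ℕ) • Q1 = 0)
    (hind0 : ∀ a b : ℤ, a • P0 + b • Q0 = 0 → (5 : ℤ) ∣ a ∧ (5 : ℤ) ∣ b)
    (hind1 : ∀ a b : ℤ, a • P1 + b • Q1 = 0 → (5 : ℤ) ∣ a ∧ (5 : ℤ) ∣ b)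
    (hgal : ∀ σ : M, ∃ A B C D : ℤ, σ • P0 = A • P0 + B • Q0 ∧ σ • Q0 = C • P0 + D • Q0 ∧
      σ • P1 = A • P1 + B • Q1 ∧ σ • Q1 = C • P1 + D • Q1) :
    ∃ ψ : G0 → G1,
      (∀ P Q : G0, (5 : ℕ) • P = 0 → (5 : ℕ) • Q = 0 → ψ (P + Q) = ψ P + ψ Q) ∧
      (∀ P : G0, (5 : ℕ) • P = 0 → ψ P = 0 → P = 0) ∧
      (∀ (σ : M) (P : G0), (5 : ℕ) • P = 0 → ψ (σ • P) = σ • ψ P) := by
  classical
  let ψ : G0 → G1 := fun P =>
    if h : ∃ a b : ℤ, P = a • P0 + b • Q0 then h.choose • P1 + h.choose_spec.choose • Q1 else 0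
  have key : ∀ a b : ℤ, ψ (a • P0 + b • Q0) = a • P1 + b • Q1 := by
    intro a b
    have h : ∃ a' b' : ℤ, a • P0 + b • Q0 = a' • P0 + b' • Q0 := ⟨a, b, rfl⟩
    have hψ : ψ (a • P0 + b • Q0) = h.choose • P1 + h.choose_spec.choose • Q1 := dif_pos h
    have hsp := h.choose_spec.choose_spec
    have h1 : (a - h.choose) • P0 + (b - h.choose_spec.choose) • Q0 = 0 := by
      rw [sub_zsmul, sub_zsmul]
      have := sub_eq_zero.mpr hsp
      rw [← this]; abel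
    obtain ⟨ha, hb⟩ := hind0 _ _ h1
    rw [hψ, zsmul_eq_of_dvd hP1 ha, zsmul_eq_of_dvd hQ1 hb]
  refine ⟨ψ, ?_, ?_, ?_⟩
  · intro P Q hP hQ
    obtain ⟨a, b, rfl⟩ := hspan P hP
    obtain ⟨c, d, rfl⟩ := hspan Q hQ
    have e : a • P0 + b • Q0 + (c • P0 + d • Q0) = (a + c) • P0 + (b + d) • Q0 := by
      rw [add_zsmul, add_zsmul]; abel
    rw [e, key, key, key, add_zsmul, add_zsmul]; abel
  · intro P hP hψ
    obtain ⟨a, b, rfl⟩ := hspan P hP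
    rw [key] at hψ
    obtain ⟨ha, hb⟩ := hind1 _ _ hψ
    have ha' : (5 : ℤ) ∣ a - 0 := by simpa using ha
    have hb' : (5 : ℤ) ∣ b - 0 := by simpa using hb
    rw [zsmul_eq_of_dvd hP0 ha', zsmul_eq_of_dvd hQ0 hb', zero_smul, zero_smul, add_zero]
  · intro σ P hP
    obtain ⟨a, b, rfl⟩ := hspan P hP
    obtain ⟨A, B, C, D, h1, h2, h3, h4⟩ := hgal σ
    have e0 : σ • (a • P0 + b • Q0) = (a * A + b * C) • P0 + (a * B + b * D) • Q0 := by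
      rw [smul_add, smul_comm σ a P0, smul_comm σ b Q0, h1, h2]
      simp only [smul_add, add_smul, mul_smul]
      abel
    have e1 : σ • (a • P1 + b • Q1) = (a * A + b * C) • P1 + (a * B + b * D) • Q1 := by
      rw [smul_add, smul_comm σ a P1, smul_comm σ b Q1, h3, h4]
      simp only [smul_add, add_smul, mul_smul]
      abel
    rw [e0, key, key, e1]

end Abstract

/-! ## Klein part -/

/-- The discriminant of the short model. -/
theorem Ws_Δ (c4 c6 : ℤ) : (Ws c4 c6).Δ = 1259712 * (c4 ^ 3 - c6 ^ 2) := by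
  simp only [Ws, WeierstrassCurve.Δ, WeierstrassCurve.b₂, WeierstrassCurve.b₄,
    WeierstrassCurve.b₆, WeierstrassCurve.b₈]
  ring

theorem Ws_Δ_ne_zero {c4 c6 : ℤ} (hne : c4 ^ 3 - c6 ^ 2 ≠ 0) : (Ws c4 c6).Δ ≠ 0 := by
  rw [Ws_Δ]
  exact mul_ne_zero (by norm_num) hne

/-- The short curve of `(c₄, c₆)` is the Klein curve of any vector on the cone over
`(-c₄, -c₆)`. -/
theorem isKl_Ws {c4 c6 : ℤ} {w : Fin 2 → Qb} (hne : c4 ^ 3 - c6 ^ 2 ≠ 0)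
    (hH : HK (w 0) (w 1) = -(c4 : Qb)) (hT : TK (w 0) (w 1) = -(c6 : Qb)) :
    IsKl ((EQ (Ws c4 c6)).toAffine⁄Qb) w := by
  refine ⟨?_, ?_, ?_, ?_, ?_, ?_⟩
  · simp [Ws, WeierstrassCurve.baseChange]
  · simp [Ws, WeierstrassCurve.baseChange]
  · simp [Ws, WeierstrassCurve.baseChange]
  · rw [hH]; simp [Ws, WeierstrassCurve.baseChange]
  · rw [hT]; simp [Ws, WeierstrassCurve.baseChange]
  · intro hf
    have hs := syzygy (w 0) (w 1)
    rw [hH, hT, hf] at hs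
    apply hne
    have hc : ((c4 ^ 3 - c6 ^ 2 : ℤ) : Qb) = 0 := by
      push_cast
      linear_combination -hs
    exact_mod_cast hc

/-- A matrix satisfying `Rel` maps Klein vectors of `E` to Klein vectors of `E`. -/
theorem isKl_mulVec {ζ : Qb} {γ : Matrix (Fin 2) (Fin 2) Qb} {p q r s : ℤ}
    (hrel : Rel ζ γ p q r s) {E : WeierstrassCurve Qb} {w : Fin 2 → Qb} (hk : IsKl E w) :
    IsKl E (γ.mulVec w) := by
  obtain ⟨h1, h2, h3, h4, h6, hf⟩ := hk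
  obtain ⟨hf', hH', hT', -⟩ := hrel.2.1 w
  exact ⟨h1, h2, h3, by rw [hH']; exact h4, by rw [hT']; exact h6, by rw [hf']; exact hf⟩

/-- `vLM v l m = l • v + m • J∇fK(v)`. -/
theorem vLM_eq (v : Fin 2 → Qb) (l m : Qb) :
    vLM v l m = l • v + m • (![-(fKy (v 0) (v 1)), fKx (v 0) (v 1)] : Fin 2 → Qb) := by
  funext i
  fin_cases i
  · simp [vLM]; ring
  · simp [vLM]

/-- The family vector is covariant under matrices satisfying `Rel`. -/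
theorem vLM_mulVec {ζ : Qb} {γ : Matrix (Fin 2) (Fin 2) Qb} {p q r s : ℤ}
    (hrel : Rel ζ γ p q r s) (v : Fin 2 → Qb) (l m : Qb) :
    vLM (γ.mulVec v) l m = γ.mulVec (vLM v l m) := by
  rw [vLM_eq, vLM_eq, (hrel.2.1 v).2.2.2, Matrix.mulVec_add, Matrix.mulVec_smul,
    Matrix.mulVec_smul]

/-- The family vector is homogeneous under `μ₅`. -/
theorem vLM_smul {η : Qb} (hη : η ^ 5 = 1) (v : Fin 2 → Qb) (l m : Qb) :
    vLM (η • v) l m = η • vLM v l m := by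
  have h11 : η ^ 11 = η := by
    have : η ^ 11 = (η ^ 5) ^ 2 * η := by ring
    rw [this, hη]; ring
  funext i
  fin_cases i
  · simp only [vLM, Pi.smul_apply, smul_eq_mul, fKy_smul, h11]
    simp
    ring
  · simp only [vLM, Pi.smul_apply, smul_eq_mul, fKx_smul, h11]
    simp
    ring

/-- The family vector commutes with Galois (its coefficients are rational integers). -/
theorem vLM_gal (σ : GQ) (v : Fin 2 → Qb) (l m : ℤ) :
    (fun i => σ (vLM v l m i)) = vLM (fun i => σ (v i)) l m := by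
  funext i
  fin_cases i
  · simp [vLM, fKy, map_ofNat]
  · simp [vLM, fKx, map_ofNat]

/-- A Galois element moves `ζ` to a power of `ζ`. -/
theorem exists_pow {ζ : Qb} (hζ : IsZ5 ζ) (σ : GQ) : ∃ k : ℕ, σ ζ = ζ ^ k := by
  have h5 : ζ ^ 5 = 1 := by
    have h : ζ ^ 4 + ζ ^ 3 + ζ ^ 2 + ζ + 1 = 0 := hζ
    linear_combination (ζ - 1) * h
  have h1 : ζ ≠ 1 := by
    intro h
    have h0 : ζ ^ 4 + ζ ^ 3 + ζ ^ 2 + ζ + 1 = 0 := hζ
    rw [h] at h0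
    norm_num at h0
  have : Fact (Nat.Prime 5) := ⟨by norm_num⟩
  have hord : orderOf ζ = 5 := orderOf_eq_prime h5 h1
  have hprim : IsPrimitiveRoot ζ 5 := hord ▸ IsPrimitiveRoot.orderOf ζ
  have hσ : (σ ζ) ^ 5 = 1 := by rw [← map_pow, h5, map_one]
  obtain ⟨i, -, hi⟩ := hprim.eq_pow_of_pow_eq_one hσ
  exact ⟨i, hi.symm⟩

/-- The matrix of `σ` on the level structure of a Klein vector `w` with `σ w = η γ w`. -/
theorem gal_matrix (hSpec : Klein.PKSpec) (hGal : Klein.GalCompat) {ζ : Qb} (hζ : IsZ5 ζ)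
    {pU qU rU sU : ℤ} (hU : Rel ζ (Um ζ) pU qU rU sU)
    (E₀ : WeierstrassCurve ℚ) {w : Fin 2 → Qb} (hk : IsKl (E₀.toAffine⁄Qb) w) (σ : GQ)
    {γ : Matrix (Fin 2) (Fin 2) Qb} {p q r s : ℤ} (hrel : Rel ζ γ p q r s)
    {η : Qb} (hη : η ^ 5 = 1) (hσ : (fun i => σ (w i)) = η • γ.mulVec w)
    {k : ℕ} (hk' : σ ζ = ζ ^ k) :
    σ • PK (E₀.toAffine⁄Qb) w = p • PK (E₀.toAffine⁄Qb) w + r • QK ζ (E₀.toAffine⁄Qb) w ∧
    σ • QK ζ (E₀.toAffine⁄Qb) w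
      = ((k : ℤ) * q) • PK (E₀.toAffine⁄Qb) w + ((k : ℤ) * s) • QK ζ (E₀.toAffine⁄Qb) w := by
  obtain ⟨hG1, hG2⟩ := hGal ζ hζ E₀ w hk σ
  have hkγ : IsKl (E₀.toAffine⁄Qb) (γ.mulVec w) := isKl_mulVec hrel hk
  have hkUγ : IsKl (E₀.toAffine⁄Qb) ((Um ζ).mulVec (γ.mulVec w)) := isKl_mulVec hU hkγ
  obtain ⟨hR1, hR2⟩ := hrel.2.2 (E₀.toAffine⁄Qb) w hk
  constructor
  · rw [hG1, hσ, (hSpec _ _ hkγ).2.2.2.2 η hη, hR1]
  · rw [hG2 k hk', hσ]
    have e : QK ζ (E₀.toAffine⁄Qb) (η • γ.mulVec w) = QK ζ (E₀.toAffine⁄Qb) (γ.mulVec w) := by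
      unfold QK
      rw [Matrix.mulVec_smul, (hSpec _ _ hkUγ).2.2.2.2 η hη]
    rw [e, hR2]
    exact nsmul_comb k q s _ _

/-- **(FAM-5)** the fibres over the rational plane through a base vector have the same
5-torsion. -/
theorem kleinCong5 (hSpec : Klein.PKSpec) (hSurj : Klein.RelSurj) (hInd : Klein.Indep)
    (hGal : Klein.GalCompat) : KleinCong5 := by
  intro ζ hζ c4 c6 v hne hB l m c4' c6' hH' hT' hne'
  obtain ⟨hH, hT, hBσ⟩ := hB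
  -- the matrix `Ũ` acts on the forms
  obtain ⟨pU, qU, rU, sU, -, hU⟩ :=
    (hSurj ζ hζ).2 (Um ζ) (Submonoid.subset_closure (by simp))
  have hk0 : IsKl ((EQ (Ws c4 c6)).toAffine⁄Qb) v := isKl_Ws hne hH hT
  have hk1 : IsKl ((EQ (Ws c4' c6')).toAffine⁄Qb) (vLM v l m) := isKl_Ws hne' hH' hT'
  have hkU0 := isKl_mulVec hU hk0
  have hkU1 := isKl_mulVec hU hk1
  have hP0 : (5 : ℕ) • PK ((EQ (Ws c4 c6)).toAffine⁄Qb) v = 0 := (hSpec _ _ hk0).2.1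
  have hQ0 : (5 : ℕ) • QK ζ ((EQ (Ws c4 c6)).toAffine⁄Qb) v = 0 := (hSpec _ _ hkU0).2.1
  have hP1 : (5 : ℕ) • PK ((EQ (Ws c4' c6')).toAffine⁄Qb) (vLM v l m) = 0 := (hSpec _ _ hk1).2.1
  have hQ1 : (5 : ℕ) • QK ζ ((EQ (Ws c4' c6')).toAffine⁄Qb) (vLM v l m) = 0 :=
    (hSpec _ _ hkU1).2.1
  have hind0 := hInd ζ hζ _ _ hk0
  have hind1 := hInd ζ hζ _ _ hk1
  have hcard : Nat.card (Submodule.torsionBy ℤ (EPt (Ws c4 c6)) ((5 : ℕ) : ℤ)) = 5 ^ 2 :=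
    Fermat.Agent.Lib.ECBiquad.card_torsionBy_int (Ws c4 c6) (Ws_Δ_ne_zero hne) (by norm_num)
  have hspan := span_of_card hcard hP0 hQ0 hind0
  refine exists_map (M := GQ) hspan hP0 hQ0 hP1 hQ1 hind0 hind1 ?_
  intro σ
  obtain ⟨γ, hγ, η, hη, hσv⟩ := hBσ σ
  obtain ⟨p, q, r, s, -, hrel⟩ := (hSurj ζ hζ).2 γ hγ
  obtain ⟨k, hk⟩ := exists_pow hζ σ
  have hσv' : (fun i => σ (vLM v l m i)) = η • γ.mulVec (vLM v l m) := by
    rw [vLM_gal, hσv, vLM_smul hη, vLM_mulVec hrel]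
  obtain ⟨e1, e2⟩ := gal_matrix hSpec hGal hζ hU (EQ (Ws c4 c6)) hk0 σ hrel hη hσv hk
  obtain ⟨e3, e4⟩ := gal_matrix hSpec hGal hζ hU (EQ (Ws c4' c6')) hk1 σ hrel hη hσv' hk
  exact ⟨p, r, (k : ℤ) * q, (k : ℤ) * s, e1, e2, e3, e4⟩

end Fermat.Agent.S52K.KleinCong5_76
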