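/-
S52K — brick (MODEL): an integral model with prescribed `(c₄, c₆)` close to those of `W`.

`W' = [a₁, a₂, a₃, a₄ - δ, a₆ - ε]` with `δ = (c₄' - c₄)/48`, `ε = (c₆' - c₆ + 72 b₂ δ)/864`;
then `c₄(W') = c₄ + 48 δ`, `c₆(W') = c₆ - 72 b₂ δ + 864 ε`, and `Δ(W') ≡ Δ(W)` modulo any common
divisor of `δ` and `ε`.
-/
import Mathlib

set_option autoImplicit false

namespace Fermat.Agent.S52K.ModelExists26

open WeierstrassCurve

/-- The shifted model `[a₁, a₂, a₃, a₄ - δ, a₆ - ε]`. -/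
def shift {R : Type*} [CommRing R] (W : WeierstrassCurve R) (δ ε : R) : WeierstrassCurve R :=
  ⟨W.a₁, W.a₂, W.a₃, W.a₄ - δ, W.a₆ - ε⟩

theorem shift_c₄ {R : Type*} [CommRing R] (W : WeierstrassCurve R) (δ ε : R) :
    (shift W δ ε).c₄ = W.c₄ + 48 * δ := by
  simp only [shift, WeierstrassCurve.c₄, WeierstrassCurve.b₂, WeierstrassCurve.b₄]
  ring

theorem shift_c₆ {R : Type*} [CommRing R] (W : WeierstrassCurve R) (δ ε : R) :
    (shift W δ ε).c₆ = W.c₆ - 72 * W.b₂ * δ + 864 * ε := by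
  simp only [shift, WeierstrassCurve.c₆, WeierstrassCurve.b₂, WeierstrassCurve.b₄,
    WeierstrassCurve.b₆]
  ring

/-- `Δ(shift W (N δ) (N ε)) - Δ(W)` is a multiple of `N`. -/
theorem shift_Δ_dvd {R : Type*} [CommRing R] (W : WeierstrassCurve R) (N δ ε : R) :
    N ∣ (shift W (N * δ) (N * ε)).Δ - W.Δ := by
  refine ⟨(-(W.b₂ ^ 2) * (-(W.a₁ ^ 2) * ε - 4 * W.a₂ * ε + W.a₁ * W.a₃ * δ + 2 * W.a₄ * δ - N * δ ^ 2)
      - 8 * (-6 * W.b₄ ^ 2 * δ + 12 * W.b₄ * N * δ ^ 2 - 8 * N ^ 2 * δ ^ 3)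
      - 27 * (-8 * W.b₆ * ε + 16 * N * ε ^ 2)
      + 9 * W.b₂ * (-4 * W.b₄ * ε - 2 * W.b₆ * δ + 8 * N * δ * ε)), ?_⟩
  simp only [shift, WeierstrassCurve.Δ, WeierstrassCurve.b₂, WeierstrassCurve.b₄,
    WeierstrassCurve.b₆, WeierstrassCurve.b₈]
  ring

/-- **(MODEL)** — the literal of the S52K interface brick `ModelExists`. -/
theorem modelExists_literal (W : WeierstrassCurve ℤ) (c4' c6' N : ℤ)
    (h4 : 1728 * N ∣ c4' - W.c₄) (h6 : 1728 * N ∣ c6' - W.c₆) :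
    ∃ W' : WeierstrassCurve ℤ, W'.c₄ = c4' ∧ W'.c₆ = c6' ∧ N ∣ W'.Δ - W.Δ := by
  obtain ⟨k4, hk4⟩ := h4
  obtain ⟨k6, hk6⟩ := h6
  refine ⟨shift W (N * (36 * k4)) (N * (2 * k6 + 3 * W.b₂ * k4)), ?_, ?_, shift_Δ_dvd W N _ _⟩
  · rw [shift_c₄]
    linear_combination (-1 : ℤ) * hk4
  · rw [shift_c₆]
    linear_combination (-1 : ℤ) * hk6

end Fermat.Agent.S52K.ModelExists26
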