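/-
S52K — brick (MODEL) in the shape of the interface: `modelExists : ModelExists`.
-/
import Fermat.Agent.S52K.Interfaces
import Fermat.Agent.S52K.ModelExists26

set_option autoImplicit false

namespace Fermat.Agent.S52K.ModelExists26

/-- **(MODEL)** the interface brick. -/
theorem modelExists : Fermat.Agent.S52K.ModelExists :=
  fun W c4' c6' N h4 h6 => modelExists_literal W c4' c6' N h4 h6

end Fermat.Agent.S52K.ModelExists26
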