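/-
S52K (3–5 switch), brick (K3-pt) `PKSpec` (helper14).

`PK E w` is the point `(XP w, YP w)` of the Klein curve `Y² = X³ + 27 HK(w) X + 54 TK(w)`; its
double is `PK E (S̃ w)`, it is odd in `w`, invariant under `μ₅`, and killed by `5`.
Also: general chord and tangent formulas on a short Weierstrass curve over a field
(`short_double`, `short_chord`), usable by the other level-structure bricks.
-/
import Mathlib
import Fermat.Agent.S52K.Interfaces

set_option autoImplicit false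

namespace Fermat.Agent.S52K.PKSpec14

open Fermat.Agent.S58 WeierstrassCurve
open Fermat.Agent.S52K Fermat.Agent.S52K.Klein

section Short

variable {K : Type*} [Field K] [DecidableEq K]

/-- Tangent formula on a short Weierstrass curve, with cleared denominators. -/
theorem short_double {E : Affine K} (h1 : E.a₁ = 0) (h2 : E.a₂ = 0) (h3 : E.a₃ = 0)
    (two : (2 : K) ≠ 0) {x y x' y' : K} (h : E.Nonsingular x y) (h' : E.Nonsingular x' y')
    (hy : y ≠ 0)
    (hX : (3 * x ^ 2 + E.a₄) ^ 2 - 8 * x * y ^ 2 = 4 * y ^ 2 * x')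
    (hY : y' * (2 * y) = -(2 * y ^ 2) - (3 * x ^ 2 + E.a₄) * (x' - x)) :
    Affine.Point.some x y h + Affine.Point.some x y h = Affine.Point.some x' y' h' := by
  have hne : y ≠ E.negY x y := by
    simp only [Affine.negY, h1, h3]
    intro h0
    apply hy
    have h2y : 2 * y = 0 := by linear_combination h0
    rcases mul_eq_zero.mp h2y with h | h
    · exact absurd h two
    · exact h
  rw [Affine.Point.add_self_of_Y_ne hne]
  have hs : E.slope x x y y = (3 * x ^ 2 + E.a₄) / (2 * y) := by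
    rw [Affine.slope_of_Y_ne rfl hne]
    simp only [Affine.negY, h1, h2, h3]
    congr 1 <;> ring
  have h2y : (2 : K) * y ≠ 0 := mul_ne_zero two hy
  have hxx : E.addX x x (E.slope x x y y) = x' := by
    rw [hs]
    simp only [Affine.addX, h1, h2]
    field_simp
    linear_combination hX
  have hyy : E.addY x x y (E.slope x x y y) = y' := by
    simp only [Affine.addY, Affine.negAddY, Affine.negY, hxx]
    rw [hs]
    simp only [h1, h3]
    field_simp
    linear_combination -hY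
  simp only [Affine.Point.some.injEq]
  exact ⟨hxx, hyy⟩

/-- Chord formula on a short Weierstrass curve, with cleared denominators. -/
theorem short_chord {E : Affine K} (h1 : E.a₁ = 0) (h2 : E.a₂ = 0) (h3 : E.a₃ = 0)
    {x₁ y₁ x₂ y₂ x₃ y₃ : K} (hP : E.Nonsingular x₁ y₁) (hQ : E.Nonsingular x₂ y₂)
    (hR : E.Nonsingular x₃ y₃) (hx : x₁ ≠ x₂)
    (hX : (y₁ - y₂) ^ 2 = (x₁ + x₂ + x₃) * (x₁ - x₂) ^ 2)
    (hY : (y₃ + y₁) * (x₁ - x₂) = -((y₁ - y₂) * (x₃ - x₁))) :
    Affine.Point.some x₁ y₁ hP + Affine.Point.some x₂ y₂ hQ = Affine.Point.some x₃ y₃ hR := by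
  rw [Affine.Point.add_of_X_ne hx]
  have hs : E.slope x₁ x₂ y₁ y₂ = (y₁ - y₂) / (x₁ - x₂) := Affine.slope_of_X_ne hx
  have hd : x₁ - x₂ ≠ 0 := sub_ne_zero.mpr hx
  have hxx : E.addX x₁ x₂ (E.slope x₁ x₂ y₁ y₂) = x₃ := by
    rw [hs]
    simp only [Affine.addX, h1, h2]
    field_simp
    linear_combination hX
  have hyy : E.addY x₁ x₂ y₁ (E.slope x₁ x₂ y₁ y₂) = y₃ := by
    simp only [Affine.addY, Affine.negAddY, Affine.negY, hxx]
    rw [hs]
    simp only [h1, h3]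
    field_simp
    linear_combination -hY
  simp only [Affine.Point.some.injEq]
  exact ⟨hxx, hyy⟩

omit [DecidableEq K] in
/-- Negation on a short Weierstrass curve. -/
theorem short_neg {E : Affine K} (h1 : E.a₁ = 0) (h3 : E.a₃ = 0) {x y : K}
    (h : E.Nonsingular x y) (h' : E.Nonsingular x (-y)) :
    -Affine.Point.some x y h = Affine.Point.some x (-y) h' := by
  rw [Affine.Point.neg_some]
  simp only [Affine.Point.some.injEq, Affine.negY, h1, h3, true_and]
  ring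

omit [DecidableEq K] in
/-- On a short Weierstrass curve a point of the curve with `y ≠ 0` is nonsingular. -/
theorem short_nonsingular {E : Affine K} (h1 : E.a₁ = 0) (h2 : E.a₂ = 0) (h3 : E.a₃ = 0)
    (two : (2 : K) ≠ 0) {x y : K} (hy : y ≠ 0) (heq : y ^ 2 = x ^ 3 + E.a₄ * x + E.a₆) :
    E.Nonsingular x y := by
  rw [Affine.nonsingular_iff, Affine.equation_iff]
  refine ⟨by rw [h1, h2, h3]; linear_combination heq, Or.inr ?_⟩
  rw [h1, h3]
  intro h0
  have h2y : 2 * y = 0 := by linear_combination h0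
  rcases mul_eq_zero.mp h2y with h | h
  · exact two h
  · exact hy h

end Short

/-! ### The universal point -/

theorem two_ne : (2 : Qb) ≠ 0 := two_ne_zero

theorem YP_ne {x y : Qb} (hf : fK x y ≠ 0) : YP x y ≠ 0 := by
  intro h0
  have h := YP_mul x y
  rw [h0, zero_mul] at h
  have : fK x y ^ 2 = 0 := by
    have h108 : (108 : Qb) ≠ 0 := by norm_num
    exact (mul_eq_zero.mp h.symm).resolve_left h108
  exact hf (pow_eq_zero_iff (two_ne_zero) |>.mp this)

/-- The point `(XP w, YP w)` is a nonsingular point of the Klein curve. -/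
theorem nonsing {E : WeierstrassCurve Qb} {w : Fin 2 → Qb} (h : IsKl E w) :
    E.toAffine.Nonsingular (XP (w 0) (w 1)) (YP (w 0) (w 1)) := by
  obtain ⟨h1, h2, h3, h4, h6, hf⟩ := h
  refine short_nonsingular (E := E.toAffine) h1 h2 h3 two_ne (YP_ne hf) ?_
  rw [h4, h6]
  linear_combination curve_eq (w 0) (w 1)

theorem pk_eq' {E : WeierstrassCurve Qb} {w : Fin 2 → Qb} {x y : Qb}
    (h : E.toAffine.Nonsingular x y) (hx : XP (w 0) (w 1) = x) (hy : YP (w 0) (w 1) = y) :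
    PK E w = Affine.Point.some x y h := by
  subst hx hy
  unfold PK
  rw [dif_pos h]

theorem pk_eq {E : WeierstrassCurve Qb} {w : Fin 2 → Qb} (h : IsKl E w) :
    PK E w = Affine.Point.some (XP (w 0) (w 1)) (YP (w 0) (w 1)) (nonsing h) :=
  pk_eq' (nonsing h) rfl rfl

theorem pk_ne_zero {E : WeierstrassCurve Qb} {w : Fin 2 → Qb} (h : IsKl E w) : PK E w ≠ 0 := by
  rw [pk_eq h]
  exact Affine.Point.some_ne_zero _

theorem Sm_mulVec (w : Fin 2 → Qb) : Sm.mulVec w = ![w 1, -w 0] := by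
  ext i
  fin_cases i <;> simp [Sm, Matrix.mulVec, dotProduct, Fin.sum_univ_two]

theorem Sm_mulVec_zero (w : Fin 2 → Qb) : Sm.mulVec w 0 = w 1 := by
  rw [Sm_mulVec]; rfl

theorem Sm_mulVec_one (w : Fin 2 → Qb) : Sm.mulVec w 1 = -w 0 := by
  rw [Sm_mulVec]; rfl

theorem Sm_Sm_mulVec (w : Fin 2 → Qb) : Sm.mulVec (Sm.mulVec w) = -w := by
  ext i
  fin_cases i
  · show Sm.mulVec (Sm.mulVec w) 0 = -w 0
    rw [Sm_mulVec_zero, Sm_mulVec_one]
  · show Sm.mulVec (Sm.mulVec w) 1 = -w 1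
    rw [Sm_mulVec_one, Sm_mulVec_zero]

theorem isKl_Sm {E : WeierstrassCurve Qb} {w : Fin 2 → Qb} (h : IsKl E w) :
    IsKl E (Sm.mulVec w) := by
  obtain ⟨h1, h2, h3, h4, h6, hf⟩ := h
  refine ⟨h1, h2, h3, ?_, ?_, ?_⟩
  · rw [Sm_mulVec_zero, Sm_mulVec_one, HK_S]; exact h4
  · rw [Sm_mulVec_zero, Sm_mulVec_one, TK_S]; exact h6
  · rw [Sm_mulVec_zero, Sm_mulVec_one, fK_S]; exact hf

theorem isKl_neg {E : WeierstrassCurve Qb} {w : Fin 2 → Qb} (h : IsKl E w) : IsKl E (-w) := by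
  have := isKl_Sm (isKl_Sm h)
  rwa [Sm_Sm_mulVec] at this

/-- `PK E (S̃ w) = 2 • PK E w`. -/
theorem pk_Sm {E : WeierstrassCurve Qb} {w : Fin 2 → Qb} (h : IsKl E w) :
    PK E (Sm.mulVec w) = (2 : ℕ) • PK E w := by
  have hS := isKl_Sm h
  obtain ⟨h1, h2, h3, h4, h6, hf⟩ := h
  have hns' : E.toAffine.Nonsingular (XP (w 1) (-w 0)) (YP (w 1) (-w 0)) := by
    have := nonsing hS
    rwa [Sm_mulVec_zero, Sm_mulVec_one] at this
  rw [pk_eq' hns' (by rw [Sm_mulVec_zero, Sm_mulVec_one]) (by rw [Sm_mulVec_zero, Sm_mulVec_one]),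
    pk_eq ⟨h1, h2, h3, h4, h6, hf⟩, two_nsmul]
  symm
  refine short_double (E := E.toAffine) h1 h2 h3 two_ne _ hns' (YP_ne hf) ?_ ?_
  · rw [h4]; exact dup_X (w 0) (w 1)
  · rw [h4]; exact dup_Y (w 0) (w 1)

/-- `PK E (-w) = - PK E w`. -/
theorem pk_neg {E : WeierstrassCurve Qb} {w : Fin 2 → Qb} (h : IsKl E w) :
    PK E (-w) = -PK E w := by
  have hN := isKl_neg h
  have hns := nonsing h
  obtain ⟨h1, h2, h3, h4, h6, hf⟩ := h
  have hns' : E.toAffine.Nonsingular (XP (w 0) (w 1)) (-YP (w 0) (w 1)) := by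
    have h' := nonsing hN
    have e1 : XP ((-w) 0) ((-w) 1) = XP (w 0) (w 1) := by
      simp only [Pi.neg_apply, XP]; ring
    have e2 : YP ((-w) 0) ((-w) 1) = -YP (w 0) (w 1) := by
      simp only [Pi.neg_apply, YP]; ring
    rwa [e1, e2] at h'
  rw [pk_eq ⟨h1, h2, h3, h4, h6, hf⟩, short_neg (E := E.toAffine) h1 h3 hns hns']
  refine pk_eq' hns' ?_ ?_
  · simp only [Pi.neg_apply, XP]; ring
  · simp only [Pi.neg_apply, YP]; ring

/-- `PK` is invariant under `μ₅`. -/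
theorem pk_mu5 {E : WeierstrassCurve Qb} {w : Fin 2 → Qb} (h : IsKl E w) (η : Qb)
    (hη : η ^ 5 = 1) : PK E (η • w) = PK E w := by
  rw [pk_eq h]
  refine pk_eq' (nonsing h) ?_ ?_
  · have e : XP ((η • w) 0) ((η • w) 1) = (η ^ 5) ^ 2 * XP (w 0) (w 1) := by
      simp only [Pi.smul_apply, smul_eq_mul, XP]; ring
    rw [e, hη]; ring
  · have e : YP ((η • w) 0) ((η • w) 1) = (η ^ 5) ^ 3 * YP (w 0) (w 1) := by
      simp only [Pi.smul_apply, smul_eq_mul, YP]; ring
    rw [e, hη]; ring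

/-- `5 • PK E w = 0`. -/
theorem five_pk {E : WeierstrassCurve Qb} {w : Fin 2 → Qb} (h : IsKl E w) :
    (5 : ℕ) • PK E w = 0 := by
  have e2 : (2 : ℕ) • PK E w = PK E (Sm.mulVec w) := (pk_Sm h).symm
  have e4 : (2 : ℕ) • PK E (Sm.mulVec w) = -PK E w := by
    rw [← pk_Sm (isKl_Sm h), Sm_Sm_mulVec, pk_neg h]
  have : (5 : ℕ) • PK E w = (2 : ℕ) • ((2 : ℕ) • PK E w) + PK E w := by
    rw [smul_smul]; norm_num [succ_nsmul]
  rw [this, e2, e4, neg_add_cancel]

/-- **(K3-pt)** -/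
theorem pkSpec : PKSpec := by
  intro E w h
  exact ⟨⟨nonsing h, pk_eq h⟩, five_pk h, pk_Sm h, pk_neg h, fun η hη => pk_mu5 h η hη⟩

end Fermat.Agent.S52K.PKSpec14
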