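/-
S52K (3–5 switch), brick (K3-gen): the two generators of the binary icosahedral group act on the
level structure `(PK, QK)` by `T̃ ↦ !![1, 0; 1, 1]` and `Ũ ↦ !![0, -1; 1, 0]`.

Input: the point brick `PKSpec` (the point `PK` is `(XP, YP)`, and it is odd in the vector).
Everything else is the chord identities of `KleinZeta.lean`.

Owner of this file: helper6.
-/
import Mathlib
import Fermat.Agent.S52K.Interfaces
import Fermat.Agent.S52K.KleinZeta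

set_option autoImplicit false

namespace Fermat.Agent.S52K.RelGen6

open Fermat.Agent.S58 Fermat.Agent.S52K Fermat.Agent.S52K.Klein WeierstrassCurve

/-- Equal coordinates give equal points. -/
theorem PK_congr (E : WeierstrassCurve Qb) (w w' : Fin 2 → Qb)
    (hX : XP (w 0) (w 1) = XP (w' 0) (w' 1)) (hY : YP (w 0) (w 1) = YP (w' 0) (w' 1)) :
    PK E w = PK E w' := by
  unfold PK
  generalize XP (w 0) (w 1) = a at hX ⊢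
  generalize YP (w 0) (w 1) = b at hY ⊢
  subst hX; subst hY; rfl

/-- Two affine points with equal coordinates are equal. -/
theorem some_congr {E : WeierstrassCurve Qb} {x y x' y' : Qb}
    (h : E.toAffine.Nonsingular x y) (h' : E.toAffine.Nonsingular x' y')
    (hx : x = x') (hy : y = y') :
    (Affine.Point.some x y h : E.toAffine.Point) = Affine.Point.some x' y' h' := by
  subst hx; subst hy; rfl

theorem mulVec_T (ζ : Qb) (v : Fin 2 → Qb) :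
    (Tm ζ).mulVec v = ![ζ ^ 3 * v 0, ζ ^ 2 * v 1] := by
  funext i
  fin_cases i <;> simp [Tm, Matrix.mulVec, dotProduct, Fin.sum_univ_two]

theorem mulVec_U (ζ : Qb) (v : Fin 2 → Qb) :
    (Um ζ).mulVec v = ![(uA ζ * v 0 + uB ζ * v 1) / 5, (uB ζ * v 0 - uA ζ * v 1) / 5] := by
  funext i
  fin_cases i <;> simp [Um, Matrix.mulVec, dotProduct, Fin.sum_univ_two] <;> ring

theorem mulVec_T_zero (ζ : Qb) (v : Fin 2 → Qb) : (Tm ζ).mulVec v 0 = ζ ^ 3 * v 0 := by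
  rw [mulVec_T]; rfl

theorem mulVec_T_one (ζ : Qb) (v : Fin 2 → Qb) : (Tm ζ).mulVec v 1 = ζ ^ 2 * v 1 := by
  rw [mulVec_T]; rfl

theorem mulVec_U_zero (ζ : Qb) (v : Fin 2 → Qb) :
    (Um ζ).mulVec v 0 = (uA ζ * v 0 + uB ζ * v 1) / 5 := by
  rw [mulVec_U]; rfl

theorem mulVec_U_one (ζ : Qb) (v : Fin 2 → Qb) :
    (Um ζ).mulVec v 1 = (uB ζ * v 0 - uA ζ * v 1) / 5 := by
  rw [mulVec_U]; rfl

/-- `Ũ² = -1`. -/
theorem mulVec_U_U {ζ : Qb} (hζ : IsZ5 ζ) (v : Fin 2 → Qb) :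
    (Um ζ).mulVec ((Um ζ).mulVec v) = -v := by
  have h := uA_sq_add ζ hζ
  funext i
  fin_cases i
  · show (Um ζ).mulVec ((Um ζ).mulVec v) 0 = -v 0
    rw [mulVec_U_zero, mulVec_U_zero, mulVec_U_one]
    linear_combination (v 0 / 25) * h
  · show (Um ζ).mulVec ((Um ζ).mulVec v) 1 = -v 1
    rw [mulVec_U_one, mulVec_U_zero, mulVec_U_one]
    linear_combination (v 1 / 25) * h

theorem det_T {ζ : Qb} (hζ : IsZ5 ζ) : (Tm ζ).det = 1 := by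
  have h := zeta_pow_five ζ hζ
  rw [Tm, Matrix.det_fin_two_of]
  linear_combination h

theorem det_U {ζ : Qb} (hζ : IsZ5 ζ) : (Um ζ).det = 1 := by
  have h := uA_sq_add ζ hζ
  rw [Um, Matrix.det_fin_two_of]
  linear_combination (-1 / 25 : Qb) * h

theorem isKl_T {ζ : Qb} (hζ : IsZ5 ζ) {E : WeierstrassCurve Qb} {w : Fin 2 → Qb}
    (h : IsKl E w) : IsKl E ((Tm ζ).mulVec w) := by
  obtain ⟨h1, h2, h3, h4, h6, hf⟩ := h
  refine ⟨h1, h2, h3, ?_, ?_, ?_⟩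
  · rw [h4, mulVec_T_zero, mulVec_T_one, HK_T ζ _ _ hζ]
  · rw [h6, mulVec_T_zero, mulVec_T_one, TK_T ζ _ _ hζ]
  · rw [mulVec_T_zero, mulVec_T_one, fK_T ζ _ _ hζ]; exact hf

theorem isKl_U {ζ : Qb} (hζ : IsZ5 ζ) {E : WeierstrassCurve Qb} {w : Fin 2 → Qb}
    (h : IsKl E w) : IsKl E ((Um ζ).mulVec w) := by
  obtain ⟨h1, h2, h3, h4, h6, hf⟩ := h
  refine ⟨h1, h2, h3, ?_, ?_, ?_⟩
  · rw [h4, mulVec_U_zero, mulVec_U_one, HK_U ζ _ _ hζ]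
  · rw [h6, mulVec_U_zero, mulVec_U_one, TK_U ζ _ _ hζ]
  · rw [mulVec_U_zero, mulVec_U_one, fK_U ζ _ _ hζ]; exact hf

/-- The forms part of `Rel` for `T̃`. -/
theorem forms_T {ζ : Qb} (hζ : IsZ5 ζ) (w : Fin 2 → Qb) :
    fK ((Tm ζ).mulVec w 0) ((Tm ζ).mulVec w 1) = fK (w 0) (w 1) ∧
    HK ((Tm ζ).mulVec w 0) ((Tm ζ).mulVec w 1) = HK (w 0) (w 1) ∧
    TK ((Tm ζ).mulVec w 0) ((Tm ζ).mulVec w 1) = TK (w 0) (w 1) ∧
    (![-(fKy ((Tm ζ).mulVec w 0) ((Tm ζ).mulVec w 1)),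
        fKx ((Tm ζ).mulVec w 0) ((Tm ζ).mulVec w 1)] : Fin 2 → Qb)
      = (Tm ζ).mulVec ![-(fKy (w 0) (w 1)), fKx (w 0) (w 1)] := by
  rw [mulVec_T_zero, mulVec_T_one]
  refine ⟨fK_T ζ _ _ hζ, HK_T ζ _ _ hζ, TK_T ζ _ _ hζ, ?_⟩
  rw [mulVec_T, cov_T_1 ζ _ _ hζ, cov_T_2 ζ _ _ hζ]
  rfl

/-- The forms part of `Rel` for `Ũ`. -/
theorem forms_U {ζ : Qb} (hζ : IsZ5 ζ) (w : Fin 2 → Qb) :
    fK ((Um ζ).mulVec w 0) ((Um ζ).mulVec w 1) = fK (w 0) (w 1) ∧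
    HK ((Um ζ).mulVec w 0) ((Um ζ).mulVec w 1) = HK (w 0) (w 1) ∧
    TK ((Um ζ).mulVec w 0) ((Um ζ).mulVec w 1) = TK (w 0) (w 1) ∧
    (![-(fKy ((Um ζ).mulVec w 0) ((Um ζ).mulVec w 1)),
        fKx ((Um ζ).mulVec w 0) ((Um ζ).mulVec w 1)] : Fin 2 → Qb)
      = (Um ζ).mulVec ![-(fKy (w 0) (w 1)), fKx (w 0) (w 1)] := by
  rw [mulVec_U_zero, mulVec_U_one]
  refine ⟨fK_U ζ _ _ hζ, HK_U ζ _ _ hζ, TK_U ζ _ _ hζ, ?_⟩
  rw [mulVec_U, cov_U_1 ζ _ _ hζ, cov_U_2 ζ _ _ hζ]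
  rfl

/-- `X(P) ≠ X(Q)` on a Klein curve. -/
theorem XP_ne_XQ {ζ : Qb} (hζ : IsZ5 ζ) {x y : Qb} (hf : fK x y ≠ 0) :
    XP x y - XQ ζ x y ≠ 0 := by
  intro h0
  have h := XQ_sub_XP ζ x y hζ
  have h' : XQ ζ x y - XP x y = 0 := by linear_combination -h0
  rw [h', zero_mul] at h
  exact hf ((pow_eq_zero_iff two_ne_zero).1 h.symm)

/-- **The chord**: `P_{T̃ w} = P_w + Q_w`. -/
theorem PK_T (hPK : PKSpec) {ζ : Qb} (hζ : IsZ5 ζ) {E : WeierstrassCurve Qb} {w : Fin 2 → Qb}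
    (h : IsKl E w) : PK E ((Tm ζ).mulVec w) = PK E w + QK ζ E w := by
  have hT := isKl_T hζ h
  have hU := isKl_U hζ h
  obtain ⟨⟨hP, hPeq⟩, -⟩ := hPK E w h
  obtain ⟨⟨hQ, hQeq⟩, -⟩ := hPK E _ hU
  obtain ⟨⟨hR, hReq⟩, -⟩ := hPK E _ hT
  obtain ⟨h1, h2, h3, -, -, hf⟩ := h
  have hd := XP_ne_XQ hζ hf
  have hXQ : XP ((Um ζ).mulVec w 0) ((Um ζ).mulVec w 1) = XQ ζ (w 0) (w 1) := by
    rw [mulVec_U_zero, mulVec_U_one, XP_U ζ _ _ hζ]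
  have hYQ : YP ((Um ζ).mulVec w 0) ((Um ζ).mulVec w 1) = YQ ζ (w 0) (w 1) := by
    rw [mulVec_U_zero, mulVec_U_one, YP_U ζ _ _ hζ]
  have hXR : XP ((Tm ζ).mulVec w 0) ((Tm ζ).mulVec w 1) = XPT ζ (w 0) (w 1) := by
    rw [mulVec_T_zero, mulVec_T_one, XP_T ζ _ _ hζ]
  have hYR : YP ((Tm ζ).mulVec w 0) ((Tm ζ).mulVec w 1) = YPT ζ (w 0) (w 1) := by
    rw [mulVec_T_zero, mulVec_T_one, YP_T ζ _ _ hζ]
  have hx : XP (w 0) (w 1) ≠ XP ((Um ζ).mulVec w 0) ((Um ζ).mulVec w 1) := by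
    rw [hXQ]; exact fun e => hd (sub_eq_zero.2 e)
  have cX := chord_X ζ (w 0) (w 1) hζ
  have cY := chord_Y ζ (w 0) (w 1) hζ
  rw [QK, hPeq, hQeq, hReq, Affine.Point.add_of_X_ne hx]
  have hsl : E.toAffine.slope (XP (w 0) (w 1)) (XP ((Um ζ).mulVec w 0) ((Um ζ).mulVec w 1))
      (YP (w 0) (w 1)) (YP ((Um ζ).mulVec w 0) ((Um ζ).mulVec w 1))
      = (YP (w 0) (w 1) - YQ ζ (w 0) (w 1)) / (XP (w 0) (w 1) - XQ ζ (w 0) (w 1)) := by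
    rw [Affine.slope_of_X_ne hx, hXQ, hYQ]
  have hX : E.toAffine.addX (XP (w 0) (w 1)) (XP ((Um ζ).mulVec w 0) ((Um ζ).mulVec w 1))
      (E.toAffine.slope (XP (w 0) (w 1)) (XP ((Um ζ).mulVec w 0) ((Um ζ).mulVec w 1))
        (YP (w 0) (w 1)) (YP ((Um ζ).mulVec w 0) ((Um ζ).mulVec w 1)))
      = XPT ζ (w 0) (w 1) := by
    rw [hsl, Affine.addX, hXQ]
    show _ ^ 2 + E.a₁ * _ - E.a₂ - _ - _ = _
    rw [h1, h2]
    field_simp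
    linear_combination -cX
  refine some_congr _ _ (hXR.trans hX.symm) ?_
  rw [hYR, Affine.addY, Affine.negY, Affine.negAddY, hX, hsl]
  show _ = -(_ * _ + _) - E.a₁ * _ - E.a₃
  rw [h1, h3]
  field_simp
  linear_combination cY

/-- `Q_{T̃ w} = Q_w`. -/
theorem QK_T {ζ : Qb} (hζ : IsZ5 ζ) (E : WeierstrassCurve Qb) (w : Fin 2 → Qb) :
    QK ζ E ((Tm ζ).mulVec w) = QK ζ E w := by
  unfold QK
  apply PK_congr
  · rw [mulVec_U_zero, mulVec_U_one, mulVec_U_zero, mulVec_U_one, XP_U ζ _ _ hζ, XP_U ζ _ _ hζ,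
      mulVec_T_zero, mulVec_T_one, XQ_T ζ _ _ hζ]
  · rw [mulVec_U_zero, mulVec_U_one, mulVec_U_zero, mulVec_U_one, YP_U ζ _ _ hζ, YP_U ζ _ _ hζ,
      mulVec_T_zero, mulVec_T_one, YQ_T ζ _ _ hζ]

/-- `Q_{Ũ w} = -P_w`. -/
theorem QK_U (hPK : PKSpec) {ζ : Qb} (hζ : IsZ5 ζ) {E : WeierstrassCurve Qb} {w : Fin 2 → Qb}
    (h : IsKl E w) : QK ζ E ((Um ζ).mulVec w) = -PK E w := by
  unfold QK
  rw [mulVec_U_U hζ]
  exact (hPK E w h).2.2.2.1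

/-- **(K3-gen)** the generators: `T̃ ↦ !![1, 0; 1, 1]`, `Ũ ↦ !![0, -1; 1, 0]`. -/
theorem relGen (h : Klein.PKSpec) : Klein.RelGen := by
  intro ζ hζ
  refine ⟨⟨det_T hζ, forms_T hζ, ?_⟩, ⟨det_U hζ, forms_U hζ, ?_⟩⟩
  · intro E w hE
    refine ⟨?_, ?_⟩
    · rw [PK_T h hζ hE, one_zsmul, one_zsmul]
    · rw [QK_T hζ, zero_zsmul, one_zsmul, zero_add]
  · intro E w hE
    refine ⟨?_, ?_⟩
    · rw [zero_zsmul, one_zsmul, zero_add]; rfl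
    · rw [QK_U h hζ hE, zero_zsmul, add_zero, neg_one_zsmul]

end Fermat.Agent.S52K.RelGen6
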