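/-
S52K (3–5 switch), brick `RelSurj` (helper54).

From the point specification `PKSpec` and the action of the two generators `RelGen`:
every matrix of `SL₂(𝔽₅)` is realised on the level structure by an element of the binary
icosahedral group `Gam ζ`, and every element of `Gam ζ` acts by such a matrix.

The proof is formal: `Rel` composes (`rel_mul`), only depends on the integers modulo 5
(`rel_congr`), and `SL₂(𝔽₅)` is generated by `!![1, 0; 1, 1]` and `!![0, -1; 1, 0]`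
(lower unipotents, then upper unipotents by conjugation, then the Bruhat form).
-/
import Mathlib
import Fermat.Agent.S52K.Interfaces

set_option autoImplicit false

namespace Fermat.Agent.S52K.RelSurj54

open Fermat.Agent.S58 Fermat.Agent.S52K Fermat.Agent.S52K.Klein WeierstrassCurve

/-- An element of `Γ` preserving the forms maps Klein vectors of `E` to Klein vectors of `E`. -/
theorem isKl_mulVec {ζ : Qb} {γ : Matrix (Fin 2) (Fin 2) Qb} {p q r s : ℤ}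
    (h : Rel ζ γ p q r s) {E : WeierstrassCurve Qb} {w : Fin 2 → Qb} (hw : IsKl E w) :
    IsKl E (γ.mulVec w) := by
  obtain ⟨h1, h2, h3, h4, h5, h6⟩ := hw
  obtain ⟨hf, hH, hT, -⟩ := h.2.1 w
  exact ⟨h1, h2, h3, by rw [hH]; exact h4, by rw [hT]; exact h5, by rw [hf]; exact h6⟩

/-- `5 • PK = 0` as an integer multiple. -/
theorem five_zsmul_PK (h₁ : PKSpec) {E : WeierstrassCurve Qb} {w : Fin 2 → Qb} (hw : IsKl E w) :
    (5 : ℤ) • PK E w = 0 := by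
  have h := (h₁ E w hw).2.1
  have h5 : ((5 : ℕ) : ℤ) • PK E w = 0 := by rw [natCast_zsmul]; exact h
  exact_mod_cast h5

/-- `5 • QK = 0` as an integer multiple. -/
theorem five_zsmul_QK (h₁ : PKSpec) (h₂ : RelGen) {ζ : Qb} (hζ : IsZ5 ζ)
    {E : WeierstrassCurve Qb} {w : Fin 2 → Qb} (hw : IsKl E w) :
    (5 : ℤ) • QK ζ E w = 0 :=
  five_zsmul_PK h₁ (isKl_mulVec (h₂ ζ hζ).2 hw)

/-- Integer multiples of a point killed by 5 only depend on the integer modulo 5. -/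
theorem zsmul_congr {G : Type*} [AddCommGroup G] {P : G} (hP : (5 : ℤ) • P = 0) {a b : ℤ}
    (hab : (5 : ℤ) ∣ a - b) : a • P = b • P := by
  obtain ⟨c, hc⟩ := hab
  have : a = b + c * 5 := by linarith
  rw [this, add_smul, mul_smul, hP, smul_zero, add_zero]

/-- `Rel` only depends on the four integers modulo 5. -/
theorem rel_congr (h₁ : PKSpec) (h₂ : RelGen) {ζ : Qb} (hζ : IsZ5 ζ)
    {γ : Matrix (Fin 2) (Fin 2) Qb} {p q r s p' q' r' s' : ℤ} (h : Rel ζ γ p q r s)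
    (hp : (5 : ℤ) ∣ p - p') (hq : (5 : ℤ) ∣ q - q') (hr : (5 : ℤ) ∣ r - r')
    (hs : (5 : ℤ) ∣ s - s') : Rel ζ γ p' q' r' s' := by
  refine ⟨h.1, h.2.1, fun E w hw => ?_⟩
  obtain ⟨hP, hQ⟩ := h.2.2 E w hw
  have h5P := five_zsmul_PK h₁ hw
  have h5Q := five_zsmul_QK h₁ h₂ hζ hw
  refine ⟨?_, ?_⟩
  · rw [hP, zsmul_congr h5P hp, zsmul_congr h5Q hr]
  · rw [hQ, zsmul_congr h5P hq, zsmul_congr h5Q hs]

/-- The identity acts by the identity matrix. -/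
theorem rel_one (ζ : Qb) : Rel ζ 1 1 0 0 1 := by
  refine ⟨Matrix.det_one, fun w => ?_, fun E w _ => ?_⟩
  · simp only [Matrix.one_mulVec]
    exact ⟨trivial, trivial, trivial, trivial⟩
  · rw [Matrix.one_mulVec, one_zsmul, zero_zsmul, add_zero, zero_zsmul, zero_add, one_zsmul]
    exact ⟨rfl, rfl⟩

/-- `Rel` composes: `B_{γ₁ γ₂ w} = B_w ∘ M₂ ∘ M₁`. -/
theorem rel_mul {ζ : Qb} {γ₁ γ₂ : Matrix (Fin 2) (Fin 2) Qb} {p₁ q₁ r₁ s₁ p₂ q₂ r₂ s₂ : ℤ}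
    (h : Rel ζ γ₁ p₁ q₁ r₁ s₁) (h' : Rel ζ γ₂ p₂ q₂ r₂ s₂) :
    Rel ζ (γ₁ * γ₂) (p₁ * p₂ + r₁ * q₂) (q₁ * p₂ + s₁ * q₂) (p₁ * r₂ + r₁ * s₂)
      (q₁ * r₂ + s₁ * s₂) := by
  refine ⟨by rw [Matrix.det_mul, h.1, h'.1, mul_one], fun w => ?_, fun E w hw => ?_⟩
  · obtain ⟨hf, hH, hT, hJ⟩ := h.2.1 (γ₂.mulVec w)
    obtain ⟨hf', hH', hT', hJ'⟩ := h'.2.1 w
    rw [← Matrix.mulVec_mulVec]
    refine ⟨hf.trans hf', hH.trans hH', hT.trans hT', ?_⟩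
    rw [hJ, hJ', Matrix.mulVec_mulVec]
  · have hw' : IsKl E (γ₂.mulVec w) := isKl_mulVec h' hw
    obtain ⟨hP, hQ⟩ := h.2.2 E (γ₂.mulVec w) hw'
    obtain ⟨hP', hQ'⟩ := h'.2.2 E w hw
    rw [← Matrix.mulVec_mulVec]
    refine ⟨?_, ?_⟩
    · rw [hP, hP', hQ']
      module
    · rw [hQ, hP', hQ']
      module

/-- The realisable integer matrices. -/
def Rz (ζ : Qb) (p q r s : ℤ) : Prop := ∃ γ ∈ Gam ζ, Rel ζ γ p q r s

theorem rz_mul {ζ : Qb} {p₁ q₁ r₁ s₁ p₂ q₂ r₂ s₂ : ℤ} (h : Rz ζ p₁ q₁ r₁ s₁)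
    (h' : Rz ζ p₂ q₂ r₂ s₂) :
    Rz ζ (p₁ * p₂ + r₁ * q₂) (q₁ * p₂ + s₁ * q₂) (p₁ * r₂ + r₁ * s₂) (q₁ * r₂ + s₁ * s₂) := by
  obtain ⟨γ₁, hγ₁, h1⟩ := h
  obtain ⟨γ₂, hγ₂, h2⟩ := h'
  exact ⟨γ₁ * γ₂, (Gam ζ).mul_mem hγ₁ hγ₂, rel_mul h1 h2⟩

theorem rz_congr (h₁ : PKSpec) (h₂ : RelGen) {ζ : Qb} (hζ : IsZ5 ζ)
    {p q r s p' q' r' s' : ℤ} (h : Rz ζ p q r s)
    (hp : (5 : ℤ) ∣ p - p') (hq : (5 : ℤ) ∣ q - q') (hr : (5 : ℤ) ∣ r - r')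
    (hs : (5 : ℤ) ∣ s - s') : Rz ζ p' q' r' s' := by
  obtain ⟨γ, hγ, h1⟩ := h
  exact ⟨γ, hγ, rel_congr h₁ h₂ hζ h1 hp hq hr hs⟩

/-- A variant of `rz_mul` with the result given up to equality. -/
theorem rz_mul' {ζ : Qb} {p₁ q₁ r₁ s₁ p₂ q₂ r₂ s₂ p q r s : ℤ} (h : Rz ζ p₁ q₁ r₁ s₁)
    (h' : Rz ζ p₂ q₂ r₂ s₂) (hp : p = p₁ * p₂ + r₁ * q₂) (hq : q = q₁ * p₂ + s₁ * q₂)
    (hr : r = p₁ * r₂ + r₁ * s₂) (hs : s = q₁ * r₂ + s₁ * s₂) : Rz ζ p q r s := by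
  subst hp hq hr hs
  exact rz_mul h h'

theorem rz_one (ζ : Qb) : Rz ζ 1 0 0 1 := ⟨1, (Gam ζ).one_mem, rel_one ζ⟩

section Gen

variable (h₂ : RelGen) {ζ : Qb} (hζ : IsZ5 ζ)

include h₂ hζ

theorem rz_T : Rz ζ 1 0 1 1 :=
  ⟨Tm ζ, Submonoid.subset_closure (by simp), (h₂ ζ hζ).1⟩

theorem rz_U : Rz ζ 0 (-1) 1 0 :=
  ⟨Um ζ, Submonoid.subset_closure (by simp), (h₂ ζ hζ).2⟩

/-- `Ũ³` acts by `!![0, 1; -1, 0]`. -/
theorem rz_U3 : Rz ζ 0 1 (-1) 0 := by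
  have hU := rz_U h₂ hζ
  have hU2 : Rz ζ (-1) 0 0 (-1) := rz_mul' hU hU (by ring) (by ring) (by ring) (by ring)
  exact rz_mul' hU2 hU (by ring) (by ring) (by ring) (by ring)

/-- Lower unipotent matrices, natural exponents. -/
theorem rz_lower_nat (k : ℕ) : Rz ζ 1 0 k 1 := by
  induction k with
  | zero => simpa using rz_one ζ
  | succ k ih =>
    exact rz_mul' ih (rz_T h₂ hζ) (by ring) (by ring) (by push_cast; ring) (by ring)

end Gen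

section Main

variable (h₁ : PKSpec) (h₂ : RelGen) {ζ : Qb} (hζ : IsZ5 ζ)

include h₁ h₂ hζ

/-- Lower unipotent matrices. -/
theorem rz_lower (k : ℤ) : Rz ζ 1 0 k 1 := by
  have h := rz_lower_nat h₂ hζ (k % 5).toNat
  have hk : ((k % 5).toNat : ℤ) = k % 5 := Int.toNat_of_nonneg (Int.emod_nonneg k (by norm_num))
  rw [hk] at h
  refine rz_congr h₁ h₂ hζ h (by simp) (by simp) ?_ (by simp)
  exact ⟨-(k / 5), by have := Int.emod_add_mul_ediv k 5; linarith⟩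

/-- Upper unipotent matrices. -/
theorem rz_upper (k : ℤ) : Rz ζ 1 k 0 1 := by
  have hX : Rz ζ 0 (-1) 1 k :=
    rz_mul' (rz_U h₂ hζ) (rz_lower h₁ h₂ hζ (-k)) (by ring) (by ring) (by ring) (by ring)
  exact rz_mul' hX (rz_U3 h₂ hζ) (by ring) (by ring) (by ring) (by ring)

/-- The Bruhat form: matrices with invertible lower-left entry. -/
theorem rz_of_not_dvd {p q r s : ℤ} (hdet : (5 : ℤ) ∣ p * s - q * r - 1) (hr : ¬ (5 : ℤ) ∣ r) :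
    Rz ζ p q r s := by
  have h5 : Prime (5 : ℤ) := by norm_num
  -- an inverse of `r` modulo 5
  obtain ⟨r', hr'⟩ : ∃ r' : ℤ, (5 : ℤ) ∣ r * r' - 1 := by
    have hcop : IsCoprime r 5 := by
      rw [isCoprime_comm]
      exact (Prime.coprime_iff_not_dvd h5).2 hr
    obtain ⟨a, b, hab⟩ := hcop
    exact ⟨a, ⟨-b, by linarith⟩⟩
  set a : ℤ := (p - 1) * r' with ha
  set b : ℤ := (s - 1) * r' with hb
  have h1 : Rz ζ 1 b r (b * r + 1) :=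
    rz_mul' (rz_upper h₁ h₂ hζ b) (rz_lower h₁ h₂ hζ r) (by ring) (by ring) (by ring) (by ring)
  have h2 : Rz ζ (1 + r * a) (b + (b * r + 1) * a) r (b * r + 1) :=
    rz_mul' h1 (rz_upper h₁ h₂ hζ a) (by ring) (by ring) (by ring) (by ring)
  obtain ⟨c, hc⟩ := hr'
  obtain ⟨e, he⟩ := hdet
  have hp : (5 : ℤ) ∣ (1 + r * a) - p := ⟨(p - 1) * c, by rw [ha]; linear_combination (p - 1) * hc⟩
  have hs : (5 : ℤ) ∣ (b * r + 1) - s := ⟨(s - 1) * c, by rw [hb]; linear_combination (s - 1) * hc⟩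
  have hq : (5 : ℤ) ∣ (b + (b * r + 1) * a) - q := by
    have hrq : (5 : ℤ) ∣ r * ((b + (b * r + 1) * a) - q) := by
      refine ⟨c * (s - 1) + c * s * (p - 1) + c * (s - 1) * (p - 1)
        + 5 * c ^ 2 * (s - 1) * (p - 1) + e, ?_⟩
      rw [ha, hb]
      linear_combination
        ((s - 1) * (p - 1) * (r * r' + 1 + 5 * c) + (s - 1) + (p - 1)) * hc + he
    exact (h5.dvd_or_dvd hrq).resolve_left hr
  exact rz_congr h₁ h₂ hζ h2 hp hq (by simp) hs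

/-- **Every matrix of `SL₂(𝔽₅)` is realised.** -/
theorem rz_of_det {p q r s : ℤ} (hdet : (5 : ℤ) ∣ p * s - q * r - 1) : Rz ζ p q r s := by
  by_cases hr : (5 : ℤ) ∣ r
  · -- then `5 ∤ p`; pass to `Ũ · M`
    have h5 : Prime (5 : ℤ) := by norm_num
    have hp : ¬ (5 : ℤ) ∣ p := by
      intro hp
      have h1 : (5 : ℤ) ∣ p * s - q * r := (hp.mul_right s).sub (hr.mul_left q)
      have h2 : (5 : ℤ) ∣ 1 := by
        have h3 := h1.sub hdet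
        have h4 : p * s - q * r - (p * s - q * r - 1) = 1 := by ring
        rwa [h4] at h3
      exact (by norm_num : ¬ (5 : ℤ) ∣ 1) h2
    have h' : Rz ζ (-r) (-s) p q :=
      rz_of_not_dvd h₁ h₂ hζ (by
        have : (-r) * q - (-s) * p - 1 = p * s - q * r - 1 := by ring
        rw [this]; exact hdet) hp
    exact rz_mul' h' (rz_U3 h₂ hζ) (by ring) (by ring) (by ring) (by ring)
  · exact rz_of_not_dvd h₁ h₂ hζ hdet hr

end Main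

/-- Every element of `Γ` acts by a matrix of determinant `1` modulo 5. -/
theorem exists_rel_of_mem (h₂ : RelGen) {ζ : Qb} (hζ : IsZ5 ζ)
    {γ : Matrix (Fin 2) (Fin 2) Qb} (hγ : γ ∈ Gam ζ) :
    ∃ p q r s : ℤ, (5 : ℤ) ∣ p * s - q * r - 1 ∧ Rel ζ γ p q r s := by
  induction hγ using Submonoid.closure_induction with
  | mem x hx =>
    rcases hx with rfl | rfl
    · exact ⟨1, 0, 1, 1, by norm_num, (h₂ ζ hζ).1⟩
    · exact ⟨0, -1, 1, 0, by norm_num, (h₂ ζ hζ).2⟩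
  | one => exact ⟨1, 0, 0, 1, by norm_num, rel_one ζ⟩
  | mul x y _ _ hx hy =>
    obtain ⟨p₁, q₁, r₁, s₁, hd₁, h1⟩ := hx
    obtain ⟨p₂, q₂, r₂, s₂, hd₂, h2⟩ := hy
    refine ⟨_, _, _, _, ?_, rel_mul h1 h2⟩
    obtain ⟨c₁, hc₁⟩ := hd₁
    obtain ⟨c₂, hc₂⟩ := hd₂
    refine ⟨c₁ * (p₂ * s₂ - q₂ * r₂) + c₂, ?_⟩
    linear_combination (p₂ * s₂ - q₂ * r₂) * hc₁ + hc₂

/-- **Brick `RelSurj`.** -/
theorem relSurj (h₁ : PKSpec) (h₂ : RelGen) : RelSurj := fun _ hζ =>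
  ⟨fun _ _ _ _ hdet => rz_of_det h₁ h₂ hζ hdet, fun _ hγ => exists_rel_of_mem h₂ hζ hγ⟩

end Fermat.Agent.S52K.RelSurj54
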