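/-
S52K (3–5 switch), brick `Klein.Rigid` (helper66): the level structure `(PK w, QK w)` determines
the vector `w` up to `μ₅`.

Route: `T̃ = diag(ζ³, ζ²)` acts on the level structure by `P ↦ P + Q`, `Q ↦ Q` (`RelGen`), so the
points `PK (T̃ᵏ w) = PK w + k • QK w` are determined by the level structure; their coordinates
`XP (tᵏ³ x, tᵏ² y)`, `YP (…)` (`PKSpec`) are the values at the five 5th roots of unity of a
polynomial of degree `≤ 4` whose coefficients are the isotypic parts of `XP`, `YP`.  Discrete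
Fourier inversion gives `x⁴ y⁶`, `x⁵ y¹⁰` and `x y⁴ (y⁵ + 2 x⁵)`, which pin `(x, y)` up to `μ₅`.
Only `PKSpec` and the `T̃`-half of `RelGen` are used.
-/
import Mathlib
import Fermat.Agent.S52K.Interfaces

set_option autoImplicit false

namespace Fermat.Agent.S52K.Rigid66

open Fermat.Agent.S58 WeierstrassCurve
open Fermat.Agent.S52K Fermat.Agent.S52K.Klein

/-! ## Discrete Fourier inversion on `μ₅` -/

theorem fourier5 {K : Type*} [Field K] [CharZero K] (ζ : K)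
    (hζ : ζ ^ 4 + ζ ^ 3 + ζ ^ 2 + ζ + 1 = 0) (D0 D1 D2 D3 D4 : K)
    (h : ∀ k : ℕ, k < 5 →
      D0 + ζ ^ k * D1 + (ζ ^ k) ^ 2 * D2 + (ζ ^ k) ^ 3 * D3 + (ζ ^ k) ^ 4 * D4 = 0) :
    D0 = 0 ∧ D1 = 0 ∧ D4 = 0 := by
  have h0 := h 0 (by norm_num)
  have h1 := h 1 (by norm_num)
  have h2 := h 2 (by norm_num)
  have h3 := h 3 (by norm_num)
  have h4 := h 4 (by norm_num)
  refine ⟨?_, ?_, ?_⟩
  · linear_combination (1/5 : K) * (ζ ^ 0 * h0 + ζ ^ 0 * h1 + ζ ^ 0 * h2 + ζ ^ 0 * h3 + ζ ^ 0 * h4) - (1/5 : K) * (((1) * ζ ^ 0) * D1 + ((1) * ζ ^ 0 + (-1) * ζ ^ 1 + (1) * ζ ^ 2 + (-1) * ζ ^ 3 + (1) * ζ ^ 4) * D2 + ((1) * ζ ^ 0 + (-1) * ζ ^ 1 + (1) * ζ ^ 3 + (-1) * ζ ^ 4 + (1) * ζ ^ 5 + (-1) * ζ ^ 7 + (1) * ζ ^ 8) * D3 + ((1) * ζ ^ 0 + (-1) * ζ ^ 1 + (1) * ζ ^ 4 + (-1) * ζ ^ 6 + (1) * ζ ^ 8 + (-1) * ζ ^ 11 + (1) * ζ ^ 12) * D4) * hζ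
  · linear_combination (1/5 : K) * (ζ ^ 0 * h0 + ζ ^ 4 * h1 + ζ ^ 3 * h2 + ζ ^ 2 * h3 + ζ ^ 1 * h4) - (1/5 : K) * (((1) * ζ ^ 0) * D0 + ((-4) * ζ ^ 0 + (4) * ζ ^ 1) * D1 + ((1) * ζ ^ 0 + (-1) * ζ ^ 1 + (1) * ζ ^ 5) * D2 + ((1) * ζ ^ 0 + (-1) * ζ ^ 1 + (1) * ζ ^ 5 + (-1) * ζ ^ 6 + (1) * ζ ^ 7 + (-1) * ζ ^ 8 + (1) * ζ ^ 9) * D3 + ((1) * ζ ^ 0 + (-1) * ζ ^ 1 + (1) * ζ ^ 5 + (-1) * ζ ^ 6 + (1) * ζ ^ 8 + (-1) * ζ ^ 9 + (1) * ζ ^ 10 + (-1) * ζ ^ 12 + (1) * ζ ^ 13) * D4) * hζ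
  · linear_combination (1/5 : K) * (ζ ^ 0 * h0 + ζ ^ 1 * h1 + ζ ^ 2 * h2 + ζ ^ 3 * h3 + ζ ^ 4 * h4) - (1/5 : K) * (((1) * ζ ^ 0) * D0 + ((1) * ζ ^ 0 + (-1) * ζ ^ 1 + (1) * ζ ^ 2 + (-1) * ζ ^ 3 + (1) * ζ ^ 4) * D1 + ((1) * ζ ^ 0 + (-1) * ζ ^ 1 + (1) * ζ ^ 3 + (-1) * ζ ^ 4 + (1) * ζ ^ 5 + (-1) * ζ ^ 7 + (1) * ζ ^ 8) * D2 + ((1) * ζ ^ 0 + (-1) * ζ ^ 1 + (1) * ζ ^ 4 + (-1) * ζ ^ 6 + (1) * ζ ^ 8 + (-1) * ζ ^ 11 + (1) * ζ ^ 12) * D3 + ((-4) * ζ ^ 0 + (4) * ζ ^ 1 + (-3) * ζ ^ 5 + (3) * ζ ^ 6 + (-2) * ζ ^ 10 + (2) * ζ ^ 11 + (-1) * ζ ^ 15 + (1) * ζ ^ 16) * D4) * hζ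

/-! ## The isotypic parts of `XP` and `YP` under `T̃` -/

section Expand

variable {R : Type*} [CommRing R]

theorem XP_expand (t x y : R) (ht : t ^ 5 = 1) :
    XP (t ^ 3 * x) (t ^ 2 * y) =
      (3 * y ^ 10 + 90 * x ^ 5 * y ^ 5 + 3 * x ^ 10)
        + t * (36 * x * y ^ 9 + 72 * x ^ 6 * y ^ 4)
        + t ^ 2 * (72 * x ^ 2 * y ^ 8 - 36 * x ^ 7 * y ^ 3)
        + t ^ 3 * (108 * x ^ 3 * y ^ 7 + 36 * x ^ 8 * y ^ 2)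
        + t ^ 4 * (180 * x ^ 4 * y ^ 6) := by
  simp only [XP]
  linear_combination
    ((t ^ 15 + t ^ 10 + t ^ 5 + 1) *
        (3 * y ^ 10 + t * (36 * x * y ^ 9) + t ^ 2 * (72 * x ^ 2 * y ^ 8)
          + t ^ 3 * (108 * x ^ 3 * y ^ 7) + t ^ 4 * (180 * x ^ 4 * y ^ 6))
      + (t ^ 20 + t ^ 15 + t ^ 10 + t ^ 5 + 1) *
        (90 * x ^ 5 * y ^ 5 + t * (72 * x ^ 6 * y ^ 4) + t ^ 2 * (-36 * x ^ 7 * y ^ 3)
          + t ^ 3 * (36 * x ^ 8 * y ^ 2))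
      + (t ^ 25 + t ^ 20 + t ^ 15 + t ^ 10 + t ^ 5 + 1) * (3 * x ^ 10)) * ht

theorem YP_expand (t x y : R) (ht : t ^ 5 = 1) :
    YP (t ^ 3 * x) (t ^ 2 * y) =
      (2700 * x ^ 5 * y ^ 10)
        + t * (108 * x * y ^ 14 + 3132 * x ^ 6 * y ^ 9 + 432 * x ^ 11 * y ^ 4)
        + t ^ 2 * (432 * x ^ 2 * y ^ 13 + 2268 * x ^ 7 * y ^ 8 + 108 * x ^ 12 * y ^ 3)
        + t ^ 3 * (972 * x ^ 3 * y ^ 12 + 648 * x ^ 8 * y ^ 7 + 108 * x ^ 13 * y ^ 2)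
        + t ^ 4 * (1620 * x ^ 4 * y ^ 11 + 540 * x ^ 9 * y ^ 6) := by
  simp only [YP]
  linear_combination
    ((t ^ 25 + t ^ 20 + t ^ 15 + t ^ 10 + t ^ 5 + 1) *
        (t * (108 * x * y ^ 14) + t ^ 2 * (432 * x ^ 2 * y ^ 13)
          + t ^ 3 * (972 * x ^ 3 * y ^ 12) + t ^ 4 * (1620 * x ^ 4 * y ^ 11))
      + (t ^ 30 + t ^ 25 + t ^ 20 + t ^ 15 + t ^ 10 + t ^ 5 + 1) *
        (2700 * x ^ 5 * y ^ 10 + t * (3132 * x ^ 6 * y ^ 9) + t ^ 2 * (2268 * x ^ 7 * y ^ 8)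
          + t ^ 3 * (648 * x ^ 8 * y ^ 7) + t ^ 4 * (540 * x ^ 9 * y ^ 6))
      + (t ^ 35 + t ^ 30 + t ^ 25 + t ^ 20 + t ^ 15 + t ^ 10 + t ^ 5 + 1) *
        (t * (432 * x ^ 11 * y ^ 4) + t ^ 2 * (108 * x ^ 12 * y ^ 3)
          + t ^ 3 * (108 * x ^ 13 * y ^ 2))) * ht

end Expand

/-! ## The orbit of `w` under `T̃` -/

/-- `diag(t³, t²) w`. -/
noncomputable def tw (t : Qb) (u : Fin 2 → Qb) : Fin 2 → Qb := ![t ^ 3 * u 0, t ^ 2 * u 1]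

@[simp] theorem tw_zero (t : Qb) (u : Fin 2 → Qb) : tw t u 0 = t ^ 3 * u 0 := rfl

@[simp] theorem tw_one (t : Qb) (u : Fin 2 → Qb) : tw t u 1 = t ^ 2 * u 1 := rfl

theorem tw_one_left (u : Fin 2 → Qb) : tw 1 u = u := by
  ext i
  fin_cases i <;> simp [tw]

theorem Tm_mulVec_tw (ζ t : Qb) (u : Fin 2 → Qb) : (Tm ζ).mulVec (tw t u) = tw (ζ * t) u := by
  ext i
  fin_cases i
  · simp [Tm, tw, Matrix.mulVec, dotProduct, Fin.sum_univ_two]; ring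
  · simp [Tm, tw, Matrix.mulVec, dotProduct, Fin.sum_univ_two]; ring

theorem isKl_mulVec {ζ : Qb} {γ : Matrix (Fin 2) (Fin 2) Qb} {p q r s : ℤ} (hγ : Rel ζ γ p q r s)
    {E : WeierstrassCurve Qb} {u : Fin 2 → Qb} (hu : IsKl E u) : IsKl E (γ.mulVec u) := by
  obtain ⟨h1, h2, h3, h4, h6, hf⟩ := hu
  obtain ⟨hfK, hHK, hTK, -⟩ := hγ.2.1 u
  exact ⟨h1, h2, h3, by rw [hHK]; exact h4, by rw [hTK]; exact h6, by rw [hfK]; exact hf⟩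

/-- The points of the `T̃`-orbit: `PK (T̃ᵏ u) = PK u + k • QK u`, `QK (T̃ᵏ u) = QK u`. -/
theorem orbit {ζ : Qb} (hT : Rel ζ (Tm ζ) 1 0 1 1) {E : WeierstrassCurve Qb} {u : Fin 2 → Qb}
    (hu : IsKl E u) (k : ℕ) :
    IsKl E (tw (ζ ^ k) u) ∧ PK E (tw (ζ ^ k) u) = PK E u + (k : ℤ) • QK ζ E u ∧
      QK ζ E (tw (ζ ^ k) u) = QK ζ E u := by
  induction k with
  | zero =>
    rw [pow_zero, tw_one_left]
    exact ⟨hu, by simp, rfl⟩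
  | succ k ih =>
    obtain ⟨ihK, ihP, ihQ⟩ := ih
    have hstep : tw (ζ ^ (k + 1)) u = (Tm ζ).mulVec (tw (ζ ^ k) u) := by
      rw [Tm_mulVec_tw, pow_succ, mul_comm]
    obtain ⟨hP, hQ⟩ := hT.2.2 E (tw (ζ ^ k) u) ihK
    refine ⟨hstep ▸ isKl_mulVec hT ihK, ?_, ?_⟩
    · rw [hstep, hP, ihP, ihQ]
      push_cast
      rw [one_zsmul, one_zsmul, add_zsmul, one_zsmul, add_assoc]
    · rw [hstep, hQ, ihQ, zero_zsmul, zero_add, one_zsmul]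

/-! ## Rigidity -/

theorem rigid (hSpec : PKSpec) (hGen : RelGen) : Rigid := by
  intro ζ hζ E w w' hw hw' hP hQ
  have hζ' : ζ ^ 4 + ζ ^ 3 + ζ ^ 2 + ζ + 1 = 0 := hζ
  have hζ5 : ζ ^ 5 = 1 := by linear_combination (ζ - 1) * hζ'
  have hT := (hGen ζ hζ).1
  -- the coordinates of the orbit points agree
  have hcoord : ∀ k : ℕ,
      XP ((ζ ^ k) ^ 3 * w' 0) ((ζ ^ k) ^ 2 * w' 1) = XP ((ζ ^ k) ^ 3 * w 0) ((ζ ^ k) ^ 2 * w 1) ∧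
      YP ((ζ ^ k) ^ 3 * w' 0) ((ζ ^ k) ^ 2 * w' 1)
        = YP ((ζ ^ k) ^ 3 * w 0) ((ζ ^ k) ^ 2 * w 1) := by
    intro k
    obtain ⟨hK, hPk, -⟩ := orbit hT hw k
    obtain ⟨hK', hPk', -⟩ := orbit hT hw' k
    have heq : PK E (tw (ζ ^ k) w') = PK E (tw (ζ ^ k) w) := by rw [hPk', hPk, hP, hQ]
    obtain ⟨h1, hs1⟩ := (hSpec E _ hK).1
    obtain ⟨h2, hs2⟩ := (hSpec E _ hK').1
    rw [hs1, hs2] at heq
    simp only [tw_zero, tw_one, Affine.Point.some.injEq] at heq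
    exact heq
  have hpow : ∀ k : ℕ, (ζ ^ k) ^ 5 = 1 := fun k => by rw [← pow_mul, mul_comm, pow_mul, hζ5, one_pow]
  set x := w 0 with hx
  set y := w 1 with hy
  set x' := w' 0 with hx'
  set y' := w' 1 with hy'
  -- Fourier inversion for `XP`
  obtain ⟨-, hA1, hA4⟩ := fourier5 ζ hζ'
    ((3 * y' ^ 10 + 90 * x' ^ 5 * y' ^ 5 + 3 * x' ^ 10) - (3 * y ^ 10 + 90 * x ^ 5 * y ^ 5 + 3 * x ^ 10))
    ((36 * x' * y' ^ 9 + 72 * x' ^ 6 * y' ^ 4) - (36 * x * y ^ 9 + 72 * x ^ 6 * y ^ 4))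
    ((72 * x' ^ 2 * y' ^ 8 - 36 * x' ^ 7 * y' ^ 3) - (72 * x ^ 2 * y ^ 8 - 36 * x ^ 7 * y ^ 3))
    ((108 * x' ^ 3 * y' ^ 7 + 36 * x' ^ 8 * y' ^ 2) - (108 * x ^ 3 * y ^ 7 + 36 * x ^ 8 * y ^ 2))
    ((180 * x' ^ 4 * y' ^ 6) - (180 * x ^ 4 * y ^ 6))
    (fun k _ => by
      have h := (hcoord k).1
      rw [XP_expand _ _ _ (hpow k), XP_expand _ _ _ (hpow k)] at h
      linear_combination h)
  -- Fourier inversion for `YP`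
  obtain ⟨hB0, -, -⟩ := fourier5 ζ hζ'
    ((2700 * x' ^ 5 * y' ^ 10) - (2700 * x ^ 5 * y ^ 10))
    ((108 * x' * y' ^ 14 + 3132 * x' ^ 6 * y' ^ 9 + 432 * x' ^ 11 * y' ^ 4)
      - (108 * x * y ^ 14 + 3132 * x ^ 6 * y ^ 9 + 432 * x ^ 11 * y ^ 4))
    ((432 * x' ^ 2 * y' ^ 13 + 2268 * x' ^ 7 * y' ^ 8 + 108 * x' ^ 12 * y' ^ 3)
      - (432 * x ^ 2 * y ^ 13 + 2268 * x ^ 7 * y ^ 8 + 108 * x ^ 12 * y ^ 3))
    ((972 * x' ^ 3 * y' ^ 12 + 648 * x' ^ 8 * y' ^ 7 + 108 * x' ^ 13 * y' ^ 2)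
      - (972 * x ^ 3 * y ^ 12 + 648 * x ^ 8 * y ^ 7 + 108 * x ^ 13 * y ^ 2))
    ((1620 * x' ^ 4 * y' ^ 11 + 540 * x' ^ 9 * y' ^ 6) - (1620 * x ^ 4 * y ^ 11 + 540 * x ^ 9 * y ^ 6))
    (fun k _ => by
      have h := (hcoord k).2
      rw [YP_expand _ _ _ (hpow k), YP_expand _ _ _ (hpow k)] at h
      linear_combination h)
  -- nonvanishing
  have hf : fK x y ≠ 0 := hw.2.2.2.2.2
  have hf' : fK x' y' ≠ 0 := hw'.2.2.2.2.2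
  have hx0 : x ≠ 0 := by
    rintro h0; apply hf; simp [fK, h0]
  have hy0 : y ≠ 0 := by
    rintro h0; apply hf; simp [fK, h0]
  -- the three relations
  have e1 : x' ^ 4 * y' ^ 6 = x ^ 4 * y ^ 6 := by linear_combination (1 / 180 : Qb) * hA4
  have e2 : x' ^ 5 * y' ^ 10 = x ^ 5 * y ^ 10 := by linear_combination (1 / 2700 : Qb) * hB0
  have e3 : x' * y' ^ 4 * (y' ^ 5 + 2 * x' ^ 5) = x * y ^ 4 * (y ^ 5 + 2 * x ^ 5) := by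
    linear_combination (1 / 36 : Qb) * hA1
  -- ratios
  set u := x' / x with hu
  set v := y' / y with hv
  have hxu : x' = u * x := by rw [hu]; field_simp
  have hyv : y' = v * y := by rw [hv]; field_simp
  rw [hxu, hyv] at e1 e2 e3
  have hxy : x ^ 4 * y ^ 6 ≠ 0 := mul_ne_zero (pow_ne_zero _ hx0) (pow_ne_zero _ hy0)
  have hxy2 : x ^ 5 * y ^ 10 ≠ 0 := mul_ne_zero (pow_ne_zero _ hx0) (pow_ne_zero _ hy0)
  have r1 : u ^ 4 * v ^ 6 = 1 := by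
    apply mul_right_cancel₀ hxy
    linear_combination e1
  have r2 : u ^ 5 * v ^ 10 = 1 := by
    apply mul_right_cancel₀ hxy2
    linear_combination e2
  have hv10 : v ^ 10 = 1 := by
    have h20 : u ^ 20 * v ^ 30 = 1 := by
      have := congrArg (· ^ 5) r1
      simp only [one_pow] at this
      rw [← this]; ring
    have h20' : u ^ 20 * v ^ 40 = 1 := by
      have := congrArg (· ^ 4) r2
      simp only [one_pow] at this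
      rw [← this]; ring
    calc v ^ 10 = (u ^ 20 * v ^ 30) * v ^ 10 := by rw [h20, one_mul]
      _ = u ^ 20 * v ^ 40 := by ring
      _ = 1 := h20'
  have hu5 : u ^ 5 = 1 := by rw [hv10, mul_one] at r2; exact r2
  have hv6 : v ^ 6 = u := by
    calc v ^ 6 = u ^ 5 * v ^ 6 := by rw [hu5, one_mul]
      _ = u * (u ^ 4 * v ^ 6) := by ring
      _ = u := by rw [r1, mul_one]
  have hv5 : v ^ 5 = 1 ∨ v ^ 5 = -1 := by
    have : (v ^ 5 - 1) * (v ^ 5 + 1) = 0 := by linear_combination hv10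
    rcases mul_eq_zero.mp this with h | h
    · left; linear_combination h
    · right; linear_combination h
  have hvu : v = u := by
    rcases hv5 with h5 | h5
    · calc v = v ^ 5 * v := by rw [h5, one_mul]
        _ = v ^ 6 := by ring
        _ = u := hv6
    · exfalso
      have huv : u = -v := by
        calc u = v ^ 6 := hv6.symm
          _ = v ^ 5 * v := by ring
          _ = -v := by rw [h5]; ring
      have huv4 : u * v ^ 4 = 1 := by rw [huv]; linear_combination (-1 : Qb) * h5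
      have hxy4 : x * y ^ 4 ≠ 0 := mul_ne_zero hx0 (pow_ne_zero _ hy0)
      have e4 : (u * v ^ 4) * (v ^ 5 * y ^ 5 + 2 * u ^ 5 * x ^ 5) = y ^ 5 + 2 * x ^ 5 := by
        apply mul_right_cancel₀ hxy4
        linear_combination e3
      rw [huv4, h5, hu5] at e4
      have : y ^ 5 = 0 := by linear_combination (-1 / 2 : Qb) * e4
      exact hy0 (pow_eq_zero_iff (by norm_num) |>.mp this)
  refine ⟨u, hu5, ?_⟩
  ext i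
  fin_cases i
  · change w' 0 = u * w 0
    exact hxu
  · change w' 1 = u * w 1
    rw [← hvu]
    exact hyv

end Fermat.Agent.S52K.Rigid66
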