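/-
S52K brick `ShortCong` (helper90): a model and its short model have the same 5-torsion, in both
directions.  The rational variable change `(x, y) ↦ (36 x + 3 b₂, 108 (2 y + a₁ x + a₃))`
is a group isomorphism on points (main's `S05.Transfer.ratEquiv`) commuting with Galois
(`ratEquiv_smul`).
-/
import Mathlib
import Fermat.Agent.S05.FreyTransfer
import Fermat.Agent.S52K.Interfaces

set_option autoImplicit false

namespace Fermat.Agent.S52K.ShortCong90

open Fermat.Agent.S58 WeierstrassCurve
open Fermat.Agent.S05.Transfer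
open scoped WeierstrassCurve.Affine

/-- The unit `6` of `ℚ`. -/
def six : ℚˣ := Units.mk0 6 (by norm_num)

/-- The rational variable change from a model to its short model:
`X = 36 x + 3 b₂`, `Y = 216 y + 108 a₁ x + 108 a₃`. -/
def vcShort (W : WeierstrassCurve ℤ) : VariableChange ℚ :=
  ⟨six, 3 * (W.b₂ : ℚ), 3 * (W.a₁ : ℚ), 108 * (W.a₃ : ℚ)⟩

/-- The variable change carries the short model to the model. -/
theorem vcShort_smul (W : WeierstrassCurve ℤ) :
    vcShort W • EQ (Ws W.c₄ W.c₆) = EQ W := by
  have h6 : ((six⁻¹ : ℚˣ) : ℚ) = 1 / 6 := by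
    rw [Units.val_inv_eq_inv_val]; simp [six]
  ext
  · simp only [variableChange_a₁, vcShort, h6, EQ, map_a₁, Ws, Int.coe_castRingHom]
    push_cast; ring
  · simp only [variableChange_a₂, vcShort, h6, EQ, map_a₂, map_a₁, Ws, Int.coe_castRingHom,
      WeierstrassCurve.b₂]
    push_cast; ring
  · simp only [variableChange_a₃, vcShort, h6, EQ, map_a₃, map_a₁, Ws, Int.coe_castRingHom]
    push_cast; ring
  · simp only [variableChange_a₄, vcShort, h6, EQ, map_a₄, map_a₃, map_a₂, map_a₁, Ws,
      Int.coe_castRingHom, WeierstrassCurve.b₂, WeierstrassCurve.b₄, WeierstrassCurve.c₄]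
    push_cast; ring
  · simp only [variableChange_a₆, vcShort, h6, EQ, map_a₆, map_a₄, map_a₃, map_a₂, map_a₁, Ws,
      Int.coe_castRingHom, WeierstrassCurve.b₂, WeierstrassCurve.b₄, WeierstrassCurve.b₆,
      WeierstrassCurve.c₄, WeierstrassCurve.c₆]
    push_cast; ring

/-- The transfer isomorphism `W(ℚ̄) ≃+ Ws(ℚ̄)`. -/
noncomputable def toShort (W : WeierstrassCurve ℤ) : EPt W ≃+ EPt (Ws W.c₄ W.c₆) :=
  ratEquiv (K := Qb) (vcShort W) (vcShort_smul W)

theorem toShort_smul (W : WeierstrassCurve ℤ) (σ : GQ) (P : EPt W) :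
    toShort W (σ • P) = σ • toShort W P :=
  ratEquiv_smul (K := Qb) (vcShort W) (vcShort_smul W) σ P

theorem toShort_symm_smul (W : WeierstrassCurve ℤ) (σ : GQ) (Q : EPt (Ws W.c₄ W.c₆)) :
    (toShort W).symm (σ • Q) = σ • (toShort W).symm Q := by
  apply (toShort W).injective
  rw [AddEquiv.apply_symm_apply, toShort_smul, AddEquiv.apply_symm_apply]

/-- **(SHORT)**, forward direction (no hypothesis on `W` is needed). -/
theorem cong5_toShort (W : WeierstrassCurve ℤ) : Cong5 W (Ws W.c₄ W.c₆) :=
  ⟨toShort W, fun P Q _ _ => map_add (toShort W) P Q,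
    fun _ _ h => (map_eq_zero_iff (toShort W) (toShort W).injective).mp h,
    fun σ P _ => toShort_smul W σ P⟩

/-- **(SHORT)**, backward direction. -/
theorem cong5_ofShort (W : WeierstrassCurve ℤ) : Cong5 (Ws W.c₄ W.c₆) W :=
  ⟨(toShort W).symm, fun P Q _ _ => map_add (toShort W).symm P Q,
    fun _ _ h => (map_eq_zero_iff (toShort W).symm (toShort W).symm.injective).mp h,
    fun σ P _ => toShort_symm_smul W σ P⟩

/-- **(SHORT)** a model and its short model have the same 5-torsion (both directions). -/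
theorem shortCong : ShortCong := fun W _ => ⟨cong5_toShort W, cong5_ofShort W⟩

end Fermat.Agent.S52K.ShortCong90
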