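/-
S52K (3–5 switch), assembly `TopSeam` (helper46): the five top bricks give the frozen statement.

If `W[3]` is irreducible take `W' = W`.  Otherwise the family `Wf` (brick FAM) through `W`, an
auxiliary prime `r ≡ 1 (mod 3)` (brick AUX) and the Chinese remainder theorem give a coprime pair
`(l, m) ≡ (1, 0) (mod n)`, `≡ (l₀, m₀) (mod r)`; the fibre `W' = Wf l m` has `W'[5] ≅ W[5]`
(brick F gives the congruences) and `a_r(W') = -a_r(W)` (brick TWIST), which is incompatible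
with both `W[3]` and `W'[3]` being reducible (brick IRR3: `a_r ≡ 2 (mod 3)` for both).
-/
import Mathlib
import Fermat.Agent.S52K.Interfaces

set_option autoImplicit false

namespace Fermat.Agent.S52K.TopSeam46

open Fermat.Agent.S58 WeierstrassCurve Fermat.Agent.S52K

/-- **Coprime lift.**  If no prime divides `a`, `b` and `M` simultaneously and `b ≠ 0`, some
`a + k * M` is coprime to `b`. -/
theorem exists_coprime_lift (a b M : ℤ) (hb : b ≠ 0)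
    (h : ∀ p : ℕ, p.Prime → (p : ℤ) ∣ a → (p : ℤ) ∣ b → ¬ (p : ℤ) ∣ M) :
    ∃ k : ℤ, IsCoprime (a + k * M) b := by
  classical
  let T : Finset ℕ := b.natAbs.primeFactors.filter (fun p => ¬ (p : ℤ) ∣ M ∧ ¬ (p : ℤ) ∣ a)
  refine ⟨∏ q ∈ T, (q : ℤ), ?_⟩
  rw [Int.isCoprime_iff_gcd_eq_one]
  by_contra hg
  obtain ⟨p, hp, hpg⟩ := Nat.exists_prime_and_dvd hg
  have hpZ : (p : ℤ) ∣ ((Int.gcd (a + (∏ q ∈ T, (q : ℤ)) * M) b : ℕ) : ℤ) :=
    Int.natCast_dvd_natCast.2 hpg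
  have hpl : (p : ℤ) ∣ a + (∏ q ∈ T, (q : ℤ)) * M := hpZ.trans (Int.gcd_dvd_left _ _)
  have hpb : (p : ℤ) ∣ b := hpZ.trans (Int.gcd_dvd_right _ _)
  have hpprime : Prime (p : ℤ) := Nat.prime_iff_prime_int.1 hp
  by_cases hpM : (p : ℤ) ∣ M
  · have hpa : (p : ℤ) ∣ a := (dvd_add_left (dvd_mul_of_dvd_right hpM _)).1 hpl
    exact h p hp hpa hpb hpM
  · by_cases hpa : (p : ℤ) ∣ a
    · have hkM : (p : ℤ) ∣ (∏ q ∈ T, (q : ℤ)) * M := (dvd_add_right hpa).1 hpl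
      have hk : (p : ℤ) ∣ ∏ q ∈ T, (q : ℤ) := (hpprime.dvd_or_dvd hkM).resolve_right hpM
      obtain ⟨q, hqT, hpq⟩ := (Prime.dvd_finsetProd_iff hpprime _).1 hk
      have hq := Finset.mem_filter.1 hqT
      have hqp : q.Prime := Nat.prime_of_mem_primeFactors hq.1
      have hpq' : p = q := (Nat.prime_dvd_prime_iff_eq hp hqp).1 (Int.natCast_dvd_natCast.1 hpq)
      subst hpq'
      exact hq.2.2 hpa
    · have hpT : p ∈ T := by
        refine Finset.mem_filter.2 ⟨Nat.mem_primeFactors.2 ⟨hp, ?_, ?_⟩, hpM, hpa⟩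
        · exact Int.natCast_dvd.1 hpb
        · exact Int.natAbs_ne_zero.2 hb
      have hk : (p : ℤ) ∣ ∏ q ∈ T, (q : ℤ) := Finset.dvd_prod_of_mem _ hpT
      exact hpa ((dvd_add_left (dvd_mul_of_dvd_left hk _)).1 hpl)

/-- **Chinese remainder with coprimality.**  For `r` prime not dividing `n > 0` and a residue
pair `(l₀, m₀)` not `≡ (0, 0) (mod r)` there is a coprime pair `(l, m) ≡ (1, 0) (mod n)`,
`≡ (l₀, m₀) (mod r)`. -/
theorem exists_coprime_crt (n r : ℕ) (hr : r.Prime) (hrn : ¬ r ∣ n) (l₀ m₀ : ℤ)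
    (hnot : ¬ ((r : ℤ) ∣ l₀ ∧ (r : ℤ) ∣ m₀)) :
    ∃ l m : ℤ, IsCoprime l m ∧ (n : ℤ) ∣ l - 1 ∧ (n : ℤ) ∣ m ∧ (r : ℤ) ∣ l - l₀ ∧
      (r : ℤ) ∣ m - m₀ := by
  have hcop : IsCoprime (n : ℤ) (r : ℤ) := by
    rw [Nat.isCoprime_iff_coprime]
    exact (Nat.Coprime.symm ((Nat.Prime.coprime_iff_not_dvd hr).2 hrn))
  obtain ⟨u, v, huv⟩ := hcop
  -- `u * n + v * r = 1`
  set l₁ : ℤ := v * r + l₀ * (u * n) with hl₁
  set m₁ : ℤ := m₀ * (u * n) with hm₁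
  have hl₁n : (n : ℤ) ∣ l₁ - 1 := ⟨(l₀ - 1) * u, by rw [hl₁]; linear_combination huv⟩
  have hl₁r : (r : ℤ) ∣ l₁ - l₀ := ⟨v * (1 - l₀), by rw [hl₁]; linear_combination l₀ * huv⟩
  have hm₁n : (n : ℤ) ∣ m₁ := ⟨m₀ * u, by rw [hm₁]; ring⟩
  have hm₁r : (r : ℤ) ∣ m₁ - m₀ := ⟨-(v * m₀), by rw [hm₁]; linear_combination m₀ * huv⟩
  have hr0 : (r : ℤ) ≠ 0 := by exact_mod_cast hr.ne_zero
  -- a non-zero `m`
  obtain ⟨m, hm0, hmn, hmr⟩ : ∃ m : ℤ, m ≠ 0 ∧ (n : ℤ) ∣ m ∧ (r : ℤ) ∣ m - m₀ := by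
    by_cases hm₁0 : m₁ = 0
    · by_cases hn : n = 0
      · -- then `r ∣ 0 = n`, impossible
        exact absurd (hn ▸ dvd_zero r) hrn
      · refine ⟨(n : ℤ) * r, mul_ne_zero (by exact_mod_cast hn) hr0, dvd_mul_right _ _, ?_⟩
        have h1 : (r : ℤ) ∣ m₀ := by
          have := hm₁r
          rw [hm₁0, zero_sub] at this
          exact (dvd_neg.1 this)
        exact dvd_sub (dvd_mul_left _ _) h1
    · exact ⟨m₁, hm₁0, hm₁n, hm₁r⟩
  -- the coprime lift of `l₁`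
  have hkey : ∀ p : ℕ, p.Prime → (p : ℤ) ∣ l₁ → (p : ℤ) ∣ m → ¬ (p : ℤ) ∣ (n : ℤ) * r := by
    intro p hp hpl hpm hpnr
    have hpprime : Prime (p : ℤ) := Nat.prime_iff_prime_int.1 hp
    rcases hpprime.dvd_or_dvd hpnr with hpn | hpr
    · have h1 : (p : ℤ) ∣ 1 := by
        have h2 : (p : ℤ) ∣ l₁ - 1 := hpn.trans hl₁n
        have h3 := dvd_sub hpl h2
        rwa [sub_sub_cancel] at h3
      exact hpprime.not_dvd_one h1
    · have hpr' : p = r := (Nat.prime_dvd_prime_iff_eq hp hr).1 (Int.natCast_dvd_natCast.1 hpr)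
      subst hpr'
      apply hnot
      constructor
      · have h3 := dvd_sub hpl hl₁r
        rwa [sub_sub_cancel] at h3
      · have h3 := dvd_sub hpm hmr
        rwa [sub_sub_cancel] at h3
  obtain ⟨k, hk⟩ := exists_coprime_lift l₁ m ((n : ℤ) * r) hm0 hkey
  refine ⟨l₁ + k * ((n : ℤ) * r), m, hk, ?_, hmn, ?_, hmr⟩
  · have : l₁ + k * ((n : ℤ) * r) - 1 = (l₁ - 1) + (n : ℤ) * (k * r) := by ring
    rw [this]
    exact dvd_add hl₁n (dvd_mul_right _ _)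
  · have : l₁ + k * ((n : ℤ) * r) - l₀ = (l₁ - l₀) + (r : ℤ) * (k * n) := by ring
    rw [this]
    exact dvd_add hl₁r (dvd_mul_right _ _)

/-- **The top seam**: the five bricks give the frozen statement of S52. -/
theorem topSeam : TopSeam := by
  intro hFam hAp hIrr hTw hAux W hΔ hss _h5
  by_cases h3 : W.ModRepIsIrreducible 3
  · exact ⟨W, hΔ, hss, h3, fun ℓ _ _ _ _ => by rw [sub_self]; exact dvd_zero _⟩
  obtain ⟨n, Wf, hn, h30, hfam1, hfam2⟩ := hFam W hΔ hss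
  obtain ⟨r, hr, hrS, hr3, A, φ, hA, hφ, hPM⟩ := hAux W hΔ hss n.primeFactors
  have hrn : ¬ r ∣ n := fun hdvd =>
    hrS (Nat.mem_primeFactors.2 ⟨hr, hdvd, Nat.pos_iff_ne_zero.1 hn⟩)
  obtain ⟨l₀, m₀, d, hnot, hd, hcong⟩ := hfam2 r hr hrn A φ hA hφ hPM
  obtain ⟨l, m, hlm, hl, hm, hlr, hmr⟩ := exists_coprime_crt n r hr hrn l₀ m₀ hnot
  obtain ⟨hΔ', hss', hc5⟩ := hfam1 l m hlm hl hm
  refine ⟨Wf l m, hΔ', hss', ?_, hAp W (Wf l m) hΔ hΔ' hc5⟩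
  by_contra h3'
  obtain ⟨hc4, hc6⟩ := hcong l m hlm hl hm hlr hmr
  -- `r` is a good prime of `W`, and `r ≥ 5`
  have hrΔ : ¬ (r : ℤ) ∣ W.Δ := by
    intro hdvd
    apply hrn
    have h1 : r ∣ W.Δ.natAbs := Int.natCast_dvd.1 hdvd
    exact (h1.trans (dvd_mul_left _ _)).trans h30
  have hr5 : 5 ≤ r := by
    have h2 := hr.two_le
    by_contra hlt
    have hr4 : r < 5 := Nat.lt_of_not_le hlt
    interval_cases r
    · omega
    · omega
    · exact absurd hr (by decide)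
  obtain ⟨hrΔ', hap⟩ := hTw W (Wf l m) r hr hr5 hrΔ d hd hc4 hc6
  have e1 := hIrr W hΔ hss h3 r hr hr3 hrΔ
  have e2 := hIrr (Wf l m) hΔ' hss' h3' r hr hr3 hrΔ'
  rw [hap] at e2
  have e3 : (3 : ℤ) ∣ -4 := by
    have := dvd_add e1 e2
    have e4 : W.apOfModel r - 2 + (-W.apOfModel r - 2) = -4 := by ring
    rwa [e4] at this
  norm_num at e3

end Fermat.Agent.S52K.TopSeam46
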