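/-
S52K — brick (TWIST): a model congruent modulo a good prime `r ≥ 5` to the quadratic twist by a
non-residue has good reduction at `r` and the opposite trace of Frobenius (helper59).

Proof: over `𝔽_r` (6 invertible) every Weierstrass curve is isomorphic to its short model
`Y² = X³ - 27 c₄ X - 54 c₆` (`S05.Transfer.vcEquiv`), and for a short elliptic curve the number of
points is `1 + ∑ₓ (χ(g x) + 1)` with `χ` the quadratic character.
-/
import Mathlib
import Fermat.Agent.S05.Transfer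
import Fermat.Agent.S52K.Interfaces

set_option autoImplicit false

namespace Fermat.Agent.S52K.TwistAp59

open WeierstrassCurve WeierstrassCurve.Affine

section Short

variable {F : Type*} [Field F]

/-- The short model `Y² = X³ - 27 c₄ X - 54 c₆` over a field. -/
def shortW (c4 c6 : F) : WeierstrassCurve F := ⟨0, 0, 0, -27 * c4, -54 * c6⟩

/-- The variable change to the short model (`6` invertible). -/
noncomputable def toShort (W : WeierstrassCurve F) (h6 : (6 : F) ≠ 0) : VariableChange F where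
  u := (Units.mk0 6 h6)⁻¹
  r := -W.b₂ / 12
  s := -W.a₁ / 2
  t := -(W.a₃ + (-W.b₂ / 12) * W.a₁) / 2

theorem toShort_smul (W : WeierstrassCurve F) (h6 : (6 : F) ≠ 0) :
    toShort W h6 • W = shortW W.c₄ W.c₆ := by
  have h2 : (2 : F) ≠ 0 := fun h => h6 (by linear_combination 3 * h)
  have h3 : (3 : F) ≠ 0 := fun h => h6 (by linear_combination 2 * h)
  have h12 : (12 : F) ≠ 0 := by
    have : (12 : F) = 2 * 6 := by norm_num
    rw [this]; exact mul_ne_zero h2 h6
  ext
  · simp only [variableChange_a₁, toShort, shortW, inv_inv, Units.val_mk0]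
    field_simp
    ring
  · simp only [variableChange_a₂, toShort, shortW, inv_inv, Units.val_mk0, b₂]
    field_simp
    ring
  · simp only [variableChange_a₃, toShort, shortW, inv_inv, Units.val_mk0, b₂]
    field_simp
    ring
  · simp only [variableChange_a₄, toShort, shortW, inv_inv, Units.val_mk0, b₂, b₄, c₄]
    field_simp
    ring
  · simp only [variableChange_a₆, toShort, shortW, inv_inv, Units.val_mk0, b₂, b₄, b₆, c₆]
    field_simp
    ring

theorem shortW_Δ_ne_zero (W : WeierstrassCurve F) (h6 : (6 : F) ≠ 0) (hΔ : W.Δ ≠ 0) :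
    (shortW W.c₄ W.c₆).Δ ≠ 0 := by
  rw [← toShort_smul W h6, variableChange_Δ]
  exact mul_ne_zero (pow_ne_zero _ (Units.ne_zero _)) hΔ

end Short

section Count

variable {F : Type*} [Field F] [Fintype F] [DecidableEq F]

theorem card_sqrts (hF : ringChar F ≠ 2) (a : F) :
    ((Finset.univ.filter fun y : F => y ^ 2 = a).card : ℤ) = quadraticChar F a + 1 := by
  rw [← quadraticChar_card_sqrts hF a]
  congr 2
  ext y
  simp

theorem card_pairs (hF : ringChar F ≠ 2) (g : F → F) :
    ((Finset.univ.filter fun p : F × F => p.2 ^ 2 = g p.1).card : ℤ) =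
      ∑ x : F, (quadraticChar F (g x) + 1) := by
  rw [Finset.card_filter, ← Finset.univ_product_univ, Finset.sum_product]
  push_cast
  refine Finset.sum_congr rfl fun x _ => ?_
  rw [← card_sqrts hF (g x), Finset.card_filter]
  push_cast
  rfl

/-- The number of points of a short elliptic curve over a finite field of odd characteristic. -/
theorem natCard_point_short (A B : F) (hF : ringChar F ≠ 2)
    (hΔ : (⟨0, 0, 0, A, B⟩ : WeierstrassCurve F).Δ ≠ 0) :
    (Nat.card (⟨0, 0, 0, A, B⟩ : WeierstrassCurve F).toAffine.Point : ℤ) =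
      1 + ∑ x : F, (quadraticChar F (x ^ 3 + A * x + B) + 1) := by
  classical
  set W : WeierstrassCurve F := ⟨0, 0, 0, A, B⟩ with hW
  have hiff : ∀ xy : F × F, W.toAffine.Nonsingular xy.1 xy.2 ↔ xy.2 ^ 2 = xy.1 ^ 3 + A * xy.1 + B := by
    intro xy
    rw [← equation_iff_nonsingular_of_Δ_ne_zero hΔ, equation_iff]
    simp [hW]
  have h1 : Nat.card W.toAffine.Point =
      Nat.card {xy : F × F // W.toAffine.Nonsingular xy.1 xy.2} + 1 := by
    rw [Nat.card_congr (nonsingularPointEquiv W.toAffine)]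
    exact Finite.card_option
  have h2 : Nat.card {xy : F × F // W.toAffine.Nonsingular xy.1 xy.2} =
      (Finset.univ.filter fun p : F × F => p.2 ^ 2 = p.1 ^ 3 + A * p.1 + B).card := by
    rw [Nat.card_congr (Equiv.subtypeEquivRight hiff), Nat.card_eq_fintype_card,
      Fintype.card_subtype]
  rw [h1, h2]
  push_cast
  rw [card_pairs hF fun x => x ^ 3 + A * x + B]
  ring

/-- A short elliptic curve and its quadratic twist by a non-square have `2 q + 2` points
together. -/
theorem natCard_add_natCard_twist (A B d : F) (hF : ringChar F ≠ 2) (hd : ¬ IsSquare d)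
    (hΔ : (⟨0, 0, 0, A, B⟩ : WeierstrassCurve F).Δ ≠ 0)
    (hΔ' : (⟨0, 0, 0, d ^ 2 * A, d ^ 3 * B⟩ : WeierstrassCurve F).Δ ≠ 0) :
    (Nat.card (⟨0, 0, 0, A, B⟩ : WeierstrassCurve F).toAffine.Point : ℤ) +
      Nat.card (⟨0, 0, 0, d ^ 2 * A, d ^ 3 * B⟩ : WeierstrassCurve F).toAffine.Point =
      2 * (Fintype.card F : ℤ) + 2 := by
  have hd0 : d ≠ 0 := by
    rintro rfl
    exact hd ⟨0, by simp⟩
  have hχd : quadraticChar F d = -1 := quadraticChar_neg_one_iff_not_isSquare.mpr hd
  rw [natCard_point_short A B hF hΔ, natCard_point_short (d ^ 2 * A) (d ^ 3 * B) hF hΔ']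
  have hre : ∑ x : F, (quadraticChar F (x ^ 3 + d ^ 2 * A * x + d ^ 3 * B) + 1) =
      ∑ u : F, (-(quadraticChar F (u ^ 3 + A * u + B)) + 1) := by
    refine (Fintype.sum_equiv (Equiv.mulLeft₀ d hd0) _ _ fun u => ?_).symm
    have : (d * u) ^ 3 + d ^ 2 * A * (d * u) + d ^ 3 * B = d ^ 3 * (u ^ 3 + A * u + B) := by ring
    simp only [Equiv.mulLeft₀_apply]
    rw [this, map_mul, map_pow, hχd]
    ring
  rw [hre, Finset.sum_add_distrib, Finset.sum_add_distrib, Finset.sum_neg_distrib]
  simp only [Finset.sum_const, Finset.card_univ, nsmul_eq_mul, mul_one]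
  ring

end Count

section Main

open Fermat.Agent.S05.Transfer

/-- The number of points does not change when passing to the short model. -/
theorem natCard_point_eq_short {F : Type*} [Field F] [DecidableEq F] (W : WeierstrassCurve F)
    (h6 : (6 : F) ≠ 0) :
    Nat.card W.toAffine.Point = Nat.card (shortW W.c₄ W.c₆).toAffine.Point :=
  (Nat.card_congr (vcEquiv (toShort W h6) (toShort_smul W h6)).toEquiv).symm

/-- **(TWIST)** -/
theorem twistAp : TwistAp := by
  intro W W' r hr h5 hΔ d hd h4 h6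
  have : Fact r.Prime := ⟨hr⟩
  have hchar : ringChar (ZMod r) ≠ 2 := by
    rw [ZMod.ringChar_zmod_n]; omega
  have h6' : (6 : ZMod r) ≠ 0 := by
    intro h
    have h' : ((6 : ℕ) : ZMod r) = 0 := by exact_mod_cast h
    rw [ZMod.natCast_eq_zero_iff] at h'
    have hle := Nat.le_of_dvd (by norm_num) h'
    interval_cases r
    · omega
    · exact absurd hr (by norm_num)
  have h2' : (2 : ZMod r) ≠ 0 := fun h => h6' (by linear_combination 3 * h)
  have h1728 : (1728 : ZMod r) ≠ 0 := by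
    have : (1728 : ZMod r) = 6 ^ 3 * 2 ^ 3 := by norm_num
    rw [this]
    exact mul_ne_zero (pow_ne_zero _ h6') (pow_ne_zero _ h2')
  set φ : ℤ →+* ZMod r := Int.castRingHom (ZMod r) with hφ
  set Wb : WeierstrassCurve (ZMod r) := W.map φ with hWb
  set Wb' : WeierstrassCurve (ZMod r) := W'.map φ with hWb'
  have hdb : ¬ IsSquare (φ d) := hd
  have hd0 : φ d ≠ 0 := by
    intro h
    exact hdb ⟨0, by rw [h]; simp⟩
  have e4 : Wb'.c₄ = φ d ^ 2 * Wb.c₄ := by
    have h := (ZMod.intCast_zmod_eq_zero_iff_dvd _ r).mpr h4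
    rw [hWb', hWb, map_c₄, map_c₄]
    have h' : φ W'.c₄ - φ d ^ 2 * φ W.c₄ = 0 := by
      rw [← map_pow, ← map_mul, ← map_sub]; exact h
    linear_combination h'
  have e6 : Wb'.c₆ = φ d ^ 3 * Wb.c₆ := by
    have h := (ZMod.intCast_zmod_eq_zero_iff_dvd _ r).mpr h6
    rw [hWb', hWb, map_c₆, map_c₆]
    have h' : φ W'.c₆ - φ d ^ 3 * φ W.c₆ = 0 := by
      rw [← map_pow, ← map_mul, ← map_sub]; exact h
    linear_combination h'
  have hΔb : Wb.Δ ≠ 0 := by
    rw [hWb, map_Δ]
    intro h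
    exact hΔ ((ZMod.intCast_zmod_eq_zero_iff_dvd _ r).mp h)
  have hΔb' : Wb'.Δ ≠ 0 := by
    intro h
    have hrel := Wb'.c_relation
    have hrel0 := Wb.c_relation
    rw [h, mul_zero, e4, e6] at hrel
    have : φ d ^ 6 * (1728 * Wb.Δ) = 0 := by
      rw [hrel0]; linear_combination (-1 : ZMod r) * hrel
    exact mul_ne_zero (pow_ne_zero _ hd0) (mul_ne_zero h1728 hΔb) this
  refine ⟨fun h => hΔb' ?_, ?_⟩
  · rw [hWb', map_Δ]
    exact (ZMod.intCast_zmod_eq_zero_iff_dvd _ r).mpr h
  · have hs : shortW Wb'.c₄ Wb'.c₆ =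
        (⟨0, 0, 0, φ d ^ 2 * (-27 * Wb.c₄), φ d ^ 3 * (-54 * Wb.c₆)⟩ : WeierstrassCurve (ZMod r)) := by
      rw [e4, e6]
      simp only [shortW]
      congr 1 <;> ring
    have hsΔ : (shortW Wb.c₄ Wb.c₆).Δ ≠ 0 := shortW_Δ_ne_zero Wb h6' hΔb
    have hsΔ' : (shortW Wb'.c₄ Wb'.c₆).Δ ≠ 0 := shortW_Δ_ne_zero Wb' h6' hΔb'
    have hsum := natCard_add_natCard_twist (-27 * Wb.c₄) (-54 * Wb.c₆) (φ d) hchar hdb hsΔ
      (hs ▸ hsΔ')
    rw [← hs] at hsum
    have hN : Nat.card Wb.toAffine.Point = Nat.card (shortW Wb.c₄ Wb.c₆).toAffine.Point :=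
      natCard_point_eq_short Wb h6'
    have hN' : Nat.card Wb'.toAffine.Point = Nat.card (shortW Wb'.c₄ Wb'.c₆).toAffine.Point :=
      natCard_point_eq_short Wb' h6'
    have hcard : (Fintype.card (ZMod r) : ℤ) = (Nat.card (ZMod r) : ℤ) := by
      rw [Nat.card_eq_fintype_card]
    show (Nat.card (ZMod r) : ℤ) + 1 - (Nat.card Wb'.toAffine.Point : ℤ) =
      -((Nat.card (ZMod r) : ℤ) + 1 - (Nat.card Wb.toAffine.Point : ℤ))
    rw [hN, hN']
    have hsum' : (Nat.card (shortW Wb.c₄ Wb.c₆).toAffine.Point : ℤ) +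
        Nat.card (shortW Wb'.c₄ Wb'.c₆).toAffine.Point = 2 * (Nat.card (ZMod r) : ℤ) + 2 := by
      rw [← hcard]; exact hsum
    linarith

end Main

end Fermat.Agent.S52K.TwistAp59
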