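/-
S52K (3–5 switch, Klein route), brick `Bezout` (helper28).

Klein's forms `HK` (degree 20) and `fK` (degree 12) have no common zero modulo a prime of residue
characteristic `≠ 5`:

* `bezout_y`, `bezout_x` : the explicit identities `Uh · HK + Vh · fK = 3125 · y ^ 31` and its
  image under `(x, y) ↦ (y, -x)` (integer forms `Uh`, `Vh` of degrees 11 and 19);
* `mem_maximalIdeal_of_forms` : in a local ring in which `5` is a unit, `HK a b, fK a b ∈ 𝔪`
  force `a, b ∈ 𝔪`;
* `bezout : Klein.Bezout` : the literal of `Interfaces.lean`, for valuation subrings of `ℚ̄`.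
-/
import Mathlib
import Fermat.Agent.S52K.Interfaces

set_option autoImplicit false

namespace Fermat.Agent.S52K.Bezout28

open Fermat.Agent.S52K Fermat.Agent.S52K.Klein

section Identity

variable {R : Type*} [CommRing R]

/-- The cofactor of `HK` (a form of degree 11). -/
def Uh (x y : R) : R := -(3125 * y ^ 11) + 33022 * x ^ 5 * y ^ 6 + 3003 * x ^ 10 * y

/-- The cofactor of `fK` (a form of degree 19). -/
def Vh (x y : R) : R :=
  679478 * x ^ 4 * y ^ 15 + 1485989 * x ^ 9 * y ^ 10 - 684695 * x ^ 14 * y ^ 5 + 3003 * x ^ 19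

/-- **The Bezout identity**: `Uh · HK + Vh · fK = 5⁵ · y³¹`. -/
theorem bezout_y (x y : R) : Uh x y * HK x y + Vh x y * fK x y = 3125 * y ^ 31 := by
  simp only [Uh, Vh, HK, fK]; ring

/-- The Bezout identity for `x`, by the symmetry `(x, y) ↦ (y, -x)`. -/
theorem bezout_x (x y : R) : Uh y (-x) * HK x y + Vh y (-x) * fK x y = -(3125 * x ^ 31) := by
  have h := bezout_y y (-x)
  rw [HK_S, fK_S] at h
  rw [h]
  ring

/-- The forms commute with ring homomorphisms. -/
theorem map_HK {S : Type*} [CommRing S] (φ : R →+* S) (x y : R) :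
    φ (HK x y) = HK (φ x) (φ y) := by
  simp only [HK, map_sub, map_add, map_neg, map_mul, map_pow, map_ofNat]

theorem map_fK {S : Type*} [CommRing S] (φ : R →+* S) (x y : R) :
    φ (fK x y) = fK (φ x) (φ y) := by
  simp only [fK, map_sub, map_add, map_mul, map_pow, map_ofNat]

end Identity

/-- In a local ring in which `5` is a unit, a common zero of `HK` and `fK` modulo the maximal
ideal is `(0, 0)` modulo the maximal ideal. -/
theorem mem_maximalIdeal_of_forms {A : Type*} [CommRing A] [IsLocalRing A]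
    (h5 : IsUnit (5 : A)) (a b : A) (hH : HK a b ∈ IsLocalRing.maximalIdeal A)
    (hf : fK a b ∈ IsLocalRing.maximalIdeal A) :
    a ∈ IsLocalRing.maximalIdeal A ∧ b ∈ IsLocalRing.maximalIdeal A := by
  have hprime : (IsLocalRing.maximalIdeal A).IsPrime := (IsLocalRing.maximalIdeal.isMaximal A).isPrime
  have h3125 : IsUnit (3125 : A) := by
    have h : (3125 : A) = 5 ^ 5 := by norm_num
    rw [h]
    exact h5.pow 5
  have key : ∀ c : A, 3125 * c ^ 31 ∈ IsLocalRing.maximalIdeal A → c ∈ IsLocalRing.maximalIdeal A := by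
    intro c hc
    rcases hprime.mem_or_mem hc with h | h
    · exact absurd h3125 ((IsLocalRing.mem_maximalIdeal _).1 h)
    · exact hprime.mem_of_pow_mem 31 h
  constructor
  · apply key
    have h := bezout_x a b
    have hmem : Uh b (-a) * HK a b + Vh b (-a) * fK a b ∈ IsLocalRing.maximalIdeal A :=
      Ideal.add_mem _ (Ideal.mul_mem_left _ _ hH) (Ideal.mul_mem_left _ _ hf)
    rw [h] at hmem
    simpa using neg_mem hmem
  · apply key
    have h := bezout_y a b
    have hmem : Uh a b * HK a b + Vh a b * fK a b ∈ IsLocalRing.maximalIdeal A :=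
      Ideal.add_mem _ (Ideal.mul_mem_left _ _ hH) (Ideal.mul_mem_left _ _ hf)
    rw [h] at hmem
    exact hmem

/-- The same for a valuation subring of any field, in terms of `A.nonunits`. -/
theorem mem_nonunits_of_forms {K : Type*} [Field K] (A : ValuationSubring K)
    (h5 : (5 : K) ∉ A.nonunits) {x y : K} (hx : x ∈ A) (hy : y ∈ A)
    (hH : HK x y ∈ A.nonunits) (hf : fK x y ∈ A.nonunits) :
    x ∈ A.nonunits ∧ y ∈ A.nonunits := by
  have h5A : IsUnit (5 : A) := by
    by_contra hcon
    apply h5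
    rw [ValuationSubring.mem_nonunits_iff_exists_mem_maximalIdeal]
    exact ⟨ofNat_mem A 5, (IsLocalRing.mem_maximalIdeal _).2 hcon⟩
  have hH' : HK (⟨x, hx⟩ : A) ⟨y, hy⟩ ∈ IsLocalRing.maximalIdeal A := by
    obtain ⟨h, hm⟩ := (ValuationSubring.mem_nonunits_iff_exists_mem_maximalIdeal).1 hH
    have e : (⟨HK x y, h⟩ : A) = HK (⟨x, hx⟩ : A) ⟨y, hy⟩ :=
      Subtype.ext (by
        show HK x y = A.subtype (HK (⟨x, hx⟩ : A) ⟨y, hy⟩)
        rw [map_HK]
        rfl)
    rwa [e] at hm
  have hf' : fK (⟨x, hx⟩ : A) ⟨y, hy⟩ ∈ IsLocalRing.maximalIdeal A := by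
    obtain ⟨h, hm⟩ := (ValuationSubring.mem_nonunits_iff_exists_mem_maximalIdeal).1 hf
    have e : (⟨fK x y, h⟩ : A) = fK (⟨x, hx⟩ : A) ⟨y, hy⟩ :=
      Subtype.ext (by
        show fK x y = A.subtype (fK (⟨x, hx⟩ : A) ⟨y, hy⟩)
        rw [map_fK]
        rfl)
    rwa [e] at hm
  obtain ⟨ha, hb⟩ := mem_maximalIdeal_of_forms h5A _ _ hH' hf'
  exact ⟨(ValuationSubring.mem_nonunits_iff_exists_mem_maximalIdeal).2 ⟨hx, ha⟩,
    (ValuationSubring.mem_nonunits_iff_exists_mem_maximalIdeal).2 ⟨hy, hb⟩⟩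

/-- **(BEZ)**, the literal of the interface. -/
theorem bezout : Klein.Bezout := fun A h5 _ _ hx hy hH hf =>
  mem_nonunits_of_forms A h5 hx hy hH hf

end Fermat.Agent.S52K.Bezout28
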