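/-
S52K (3–5 switch), brick `Klein.Bezout` (helper78).

`HK` and `fK` have no common zero modulo a prime of residue characteristic `≠ 5`:
the explicit identity `3125 y³¹ = U · HK + V · fK` (and its mirror under `(x, y) ↦ (y, -x)`)
with integer coefficients, followed by a valuation argument.
-/
import Mathlib
import Fermat.Agent.S52K.Interfaces

set_option autoImplicit false

namespace Fermat.Agent.S52K.Bezout78

open Fermat.Agent.S52K Fermat.Agent.S52K.Klein

/-- The Bezout identity for `y`. -/
theorem bez_y {R : Type*} [CommRing R] (x y : R) :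
    3125 * y ^ 31 =
      (-3125 * y ^ 11 + 33022 * x ^ 5 * y ^ 6 + 3003 * x ^ 10 * y) * HK x y
        + (679478 * x ^ 4 * y ^ 15 + 1485989 * x ^ 9 * y ^ 10 - 684695 * x ^ 14 * y ^ 5
            + 3003 * x ^ 19) * fK x y := by
  simp only [HK, fK]; ring

/-- The Bezout identity for `x` (the mirror of `bez_y` under `(x, y) ↦ (y, -x)`). -/
theorem bez_x {R : Type*} [CommRing R] (x y : R) :
    3125 * (-x) ^ 31 =
      (-3125 * (-x) ^ 11 + 33022 * y ^ 5 * (-x) ^ 6 + 3003 * y ^ 10 * (-x)) * HK x y
        + (679478 * y ^ 4 * (-x) ^ 15 + 1485989 * y ^ 9 * (-x) ^ 10 - 684695 * y ^ 14 * (-x) ^ 5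
            + 3003 * y ^ 19) * fK x y := by
  have h := bez_y y (-x)
  rw [HK_S, fK_S] at h
  exact h

/-- An abstract form: in a commutative ring, if `HK x y` and `fK x y` lie in a prime ideal `P`
not containing `5`, then `x` and `y` lie in `P`. -/
theorem mem_of_HK_fK_mem {R : Type*} [CommRing R] (P : Ideal R) [P.IsPrime]
    (h5 : (5 : R) ∉ P) (x y : R) (hH : HK x y ∈ P) (hf : fK x y ∈ P) : x ∈ P ∧ y ∈ P := by
  have h3125 : (3125 : R) ∉ P := by
    have : (3125 : R) = 5 ^ 5 := by norm_num
    rw [this]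
    exact fun h => h5 (Ideal.IsPrime.mem_of_pow_mem inferInstance 5 h)
  have hy : y ∈ P := by
    have h1 : (3125 : R) * y ^ 31 ∈ P := by
      rw [bez_y x y]
      exact P.add_mem (P.mul_mem_left _ hH) (P.mul_mem_left _ hf)
    rcases Ideal.IsPrime.mem_or_mem inferInstance h1 with h | h
    · exact absurd h h3125
    · exact Ideal.IsPrime.mem_of_pow_mem inferInstance 31 h
  have hx : x ∈ P := by
    have h1 : (3125 : R) * (-x) ^ 31 ∈ P := by
      rw [bez_x x y]
      exact P.add_mem (P.mul_mem_left _ hH) (P.mul_mem_left _ hf)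
    rcases Ideal.IsPrime.mem_or_mem inferInstance h1 with h | h
    · exact absurd h h3125
    · have := Ideal.IsPrime.mem_of_pow_mem inferInstance 31 h
      simpa using this
  exact ⟨hx, hy⟩

/-- **(BEZ)** `HK` and `fK` have no common zero modulo a prime of residue characteristic `≠ 5`. -/
theorem bezout : Klein.Bezout := by
  intro A h5 x y hx hy hH hf
  set x' : A := ⟨x, hx⟩ with hx'
  set y' : A := ⟨y, hy⟩ with hy'
  have hHc : ((HK x' y' : A) : S58.Qb) = HK x y := by
    simp only [HK]; push_cast; rfl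
  have hfc : ((fK x' y' : A) : S58.Qb) = fK x y := by
    simp only [fK]; push_cast; rfl
  have hH' : HK x' y' ∈ IsLocalRing.maximalIdeal A := by
    rw [← ValuationSubring.coe_mem_nonunits_iff, hHc]; exact hH
  have hf' : fK x' y' ∈ IsLocalRing.maximalIdeal A := by
    rw [← ValuationSubring.coe_mem_nonunits_iff, hfc]; exact hf
  have h5' : (5 : A) ∉ IsLocalRing.maximalIdeal A := by
    rw [← ValuationSubring.coe_mem_nonunits_iff]
    have h55 : ((5 : A) : S58.Qb) = 5 := rfl
    rw [h55]; exact h5
  obtain ⟨h1, h2⟩ := mem_of_HK_fK_mem (IsLocalRing.maximalIdeal A) h5' x' y' hH' hf'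
  exact ⟨by simpa [hx'] using (ValuationSubring.coe_mem_nonunits_iff (A := A)).mpr h1,
    by simpa [hy'] using (ValuationSubring.coe_mem_nonunits_iff (A := A)).mpr h2⟩

end Fermat.Agent.S52K.Bezout78
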