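/-
S52K (3–5 switch, Klein route), route R (the third IRR half, helper30's plan) — brick (R4) `FamRoot`
(helper60).

Let `v` be a base vector for `(c₄, c₆)` and `σ` a Galois automorphism which is trivial on the
5-torsion of `Ws c₄ c₆` and on the 20th roots of unity and negates `√3`.  Then for every finite
set `S` of primes there are a prime `ℓ ∉ S` at which `3` is a non-residue and an integer `m₀` such
that every fibre `l v + m J∇fK(v)` with `(l, m) ≡ (1, m₀) (mod ℓ)` has `ℓ ∣ c₆'`.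

Proof.  `GalCompat` and `Rigid` give `σ v = η v` with `η⁵ = 1`.  For `ε² = -1` (fixed by `σ`) with
`fKy(v) + ε fKx(v) ≠ 0` the parameter `θ = (v₀ - ε v₁) / (fKy(v) + ε fKx(v))` is fixed by `σ`
(`fKx`, `fKy` have degree `11 ≡ 1 mod 5`), and `v + θ J∇fK(v)` is proportional to `(ε, 1)`, where
`TK` vanishes.  `PrimeNearInt` (with the primes of a denominator of `v` added to `S`) gives `ℓ`,
a place `A` over `ℓ` and an integer `m₀ ≡ θ` modulo the maximal ideal of `A`; `v` is integral at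
`A`, so `TK (l v + m J∇fK(v)) ≡ 0` modulo the maximal ideal, i.e. `ℓ ∣ c₆'`.
-/
import Mathlib
import Fermat.Agent.S52K.Interfaces
import Fermat.Agent.Lib.FrobeniusExists

set_option autoImplicit false

namespace Fermat.Agent.S52K.FamRoot60

open Fermat.Agent.S58 Fermat.Agent.S52K Fermat.Agent.S52K.Klein WeierstrassCurve
open scoped WeierstrassCurve.Affine

/-- **(R2)** (literal of helper30's plan): a `σ`-fixed number is congruent to an integer at some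
place over a prime `ℓ ∉ S` at which `3` is a non-residue, if `σ` negates `√3`. -/
def PrimeNearInt : Prop :=
  ∀ (θ : Qb) (σ : GQ), σ θ = θ → (∀ r : Qb, r ^ 2 = 3 → σ r = -r) → ∀ S : Finset ℕ,
    ∃ ℓ : ℕ, ℓ.Prime ∧ ℓ ∉ S ∧ ¬ IsSquare (3 : ZMod ℓ) ∧
      ∃ (A : ValuationSubring Qb) (s : ℤ), A.LiesOverPrime ℓ ∧ θ - (s : Qb) ∈ A.nonunits

/-- **(R4)** (literal of helper30's plan). -/
def FamRoot : Prop :=
  ∀ ζ : Qb, IsZ5 ζ → ∀ (c4 c6 : ℤ) (v : Fin 2 → Qb), c4 ^ 3 - c6 ^ 2 ≠ 0 → IsBase ζ c4 c6 v →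
    ∀ σ : GQ, (∀ P : EPt (Ws c4 c6), (5 : ℕ) • P = 0 → σ • P = P) →
      (∀ x : Qb, x ^ 20 = 1 → σ x = x) → (∀ r : Qb, r ^ 2 = 3 → σ r = -r) →
      ∀ S : Finset ℕ, ∃ ℓ : ℕ, ℓ.Prime ∧ ℓ ∉ S ∧ ¬ IsSquare (3 : ZMod ℓ) ∧
        ∃ m₀ : ℤ, ∀ l m c4' c6' : ℤ, (ℓ : ℤ) ∣ l - 1 → (ℓ : ℤ) ∣ m - m₀ →
          HK (vLM v l m 0) (vLM v l m 1) = -(c4' : Qb) →
          TK (vLM v l m 0) (vLM v l m 1) = -(c6' : Qb) → (ℓ : ℤ) ∣ c6'

/-! ### The forms commute with ring homomorphisms -/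

section Maps

variable {R S : Type*} [CommRing R] [CommRing S] {F : Type*} [FunLike F R S] [RingHomClass F R S]

theorem map_HK (φ : F) (x y : R) : φ (HK x y) = HK (φ x) (φ y) := by
  simp only [HK, map_sub, map_add, map_neg, map_mul, map_pow, map_ofNat]

theorem map_TK (φ : F) (x y : R) : φ (TK x y) = TK (φ x) (φ y) := by
  simp only [TK, map_sub, map_add, map_mul, map_pow, map_ofNat]

theorem map_fK (φ : F) (x y : R) : φ (fK x y) = fK (φ x) (φ y) := by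
  simp only [fK, map_sub, map_add, map_mul, map_pow, map_ofNat]

theorem map_fKx (φ : F) (x y : R) : φ (fKx x y) = fKx (φ x) (φ y) := by
  simp only [fKx, map_sub, map_add, map_mul, map_pow, map_ofNat]

theorem map_fKy (φ : F) (x y : R) : φ (fKy x y) = fKy (φ x) (φ y) := by
  simp only [fKy, map_sub, map_add, map_mul, map_pow, map_ofNat]

end Maps

/-- `TK` vanishes on the line through `(ε, 1)`, `ε² = -1`. -/
theorem TK_eps {R : Type*} [CommRing R] (ε b : R) (hε : ε ^ 2 = -1) : TK (ε * b) b = 0 := by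
  simp only [TK]
  linear_combination (b ^ 30 * (1 - ε ^ 2 + ε ^ 4 - 522 * ε ^ 5 - ε ^ 6 + 522 * ε ^ 7 + ε ^ 8
    - 522 * ε ^ 9 - 10006 * ε ^ 10 + 522 * ε ^ 11 + 10006 * ε ^ 12 - 522 * ε ^ 13
    - 10006 * ε ^ 14 + 522 * ε ^ 15 + 10006 * ε ^ 16 - 522 * ε ^ 17 - 10006 * ε ^ 18
    + 522 * ε ^ 19 + ε ^ 20 - 522 * ε ^ 21 - ε ^ 22 + 522 * ε ^ 23 + ε ^ 24 - ε ^ 26
    + ε ^ 28)) * hε

/-- Congruent arguments in a valuation subring give congruent values of `TK`. -/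
theorem TK_mem_nonunits (A : ValuationSubring Qb) {a b a₀ b₀ : Qb} (ha₀ : a₀ ∈ A) (hb₀ : b₀ ∈ A)
    (ha : a - a₀ ∈ A.nonunits) (hb : b - b₀ ∈ A.nonunits) (h0 : TK a₀ b₀ = 0) :
    TK a b ∈ A.nonunits := by
  obtain ⟨hda, hda'⟩ := ValuationSubring.mem_nonunits_iff_exists_mem_maximalIdeal.mp ha
  obtain ⟨hdb, hdb'⟩ := ValuationSubring.mem_nonunits_iff_exists_mem_maximalIdeal.mp hb
  have haA : a ∈ A := by
    have := A.add_mem _ _ hda ha₀
    rwa [sub_add_cancel] at this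
  have hbA : b ∈ A := by
    have := A.add_mem _ _ hdb hb₀
    rwa [sub_add_cancel] at this
  set α : A := ⟨a, haA⟩
  set β : A := ⟨b, hbA⟩
  set α₀ : A := ⟨a₀, ha₀⟩
  set β₀ : A := ⟨b₀, hb₀⟩
  set π := Ideal.Quotient.mk (IsLocalRing.maximalIdeal A)
  have e1 : π α = π α₀ := by
    rw [Ideal.Quotient.eq]
    exact hda'
  have e2 : π β = π β₀ := by
    rw [Ideal.Quotient.eq]
    exact hdb'
  have e3 : (TK α₀ β₀ : A) = 0 := by
    apply Subtype.ext
    have := map_TK A.subtype α₀ β₀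
    simpa [α₀, β₀, h0] using this
  have e4 : π (TK α β) = 0 := by
    rw [map_TK, e1, e2, ← map_TK, e3, map_zero]
  rw [Ideal.Quotient.eq_zero_iff_mem] at e4
  have e5 : ((TK α β : A) : Qb) = TK a b := by
    have := map_TK A.subtype α β
    simpa [α, β] using this
  rw [← e5]
  exact ValuationSubring.mem_nonunits_iff_exists_mem_maximalIdeal.mpr ⟨(TK α β).2, e4⟩

/-- Integers in the maximal ideal of a place over `ℓ` are divisible by `ℓ`. -/
theorem dvd_of_intCast_mem_nonunits (A : ValuationSubring Qb) {ℓ : ℕ} (hℓ : ℓ.Prime)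
    (hA : A.LiesOverPrime ℓ) {n : ℤ} (hn : (n : Qb) ∈ A.nonunits) : (ℓ : ℤ) ∣ n := by
  by_contra hdvd
  have hvl : A.valuation (ℓ : Qb) < 1 := (A.mem_nonunits_iff).mp hA
  have h1 := Fermat.Agent.Lib.FrobeniusExists.val_intCast_eq_one A.valuation hℓ hvl hdvd
  have h2 : A.valuation (n : Qb) < 1 := (A.mem_nonunits_iff).mp hn
  rw [h1] at h2
  exact lt_irrefl _ h2

/-- A common denominator: a nonzero integer `D` with `D x` integral. -/
theorem exists_den (z : Qb) : ∃ y : ℤ, y ≠ 0 ∧ _root_.IsIntegral ℤ (y • z) := by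
  have h : IsAlgebraic ℤ z :=
    ((IsFractionRing.comap_isAlgebraic_iff (A := ℤ) (K := ℚ) (C := Qb)).mpr
      (AlgebraicClosure.isAlgebraic ℚ)).isAlgebraic z
  exact h.exists_integral_multiple

/-- A number with a denominator prime to `ℓ` is integral at every place over `ℓ`. -/
theorem mem_of_den (A : ValuationSubring Qb) {ℓ : ℕ} (hℓ : ℓ.Prime) (hA : A.LiesOverPrime ℓ)
    {z : Qb} {y : ℤ} (hy : ¬ (ℓ : ℤ) ∣ y) (hint : _root_.IsIntegral ℤ (y • z)) : z ∈ A := by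
  have hvl : A.valuation (ℓ : Qb) < 1 := (A.mem_nonunits_iff).mp hA
  have h1 := Fermat.Agent.Lib.FrobeniusExists.val_intCast_eq_one A.valuation hℓ hvl hy
  have h2 := Fermat.Agent.Lib.FrobeniusExists.val_le_one_of_isIntegral A.valuation hint
  rw [zsmul_eq_mul, map_mul, h1, one_mul] at h2
  exact (A.valuation_le_one_iff z).mp h2

/-- **(R4)** `FamRoot`. -/
theorem famRoot (hSpec : Klein.PKSpec) (hGen : Klein.RelGen) (hRig : Klein.Rigid)
    (hGal : Klein.GalCompat) (hPNI : PrimeNearInt) : FamRoot := by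
  intro ζ hζ c4 c6 v hΔ hbase σ hσ5 hσ20 hσ3 S
  obtain ⟨hH, hT, -⟩ := hbase
  -- `fK v ≠ 0`
  have hf : fK (v 0) (v 1) ≠ 0 := by
    intro hf0
    have hs := syzygy (v 0) (v 1)
    rw [hH, hT, hf0] at hs
    apply hΔ
    have : ((c4 ^ 3 - c6 ^ 2 : ℤ) : Qb) = 0 := by
      push_cast
      linear_combination -hs
    exact_mod_cast this
  set E₀ : WeierstrassCurve ℚ := EQ (Ws c4 c6) with hE₀
  have hKl : IsKl (E₀.toAffine⁄Qb) v := by
    refine ⟨?_, ?_, ?_, ?_, ?_, hf⟩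
    · simp [hE₀, Ws, EQ, WeierstrassCurve.baseChange]
    · simp [hE₀, Ws, EQ, WeierstrassCurve.baseChange]
    · simp [hE₀, Ws, EQ, WeierstrassCurve.baseChange]
    · rw [hH]; simp [hE₀, Ws, EQ, WeierstrassCurve.baseChange]
    · rw [hT]; simp [hE₀, Ws, EQ, WeierstrassCurve.baseChange]
  -- the conjugate vector
  set v' : Fin 2 → Qb := fun i => σ (v i) with hv'
  have hH' : HK (v' 0) (v' 1) = -(c4 : Qb) := by
    rw [hv', ← map_HK σ, hH, map_neg, map_intCast]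
  have hT' : TK (v' 0) (v' 1) = -(c6 : Qb) := by
    rw [hv', ← map_TK σ, hT, map_neg, map_intCast]
  have hf' : fK (v' 0) (v' 1) ≠ 0 := by
    rw [hv', ← map_fK σ]
    exact fun h => hf ((map_eq_zero_iff σ σ.injective).mp h)
  have hKl' : IsKl (E₀.toAffine⁄Qb) v' := by
    refine ⟨hKl.1, hKl.2.1, hKl.2.2.1, ?_, ?_, hf'⟩
    · rw [hH', ← hH]; exact hKl.2.2.2.1
    · rw [hT', ← hT]; exact hKl.2.2.2.2.1
  -- `Ũ v` is on the cone as well
  have hU := (hGen ζ hζ).2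
  obtain ⟨hUf, hUH, hUT, -⟩ := hU.2.1 v
  have hKlU : IsKl (E₀.toAffine⁄Qb) ((Um ζ).mulVec v) := by
    refine ⟨hKl.1, hKl.2.1, hKl.2.2.1, ?_, ?_, ?_⟩
    · rw [hUH]; exact hKl.2.2.2.1
    · rw [hUT]; exact hKl.2.2.2.2.1
    · rw [hUf]; exact hf
  -- `σ` fixes the level structure
  have hζ5 : ζ ^ 5 = 1 := by
    have hζ' : ζ ^ 4 + ζ ^ 3 + ζ ^ 2 + ζ + 1 = 0 := hζ
    linear_combination (ζ - 1) * hζ'
  have hσζ : σ ζ = ζ ^ 1 := by
    rw [pow_one]
    apply hσ20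
    have : ζ ^ 20 = (ζ ^ 5) ^ 4 := by ring
    rw [this, hζ5, one_pow]
  obtain ⟨hP, hQ⟩ := hGal ζ hζ E₀ v hKl σ
  have hQ1 := hQ 1 hσζ
  rw [one_smul] at hQ1
  have h5P : (5 : ℕ) • PK (E₀.toAffine⁄Qb) v = 0 := (hSpec _ v hKl).2.1
  have h5Q : (5 : ℕ) • QK ζ (E₀.toAffine⁄Qb) v = 0 := (hSpec _ _ hKlU).2.1
  have hPfix : PK (E₀.toAffine⁄Qb) v' = PK (E₀.toAffine⁄Qb) v := by
    rw [← hP]; exact hσ5 _ h5P
  have hQfix : QK ζ (E₀.toAffine⁄Qb) v' = QK ζ (E₀.toAffine⁄Qb) v := by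
    rw [← hQ1]; exact hσ5 _ h5Q
  obtain ⟨η, hη5, hη⟩ := hRig ζ hζ (E₀.toAffine⁄Qb) v v' hKl hKl' hPfix hQfix
  have hη0 : η ≠ 0 := by
    rintro rfl
    norm_num at hη5
  have hσv0 : σ (v 0) = η * v 0 := by
    have := congrFun hη 0
    simpa [hv'] using this
  have hσv1 : σ (v 1) = η * v 1 := by
    have := congrFun hη 1
    simpa [hv'] using this
  have hη11 : η ^ 11 = η := by
    have : η ^ 11 = (η ^ 5) ^ 2 * η := by ring
    rw [this, hη5]; ring
  have hσx : σ (fKx (v 0) (v 1)) = η * fKx (v 0) (v 1) := by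
    rw [map_fKx, hσv0, hσv1, fKx_smul, hη11]
  have hσy : σ (fKy (v 0) (v 1)) = η * fKy (v 0) (v 1) := by
    rw [map_fKy, hσv0, hσv1, fKy_smul, hη11]
  -- the square root of `-1`
  obtain ⟨ε, hε2, hden⟩ : ∃ ε : Qb, ε ^ 2 = -1 ∧ fKy (v 0) (v 1) + ε * fKx (v 0) (v 1) ≠ 0 := by
    obtain ⟨ε, hε⟩ := IsAlgClosed.exists_pow_nat_eq (-1 : Qb) (n := 2) (by norm_num)
    by_cases h1 : fKy (v 0) (v 1) + ε * fKx (v 0) (v 1) = 0
    · refine ⟨-ε, by rw [neg_pow, hε]; norm_num, ?_⟩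
      intro h2
      have hε0 : ε ≠ 0 := by
        rintro rfl
        norm_num at hε
      have hx : fKx (v 0) (v 1) = 0 := by
        have : (2 * ε) * fKx (v 0) (v 1) = 0 := by linear_combination h1 - h2
        rcases mul_eq_zero.mp this with h | h
        · exact absurd h (mul_ne_zero two_ne_zero hε0)
        · exact h
      have hy : fKy (v 0) (v 1) = 0 := by
        rw [hx] at h1
        simpa using h1
      have he := euler (v 0) (v 1)
      rw [hx, hy] at he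
      apply hf
      have : (12 : Qb) * fK (v 0) (v 1) = 0 := by linear_combination -he
      rcases mul_eq_zero.mp this with h | h
      · norm_num at h
      · exact h
    · exact ⟨ε, hε, h1⟩
  have hσε : σ ε = ε := by
    apply hσ20
    have : ε ^ 20 = (ε ^ 2) ^ 10 := by ring
    rw [this, hε2]; norm_num
  set θ : Qb := (v 0 - ε * v 1) / (fKy (v 0) (v 1) + ε * fKx (v 0) (v 1)) with hθ
  have hσθ : σ θ = θ := by
    rw [hθ, map_div₀, map_sub, map_add, map_mul, map_mul, hσε, hσv0, hσv1, hσx, hσy]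
    field_simp
  -- the base point of the line: `v + θ J∇fK(v) = b₀ (ε, 1)`
  set a₀ : Qb := v 0 - θ * fKy (v 0) (v 1) with ha₀
  set b₀ : Qb := v 1 + θ * fKx (v 0) (v 1) with hb₀
  have hab : a₀ = ε * b₀ := by
    have h1 : θ * (fKy (v 0) (v 1) + ε * fKx (v 0) (v 1)) = v 0 - ε * v 1 := by
      rw [hθ]; field_simp
    rw [ha₀, hb₀]
    linear_combination -h1
  have hTK0 : TK a₀ b₀ = 0 := by
    rw [hab]; exact TK_eps ε b₀ hε2
  -- denominators of `v`
  obtain ⟨D0, hD0, hint0⟩ := exists_den (v 0)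
  obtain ⟨D1, hD1, hint1⟩ := exists_den (v 1)
  obtain ⟨ℓ, hℓ, hℓS, h3, A, s, hA, hs⟩ :=
    hPNI θ σ hσθ hσ3 (S ∪ D0.natAbs.primeFactors ∪ D1.natAbs.primeFactors)
  have hℓS' : ℓ ∉ S := fun h => hℓS (by simp [h])
  have hℓD0 : ¬ (ℓ : ℤ) ∣ D0 := by
    intro h
    apply hℓS
    have : ℓ ∈ D0.natAbs.primeFactors := by
      rw [Nat.mem_primeFactors]
      exact ⟨hℓ, Int.natCast_dvd.mp h, Int.natAbs_ne_zero.mpr hD0⟩
    simp [this]
  have hℓD1 : ¬ (ℓ : ℤ) ∣ D1 := by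
    intro h
    apply hℓS
    have : ℓ ∈ D1.natAbs.primeFactors := by
      rw [Nat.mem_primeFactors]
      exact ⟨hℓ, Int.natCast_dvd.mp h, Int.natAbs_ne_zero.mpr hD1⟩
    simp [this]
  have hv0A : v 0 ∈ A := mem_of_den A hℓ hA hℓD0 hint0
  have hv1A : v 1 ∈ A := mem_of_den A hℓ hA hℓD1 hint1
  have hintA : ∀ n : ℤ, (n : Qb) ∈ A := fun n => intCast_mem A n
  have hxA : fKx (v 0) (v 1) ∈ A := by
    have := map_fKx A.subtype ⟨v 0, hv0A⟩ ⟨v 1, hv1A⟩
    simp only [ValuationSubring.subtype_apply] at this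
    rw [← this]; exact (fKx (⟨v 0, hv0A⟩ : A) ⟨v 1, hv1A⟩).2
  have hyA : fKy (v 0) (v 1) ∈ A := by
    have := map_fKy A.subtype ⟨v 0, hv0A⟩ ⟨v 1, hv1A⟩
    simp only [ValuationSubring.subtype_apply] at this
    rw [← this]; exact (fKy (⟨v 0, hv0A⟩ : A) ⟨v 1, hv1A⟩).2
  have hsub : ∀ x : Qb, x ∈ A.nonunits → x ∈ A := fun x hx =>
    (ValuationSubring.mem_nonunits_iff_exists_mem_maximalIdeal.mp hx).1
  have hθA : θ ∈ A := by
    have := A.add_mem _ _ (hsub _ hs) (hintA s)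
    rwa [sub_add_cancel] at this
  have ha₀A : a₀ ∈ A := sub_mem hv0A (A.mul_mem _ _ hθA hyA)
  have hb₀A : b₀ ∈ A := A.add_mem _ _ hv1A (A.mul_mem _ _ hθA hxA)
  -- multiples of `ℓ` and products with integral elements lie in the maximal ideal
  have hmul : ∀ x y : Qb, x ∈ A.nonunits → y ∈ A → x * y ∈ A.nonunits := by
    intro x y hx hy
    rw [A.mem_nonunits_iff] at hx ⊢
    rw [map_mul]
    have hy' := (A.valuation_le_one_iff y).mpr hy
    calc A.valuation x * A.valuation y ≤ A.valuation x * 1 := by gcongr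
      _ = A.valuation x := mul_one _
      _ < 1 := hx
  have hadd : ∀ x y : Qb, x ∈ A.nonunits → y ∈ A.nonunits → x - y ∈ A.nonunits := by
    intro x y hx hy
    rw [A.mem_nonunits_iff] at hx hy ⊢
    exact lt_of_le_of_lt (Valuation.map_sub _ _ _) (max_lt hx hy)
  have hadd' : ∀ x y : Qb, x ∈ A.nonunits → y ∈ A.nonunits → x + y ∈ A.nonunits := by
    intro x y hx hy
    rw [A.mem_nonunits_iff] at hx hy ⊢
    exact lt_of_le_of_lt (Valuation.map_add _ _ _) (max_lt hx hy)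
  have hℓmem : ∀ n : ℤ, (ℓ : ℤ) ∣ n → (n : Qb) ∈ A.nonunits := by
    rintro n ⟨k, rfl⟩
    push_cast
    exact hmul _ _ hA (hintA k)
  refine ⟨ℓ, hℓ, hℓS', h3, s, ?_⟩
  intro l m c4' c6' hl hm _ hT'
  apply dvd_of_intCast_mem_nonunits A hℓ hA
  have hl' : ((l : Qb) - 1) ∈ A.nonunits := by
    have := hℓmem _ hl
    push_cast at this
    exact this
  have hm' : ((m : Qb) - θ) ∈ A.nonunits := by
    have h1 := hℓmem _ hm
    push_cast at h1
    have h2 := hadd _ _ h1 hs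
    have : (m : Qb) - s - (θ - s) = m - θ := by ring
    rwa [this] at h2
  have hda : vLM v l m 0 - a₀ ∈ A.nonunits := by
    have e : vLM v l m 0 - a₀ = ((l : Qb) - 1) * v 0 - ((m : Qb) - θ) * fKy (v 0) (v 1) := by
      simp [vLM, ha₀]; ring
    rw [e]
    exact hadd _ _ (hmul _ _ hl' hv0A) (hmul _ _ hm' hyA)
  have hdb : vLM v l m 1 - b₀ ∈ A.nonunits := by
    have e : vLM v l m 1 - b₀ = ((l : Qb) - 1) * v 1 + ((m : Qb) - θ) * fKx (v 0) (v 1) := by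
      simp [vLM, hb₀]; ring
    rw [e]
    exact hadd' _ _ (hmul _ _ hl' hv1A) (hmul _ _ hm' hxA)
  have key := TK_mem_nonunits A ha₀A hb₀A hda hdb hTK0
  rw [hT'] at key
  have : ((c6' : ℤ) : Qb) = -(-(c6' : Qb)) := by ring
  rw [this]
  rw [A.mem_nonunits_iff] at key ⊢
  rwa [Valuation.map_neg]

end Fermat.Agent.S52K.FamRoot60
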