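/-
S52K (3–5 switch) — interface of the `c₆`-root route for the mod-3 irreducibility (helper30).

`TK(i, 1) = 0`: the fibre of the Klein family over the point of the plane proportional to `(i, 1)`
has `c₆ = 0`.  A semistable model with `ℓ ∣ c₆`, `ℓ ∤ Δ` and `3` a non-square mod `ℓ` has an
irreducible mod-3 representation.  The prime `ℓ` comes from the Frobenius density theorem applied
to an element of the absolute Galois group that fixes the parameter of that fibre and moves `√3`.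
Nothing is proved here.
-/
import Mathlib
import Fermat.Agent.S52K.Interfaces

set_option autoImplicit false

namespace Fermat.Agent.S52K.R30

open Fermat.Agent.S58 WeierstrassCurve Fermat.Agent.S52K Fermat.Agent.S52K.Klein
open scoped WeierstrassCurve.Affine

/-- **(R1)** `ℓ ∣ c₆`, `ℓ ∤ Δ`, `3` not a square mod `ℓ ≥ 5`: the mod-3 representation is
irreducible. -/
def Irr3C6 : Prop :=
  ∀ W : WeierstrassCurve ℤ, W.Δ ≠ 0 → ∀ ℓ : ℕ, ℓ.Prime → 5 ≤ ℓ → (ℓ : ℤ) ∣ W.c₆ →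
    ¬ (ℓ : ℤ) ∣ W.Δ → ¬ IsSquare (3 : ZMod ℓ) → W.ModRepIsIrreducible 3

/-- **(R2)** an algebraic number fixed by a Galois element that negates `√3` is congruent to a
rational integer modulo a prime over some `ℓ ∉ S` at which `3` is not a square. -/
def PrimeNearInt : Prop :=
  ∀ (θ : Qb) (σ : GQ), σ θ = θ → (∀ r : Qb, r ^ 2 = 3 → σ r = -r) → ∀ S : Finset ℕ,
    ∃ ℓ : ℕ, ℓ.Prime ∧ ℓ ∉ S ∧ ¬ IsSquare (3 : ZMod ℓ) ∧
      ∃ (A : ValuationSubring Qb) (s : ℤ), A.LiesOverPrime ℓ ∧ θ - (s : Qb) ∈ A.nonunits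

/-- **(R3)** a Galois element trivial on `W[5]` and on `μ₂₀` which negates `√3`. -/
def SigmaExists : Prop :=
  ∀ W : WeierstrassCurve ℤ, W.Δ ≠ 0 → W.IsSemistableModel →
    ∃ σ : GQ, (∀ P : EPt W, (5 : ℕ) • P = 0 → σ • P = P) ∧ (∀ x : Qb, x ^ 20 = 1 → σ x = x) ∧
      ∀ r : Qb, r ^ 2 = 3 → σ r = -r

/-- **(R4)** some residue class of the family modulo a prime `ℓ ∉ S` with `3` a non-square has
`ℓ ∣ c₆`. -/
def FamRoot : Prop :=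
  ∀ ζ : Qb, IsZ5 ζ → ∀ (c4 c6 : ℤ) (v : Fin 2 → Qb), c4 ^ 3 - c6 ^ 2 ≠ 0 → IsBase ζ c4 c6 v →
    ∀ σ : GQ, (∀ P : EPt (Ws c4 c6), (5 : ℕ) • P = 0 → σ • P = P) →
      (∀ x : Qb, x ^ 20 = 1 → σ x = x) → (∀ r : Qb, r ^ 2 = 3 → σ r = -r) →
      ∀ S : Finset ℕ, ∃ ℓ : ℕ, ℓ.Prime ∧ ℓ ∉ S ∧ ¬ IsSquare (3 : ZMod ℓ) ∧ ∃ m₀ : ℤ,
        ∀ l m c4' c6' : ℤ, (ℓ : ℤ) ∣ l - 1 → (ℓ : ℤ) ∣ m - m₀ →
          HK (vLM v l m 0) (vLM v l m 1) = -(c4' : Qb) →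
          TK (vLM v l m 0) (vLM v l m 1) = -(c6' : Qb) → (ℓ : ℤ) ∣ c6'

/-- **(FAM-R)** the family through `W`, with the `c₆`-root clause. -/
def FamilyExistsR : Prop :=
  ∀ W : WeierstrassCurve ℤ, W.Δ ≠ 0 → W.IsSemistableModel →
    ∃ (n : ℕ) (Wf : ℤ → ℤ → WeierstrassCurve ℤ), 0 < n ∧ (30 * W.Δ.natAbs) ∣ n ∧
      (∀ l m : ℤ, IsCoprime l m → (n : ℤ) ∣ l - 1 → (n : ℤ) ∣ m →
        (Wf l m).Δ ≠ 0 ∧ (Wf l m).IsSemistableModel ∧ Cong5 W (Wf l m)) ∧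
      (∀ S : Finset ℕ, ∃ ℓ : ℕ, ℓ.Prime ∧ ℓ ∉ S ∧ ¬ IsSquare (3 : ZMod ℓ) ∧ ∃ m₀ : ℤ,
        ∀ l m : ℤ, IsCoprime l m → (n : ℤ) ∣ l - 1 → (n : ℤ) ∣ m →
          (ℓ : ℤ) ∣ l - 1 → (ℓ : ℤ) ∣ m - m₀ → (ℓ : ℤ) ∣ (Wf l m).c₆)

/-- **The family seam, root form.** -/
def FamSeamR : Prop :=
  BaseExists → KleinCong5 → FamInt → FamSS → FamRoot → SigmaExists → ShortCong → ModelExists →
    FamilyExistsR

/-- **The top seam, root form**: no case distinction on `W[3]`, and `h5` is not used. -/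
def TopSeamR : Prop :=
  FamilyExistsR → Cong5Ap → Irr3C6 →
    ∀ (W : WeierstrassCurve ℤ), W.Δ ≠ 0 → W.IsSemistableModel → W.ModRepIsIrreducible 5 →
      ∃ W' : WeierstrassCurve ℤ, W'.Δ ≠ 0 ∧ W'.IsSemistableModel ∧ W'.ModRepIsIrreducible 3 ∧
        ∀ ℓ : ℕ, ℓ.Prime → W.IsGoodPrimeFor ℓ → W'.IsGoodPrimeFor ℓ → ℓ ≠ 5 →
          (5 : ℤ) ∣ (W'.apOfModel ℓ - W.apOfModel ℓ)

end Fermat.Agent.S52K.R30
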