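/-
S52K (3–5 switch, Klein route), route R — brick (R4) `FamRoot`, stated against helper30's interface
`S52K/InterfacesR30.lean` (helper60).  The proof is in `S52K/FamRoot60.lean`.
-/
import Mathlib
import Fermat.Agent.S52K.InterfacesR30
import Fermat.Agent.S52K.FamRoot60

set_option autoImplicit false

namespace Fermat.Agent.S52K.FamRootR60

/-- **(R4)** `FamRoot` of route R, from the level-structure bricks of (K) and `PrimeNearInt`. -/
theorem famRoot (hSpec : Fermat.Agent.S52K.Klein.PKSpec) (hGen : Fermat.Agent.S52K.Klein.RelGen)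
    (hRig : Fermat.Agent.S52K.Klein.Rigid) (hGal : Fermat.Agent.S52K.Klein.GalCompat)
    (hPNI : Fermat.Agent.S52K.R30.PrimeNearInt) : Fermat.Agent.S52K.R30.FamRoot :=
  Fermat.Agent.S52K.FamRoot60.famRoot hSpec hGen hRig hGal hPNI

end Fermat.Agent.S52K.FamRootR60
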