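/-
S52K (3–5 switch, Klein route), brick `FamSS` (helper28): semistability of the fibres of the
family outside `30 Δ`.

For a vector `v₀ = (x, y)` over `ℚ̄` on the cone `HK = -c₄`, `TK = -c₆`, integers `l, m` with
`gcd(l, m) = 1` and the family vector `v = l v₀ + m J∇fK(v₀)` with `HK v = -c₄'`, `TK v = -c₆'`:
a prime `p ∤ 30 (c₄³ - c₆²)` dividing `c₄'³ - c₆'²` does not divide `c₄'`.

Proof, at a valuation subring `A` of `ℚ̄` over `p` (`Lib.FrobeniusExists.exists_liesOverPrime`):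
* `fK(v₀)` is a unit of `A` (`1728 fK⁵ = c₆² - c₄³`);
* `v₀` is `A`-integral: otherwise rescale by the larger coordinate and apply Bezout
  (`Bezout28.mem_nonunits_of_forms`);
* if `p ∣ c₄'`, then `HK v`, `fK v ∈ 𝔪`, so `v ∈ 𝔪²` (Bezout), and Cramer's rule with
  `det(v₀, J∇fK(v₀)) = 12 fK(v₀)` (Euler, `Klein.euler`) gives `l, m ∈ 𝔪 ∩ ℤ = pℤ`.
-/
import Mathlib
import Fermat.Agent.S52K.Interfaces
import Fermat.Agent.S52K.Bezout28
import Fermat.Agent.Lib.FrobeniusExists

set_option autoImplicit false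

namespace Fermat.Agent.S52K.FamSS28

open Fermat.Agent.S52K Fermat.Agent.S52K.Klein Fermat.Agent.S58

/-! ### Polynomial identities -/

section Identities

variable {R : Type*} [CommRing R]

theorem HK_smul (t x y : R) : HK (t * x) (t * y) = t ^ 20 * HK x y := by
  simp only [HK]; ring

theorem fK_smul (t x y : R) : fK (t * x) (t * y) = t ^ 12 * fK x y := by
  simp only [fK]; ring

/-- Cramer's rule for `l`: `det(v, J∇fK(v₀)) = 12 l fK(v₀)`. -/
theorem cramer_l (l m x y : R) :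
    (l * x - m * fKy x y) * fKx x y + (l * y + m * fKx x y) * fKy x y = 12 * l * fK x y := by
  linear_combination l * Klein.euler x y

/-- Cramer's rule for `m`: `det(v₀, v) = 12 m fK(v₀)`. -/
theorem cramer_m (l m x y : R) :
    (l * y + m * fKx x y) * x - (l * x - m * fKy x y) * y = 12 * m * fK x y := by
  linear_combination m * Klein.euler x y

end Identities

/-! ### Valuations of integers -/

section Val

variable (A : ValuationSubring Qb)

theorem val_int_le_one (n : ℤ) : A.valuation (n : Qb) ≤ 1 :=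
  (A.valuation_le_one_iff _).2 (intCast_mem A n)

theorem val_int_eq_one {p : ℕ} (hp : p.Prime) (hA : A.LiesOverPrime p) {n : ℤ}
    (hn : ¬ (p : ℤ) ∣ n) : A.valuation (n : Qb) = 1 :=
  Fermat.Agent.Lib.FrobeniusExists.val_intCast_eq_one A.valuation hp
    ((ValuationSubring.mem_nonunits_iff A).1 hA) hn

theorem val_int_lt_one {p : ℕ} (hA : A.LiesOverPrime p) {n : ℤ}
    (hn : (p : ℤ) ∣ n) : A.valuation (n : Qb) < 1 := by
  obtain ⟨k, rfl⟩ := hn
  have hvp : A.valuation (p : Qb) < 1 := (ValuationSubring.mem_nonunits_iff A).1 hA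
  rw [Int.cast_mul, Int.cast_natCast, map_mul]
  exact mul_lt_one_of_lt_of_le hvp (val_int_le_one A k)

/-- An integer of valuation `< 1` at a valuation subring over `p` is divisible by `p`. -/
theorem dvd_of_val_lt_one {p : ℕ} (hp : p.Prime) (hA : A.LiesOverPrime p) {n : ℤ}
    (hn : A.valuation (n : Qb) < 1) : (p : ℤ) ∣ n := by
  by_contra hcon
  rw [val_int_eq_one A hp hA hcon] at hn
  exact lt_irrefl _ hn

end Val

/-- In a linearly ordered group with zero, `a ^ n = 1` (`n ≠ 0`) forces `a = 1`. -/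
theorem eq_one_of_pow_eq_one {Γ : Type*} [LinearOrderedCommGroupWithZero Γ] {a : Γ} {n : ℕ}
    (hn : n ≠ 0) (h : a ^ n = 1) : a = 1 := by
  rcases lt_trichotomy a 1 with h1 | h1 | h1
  · exact absurd h (ne_of_lt (pow_lt_one₀ zero_le h1 hn))
  · exact h1
  · exact absurd h (ne_of_gt (one_lt_pow₀ h1 hn))

/-- In a linearly ordered group with zero, `a ^ n < 1` forces `a < 1`. -/
theorem lt_one_of_pow_lt_one {Γ : Type*} [LinearOrderedCommGroupWithZero Γ] {a : Γ} {n : ℕ}
    (h : a ^ n < 1) : a < 1 := by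
  by_contra hcon
  push Not at hcon
  exact absurd h (not_lt.2 (one_le_pow₀ hcon))

/-! ### The core statement -/

/-- **Semistability of the fibres**, in coordinates. -/
theorem famSS_core {p : ℕ} (hp : p.Prime) (c4 c6 : ℤ) (x y : Qb)
    (hH : HK x y = -(c4 : Qb)) (hT : TK x y = -(c6 : Qb))
    (hp30 : ¬ (p : ℤ) ∣ 30 * (c4 ^ 3 - c6 ^ 2))
    (l m c4' c6' : ℤ) (hlm : IsCoprime l m)
    (hH' : HK ((l : Qb) * x - (m : Qb) * fKy x y) ((l : Qb) * y + (m : Qb) * fKx x y)
      = -(c4' : Qb))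
    (hT' : TK ((l : Qb) * x - (m : Qb) * fKy x y) ((l : Qb) * y + (m : Qb) * fKx x y)
      = -(c6' : Qb))
    (hdisc : (p : ℤ) ∣ c4' ^ 3 - c6' ^ 2) : ¬ (p : ℤ) ∣ c4' := by
  intro hc4'
  obtain ⟨A, hA⟩ := Fermat.Agent.Lib.FrobeniusExists.exists_liesOverPrime hp
  have hpp : Prime (p : ℤ) := Nat.prime_iff_prime_int.mp hp
  -- the small primes and the discriminant are units at `p`
  have hp30' : ¬ (p : ℤ) ∣ 30 := fun h => hp30 (Dvd.dvd.mul_right h _)
  have hpΔ : ¬ (p : ℤ) ∣ c4 ^ 3 - c6 ^ 2 := fun h => hp30 (Dvd.dvd.mul_left h _)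
  have h2 : ¬ (p : ℤ) ∣ 2 := fun h => hp30' (h.trans ⟨15, by norm_num⟩)
  have h3 : ¬ (p : ℤ) ∣ 3 := fun h => hp30' (h.trans ⟨10, by norm_num⟩)
  have h5 : ¬ (p : ℤ) ∣ 5 := fun h => hp30' (h.trans ⟨6, by norm_num⟩)
  have h1728 : ¬ (p : ℤ) ∣ 1728 := by
    intro h
    have e : (1728 : ℤ) = 2 ^ 6 * 3 ^ 3 := by norm_num
    rw [e] at h
    rcases hpp.dvd_or_dvd h with h | h
    · exact h2 (hpp.dvd_of_dvd_pow h)
    · exact h3 (hpp.dvd_of_dvd_pow h)
  have h12 : ¬ (p : ℤ) ∣ 12 := by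
    intro h
    have e : (12 : ℤ) = 2 ^ 2 * 3 := by norm_num
    rw [e] at h
    rcases hpp.dvd_or_dvd h with h | h
    · exact h2 (hpp.dvd_of_dvd_pow h)
    · exact h3 h
  have v1728 : A.valuation (1728 : Qb) = 1 := by
    have h := val_int_eq_one A hp hA h1728
    rwa [Int.cast_ofNat] at h
  have v12 : A.valuation (12 : Qb) = 1 := by
    have h := val_int_eq_one A hp hA h12
    rwa [Int.cast_ofNat] at h
  have v5 : A.valuation (5 : Qb) = 1 := by
    have h := val_int_eq_one A hp hA h5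
    rwa [Int.cast_ofNat] at h
  have h5A : (5 : Qb) ∉ A.nonunits := by
    rw [ValuationSubring.mem_nonunits_iff, v5]
    exact lt_irrefl _
  -- `fK(v₀)` is a unit
  have hvf : A.valuation (fK x y) = 1 := by
    have hsyz := syzygy x y
    rw [hH, hT] at hsyz
    have e : (1728 : Qb) * fK x y ^ 5 = -(((c4 ^ 3 - c6 ^ 2 : ℤ)) : Qb) := by
      rw [← hsyz]; push_cast; ring
    have h1 : A.valuation ((1728 : Qb) * fK x y ^ 5) = 1 := by
      rw [e, Valuation.map_neg, val_int_eq_one A hp hA hpΔ]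
    rw [map_mul, v1728, one_mul, map_pow] at h1
    exact eq_one_of_pow_eq_one (by norm_num) h1
  -- `v₀` is integral
  have hxy : A.valuation x ≤ 1 ∧ A.valuation y ≤ 1 := by
    by_contra hcon
    obtain ⟨t, ht1, htx, hty, htt⟩ : ∃ t : Qb, 1 < A.valuation t ∧
        A.valuation x ≤ A.valuation t ∧ A.valuation y ≤ A.valuation t ∧ (t = x ∨ t = y) := by
      rcases le_total (A.valuation x) (A.valuation y) with h | h
      · refine ⟨y, ?_, h, le_rfl, Or.inr rfl⟩
        by_contra h1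
        push Not at h1
        exact hcon ⟨h.trans h1, h1⟩
      · refine ⟨x, ?_, le_rfl, h, Or.inl rfl⟩
        by_contra h1
        push Not at h1
        exact hcon ⟨h1, h.trans h1⟩
    have hpos : 0 < A.valuation t := lt_trans zero_lt_one ht1
    have ht0 : t ≠ 0 := by
      rintro rfl
      rw [map_zero] at hpos
      exact lt_irrefl _ hpos
    have hinv : A.valuation t⁻¹ < 1 := by
      rw [map_inv₀]
      exact inv_lt_one_of_one_lt₀ ht1
    have ha : A.valuation (t⁻¹ * x) ≤ 1 := by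
      rw [map_mul, map_inv₀]
      exact (inv_mul_le_iff₀ hpos).2 (by rwa [mul_one])
    have hb : A.valuation (t⁻¹ * y) ≤ 1 := by
      rw [map_mul, map_inv₀]
      exact (inv_mul_le_iff₀ hpos).2 (by rwa [mul_one])
    have hHab : HK (t⁻¹ * x) (t⁻¹ * y) ∈ A.nonunits := by
      rw [ValuationSubring.mem_nonunits_iff, HK_smul, hH, map_mul, Valuation.map_neg, map_pow]
      exact mul_lt_one_of_lt_of_le (pow_lt_one₀ zero_le hinv (by norm_num))
        (val_int_le_one A c4)
    have hfab : fK (t⁻¹ * x) (t⁻¹ * y) ∈ A.nonunits := by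
      rw [ValuationSubring.mem_nonunits_iff, fK_smul, map_mul, hvf, mul_one, map_pow]
      exact pow_lt_one₀ zero_le hinv (by norm_num)
    obtain ⟨h1, h2'⟩ := Bezout28.mem_nonunits_of_forms A h5A
      ((A.valuation_le_one_iff _).1 ha) ((A.valuation_le_one_iff _).1 hb) hHab hfab
    rw [ValuationSubring.mem_nonunits_iff] at h1 h2'
    rcases htt with rfl | rfl
    · rw [inv_mul_cancel₀ ht0, map_one] at h1
      exact lt_irrefl _ h1
    · rw [inv_mul_cancel₀ ht0, map_one] at h2'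
      exact lt_irrefl _ h2'
  obtain ⟨hx, hy⟩ := hxy
  have hxA : x ∈ A := (A.valuation_le_one_iff _).1 hx
  have hyA : y ∈ A := (A.valuation_le_one_iff _).1 hy
  have hfxA : fKx x y ∈ A := by
    unfold fKx
    exact sub_mem (add_mem (mul_mem (mul_mem (ofNat_mem A 11) (pow_mem hxA 10)) hyA)
      (mul_mem (mul_mem (ofNat_mem A 66) (pow_mem hxA 5)) (pow_mem hyA 6))) (pow_mem hyA 11)
  have hfyA : fKy x y ∈ A := by
    unfold fKy
    exact sub_mem (add_mem (pow_mem hxA 11)
      (mul_mem (mul_mem (ofNat_mem A 66) (pow_mem hxA 6)) (pow_mem hyA 5)))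
      (mul_mem (mul_mem (ofNat_mem A 11) hxA) (pow_mem hyA 10))
  -- the family vector
  set X : Qb := (l : Qb) * x - (m : Qb) * fKy x y with hX
  set Y : Qb := (l : Qb) * y + (m : Qb) * fKx x y with hY
  have hXA : X ∈ A := sub_mem (mul_mem (intCast_mem A l) hxA) (mul_mem (intCast_mem A m) hfyA)
  have hYA : Y ∈ A := add_mem (mul_mem (intCast_mem A l) hyA) (mul_mem (intCast_mem A m) hfxA)
  have hHXY : HK X Y ∈ A.nonunits := by
    rw [ValuationSubring.mem_nonunits_iff, hH', Valuation.map_neg]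
    exact val_int_lt_one A hA hc4'
  have hfXY : fK X Y ∈ A.nonunits := by
    rw [ValuationSubring.mem_nonunits_iff]
    have hsyz := syzygy X Y
    rw [hH', hT'] at hsyz
    have e : (1728 : Qb) * fK X Y ^ 5 = -(((c4' ^ 3 - c6' ^ 2 : ℤ)) : Qb) := by
      rw [← hsyz]; push_cast; ring
    have h1 : A.valuation ((1728 : Qb) * fK X Y ^ 5) < 1 := by
      rw [e, Valuation.map_neg]
      exact val_int_lt_one A hA hdisc
    rw [map_mul, v1728, one_mul, map_pow] at h1
    exact lt_one_of_pow_lt_one h1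
  obtain ⟨hXm, hYm⟩ := Bezout28.mem_nonunits_of_forms A h5A hXA hYA hHXY hfXY
  rw [ValuationSubring.mem_nonunits_iff] at hXm hYm
  have hfx : A.valuation (fKx x y) ≤ 1 := (A.valuation_le_one_iff _).2 hfxA
  have hfy : A.valuation (fKy x y) ≤ 1 := (A.valuation_le_one_iff _).2 hfyA
  -- Cramer: `l` and `m` are divisible by `p`
  have hl : (p : ℤ) ∣ l := by
    apply dvd_of_val_lt_one A hp hA
    have h1 : A.valuation (X * fKx x y + Y * fKy x y) < 1 := by
      refine lt_of_le_of_lt (A.valuation.map_add _ _) (max_lt ?_ ?_)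
      · rw [map_mul]; exact mul_lt_one_of_lt_of_le hXm hfx
      · rw [map_mul]; exact mul_lt_one_of_lt_of_le hYm hfy
    rw [hX, hY, cramer_l, map_mul, map_mul, v12, one_mul, hvf, mul_one] at h1
    exact h1
  have hm : (p : ℤ) ∣ m := by
    apply dvd_of_val_lt_one A hp hA
    have h1 : A.valuation (Y * x - X * y) < 1 := by
      refine lt_of_le_of_lt (A.valuation.map_sub _ _) (max_lt ?_ ?_)
      · rw [map_mul]; exact mul_lt_one_of_lt_of_le hYm hx
      · rw [map_mul]; exact mul_lt_one_of_lt_of_le hXm hy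
    rw [hX, hY, cramer_m, map_mul, map_mul, v12, one_mul, hvf, mul_one] at h1
    exact h1
  obtain ⟨a, b, hab⟩ := hlm
  have h1 : (p : ℤ) ∣ 1 := by
    rw [← hab]
    exact dvd_add (Dvd.dvd.mul_left hl a) (Dvd.dvd.mul_left hm b)
  exact hpp.not_dvd_one h1

/-- **(SSB)**, the literal of the interface. -/
theorem famSS : FamSS := by
  intro ζ _ c4 c6 v _ hbase l m c4' c6' hlm hH' hT' p hp hp30 hdisc
  exact famSS_core hp c4 c6 (v 0) (v 1) hbase.1 hbase.2.1 hp30 l m c4' c6' hlm hH' hT' hdisc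

end Fermat.Agent.S52K.FamSS28
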