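/-
S52K (3–5 switch), brick (R1) of the `c₆`-root route (helper30).

If `ℓ ≥ 5` is a prime with `ℓ ∣ c₆(W)`, `ℓ ∤ Δ(W)` and `3` is not a square modulo `ℓ`, then the
mod-3 representation of `W` is irreducible.  Indeed a stable line gives a rational root `x` of the
3-division polynomial, `3 x` is an integer, and with `ξ = 36 x + 3 b₂` one has
`(6 ξ² - 162 c₄)² - 3 (108 c₄)² = 12 (36⁴ Ψ₃(x) + 648 c₆ ξ)`.
-/
import Mathlib
import Fermat.Prelude.Def_FLTPrelim_Modularity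
import Fermat.Prelude.Def_FLTPrelim_ModularRep
import Fermat.Agent.S51.ThreeTorsion

set_option autoImplicit false

namespace Fermat.Agent.S52K.Irr3C6_30

open WeierstrassCurve Polynomial

/-- A rational root `x` of `3x⁴ + b₂x³ + 3b₄x² + 3b₆x + b₈` (integer coefficients) has `3x ∈ ℤ`. -/
theorem exists_int_three_mul (b2 b4 b6 b8 : ℤ) (x : ℚ)
    (hx : 3 * x ^ 4 + (b2 : ℚ) * x ^ 3 + 3 * (b4 : ℚ) * x ^ 2 + 3 * (b6 : ℚ) * x + (b8 : ℚ) = 0) :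
    ∃ y : ℤ, (y : ℚ) = 3 * x ∧
      y ^ 4 + b2 * y ^ 3 + 9 * b4 * y ^ 2 + 27 * b6 * y + 27 * b8 = 0 := by
  have hnat : (C b2 * X ^ 3 + C (9 * b4) * X ^ 2 + C (27 * b6) * X + C (27 * b8) : ℤ[X]).natDegree
      ≤ 3 := by compute_degree
  have hdeg : (C b2 * X ^ 3 + C (9 * b4) * X ^ 2 + C (27 * b6) * X + C (27 * b8) : ℤ[X]).degree
      < ((4 : ℕ) : WithBot ℕ) :=
    lt_of_le_of_lt (degree_le_of_natDegree_le hnat) (by exact_mod_cast (by norm_num : (3 : ℕ) < 4))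
  have hmonic : (X ^ 4 + (C b2 * X ^ 3 + C (9 * b4) * X ^ 2 + C (27 * b6) * X + C (27 * b8)) :
      ℤ[X]).Monic := monic_X_pow_add hdeg
  have hint : IsIntegral ℤ (3 * x : ℚ) := by
    refine ⟨_, hmonic, ?_⟩
    simp only [eval₂_add, eval₂_mul, eval₂_pow, eval₂_X, eval₂_C]
    simp only [eq_intCast, Int.cast_mul, Int.cast_ofNat]
    linear_combination 27 * hx
  obtain ⟨y, hy⟩ := IsIntegrallyClosed.isIntegral_iff.mp hint
  rw [eq_intCast] at hy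
  refine ⟨y, hy, ?_⟩
  have h : ((y ^ 4 + b2 * y ^ 3 + 9 * b4 * y ^ 2 + 27 * b6 * y + 27 * b8 : ℤ) : ℚ) = 0 := by
    push_cast
    rw [hy]
    linear_combination 27 * hx
  exact_mod_cast h

/-- The key identity on the short model. -/
theorem key_identity (W : WeierstrassCurve ℤ) (y : ℤ) :
    (6 * (12 * y + 3 * W.b₂) ^ 2 - 162 * W.c₄) ^ 2 - 3 * (108 * W.c₄) ^ 2 =
      12 * (62208 * (y ^ 4 + W.b₂ * y ^ 3 + 9 * W.b₄ * y ^ 2 + 27 * W.b₆ * y + 27 * W.b₈)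
        + 648 * W.c₆ * (12 * y + 3 * W.b₂)) := by
  simp only [WeierstrassCurve.c₄, WeierstrassCurve.c₆]
  linear_combination (-5038848 : ℤ) * W.b_relation

/-- **(R1)** `ℓ ∣ c₆`, `ℓ ∤ Δ`, `3` not a square mod `ℓ ≥ 5`: the mod-3 representation is
irreducible. -/
theorem irr3C6 (W : WeierstrassCurve ℤ) (hΔ : W.Δ ≠ 0) (ℓ : ℕ) (hℓ : ℓ.Prime) (h5 : 5 ≤ ℓ)
    (hc6 : (ℓ : ℤ) ∣ W.c₆) (hΔℓ : ¬ (ℓ : ℤ) ∣ W.Δ) (h3 : ¬ IsSquare (3 : ZMod ℓ)) :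
    W.ModRepIsIrreducible 3 := by
  by_contra hirr
  have : Fact ℓ.Prime := ⟨hℓ⟩
  obtain ⟨x, hx⟩ := Fermat.Agent.S51.exists_rat_root_explicit W hΔ hirr
  obtain ⟨y, -, hy⟩ := exists_int_three_mul W.b₂ W.b₄ W.b₆ W.b₈ x hx
  have hkey := key_identity W y
  rw [hy] at hkey
  -- `ℓ ∤ c₄`
  have hℓ' : Prime (ℓ : ℤ) := Nat.prime_iff_prime_int.mp hℓ
  have hc4 : ¬ (ℓ : ℤ) ∣ W.c₄ := by
    intro h
    have h1 : (ℓ : ℤ) ∣ 1728 * W.Δ := by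
      rw [W.c_relation]
      exact dvd_sub (dvd_pow h (by norm_num)) (dvd_pow hc6 (by norm_num))
    rcases hℓ'.dvd_or_dvd h1 with h2 | h2
    · have h3' : (ℓ : ℤ) ∣ 2 ^ 6 * 3 ^ 3 := by norm_num; exact h2
      rcases hℓ'.dvd_or_dvd h3' with h4 | h4
      · have := hℓ'.dvd_of_dvd_pow h4
        have := Int.le_of_dvd (by norm_num) this
        omega
      · have := hℓ'.dvd_of_dvd_pow h4
        have := Int.le_of_dvd (by norm_num) this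
        omega
    · exact hΔℓ h2
  have h108 : ((108 : ℤ) : ZMod ℓ) ≠ 0 := by
    rw [Ne, ZMod.intCast_zmod_eq_zero_iff_dvd]
    intro h
    have h3' : (ℓ : ℤ) ∣ 2 ^ 2 * 3 ^ 3 := by norm_num; exact h
    rcases hℓ'.dvd_or_dvd h3' with h4 | h4
    · have := hℓ'.dvd_of_dvd_pow h4
      have := Int.le_of_dvd (by norm_num) this
      omega
    · have := hℓ'.dvd_of_dvd_pow h4
      have := Int.le_of_dvd (by norm_num) this
      omega
  have hc4' : ((W.c₄ : ℤ) : ZMod ℓ) ≠ 0 := by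
    rw [Ne, ZMod.intCast_zmod_eq_zero_iff_dvd]; exact hc4
  have hc6' : ((W.c₆ : ℤ) : ZMod ℓ) = 0 := by
    rw [ZMod.intCast_zmod_eq_zero_iff_dvd]; exact hc6
  have hmod := congrArg (Int.cast : ℤ → ZMod ℓ) hkey
  push_cast at hmod
  rw [hc6'] at hmod
  apply h3
  refine ⟨(6 * (12 * (y : ZMod ℓ) + 3 * (W.b₂ : ZMod ℓ)) ^ 2 - 162 * (W.c₄ : ZMod ℓ)) /
    (108 * (W.c₄ : ZMod ℓ)), ?_⟩
  have hden : (108 * (W.c₄ : ZMod ℓ)) ≠ 0 := by
    have : ((108 : ℤ) : ZMod ℓ) = 108 := by push_cast; rfl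
    rw [this] at h108
    exact mul_ne_zero h108 hc4'
  have hsq : (6 * (12 * (y : ZMod ℓ) + 3 * (W.b₂ : ZMod ℓ)) ^ 2 - 162 * (W.c₄ : ZMod ℓ)) ^ 2 =
      3 * (108 * (W.c₄ : ZMod ℓ)) ^ 2 := by linear_combination hmod
  rw [div_mul_div_comm, eq_div_iff (mul_ne_zero hden hden)]
  linear_combination -hsq

end Fermat.Agent.S52K.Irr3C6_30
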