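/-
S52K (3–5 switch), layer K2, part A: identities over `ℤ[ζ₅]` behind the level structure of
Klein's family (ζ⁵ = 1, det Ũ, Ũ at ζ², √5, the T̃-identities, Bezout).  GENERATED (helper34) from an exact computation in `ℚ(ζ₅)[x, y]`; every
proof is `ring` or `linear_combination e * hζ` with `hζ : ζ⁴ + ζ³ + ζ² + ζ + 1 = 0`.
Notation: `Ũ = (1/5) [[uA, uB], [uB, -uA]]`, `T̃ = diag(ζ³, ζ²)`, `S̃ (x, y) = (y, -x)`.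
-/
import Mathlib
import Fermat.Agent.S52K.KleinForms

set_option autoImplicit false
set_option maxHeartbeats 1600000

namespace Fermat.Agent.S52K.Klein

variable {R : Type*} [CommRing R] (ζ x y : R)

theorem zeta_pow_five (hζ : ζ ^ 4 + ζ ^ 3 + ζ ^ 2 + ζ + 1 = 0) :
    ζ ^ 5 = 1 := by
  linear_combination (ζ - 1) * hζ

theorem uA_sq_add (hζ : ζ ^ 4 + ζ ^ 3 + ζ ^ 2 + ζ + 1 = 0) :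
    uA ζ ^ 2 + uB ζ ^ 2 = -25 := by
  simp only [uA, uB]
  linear_combination
    (10 * ζ ^ 2 - 10 * ζ + 30) * hζ

theorem uA_zeta_sq (hζ : ζ ^ 4 + ζ ^ 3 + ζ ^ 2 + ζ + 1 = 0) :
    uA (ζ ^ 2) = uB ζ := by
  simp only [uA, uB]
  linear_combination
    (ζ ^ 2 - ζ - 3) * hζ

theorem uB_zeta_sq (hζ : ζ ^ 4 + ζ ^ 3 + ζ ^ 2 + ζ + 1 = 0) :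
    uB (ζ ^ 2) = -uA ζ := by
  simp only [uA, uB]
  linear_combination
    (3 * ζ ^ 2 - 3 * ζ + 1) * hζ

theorem s5_sq (hζ : ζ ^ 4 + ζ ^ 3 + ζ ^ 2 + ζ + 1 = 0) :
    s5 ζ ^ 2 = 5 := by
  simp only [s5]
  linear_combination
    (4 * ζ ^ 2 + 4 * ζ - 4) * hζ

theorem fK_T (hζ : ζ ^ 4 + ζ ^ 3 + ζ ^ 2 + ζ + 1 = 0) :
    fK (ζ ^ 3 * x) (ζ ^ 2 * y) = fK x y := by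
  simp only [fK]
  linear_combination
    (ζ ^ 31 * x ^ 11 * y - ζ ^ 30 * x ^ 11 * y + ζ ^ 26 * x ^ 11 * y - ζ ^ 25 * x ^ 11 * y + ζ ^ 21 * x ^ 11 * y
    - ζ ^ 20 * x ^ 11 * y + ζ ^ 16 * x ^ 11 * y - ζ ^ 15 * x ^ 11 * y + ζ ^ 11 * x ^ 11 * y - ζ ^ 10 * x ^ 11 * y
    + ζ ^ 6 * x ^ 11 * y - ζ ^ 5 * x ^ 11 * y + ζ * x ^ 11 * y - x ^ 11 * y + 11 * ζ ^ 26 * x ^ 6 * y ^ 6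
    - 11 * ζ ^ 25 * x ^ 6 * y ^ 6 + 11 * ζ ^ 21 * x ^ 6 * y ^ 6 - 11 * ζ ^ 20 * x ^ 6 * y ^ 6 + 11 * ζ ^ 16 * x ^ 6 * y ^ 6
    - 11 * ζ ^ 15 * x ^ 6 * y ^ 6 + 11 * ζ ^ 11 * x ^ 6 * y ^ 6 - 11 * ζ ^ 10 * x ^ 6 * y ^ 6 + 11 * ζ ^ 6 * x ^ 6 * y ^ 6
    - 11 * ζ ^ 5 * x ^ 6 * y ^ 6 + 11 * ζ * x ^ 6 * y ^ 6 - 11 * x ^ 6 * y ^ 6 - ζ ^ 21 * x * y ^ 11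
    + ζ ^ 20 * x * y ^ 11 - ζ ^ 16 * x * y ^ 11 + ζ ^ 15 * x * y ^ 11 - ζ ^ 11 * x * y ^ 11 + ζ ^ 10 * x * y ^ 11
    - ζ ^ 6 * x * y ^ 11 + ζ ^ 5 * x * y ^ 11 - ζ * x * y ^ 11 + x * y ^ 11) * hζ

theorem HK_T (hζ : ζ ^ 4 + ζ ^ 3 + ζ ^ 2 + ζ + 1 = 0) :
    HK (ζ ^ 3 * x) (ζ ^ 2 * y) = HK x y := by
  simp only [HK]
  linear_combination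
    (-ζ ^ 56 * x ^ 20 + ζ ^ 55 * x ^ 20 - ζ ^ 51 * x ^ 20 + ζ ^ 50 * x ^ 20 - ζ ^ 46 * x ^ 20 + ζ ^ 45 * x ^ 20
    - ζ ^ 41 * x ^ 20 + ζ ^ 40 * x ^ 20 - ζ ^ 36 * x ^ 20 + ζ ^ 35 * x ^ 20 - ζ ^ 31 * x ^ 20 + ζ ^ 30 * x ^ 20
    - ζ ^ 26 * x ^ 20 + ζ ^ 25 * x ^ 20 - ζ ^ 21 * x ^ 20 + ζ ^ 20 * x ^ 20 - ζ ^ 16 * x ^ 20 + ζ ^ 15 * x ^ 20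
    - ζ ^ 11 * x ^ 20 + ζ ^ 10 * x ^ 20 - ζ ^ 6 * x ^ 20 + ζ ^ 5 * x ^ 20 - ζ * x ^ 20 + x ^ 20 + 228 * ζ ^ 51 * x ^ 15 * y ^ 5
    - 228 * ζ ^ 50 * x ^ 15 * y ^ 5 + 228 * ζ ^ 46 * x ^ 15 * y ^ 5 - 228 * ζ ^ 45 * x ^ 15 * y ^ 5
    + 228 * ζ ^ 41 * x ^ 15 * y ^ 5 - 228 * ζ ^ 40 * x ^ 15 * y ^ 5 + 228 * ζ ^ 36 * x ^ 15 * y ^ 5
    - 228 * ζ ^ 35 * x ^ 15 * y ^ 5 + 228 * ζ ^ 31 * x ^ 15 * y ^ 5 - 228 * ζ ^ 30 * x ^ 15 * y ^ 5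
    + 228 * ζ ^ 26 * x ^ 15 * y ^ 5 - 228 * ζ ^ 25 * x ^ 15 * y ^ 5 + 228 * ζ ^ 21 * x ^ 15 * y ^ 5
    - 228 * ζ ^ 20 * x ^ 15 * y ^ 5 + 228 * ζ ^ 16 * x ^ 15 * y ^ 5 - 228 * ζ ^ 15 * x ^ 15 * y ^ 5
    + 228 * ζ ^ 11 * x ^ 15 * y ^ 5 - 228 * ζ ^ 10 * x ^ 15 * y ^ 5 + 228 * ζ ^ 6 * x ^ 15 * y ^ 5
    - 228 * ζ ^ 5 * x ^ 15 * y ^ 5 + 228 * ζ * x ^ 15 * y ^ 5 - 228 * x ^ 15 * y ^ 5 - 494 * ζ ^ 46 * x ^ 10 * y ^ 10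
    + 494 * ζ ^ 45 * x ^ 10 * y ^ 10 - 494 * ζ ^ 41 * x ^ 10 * y ^ 10 + 494 * ζ ^ 40 * x ^ 10 * y ^ 10
    - 494 * ζ ^ 36 * x ^ 10 * y ^ 10 + 494 * ζ ^ 35 * x ^ 10 * y ^ 10 - 494 * ζ ^ 31 * x ^ 10 * y ^ 10
    + 494 * ζ ^ 30 * x ^ 10 * y ^ 10 - 494 * ζ ^ 26 * x ^ 10 * y ^ 10 + 494 * ζ ^ 25 * x ^ 10 * y ^ 10
    - 494 * ζ ^ 21 * x ^ 10 * y ^ 10 + 494 * ζ ^ 20 * x ^ 10 * y ^ 10 - 494 * ζ ^ 16 * x ^ 10 * y ^ 10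
    + 494 * ζ ^ 15 * x ^ 10 * y ^ 10 - 494 * ζ ^ 11 * x ^ 10 * y ^ 10 + 494 * ζ ^ 10 * x ^ 10 * y ^ 10
    - 494 * ζ ^ 6 * x ^ 10 * y ^ 10 + 494 * ζ ^ 5 * x ^ 10 * y ^ 10 - 494 * ζ * x ^ 10 * y ^ 10 + 494 * x ^ 10 * y ^ 10
    - 228 * ζ ^ 41 * x ^ 5 * y ^ 15 + 228 * ζ ^ 40 * x ^ 5 * y ^ 15 - 228 * ζ ^ 36 * x ^ 5 * y ^ 15
    + 228 * ζ ^ 35 * x ^ 5 * y ^ 15 - 228 * ζ ^ 31 * x ^ 5 * y ^ 15 + 228 * ζ ^ 30 * x ^ 5 * y ^ 15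
    - 228 * ζ ^ 26 * x ^ 5 * y ^ 15 + 228 * ζ ^ 25 * x ^ 5 * y ^ 15 - 228 * ζ ^ 21 * x ^ 5 * y ^ 15
    + 228 * ζ ^ 20 * x ^ 5 * y ^ 15 - 228 * ζ ^ 16 * x ^ 5 * y ^ 15 + 228 * ζ ^ 15 * x ^ 5 * y ^ 15
    - 228 * ζ ^ 11 * x ^ 5 * y ^ 15 + 228 * ζ ^ 10 * x ^ 5 * y ^ 15 - 228 * ζ ^ 6 * x ^ 5 * y ^ 15
    + 228 * ζ ^ 5 * x ^ 5 * y ^ 15 - 228 * ζ * x ^ 5 * y ^ 15 + 228 * x ^ 5 * y ^ 15 - ζ ^ 36 * y ^ 20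
    + ζ ^ 35 * y ^ 20 - ζ ^ 31 * y ^ 20 + ζ ^ 30 * y ^ 20 - ζ ^ 26 * y ^ 20 + ζ ^ 25 * y ^ 20 - ζ ^ 21 * y ^ 20
    + ζ ^ 20 * y ^ 20 - ζ ^ 16 * y ^ 20 + ζ ^ 15 * y ^ 20 - ζ ^ 11 * y ^ 20 + ζ ^ 10 * y ^ 20 - ζ ^ 6 * y ^ 20
    + ζ ^ 5 * y ^ 20 - ζ * y ^ 20 + y ^ 20) * hζ

theorem TK_T (hζ : ζ ^ 4 + ζ ^ 3 + ζ ^ 2 + ζ + 1 = 0) :
    TK (ζ ^ 3 * x) (ζ ^ 2 * y) = TK x y := by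
  simp only [TK]
  linear_combination
    (ζ ^ 86 * x ^ 30 - ζ ^ 85 * x ^ 30 + ζ ^ 81 * x ^ 30 - ζ ^ 80 * x ^ 30 + ζ ^ 76 * x ^ 30 - ζ ^ 75 * x ^ 30
    + ζ ^ 71 * x ^ 30 - ζ ^ 70 * x ^ 30 + ζ ^ 66 * x ^ 30 - ζ ^ 65 * x ^ 30 + ζ ^ 61 * x ^ 30 - ζ ^ 60 * x ^ 30
    + ζ ^ 56 * x ^ 30 - ζ ^ 55 * x ^ 30 + ζ ^ 51 * x ^ 30 - ζ ^ 50 * x ^ 30 + ζ ^ 46 * x ^ 30 - ζ ^ 45 * x ^ 30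
    + ζ ^ 41 * x ^ 30 - ζ ^ 40 * x ^ 30 + ζ ^ 36 * x ^ 30 - ζ ^ 35 * x ^ 30 + ζ ^ 31 * x ^ 30 - ζ ^ 30 * x ^ 30
    + ζ ^ 26 * x ^ 30 - ζ ^ 25 * x ^ 30 + ζ ^ 21 * x ^ 30 - ζ ^ 20 * x ^ 30 + ζ ^ 16 * x ^ 30 - ζ ^ 15 * x ^ 30
    + ζ ^ 11 * x ^ 30 - ζ ^ 10 * x ^ 30 + ζ ^ 6 * x ^ 30 - ζ ^ 5 * x ^ 30 + ζ * x ^ 30 - x ^ 30 + 522 * ζ ^ 81 * x ^ 25 * y ^ 5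
    - 522 * ζ ^ 80 * x ^ 25 * y ^ 5 + 522 * ζ ^ 76 * x ^ 25 * y ^ 5 - 522 * ζ ^ 75 * x ^ 25 * y ^ 5
    + 522 * ζ ^ 71 * x ^ 25 * y ^ 5 - 522 * ζ ^ 70 * x ^ 25 * y ^ 5 + 522 * ζ ^ 66 * x ^ 25 * y ^ 5
    - 522 * ζ ^ 65 * x ^ 25 * y ^ 5 + 522 * ζ ^ 61 * x ^ 25 * y ^ 5 - 522 * ζ ^ 60 * x ^ 25 * y ^ 5
    + 522 * ζ ^ 56 * x ^ 25 * y ^ 5 - 522 * ζ ^ 55 * x ^ 25 * y ^ 5 + 522 * ζ ^ 51 * x ^ 25 * y ^ 5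
    - 522 * ζ ^ 50 * x ^ 25 * y ^ 5 + 522 * ζ ^ 46 * x ^ 25 * y ^ 5 - 522 * ζ ^ 45 * x ^ 25 * y ^ 5
    + 522 * ζ ^ 41 * x ^ 25 * y ^ 5 - 522 * ζ ^ 40 * x ^ 25 * y ^ 5 + 522 * ζ ^ 36 * x ^ 25 * y ^ 5
    - 522 * ζ ^ 35 * x ^ 25 * y ^ 5 + 522 * ζ ^ 31 * x ^ 25 * y ^ 5 - 522 * ζ ^ 30 * x ^ 25 * y ^ 5
    + 522 * ζ ^ 26 * x ^ 25 * y ^ 5 - 522 * ζ ^ 25 * x ^ 25 * y ^ 5 + 522 * ζ ^ 21 * x ^ 25 * y ^ 5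
    - 522 * ζ ^ 20 * x ^ 25 * y ^ 5 + 522 * ζ ^ 16 * x ^ 25 * y ^ 5 - 522 * ζ ^ 15 * x ^ 25 * y ^ 5
    + 522 * ζ ^ 11 * x ^ 25 * y ^ 5 - 522 * ζ ^ 10 * x ^ 25 * y ^ 5 + 522 * ζ ^ 6 * x ^ 25 * y ^ 5
    - 522 * ζ ^ 5 * x ^ 25 * y ^ 5 + 522 * ζ * x ^ 25 * y ^ 5 - 522 * x ^ 25 * y ^ 5 - 10005 * ζ ^ 76 * x ^ 20 * y ^ 10
    + 10005 * ζ ^ 75 * x ^ 20 * y ^ 10 - 10005 * ζ ^ 71 * x ^ 20 * y ^ 10 + 10005 * ζ ^ 70 * x ^ 20 * y ^ 10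
    - 10005 * ζ ^ 66 * x ^ 20 * y ^ 10 + 10005 * ζ ^ 65 * x ^ 20 * y ^ 10 - 10005 * ζ ^ 61 * x ^ 20 * y ^ 10
    + 10005 * ζ ^ 60 * x ^ 20 * y ^ 10 - 10005 * ζ ^ 56 * x ^ 20 * y ^ 10 + 10005 * ζ ^ 55 * x ^ 20 * y ^ 10
    - 10005 * ζ ^ 51 * x ^ 20 * y ^ 10 + 10005 * ζ ^ 50 * x ^ 20 * y ^ 10 - 10005 * ζ ^ 46 * x ^ 20 * y ^ 10
    + 10005 * ζ ^ 45 * x ^ 20 * y ^ 10 - 10005 * ζ ^ 41 * x ^ 20 * y ^ 10 + 10005 * ζ ^ 40 * x ^ 20 * y ^ 10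
    - 10005 * ζ ^ 36 * x ^ 20 * y ^ 10 + 10005 * ζ ^ 35 * x ^ 20 * y ^ 10 - 10005 * ζ ^ 31 * x ^ 20 * y ^ 10
    + 10005 * ζ ^ 30 * x ^ 20 * y ^ 10 - 10005 * ζ ^ 26 * x ^ 20 * y ^ 10 + 10005 * ζ ^ 25 * x ^ 20 * y ^ 10
    - 10005 * ζ ^ 21 * x ^ 20 * y ^ 10 + 10005 * ζ ^ 20 * x ^ 20 * y ^ 10 - 10005 * ζ ^ 16 * x ^ 20 * y ^ 10
    + 10005 * ζ ^ 15 * x ^ 20 * y ^ 10 - 10005 * ζ ^ 11 * x ^ 20 * y ^ 10 + 10005 * ζ ^ 10 * x ^ 20 * y ^ 10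
    - 10005 * ζ ^ 6 * x ^ 20 * y ^ 10 + 10005 * ζ ^ 5 * x ^ 20 * y ^ 10 - 10005 * ζ * x ^ 20 * y ^ 10
    + 10005 * x ^ 20 * y ^ 10 - 10005 * ζ ^ 66 * x ^ 10 * y ^ 20 + 10005 * ζ ^ 65 * x ^ 10 * y ^ 20
    - 10005 * ζ ^ 61 * x ^ 10 * y ^ 20 + 10005 * ζ ^ 60 * x ^ 10 * y ^ 20 - 10005 * ζ ^ 56 * x ^ 10 * y ^ 20
    + 10005 * ζ ^ 55 * x ^ 10 * y ^ 20 - 10005 * ζ ^ 51 * x ^ 10 * y ^ 20 + 10005 * ζ ^ 50 * x ^ 10 * y ^ 20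
    - 10005 * ζ ^ 46 * x ^ 10 * y ^ 20 + 10005 * ζ ^ 45 * x ^ 10 * y ^ 20 - 10005 * ζ ^ 41 * x ^ 10 * y ^ 20
    + 10005 * ζ ^ 40 * x ^ 10 * y ^ 20 - 10005 * ζ ^ 36 * x ^ 10 * y ^ 20 + 10005 * ζ ^ 35 * x ^ 10 * y ^ 20
    - 10005 * ζ ^ 31 * x ^ 10 * y ^ 20 + 10005 * ζ ^ 30 * x ^ 10 * y ^ 20 - 10005 * ζ ^ 26 * x ^ 10 * y ^ 20
    + 10005 * ζ ^ 25 * x ^ 10 * y ^ 20 - 10005 * ζ ^ 21 * x ^ 10 * y ^ 20 + 10005 * ζ ^ 20 * x ^ 10 * y ^ 20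
    - 10005 * ζ ^ 16 * x ^ 10 * y ^ 20 + 10005 * ζ ^ 15 * x ^ 10 * y ^ 20 - 10005 * ζ ^ 11 * x ^ 10 * y ^ 20
    + 10005 * ζ ^ 10 * x ^ 10 * y ^ 20 - 10005 * ζ ^ 6 * x ^ 10 * y ^ 20 + 10005 * ζ ^ 5 * x ^ 10 * y ^ 20
    - 10005 * ζ * x ^ 10 * y ^ 20 + 10005 * x ^ 10 * y ^ 20 - 522 * ζ ^ 61 * x ^ 5 * y ^ 25 + 522 * ζ ^ 60 * x ^ 5 * y ^ 25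
    - 522 * ζ ^ 56 * x ^ 5 * y ^ 25 + 522 * ζ ^ 55 * x ^ 5 * y ^ 25 - 522 * ζ ^ 51 * x ^ 5 * y ^ 25
    + 522 * ζ ^ 50 * x ^ 5 * y ^ 25 - 522 * ζ ^ 46 * x ^ 5 * y ^ 25 + 522 * ζ ^ 45 * x ^ 5 * y ^ 25
    - 522 * ζ ^ 41 * x ^ 5 * y ^ 25 + 522 * ζ ^ 40 * x ^ 5 * y ^ 25 - 522 * ζ ^ 36 * x ^ 5 * y ^ 25
    + 522 * ζ ^ 35 * x ^ 5 * y ^ 25 - 522 * ζ ^ 31 * x ^ 5 * y ^ 25 + 522 * ζ ^ 30 * x ^ 5 * y ^ 25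
    - 522 * ζ ^ 26 * x ^ 5 * y ^ 25 + 522 * ζ ^ 25 * x ^ 5 * y ^ 25 - 522 * ζ ^ 21 * x ^ 5 * y ^ 25
    + 522 * ζ ^ 20 * x ^ 5 * y ^ 25 - 522 * ζ ^ 16 * x ^ 5 * y ^ 25 + 522 * ζ ^ 15 * x ^ 5 * y ^ 25
    - 522 * ζ ^ 11 * x ^ 5 * y ^ 25 + 522 * ζ ^ 10 * x ^ 5 * y ^ 25 - 522 * ζ ^ 6 * x ^ 5 * y ^ 25
    + 522 * ζ ^ 5 * x ^ 5 * y ^ 25 - 522 * ζ * x ^ 5 * y ^ 25 + 522 * x ^ 5 * y ^ 25 + ζ ^ 56 * y ^ 30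
    - ζ ^ 55 * y ^ 30 + ζ ^ 51 * y ^ 30 - ζ ^ 50 * y ^ 30 + ζ ^ 46 * y ^ 30 - ζ ^ 45 * y ^ 30 + ζ ^ 41 * y ^ 30
    - ζ ^ 40 * y ^ 30 + ζ ^ 36 * y ^ 30 - ζ ^ 35 * y ^ 30 + ζ ^ 31 * y ^ 30 - ζ ^ 30 * y ^ 30 + ζ ^ 26 * y ^ 30
    - ζ ^ 25 * y ^ 30 + ζ ^ 21 * y ^ 30 - ζ ^ 20 * y ^ 30 + ζ ^ 16 * y ^ 30 - ζ ^ 15 * y ^ 30 + ζ ^ 11 * y ^ 30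
    - ζ ^ 10 * y ^ 30 + ζ ^ 6 * y ^ 30 - ζ ^ 5 * y ^ 30 + ζ * y ^ 30 - y ^ 30) * hζ

theorem cov_T_1 (hζ : ζ ^ 4 + ζ ^ 3 + ζ ^ 2 + ζ + 1 = 0) :
    -fKy (ζ ^ 3 * x) (ζ ^ 2 * y) = ζ ^ 3 * -fKy x y := by
  simp only [fKy]
  linear_combination
    (-ζ ^ 29 * x ^ 11 + ζ ^ 28 * x ^ 11 - ζ ^ 24 * x ^ 11 + ζ ^ 23 * x ^ 11 - ζ ^ 19 * x ^ 11 + ζ ^ 18 * x ^ 11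
    - ζ ^ 14 * x ^ 11 + ζ ^ 13 * x ^ 11 - ζ ^ 9 * x ^ 11 + ζ ^ 8 * x ^ 11 - ζ ^ 4 * x ^ 11 + ζ ^ 3 * x ^ 11
    - 66 * ζ ^ 24 * x ^ 6 * y ^ 5 + 66 * ζ ^ 23 * x ^ 6 * y ^ 5 - 66 * ζ ^ 19 * x ^ 6 * y ^ 5 + 66 * ζ ^ 18 * x ^ 6 * y ^ 5
    - 66 * ζ ^ 14 * x ^ 6 * y ^ 5 + 66 * ζ ^ 13 * x ^ 6 * y ^ 5 - 66 * ζ ^ 9 * x ^ 6 * y ^ 5 + 66 * ζ ^ 8 * x ^ 6 * y ^ 5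
    - 66 * ζ ^ 4 * x ^ 6 * y ^ 5 + 66 * ζ ^ 3 * x ^ 6 * y ^ 5 + 11 * ζ ^ 19 * x * y ^ 10 - 11 * ζ ^ 18 * x * y ^ 10
    + 11 * ζ ^ 14 * x * y ^ 10 - 11 * ζ ^ 13 * x * y ^ 10 + 11 * ζ ^ 9 * x * y ^ 10 - 11 * ζ ^ 8 * x * y ^ 10
    + 11 * ζ ^ 4 * x * y ^ 10 - 11 * ζ ^ 3 * x * y ^ 10) * hζ

theorem cov_T_2 (hζ : ζ ^ 4 + ζ ^ 3 + ζ ^ 2 + ζ + 1 = 0) :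
    fKx (ζ ^ 3 * x) (ζ ^ 2 * y) = ζ ^ 2 * fKx x y := by
  simp only [fKx]
  linear_combination
    (11 * ζ ^ 28 * x ^ 10 * y - 11 * ζ ^ 27 * x ^ 10 * y + 11 * ζ ^ 23 * x ^ 10 * y - 11 * ζ ^ 22 * x ^ 10 * y
    + 11 * ζ ^ 18 * x ^ 10 * y - 11 * ζ ^ 17 * x ^ 10 * y + 11 * ζ ^ 13 * x ^ 10 * y - 11 * ζ ^ 12 * x ^ 10 * y
    + 11 * ζ ^ 8 * x ^ 10 * y - 11 * ζ ^ 7 * x ^ 10 * y + 11 * ζ ^ 3 * x ^ 10 * y - 11 * ζ ^ 2 * x ^ 10 * y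
    + 66 * ζ ^ 23 * x ^ 5 * y ^ 6 - 66 * ζ ^ 22 * x ^ 5 * y ^ 6 + 66 * ζ ^ 18 * x ^ 5 * y ^ 6 - 66 * ζ ^ 17 * x ^ 5 * y ^ 6
    + 66 * ζ ^ 13 * x ^ 5 * y ^ 6 - 66 * ζ ^ 12 * x ^ 5 * y ^ 6 + 66 * ζ ^ 8 * x ^ 5 * y ^ 6 - 66 * ζ ^ 7 * x ^ 5 * y ^ 6
    + 66 * ζ ^ 3 * x ^ 5 * y ^ 6 - 66 * ζ ^ 2 * x ^ 5 * y ^ 6 - ζ ^ 18 * y ^ 11 + ζ ^ 17 * y ^ 11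
    - ζ ^ 13 * y ^ 11 + ζ ^ 12 * y ^ 11 - ζ ^ 8 * y ^ 11 + ζ ^ 7 * y ^ 11 - ζ ^ 3 * y ^ 11 + ζ ^ 2 * y ^ 11) * hζ

theorem XP_T (hζ : ζ ^ 4 + ζ ^ 3 + ζ ^ 2 + ζ + 1 = 0) :
    XP (ζ ^ 3 * x) (ζ ^ 2 * y) = XPT ζ x y := by
  simp only [XP, XPT]
  linear_combination
    (3 * ζ ^ 26 * x ^ 10 - 3 * ζ ^ 25 * x ^ 10 + 3 * ζ ^ 21 * x ^ 10 - 3 * ζ ^ 20 * x ^ 10 + 3 * ζ ^ 16 * x ^ 10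
    - 3 * ζ ^ 15 * x ^ 10 + 3 * ζ ^ 11 * x ^ 10 - 3 * ζ ^ 10 * x ^ 10 + 3 * ζ ^ 6 * x ^ 10 - 3 * ζ ^ 5 * x ^ 10
    + 3 * ζ * x ^ 10 - 3 * x ^ 10 + 36 * ζ ^ 24 * x ^ 8 * y ^ 2 - 36 * ζ ^ 23 * x ^ 8 * y ^ 2 + 36 * ζ ^ 19 * x ^ 8 * y ^ 2
    - 36 * ζ ^ 18 * x ^ 8 * y ^ 2 + 36 * ζ ^ 14 * x ^ 8 * y ^ 2 - 36 * ζ ^ 13 * x ^ 8 * y ^ 2 + 36 * ζ ^ 9 * x ^ 8 * y ^ 2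
    - 36 * ζ ^ 8 * x ^ 8 * y ^ 2 + 36 * ζ ^ 4 * x ^ 8 * y ^ 2 - 36 * ζ ^ 3 * x ^ 8 * y ^ 2 - 36 * ζ ^ 23 * x ^ 7 * y ^ 3
    + 36 * ζ ^ 22 * x ^ 7 * y ^ 3 - 36 * ζ ^ 18 * x ^ 7 * y ^ 3 + 36 * ζ ^ 17 * x ^ 7 * y ^ 3 - 36 * ζ ^ 13 * x ^ 7 * y ^ 3
    + 36 * ζ ^ 12 * x ^ 7 * y ^ 3 - 36 * ζ ^ 8 * x ^ 7 * y ^ 3 + 36 * ζ ^ 7 * x ^ 7 * y ^ 3 - 36 * ζ ^ 3 * x ^ 7 * y ^ 3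
    + 36 * ζ ^ 2 * x ^ 7 * y ^ 3 + 72 * ζ ^ 22 * x ^ 6 * y ^ 4 - 72 * ζ ^ 21 * x ^ 6 * y ^ 4 + 72 * ζ ^ 17 * x ^ 6 * y ^ 4
    - 72 * ζ ^ 16 * x ^ 6 * y ^ 4 + 72 * ζ ^ 12 * x ^ 6 * y ^ 4 - 72 * ζ ^ 11 * x ^ 6 * y ^ 4 + 72 * ζ ^ 7 * x ^ 6 * y ^ 4
    - 72 * ζ ^ 6 * x ^ 6 * y ^ 4 + 72 * ζ ^ 2 * x ^ 6 * y ^ 4 - 72 * ζ * x ^ 6 * y ^ 4 + 90 * ζ ^ 21 * x ^ 5 * y ^ 5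
    - 90 * ζ ^ 20 * x ^ 5 * y ^ 5 + 90 * ζ ^ 16 * x ^ 5 * y ^ 5 - 90 * ζ ^ 15 * x ^ 5 * y ^ 5 + 90 * ζ ^ 11 * x ^ 5 * y ^ 5
    - 90 * ζ ^ 10 * x ^ 5 * y ^ 5 + 90 * ζ ^ 6 * x ^ 5 * y ^ 5 - 90 * ζ ^ 5 * x ^ 5 * y ^ 5 + 90 * ζ * x ^ 5 * y ^ 5
    - 90 * x ^ 5 * y ^ 5 + 180 * ζ ^ 20 * x ^ 4 * y ^ 6 - 180 * ζ ^ 19 * x ^ 4 * y ^ 6 + 180 * ζ ^ 15 * x ^ 4 * y ^ 6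
    - 180 * ζ ^ 14 * x ^ 4 * y ^ 6 + 180 * ζ ^ 10 * x ^ 4 * y ^ 6 - 180 * ζ ^ 9 * x ^ 4 * y ^ 6 + 180 * ζ ^ 5 * x ^ 4 * y ^ 6
    - 180 * ζ ^ 4 * x ^ 4 * y ^ 6 + 180 * x ^ 4 * y ^ 6 + 108 * ζ ^ 19 * x ^ 3 * y ^ 7 - 108 * ζ ^ 18 * x ^ 3 * y ^ 7
    + 108 * ζ ^ 14 * x ^ 3 * y ^ 7 - 108 * ζ ^ 13 * x ^ 3 * y ^ 7 + 108 * ζ ^ 9 * x ^ 3 * y ^ 7 - 108 * ζ ^ 8 * x ^ 3 * y ^ 7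
    + 108 * ζ ^ 4 * x ^ 3 * y ^ 7 - 108 * ζ ^ 3 * x ^ 3 * y ^ 7 + 72 * ζ ^ 18 * x ^ 2 * y ^ 8 - 72 * ζ ^ 17 * x ^ 2 * y ^ 8
    + 72 * ζ ^ 13 * x ^ 2 * y ^ 8 - 72 * ζ ^ 12 * x ^ 2 * y ^ 8 + 72 * ζ ^ 8 * x ^ 2 * y ^ 8 - 72 * ζ ^ 7 * x ^ 2 * y ^ 8
    + 72 * ζ ^ 3 * x ^ 2 * y ^ 8 - 72 * ζ ^ 2 * x ^ 2 * y ^ 8 + 36 * ζ ^ 17 * x * y ^ 9 - 36 * ζ ^ 16 * x * y ^ 9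
    + 36 * ζ ^ 12 * x * y ^ 9 - 36 * ζ ^ 11 * x * y ^ 9 + 36 * ζ ^ 7 * x * y ^ 9 - 36 * ζ ^ 6 * x * y ^ 9
    + 36 * ζ ^ 2 * x * y ^ 9 - 36 * ζ * x * y ^ 9 + 3 * ζ ^ 16 * y ^ 10 - 3 * ζ ^ 15 * y ^ 10 + 3 * ζ ^ 11 * y ^ 10
    - 3 * ζ ^ 10 * y ^ 10 + 3 * ζ ^ 6 * y ^ 10 - 3 * ζ ^ 5 * y ^ 10 + 3 * ζ * y ^ 10 - 3 * y ^ 10) * hζ

theorem YP_T (hζ : ζ ^ 4 + ζ ^ 3 + ζ ^ 2 + ζ + 1 = 0) :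
    YP (ζ ^ 3 * x) (ζ ^ 2 * y) = YPT ζ x y := by
  simp only [YP, YPT]
  linear_combination
    (108 * ζ ^ 39 * x ^ 13 * y ^ 2 - 108 * ζ ^ 38 * x ^ 13 * y ^ 2 + 108 * ζ ^ 34 * x ^ 13 * y ^ 2
    - 108 * ζ ^ 33 * x ^ 13 * y ^ 2 + 108 * ζ ^ 29 * x ^ 13 * y ^ 2 - 108 * ζ ^ 28 * x ^ 13 * y ^ 2
    + 108 * ζ ^ 24 * x ^ 13 * y ^ 2 - 108 * ζ ^ 23 * x ^ 13 * y ^ 2 + 108 * ζ ^ 19 * x ^ 13 * y ^ 2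
    - 108 * ζ ^ 18 * x ^ 13 * y ^ 2 + 108 * ζ ^ 14 * x ^ 13 * y ^ 2 - 108 * ζ ^ 13 * x ^ 13 * y ^ 2
    + 108 * ζ ^ 9 * x ^ 13 * y ^ 2 - 108 * ζ ^ 8 * x ^ 13 * y ^ 2 + 108 * ζ ^ 4 * x ^ 13 * y ^ 2
    - 108 * ζ ^ 3 * x ^ 13 * y ^ 2 + 108 * ζ ^ 38 * x ^ 12 * y ^ 3 - 108 * ζ ^ 37 * x ^ 12 * y ^ 3
    + 108 * ζ ^ 33 * x ^ 12 * y ^ 3 - 108 * ζ ^ 32 * x ^ 12 * y ^ 3 + 108 * ζ ^ 28 * x ^ 12 * y ^ 3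
    - 108 * ζ ^ 27 * x ^ 12 * y ^ 3 + 108 * ζ ^ 23 * x ^ 12 * y ^ 3 - 108 * ζ ^ 22 * x ^ 12 * y ^ 3
    + 108 * ζ ^ 18 * x ^ 12 * y ^ 3 - 108 * ζ ^ 17 * x ^ 12 * y ^ 3 + 108 * ζ ^ 13 * x ^ 12 * y ^ 3
    - 108 * ζ ^ 12 * x ^ 12 * y ^ 3 + 108 * ζ ^ 8 * x ^ 12 * y ^ 3 - 108 * ζ ^ 7 * x ^ 12 * y ^ 3
    + 108 * ζ ^ 3 * x ^ 12 * y ^ 3 - 108 * ζ ^ 2 * x ^ 12 * y ^ 3 + 432 * ζ ^ 37 * x ^ 11 * y ^ 4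
    - 432 * ζ ^ 36 * x ^ 11 * y ^ 4 + 432 * ζ ^ 32 * x ^ 11 * y ^ 4 - 432 * ζ ^ 31 * x ^ 11 * y ^ 4
    + 432 * ζ ^ 27 * x ^ 11 * y ^ 4 - 432 * ζ ^ 26 * x ^ 11 * y ^ 4 + 432 * ζ ^ 22 * x ^ 11 * y ^ 4
    - 432 * ζ ^ 21 * x ^ 11 * y ^ 4 + 432 * ζ ^ 17 * x ^ 11 * y ^ 4 - 432 * ζ ^ 16 * x ^ 11 * y ^ 4
    + 432 * ζ ^ 12 * x ^ 11 * y ^ 4 - 432 * ζ ^ 11 * x ^ 11 * y ^ 4 + 432 * ζ ^ 7 * x ^ 11 * y ^ 4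
    - 432 * ζ ^ 6 * x ^ 11 * y ^ 4 + 432 * ζ ^ 2 * x ^ 11 * y ^ 4 - 432 * ζ * x ^ 11 * y ^ 4 + 540 * ζ ^ 35 * x ^ 9 * y ^ 6
    - 540 * ζ ^ 34 * x ^ 9 * y ^ 6 + 540 * ζ ^ 30 * x ^ 9 * y ^ 6 - 540 * ζ ^ 29 * x ^ 9 * y ^ 6
    + 540 * ζ ^ 25 * x ^ 9 * y ^ 6 - 540 * ζ ^ 24 * x ^ 9 * y ^ 6 + 540 * ζ ^ 20 * x ^ 9 * y ^ 6
    - 540 * ζ ^ 19 * x ^ 9 * y ^ 6 + 540 * ζ ^ 15 * x ^ 9 * y ^ 6 - 540 * ζ ^ 14 * x ^ 9 * y ^ 6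
    + 540 * ζ ^ 10 * x ^ 9 * y ^ 6 - 540 * ζ ^ 9 * x ^ 9 * y ^ 6 + 540 * ζ ^ 5 * x ^ 9 * y ^ 6 - 540 * ζ ^ 4 * x ^ 9 * y ^ 6
    + 540 * x ^ 9 * y ^ 6 + 648 * ζ ^ 34 * x ^ 8 * y ^ 7 - 648 * ζ ^ 33 * x ^ 8 * y ^ 7 + 648 * ζ ^ 29 * x ^ 8 * y ^ 7
    - 648 * ζ ^ 28 * x ^ 8 * y ^ 7 + 648 * ζ ^ 24 * x ^ 8 * y ^ 7 - 648 * ζ ^ 23 * x ^ 8 * y ^ 7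
    + 648 * ζ ^ 19 * x ^ 8 * y ^ 7 - 648 * ζ ^ 18 * x ^ 8 * y ^ 7 + 648 * ζ ^ 14 * x ^ 8 * y ^ 7
    - 648 * ζ ^ 13 * x ^ 8 * y ^ 7 + 648 * ζ ^ 9 * x ^ 8 * y ^ 7 - 648 * ζ ^ 8 * x ^ 8 * y ^ 7 + 648 * ζ ^ 4 * x ^ 8 * y ^ 7
    - 648 * ζ ^ 3 * x ^ 8 * y ^ 7 + 2268 * ζ ^ 33 * x ^ 7 * y ^ 8 - 2268 * ζ ^ 32 * x ^ 7 * y ^ 8
    + 2268 * ζ ^ 28 * x ^ 7 * y ^ 8 - 2268 * ζ ^ 27 * x ^ 7 * y ^ 8 + 2268 * ζ ^ 23 * x ^ 7 * y ^ 8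
    - 2268 * ζ ^ 22 * x ^ 7 * y ^ 8 + 2268 * ζ ^ 18 * x ^ 7 * y ^ 8 - 2268 * ζ ^ 17 * x ^ 7 * y ^ 8
    + 2268 * ζ ^ 13 * x ^ 7 * y ^ 8 - 2268 * ζ ^ 12 * x ^ 7 * y ^ 8 + 2268 * ζ ^ 8 * x ^ 7 * y ^ 8
    - 2268 * ζ ^ 7 * x ^ 7 * y ^ 8 + 2268 * ζ ^ 3 * x ^ 7 * y ^ 8 - 2268 * ζ ^ 2 * x ^ 7 * y ^ 8
    + 3132 * ζ ^ 32 * x ^ 6 * y ^ 9 - 3132 * ζ ^ 31 * x ^ 6 * y ^ 9 + 3132 * ζ ^ 27 * x ^ 6 * y ^ 9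
    - 3132 * ζ ^ 26 * x ^ 6 * y ^ 9 + 3132 * ζ ^ 22 * x ^ 6 * y ^ 9 - 3132 * ζ ^ 21 * x ^ 6 * y ^ 9
    + 3132 * ζ ^ 17 * x ^ 6 * y ^ 9 - 3132 * ζ ^ 16 * x ^ 6 * y ^ 9 + 3132 * ζ ^ 12 * x ^ 6 * y ^ 9
    - 3132 * ζ ^ 11 * x ^ 6 * y ^ 9 + 3132 * ζ ^ 7 * x ^ 6 * y ^ 9 - 3132 * ζ ^ 6 * x ^ 6 * y ^ 9
    + 3132 * ζ ^ 2 * x ^ 6 * y ^ 9 - 3132 * ζ * x ^ 6 * y ^ 9 + 2700 * ζ ^ 31 * x ^ 5 * y ^ 10 - 2700 * ζ ^ 30 * x ^ 5 * y ^ 10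
    + 2700 * ζ ^ 26 * x ^ 5 * y ^ 10 - 2700 * ζ ^ 25 * x ^ 5 * y ^ 10 + 2700 * ζ ^ 21 * x ^ 5 * y ^ 10
    - 2700 * ζ ^ 20 * x ^ 5 * y ^ 10 + 2700 * ζ ^ 16 * x ^ 5 * y ^ 10 - 2700 * ζ ^ 15 * x ^ 5 * y ^ 10
    + 2700 * ζ ^ 11 * x ^ 5 * y ^ 10 - 2700 * ζ ^ 10 * x ^ 5 * y ^ 10 + 2700 * ζ ^ 6 * x ^ 5 * y ^ 10
    - 2700 * ζ ^ 5 * x ^ 5 * y ^ 10 + 2700 * ζ * x ^ 5 * y ^ 10 - 2700 * x ^ 5 * y ^ 10 + 1620 * ζ ^ 30 * x ^ 4 * y ^ 11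
    - 1620 * ζ ^ 29 * x ^ 4 * y ^ 11 + 1620 * ζ ^ 25 * x ^ 4 * y ^ 11 - 1620 * ζ ^ 24 * x ^ 4 * y ^ 11
    + 1620 * ζ ^ 20 * x ^ 4 * y ^ 11 - 1620 * ζ ^ 19 * x ^ 4 * y ^ 11 + 1620 * ζ ^ 15 * x ^ 4 * y ^ 11
    - 1620 * ζ ^ 14 * x ^ 4 * y ^ 11 + 1620 * ζ ^ 10 * x ^ 4 * y ^ 11 - 1620 * ζ ^ 9 * x ^ 4 * y ^ 11
    + 1620 * ζ ^ 5 * x ^ 4 * y ^ 11 - 1620 * ζ ^ 4 * x ^ 4 * y ^ 11 + 1620 * x ^ 4 * y ^ 11 + 972 * ζ ^ 29 * x ^ 3 * y ^ 12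
    - 972 * ζ ^ 28 * x ^ 3 * y ^ 12 + 972 * ζ ^ 24 * x ^ 3 * y ^ 12 - 972 * ζ ^ 23 * x ^ 3 * y ^ 12
    + 972 * ζ ^ 19 * x ^ 3 * y ^ 12 - 972 * ζ ^ 18 * x ^ 3 * y ^ 12 + 972 * ζ ^ 14 * x ^ 3 * y ^ 12
    - 972 * ζ ^ 13 * x ^ 3 * y ^ 12 + 972 * ζ ^ 9 * x ^ 3 * y ^ 12 - 972 * ζ ^ 8 * x ^ 3 * y ^ 12
    + 972 * ζ ^ 4 * x ^ 3 * y ^ 12 - 972 * ζ ^ 3 * x ^ 3 * y ^ 12 + 432 * ζ ^ 28 * x ^ 2 * y ^ 13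
    - 432 * ζ ^ 27 * x ^ 2 * y ^ 13 + 432 * ζ ^ 23 * x ^ 2 * y ^ 13 - 432 * ζ ^ 22 * x ^ 2 * y ^ 13
    + 432 * ζ ^ 18 * x ^ 2 * y ^ 13 - 432 * ζ ^ 17 * x ^ 2 * y ^ 13 + 432 * ζ ^ 13 * x ^ 2 * y ^ 13
    - 432 * ζ ^ 12 * x ^ 2 * y ^ 13 + 432 * ζ ^ 8 * x ^ 2 * y ^ 13 - 432 * ζ ^ 7 * x ^ 2 * y ^ 13
    + 432 * ζ ^ 3 * x ^ 2 * y ^ 13 - 432 * ζ ^ 2 * x ^ 2 * y ^ 13 + 108 * ζ ^ 27 * x * y ^ 14 - 108 * ζ ^ 26 * x * y ^ 14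
    + 108 * ζ ^ 22 * x * y ^ 14 - 108 * ζ ^ 21 * x * y ^ 14 + 108 * ζ ^ 17 * x * y ^ 14 - 108 * ζ ^ 16 * x * y ^ 14
    + 108 * ζ ^ 12 * x * y ^ 14 - 108 * ζ ^ 11 * x * y ^ 14 + 108 * ζ ^ 7 * x * y ^ 14 - 108 * ζ ^ 6 * x * y ^ 14
    + 108 * ζ ^ 2 * x * y ^ 14 - 108 * ζ * x * y ^ 14) * hζ

theorem XQ5_T (hζ : ζ ^ 4 + ζ ^ 3 + ζ ^ 2 + ζ + 1 = 0) :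
    XQ5 ζ (ζ ^ 3 * x) (ζ ^ 2 * y) = XQ5 ζ x y := by
  simp only [XQ5]
  linear_combination
    (-36 * ζ ^ 29 * x ^ 10 + 36 * ζ ^ 27 * x ^ 10 - 93 * ζ ^ 26 * x ^ 10 + 93 * ζ ^ 25 * x ^ 10 - 36 * ζ ^ 24 * x ^ 10
    + 36 * ζ ^ 22 * x ^ 10 - 93 * ζ ^ 21 * x ^ 10 + 93 * ζ ^ 20 * x ^ 10 - 36 * ζ ^ 19 * x ^ 10 + 36 * ζ ^ 17 * x ^ 10
    - 93 * ζ ^ 16 * x ^ 10 + 93 * ζ ^ 15 * x ^ 10 - 36 * ζ ^ 14 * x ^ 10 + 36 * ζ ^ 12 * x ^ 10 - 93 * ζ ^ 11 * x ^ 10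
    + 93 * ζ ^ 10 * x ^ 10 - 36 * ζ ^ 9 * x ^ 10 + 36 * ζ ^ 7 * x ^ 10 - 93 * ζ ^ 6 * x ^ 10 + 93 * ζ ^ 5 * x ^ 10
    - 36 * ζ ^ 4 * x ^ 10 + 36 * ζ ^ 2 * x ^ 10 - 93 * ζ * x ^ 10 + 93 * x ^ 10 - 396 * ζ ^ 24 * x ^ 5 * y ^ 5
    + 396 * ζ ^ 22 * x ^ 5 * y ^ 5 - 198 * ζ ^ 21 * x ^ 5 * y ^ 5 + 198 * ζ ^ 20 * x ^ 5 * y ^ 5
    - 396 * ζ ^ 19 * x ^ 5 * y ^ 5 + 396 * ζ ^ 17 * x ^ 5 * y ^ 5 - 198 * ζ ^ 16 * x ^ 5 * y ^ 5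
    + 198 * ζ ^ 15 * x ^ 5 * y ^ 5 - 396 * ζ ^ 14 * x ^ 5 * y ^ 5 + 396 * ζ ^ 12 * x ^ 5 * y ^ 5
    - 198 * ζ ^ 11 * x ^ 5 * y ^ 5 + 198 * ζ ^ 10 * x ^ 5 * y ^ 5 - 396 * ζ ^ 9 * x ^ 5 * y ^ 5 + 396 * ζ ^ 7 * x ^ 5 * y ^ 5
    - 198 * ζ ^ 6 * x ^ 5 * y ^ 5 + 198 * ζ ^ 5 * x ^ 5 * y ^ 5 - 396 * ζ ^ 4 * x ^ 5 * y ^ 5 + 396 * ζ ^ 2 * x ^ 5 * y ^ 5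
    - 198 * ζ * x ^ 5 * y ^ 5 + 198 * x ^ 5 * y ^ 5 + 36 * ζ ^ 19 * y ^ 10 - 36 * ζ ^ 17 * y ^ 10
    - 57 * ζ ^ 16 * y ^ 10 + 57 * ζ ^ 15 * y ^ 10 + 36 * ζ ^ 14 * y ^ 10 - 36 * ζ ^ 12 * y ^ 10 - 57 * ζ ^ 11 * y ^ 10
    + 57 * ζ ^ 10 * y ^ 10 + 36 * ζ ^ 9 * y ^ 10 - 36 * ζ ^ 7 * y ^ 10 - 57 * ζ ^ 6 * y ^ 10 + 57 * ζ ^ 5 * y ^ 10
    + 36 * ζ ^ 4 * y ^ 10 - 36 * ζ ^ 2 * y ^ 10 - 57 * ζ * y ^ 10 + 57 * y ^ 10) * hζ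

theorem YQ5_T (hζ : ζ ^ 4 + ζ ^ 3 + ζ ^ 2 + ζ + 1 = 0) :
    YQ5 ζ (ζ ^ 3 * x) (ζ ^ 2 * y) = YQ5 ζ x y := by
  simp only [YQ5]
  linear_combination
    (-324 * ζ ^ 44 * x ^ 15 + 432 * ζ ^ 43 * x ^ 15 - 324 * ζ ^ 42 * x ^ 15 + 108 * ζ ^ 41 * x ^ 15
    + 108 * ζ ^ 40 * x ^ 15 - 324 * ζ ^ 39 * x ^ 15 + 432 * ζ ^ 38 * x ^ 15 - 324 * ζ ^ 37 * x ^ 15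
    + 108 * ζ ^ 36 * x ^ 15 + 108 * ζ ^ 35 * x ^ 15 - 324 * ζ ^ 34 * x ^ 15 + 432 * ζ ^ 33 * x ^ 15
    - 324 * ζ ^ 32 * x ^ 15 + 108 * ζ ^ 31 * x ^ 15 + 108 * ζ ^ 30 * x ^ 15 - 324 * ζ ^ 29 * x ^ 15
    + 432 * ζ ^ 28 * x ^ 15 - 324 * ζ ^ 27 * x ^ 15 + 108 * ζ ^ 26 * x ^ 15 + 108 * ζ ^ 25 * x ^ 15
    - 324 * ζ ^ 24 * x ^ 15 + 432 * ζ ^ 23 * x ^ 15 - 324 * ζ ^ 22 * x ^ 15 + 108 * ζ ^ 21 * x ^ 15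
    + 108 * ζ ^ 20 * x ^ 15 - 324 * ζ ^ 19 * x ^ 15 + 432 * ζ ^ 18 * x ^ 15 - 324 * ζ ^ 17 * x ^ 15
    + 108 * ζ ^ 16 * x ^ 15 + 108 * ζ ^ 15 * x ^ 15 - 324 * ζ ^ 14 * x ^ 15 + 432 * ζ ^ 13 * x ^ 15
    - 324 * ζ ^ 12 * x ^ 15 + 108 * ζ ^ 11 * x ^ 15 + 108 * ζ ^ 10 * x ^ 15 - 324 * ζ ^ 9 * x ^ 15
    + 432 * ζ ^ 8 * x ^ 15 - 324 * ζ ^ 7 * x ^ 15 + 108 * ζ ^ 6 * x ^ 15 + 108 * ζ ^ 5 * x ^ 15 - 324 * ζ ^ 4 * x ^ 15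
    + 432 * ζ ^ 3 * x ^ 15 - 324 * ζ ^ 2 * x ^ 15 + 108 * ζ * x ^ 15 + 108 * x ^ 15 - 3456 * ζ ^ 39 * x ^ 10 * y ^ 5
    + 4968 * ζ ^ 38 * x ^ 10 * y ^ 5 - 3456 * ζ ^ 37 * x ^ 10 * y ^ 5 + 972 * ζ ^ 36 * x ^ 10 * y ^ 5
    + 972 * ζ ^ 35 * x ^ 10 * y ^ 5 - 3456 * ζ ^ 34 * x ^ 10 * y ^ 5 + 4968 * ζ ^ 33 * x ^ 10 * y ^ 5
    - 3456 * ζ ^ 32 * x ^ 10 * y ^ 5 + 972 * ζ ^ 31 * x ^ 10 * y ^ 5 + 972 * ζ ^ 30 * x ^ 10 * y ^ 5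
    - 3456 * ζ ^ 29 * x ^ 10 * y ^ 5 + 4968 * ζ ^ 28 * x ^ 10 * y ^ 5 - 3456 * ζ ^ 27 * x ^ 10 * y ^ 5
    + 972 * ζ ^ 26 * x ^ 10 * y ^ 5 + 972 * ζ ^ 25 * x ^ 10 * y ^ 5 - 3456 * ζ ^ 24 * x ^ 10 * y ^ 5
    + 4968 * ζ ^ 23 * x ^ 10 * y ^ 5 - 3456 * ζ ^ 22 * x ^ 10 * y ^ 5 + 972 * ζ ^ 21 * x ^ 10 * y ^ 5
    + 972 * ζ ^ 20 * x ^ 10 * y ^ 5 - 3456 * ζ ^ 19 * x ^ 10 * y ^ 5 + 4968 * ζ ^ 18 * x ^ 10 * y ^ 5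
    - 3456 * ζ ^ 17 * x ^ 10 * y ^ 5 + 972 * ζ ^ 16 * x ^ 10 * y ^ 5 + 972 * ζ ^ 15 * x ^ 10 * y ^ 5
    - 3456 * ζ ^ 14 * x ^ 10 * y ^ 5 + 4968 * ζ ^ 13 * x ^ 10 * y ^ 5 - 3456 * ζ ^ 12 * x ^ 10 * y ^ 5
    + 972 * ζ ^ 11 * x ^ 10 * y ^ 5 + 972 * ζ ^ 10 * x ^ 10 * y ^ 5 - 3456 * ζ ^ 9 * x ^ 10 * y ^ 5
    + 4968 * ζ ^ 8 * x ^ 10 * y ^ 5 - 3456 * ζ ^ 7 * x ^ 10 * y ^ 5 + 972 * ζ ^ 6 * x ^ 10 * y ^ 5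
    + 972 * ζ ^ 5 * x ^ 10 * y ^ 5 - 3456 * ζ ^ 4 * x ^ 10 * y ^ 5 + 4968 * ζ ^ 3 * x ^ 10 * y ^ 5
    - 3456 * ζ ^ 2 * x ^ 10 * y ^ 5 + 972 * ζ * x ^ 10 * y ^ 5 + 972 * x ^ 10 * y ^ 5 + 1512 * ζ ^ 34 * x ^ 5 * y ^ 10
    + 1944 * ζ ^ 33 * x ^ 5 * y ^ 10 + 1512 * ζ ^ 32 * x ^ 5 * y ^ 10 - 2484 * ζ ^ 31 * x ^ 5 * y ^ 10
    - 2484 * ζ ^ 30 * x ^ 5 * y ^ 10 + 1512 * ζ ^ 29 * x ^ 5 * y ^ 10 + 1944 * ζ ^ 28 * x ^ 5 * y ^ 10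
    + 1512 * ζ ^ 27 * x ^ 5 * y ^ 10 - 2484 * ζ ^ 26 * x ^ 5 * y ^ 10 - 2484 * ζ ^ 25 * x ^ 5 * y ^ 10
    + 1512 * ζ ^ 24 * x ^ 5 * y ^ 10 + 1944 * ζ ^ 23 * x ^ 5 * y ^ 10 + 1512 * ζ ^ 22 * x ^ 5 * y ^ 10
    - 2484 * ζ ^ 21 * x ^ 5 * y ^ 10 - 2484 * ζ ^ 20 * x ^ 5 * y ^ 10 + 1512 * ζ ^ 19 * x ^ 5 * y ^ 10
    + 1944 * ζ ^ 18 * x ^ 5 * y ^ 10 + 1512 * ζ ^ 17 * x ^ 5 * y ^ 10 - 2484 * ζ ^ 16 * x ^ 5 * y ^ 10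
    - 2484 * ζ ^ 15 * x ^ 5 * y ^ 10 + 1512 * ζ ^ 14 * x ^ 5 * y ^ 10 + 1944 * ζ ^ 13 * x ^ 5 * y ^ 10
    + 1512 * ζ ^ 12 * x ^ 5 * y ^ 10 - 2484 * ζ ^ 11 * x ^ 5 * y ^ 10 - 2484 * ζ ^ 10 * x ^ 5 * y ^ 10
    + 1512 * ζ ^ 9 * x ^ 5 * y ^ 10 + 1944 * ζ ^ 8 * x ^ 5 * y ^ 10 + 1512 * ζ ^ 7 * x ^ 5 * y ^ 10
    - 2484 * ζ ^ 6 * x ^ 5 * y ^ 10 - 2484 * ζ ^ 5 * x ^ 5 * y ^ 10 + 1512 * ζ ^ 4 * x ^ 5 * y ^ 10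
    + 1944 * ζ ^ 3 * x ^ 5 * y ^ 10 + 1512 * ζ ^ 2 * x ^ 5 * y ^ 10 - 2484 * ζ * x ^ 5 * y ^ 10 - 2484 * x ^ 5 * y ^ 10
    - 108 * ζ ^ 29 * y ^ 15 - 216 * ζ ^ 28 * y ^ 15 - 108 * ζ ^ 27 * y ^ 15 + 216 * ζ ^ 26 * y ^ 15
    + 216 * ζ ^ 25 * y ^ 15 - 108 * ζ ^ 24 * y ^ 15 - 216 * ζ ^ 23 * y ^ 15 - 108 * ζ ^ 22 * y ^ 15
    + 216 * ζ ^ 21 * y ^ 15 + 216 * ζ ^ 20 * y ^ 15 - 108 * ζ ^ 19 * y ^ 15 - 216 * ζ ^ 18 * y ^ 15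
    - 108 * ζ ^ 17 * y ^ 15 + 216 * ζ ^ 16 * y ^ 15 + 216 * ζ ^ 15 * y ^ 15 - 108 * ζ ^ 14 * y ^ 15
    - 216 * ζ ^ 13 * y ^ 15 - 108 * ζ ^ 12 * y ^ 15 + 216 * ζ ^ 11 * y ^ 15 + 216 * ζ ^ 10 * y ^ 15
    - 108 * ζ ^ 9 * y ^ 15 - 216 * ζ ^ 8 * y ^ 15 - 108 * ζ ^ 7 * y ^ 15 + 216 * ζ ^ 6 * y ^ 15 + 216 * ζ ^ 5 * y ^ 15
    - 108 * ζ ^ 4 * y ^ 15 - 216 * ζ ^ 3 * y ^ 15 - 108 * ζ ^ 2 * y ^ 15 + 216 * ζ * y ^ 15 + 216 * y ^ 15) * hζ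

/-- Bezout cofactors of `HK` and `fK`. -/
def UhK (x y : R) : R :=
  3003 * x ^ 10 + 33022 * x ^ 5 * y ^ 5 - 3125 * y ^ 10

def VhK (x y : R) : R :=
  3003 * x ^ 19 - 684695 * x ^ 14 * y ^ 5 + 1485989 * x ^ 9 * y ^ 10 + 679478 * x ^ 4 * y ^ 15

/-- **Bezout**: `y · UhK · HK + VhK · fK = 5⁵ y³¹`. -/
theorem bezout_y : y * UhK x y * HK x y + VhK x y * fK x y = 3125 * y ^ 31 := by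
  simp only [UhK, VhK, HK, fK]; ring

/-- **Bezout**, the other variable (apply `S̃`). -/
theorem bezout_x : -x * UhK y (-x) * HK x y + VhK y (-x) * fK x y = -3125 * x ^ 31 := by
  simp only [UhK, VhK, HK, fK]; ring

end Fermat.Agent.S52K.Klein
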