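/-
S52K (3–5 switch), layer K2, part C: `P` at `5Ũ w` and the covariance of `J∇fK` under `5Ũ`.
GENERATED (helper34) from an exact computation in `ℚ(ζ₅)[x, y]`; every proof is `ring` or
`linear_combination` with `hζ : ζ⁴ + ζ³ + ζ² + ζ + 1 = 0`.
Notation: `Ũ = (1/5) [[uA, uB], [uB, -uA]]`, `T̃ = diag(ζ³, ζ²)`, `S̃ (x, y) = (y, -x)`.
-/
import Mathlib
import Fermat.Agent.S52K.KleinZetaTab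

set_option autoImplicit false
set_option maxHeartbeats 1600000

namespace Fermat.Agent.S52K.Klein

variable {R : Type*} [CommRing R] (ζ x y : R)

theorem XP_U5 (hζ : ζ ^ 4 + ζ ^ 3 + ζ ^ 2 + ζ + 1 = 0) :
    XP (uA ζ * x + uB ζ * y) (uB ζ * x - uA ζ * y) = 5 ^ 9 * XQ5 ζ x y := by
  simp only [XP, XQ5]
  linear_combination
    (3 * x ^ 10 + 36 * x ^ 9 * y + 72 * x ^ 8 * y ^ 2 + 108 * x ^ 7 * y ^ 3 + 180 * x ^ 6 * y ^ 4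
    + 90 * x ^ 5 * y ^ 5 + 72 * x ^ 4 * y ^ 6 - 36 * x ^ 3 * y ^ 7 + 36 * x ^ 2 * y ^ 8 + 3 * y ^ 10) * tab_10_0 ζ hζ +
    (36 * x ^ 10 + 114 * x ^ 9 * y + 144 * x ^ 7 * y ^ 3 - 306 * x ^ 6 * y ^ 4 - 648 * x ^ 5 * y ^ 5
    - 702 * x ^ 4 * y ^ 6 + 108 * x ^ 2 * y ^ 8 - 42 * x * y ^ 9) * tab_10_1 ζ hζ +
    (72 * x ^ 10 + 63 * x ^ 8 * y ^ 2 - 72 * x ^ 7 * y ^ 3 - 1224 * x ^ 6 * y ^ 4 - 738 * x ^ 5 * y ^ 5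
    + 1980 * x ^ 4 * y ^ 6 + 1656 * x ^ 3 * y ^ 7 - 9 * x ^ 2 * y ^ 8 - 108 * x * y ^ 9 + 36 * y ^ 10) * tab_10_2 ζ hζ +
    (108 * x ^ 10 + 144 * x ^ 9 * y - 72 * x ^ 8 * y ^ 2 - 1368 * x ^ 7 * y ^ 3 - 1980 * x ^ 6 * y ^ 4
    + 4464 * x ^ 5 * y ^ 5 + 2988 * x ^ 4 * y ^ 6 - 2664 * x ^ 3 * y ^ 7 - 1656 * x ^ 2 * y ^ 8 + 36 * y ^ 10) * tab_10_3 ζ hζ +
    (180 * x ^ 10 - 306 * x ^ 9 * y - 1224 * x ^ 8 * y ^ 2 - 1980 * x ^ 7 * y ^ 3 + 5526 * x ^ 6 * y ^ 4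
    + 5976 * x ^ 5 * y ^ 5 - 6282 * x ^ 4 * y ^ 6 - 2988 * x ^ 3 * y ^ 7 + 1980 * x ^ 2 * y ^ 8 + 702 * x * y ^ 9
    + 72 * y ^ 10) * tab_10_4 ζ hζ +
    (90 * x ^ 10 - 648 * x ^ 9 * y - 738 * x ^ 8 * y ^ 2 + 4464 * x ^ 7 * y ^ 3 + 5976 * x ^ 6 * y ^ 4
    - 7920 * x ^ 5 * y ^ 5 - 5976 * x ^ 4 * y ^ 6 + 4464 * x ^ 3 * y ^ 7 + 738 * x ^ 2 * y ^ 8 - 648 * x * y ^ 9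
    - 90 * y ^ 10) * tab_10_5 ζ hζ +
    (72 * x ^ 10 - 702 * x ^ 9 * y + 1980 * x ^ 8 * y ^ 2 + 2988 * x ^ 7 * y ^ 3 - 6282 * x ^ 6 * y ^ 4
    - 5976 * x ^ 5 * y ^ 5 + 5526 * x ^ 4 * y ^ 6 + 1980 * x ^ 3 * y ^ 7 - 1224 * x ^ 2 * y ^ 8 + 306 * x * y ^ 9
    + 180 * y ^ 10) * tab_10_6 ζ hζ +
    (-36 * x ^ 10 + 1656 * x ^ 8 * y ^ 2 - 2664 * x ^ 7 * y ^ 3 - 2988 * x ^ 6 * y ^ 4 + 4464 * x ^ 5 * y ^ 5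
    + 1980 * x ^ 4 * y ^ 6 - 1368 * x ^ 3 * y ^ 7 + 72 * x ^ 2 * y ^ 8 + 144 * x * y ^ 9 - 108 * y ^ 10) * tab_10_7 ζ hζ +
    (36 * x ^ 10 + 108 * x ^ 9 * y - 9 * x ^ 8 * y ^ 2 - 1656 * x ^ 7 * y ^ 3 + 1980 * x ^ 6 * y ^ 4
    + 738 * x ^ 5 * y ^ 5 - 1224 * x ^ 4 * y ^ 6 + 72 * x ^ 3 * y ^ 7 + 63 * x ^ 2 * y ^ 8 + 72 * y ^ 10) * tab_10_8 ζ hζ +
    (-42 * x ^ 9 * y - 108 * x ^ 8 * y ^ 2 + 702 * x ^ 6 * y ^ 4 - 648 * x ^ 5 * y ^ 5 + 306 * x ^ 4 * y ^ 6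
    + 144 * x ^ 3 * y ^ 7 + 114 * x * y ^ 9 - 36 * y ^ 10) * tab_10_9 ζ hζ +
    (3 * x ^ 10 + 36 * x ^ 8 * y ^ 2 + 36 * x ^ 7 * y ^ 3 + 72 * x ^ 6 * y ^ 4 - 90 * x ^ 5 * y ^ 5
    + 180 * x ^ 4 * y ^ 6 - 108 * x ^ 3 * y ^ 7 + 72 * x ^ 2 * y ^ 8 - 36 * x * y ^ 9 + 3 * y ^ 10) * tab_10_10 ζ hζ

theorem YP_U5 (hζ : ζ ^ 4 + ζ ^ 3 + ζ ^ 2 + ζ + 1 = 0) :
    YP (uA ζ * x + uB ζ * y) (uB ζ * x - uA ζ * y) = 5 ^ 14 * YQ5 ζ x y := by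
  simp only [YP, YQ5]
  linear_combination
    (108 * x ^ 14 * y + 432 * x ^ 13 * y ^ 2 + 972 * x ^ 12 * y ^ 3 + 1620 * x ^ 11 * y ^ 4 + 2700 * x ^ 10 * y ^ 5
    + 3132 * x ^ 9 * y ^ 6 + 2268 * x ^ 8 * y ^ 7 + 648 * x ^ 7 * y ^ 8 + 540 * x ^ 6 * y ^ 9 + 432 * x ^ 4 * y ^ 11
    + 108 * x ^ 3 * y ^ 12 + 108 * x ^ 2 * y ^ 13) * tab_15_0 ζ hζ +
    (108 * x ^ 15 + 864 * x ^ 14 * y + 1404 * x ^ 13 * y ^ 2 + 864 * x ^ 12 * y ^ 3 + 1836 * x ^ 11 * y ^ 4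
    + 972 * x ^ 10 * y ^ 5 - 11124 * x ^ 9 * y ^ 6 - 23004 * x ^ 8 * y ^ 7 - 13284 * x ^ 7 * y ^ 8
    - 4536 * x ^ 6 * y ^ 9 + 1512 * x ^ 5 * y ^ 10 + 1296 * x ^ 4 * y ^ 11 - 324 * x ^ 3 * y ^ 12
    - 324 * x ^ 2 * y ^ 13 - 216 * x * y ^ 14) * tab_15_1 ζ hζ +
    (432 * x ^ 15 + 1404 * x ^ 14 * y - 1512 * x ^ 13 * y ^ 2 + 1836 * x ^ 12 * y ^ 3 + 9396 * x ^ 11 * y ^ 4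
    - 23220 * x ^ 10 * y ^ 5 - 61884 * x ^ 9 * y ^ 6 + 13932 * x ^ 8 * y ^ 7 + 76464 * x ^ 7 * y ^ 8
    + 58104 * x ^ 6 * y ^ 9 + 20736 * x ^ 5 * y ^ 10 - 2484 * x ^ 4 * y ^ 11 - 3888 * x ^ 3 * y ^ 12
    - 216 * x ^ 2 * y ^ 13 + 324 * x * y ^ 14 + 108 * y ^ 15) * tab_15_2 ζ hζ +
    (972 * x ^ 15 + 864 * x ^ 14 * y + 1836 * x ^ 13 * y ^ 2 + 23112 * x ^ 12 * y ^ 3 - 37476 * x ^ 11 * y ^ 4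
    - 153684 * x ^ 10 * y ^ 5 + 57996 * x ^ 9 * y ^ 6 + 282204 * x ^ 8 * y ^ 7 + 75168 * x ^ 7 * y ^ 8
    - 130464 * x ^ 6 * y ^ 9 - 118260 * x ^ 5 * y ^ 10 - 44064 * x ^ 4 * y ^ 11 + 864 * x ^ 3 * y ^ 12
    + 3888 * x ^ 2 * y ^ 13 - 324 * x * y ^ 14 - 108 * y ^ 15) * tab_15_3 ζ hζ +
    (1620 * x ^ 15 + 1836 * x ^ 14 * y + 9396 * x ^ 13 * y ^ 2 - 37476 * x ^ 12 * y ^ 3 - 230904 * x ^ 11 * y ^ 4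
    + 114588 * x ^ 10 * y ^ 5 + 676944 * x ^ 9 * y ^ 6 + 65124 * x ^ 8 * y ^ 7 - 609444 * x ^ 7 * y ^ 8
    - 238356 * x ^ 6 * y ^ 9 + 141912 * x ^ 5 * y ^ 10 + 142344 * x ^ 4 * y ^ 11 + 44064 * x ^ 3 * y ^ 12
    - 2484 * x ^ 2 * y ^ 13 - 1296 * x * y ^ 14 + 432 * y ^ 15) * tab_15_4 ζ hζ +
    (2700 * x ^ 15 + 972 * x ^ 14 * y - 23220 * x ^ 13 * y ^ 2 - 153684 * x ^ 12 * y ^ 3 + 114588 * x ^ 11 * y ^ 4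
    + 951480 * x ^ 10 * y ^ 5 + 1188 * x ^ 9 * y ^ 6 - 1516320 * x ^ 8 * y ^ 7 - 352836 * x ^ 7 * y ^ 8
    + 823932 * x ^ 6 * y ^ 9 + 315360 * x ^ 5 * y ^ 10 - 141912 * x ^ 4 * y ^ 11 - 118260 * x ^ 3 * y ^ 12
    - 20736 * x ^ 2 * y ^ 13 + 1512 * x * y ^ 14) * tab_15_5 ζ hζ +
    (3132 * x ^ 15 - 11124 * x ^ 14 * y - 61884 * x ^ 13 * y ^ 2 + 57996 * x ^ 12 * y ^ 3 + 676944 * x ^ 11 * y ^ 4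
    + 1188 * x ^ 10 * y ^ 5 - 2113776 * x ^ 9 * y ^ 6 - 352836 * x ^ 8 * y ^ 7 + 2140344 * x ^ 7 * y ^ 8
    + 500256 * x ^ 6 * y ^ 9 - 823932 * x ^ 5 * y ^ 10 - 238356 * x ^ 4 * y ^ 11 + 130464 * x ^ 3 * y ^ 12
    + 58104 * x ^ 2 * y ^ 13 + 4536 * x * y ^ 14 + 540 * y ^ 15) * tab_15_6 ζ hζ +
    (2268 * x ^ 15 - 23004 * x ^ 14 * y + 13932 * x ^ 13 * y ^ 2 + 282204 * x ^ 12 * y ^ 3 + 65124 * x ^ 11 * y ^ 4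
    - 1516320 * x ^ 10 * y ^ 5 - 352836 * x ^ 9 * y ^ 6 + 2997648 * x ^ 8 * y ^ 7 + 542376 * x ^ 7 * y ^ 8
    - 2140344 * x ^ 6 * y ^ 9 - 352836 * x ^ 5 * y ^ 10 + 609444 * x ^ 4 * y ^ 11 + 75168 * x ^ 3 * y ^ 12
    - 76464 * x ^ 2 * y ^ 13 - 13284 * x * y ^ 14 - 648 * y ^ 15) * tab_15_7 ζ hζ +
    (648 * x ^ 15 - 13284 * x ^ 14 * y + 76464 * x ^ 13 * y ^ 2 + 75168 * x ^ 12 * y ^ 3 - 609444 * x ^ 11 * y ^ 4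
    - 352836 * x ^ 10 * y ^ 5 + 2140344 * x ^ 9 * y ^ 6 + 542376 * x ^ 8 * y ^ 7 - 2997648 * x ^ 7 * y ^ 8
    - 352836 * x ^ 6 * y ^ 9 + 1516320 * x ^ 5 * y ^ 10 + 65124 * x ^ 4 * y ^ 11 - 282204 * x ^ 3 * y ^ 12
    + 13932 * x ^ 2 * y ^ 13 + 23004 * x * y ^ 14 + 2268 * y ^ 15) * tab_15_8 ζ hζ +
    (540 * x ^ 15 - 4536 * x ^ 14 * y + 58104 * x ^ 13 * y ^ 2 - 130464 * x ^ 12 * y ^ 3 - 238356 * x ^ 11 * y ^ 4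
    + 823932 * x ^ 10 * y ^ 5 + 500256 * x ^ 9 * y ^ 6 - 2140344 * x ^ 8 * y ^ 7 - 352836 * x ^ 7 * y ^ 8
    + 2113776 * x ^ 6 * y ^ 9 + 1188 * x ^ 5 * y ^ 10 - 676944 * x ^ 4 * y ^ 11 + 57996 * x ^ 3 * y ^ 12
    + 61884 * x ^ 2 * y ^ 13 - 11124 * x * y ^ 14 - 3132 * y ^ 15) * tab_15_9 ζ hζ +
    (1512 * x ^ 14 * y + 20736 * x ^ 13 * y ^ 2 - 118260 * x ^ 12 * y ^ 3 + 141912 * x ^ 11 * y ^ 4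
    + 315360 * x ^ 10 * y ^ 5 - 823932 * x ^ 9 * y ^ 6 - 352836 * x ^ 8 * y ^ 7 + 1516320 * x ^ 7 * y ^ 8
    + 1188 * x ^ 6 * y ^ 9 - 951480 * x ^ 5 * y ^ 10 + 114588 * x ^ 4 * y ^ 11 + 153684 * x ^ 3 * y ^ 12
    - 23220 * x ^ 2 * y ^ 13 - 972 * x * y ^ 14 + 2700 * y ^ 15) * tab_15_10 ζ hζ +
    (432 * x ^ 15 + 1296 * x ^ 14 * y - 2484 * x ^ 13 * y ^ 2 - 44064 * x ^ 12 * y ^ 3 + 142344 * x ^ 11 * y ^ 4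
    - 141912 * x ^ 10 * y ^ 5 - 238356 * x ^ 9 * y ^ 6 + 609444 * x ^ 8 * y ^ 7 + 65124 * x ^ 7 * y ^ 8
    - 676944 * x ^ 6 * y ^ 9 + 114588 * x ^ 5 * y ^ 10 + 230904 * x ^ 4 * y ^ 11 - 37476 * x ^ 3 * y ^ 12
    - 9396 * x ^ 2 * y ^ 13 + 1836 * x * y ^ 14 - 1620 * y ^ 15) * tab_15_11 ζ hζ +
    (108 * x ^ 15 - 324 * x ^ 14 * y - 3888 * x ^ 13 * y ^ 2 + 864 * x ^ 12 * y ^ 3 + 44064 * x ^ 11 * y ^ 4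
    - 118260 * x ^ 10 * y ^ 5 + 130464 * x ^ 9 * y ^ 6 + 75168 * x ^ 8 * y ^ 7 - 282204 * x ^ 7 * y ^ 8
    + 57996 * x ^ 6 * y ^ 9 + 153684 * x ^ 5 * y ^ 10 - 37476 * x ^ 4 * y ^ 11 - 23112 * x ^ 3 * y ^ 12
    + 1836 * x ^ 2 * y ^ 13 - 864 * x * y ^ 14 + 972 * y ^ 15) * tab_15_12 ζ hζ +
    (108 * x ^ 15 - 324 * x ^ 14 * y - 216 * x ^ 13 * y ^ 2 + 3888 * x ^ 12 * y ^ 3 - 2484 * x ^ 11 * y ^ 4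
    - 20736 * x ^ 10 * y ^ 5 + 58104 * x ^ 9 * y ^ 6 - 76464 * x ^ 8 * y ^ 7 + 13932 * x ^ 7 * y ^ 8
    + 61884 * x ^ 6 * y ^ 9 - 23220 * x ^ 5 * y ^ 10 - 9396 * x ^ 4 * y ^ 11 + 1836 * x ^ 3 * y ^ 12
    + 1512 * x ^ 2 * y ^ 13 + 1404 * x * y ^ 14 - 432 * y ^ 15) * tab_15_13 ζ hζ +
    (-216 * x ^ 14 * y + 324 * x ^ 13 * y ^ 2 - 324 * x ^ 12 * y ^ 3 - 1296 * x ^ 11 * y ^ 4 + 1512 * x ^ 10 * y ^ 5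
    + 4536 * x ^ 9 * y ^ 6 - 13284 * x ^ 8 * y ^ 7 + 23004 * x ^ 7 * y ^ 8 - 11124 * x ^ 6 * y ^ 9
    - 972 * x ^ 5 * y ^ 10 + 1836 * x ^ 4 * y ^ 11 - 864 * x ^ 3 * y ^ 12 + 1404 * x ^ 2 * y ^ 13
    - 864 * x * y ^ 14 + 108 * y ^ 15) * tab_15_14 ζ hζ +
    (108 * x ^ 13 * y ^ 2 - 108 * x ^ 12 * y ^ 3 + 432 * x ^ 11 * y ^ 4 + 540 * x ^ 9 * y ^ 6 - 648 * x ^ 8 * y ^ 7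
    + 2268 * x ^ 7 * y ^ 8 - 3132 * x ^ 6 * y ^ 9 + 2700 * x ^ 5 * y ^ 10 - 1620 * x ^ 4 * y ^ 11
    + 972 * x ^ 3 * y ^ 12 - 432 * x ^ 2 * y ^ 13 + 108 * x * y ^ 14) * tab_15_15 ζ hζ

theorem cov_U5_1 (hζ : ζ ^ 4 + ζ ^ 3 + ζ ^ 2 + ζ + 1 = 0) :
    -fKy (uA ζ * x + uB ζ * y) (uB ζ * x - uA ζ * y) = 5 ^ 10 * (uA ζ * -fKy x y + uB ζ * fKx x y) := by
  simp only [fKx, fKy]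
  linear_combination
    (11 * x ^ 10 * y - 66 * x ^ 5 * y ^ 6 - y ^ 11) * tab_11_0 ζ hζ +
    (11 * x ^ 11 - 110 * x ^ 9 * y ^ 2 - 396 * x ^ 6 * y ^ 5 + 330 * x ^ 4 * y ^ 7 - 11 * x * y ^ 10) * tab_11_1 ζ hζ +
    (-110 * x ^ 10 * y + 495 * x ^ 8 * y ^ 3 - 990 * x ^ 7 * y ^ 4 + 1980 * x ^ 5 * y ^ 6 - 660 * x ^ 3 * y ^ 8
    - 55 * x ^ 2 * y ^ 9) * tab_11_2 ζ hζ +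
    (495 * x ^ 9 * y ^ 2 - 1320 * x ^ 8 * y ^ 3 - 1320 * x ^ 7 * y ^ 4 + 4950 * x ^ 6 * y ^ 5 - 3960 * x ^ 4 * y ^ 7
    - 165 * x ^ 3 * y ^ 8 + 660 * x ^ 2 * y ^ 9) * tab_11_3 ζ hζ +
    (-990 * x ^ 9 * y ^ 2 - 1320 * x ^ 8 * y ^ 3 + 6600 * x ^ 7 * y ^ 4 + 2310 * x ^ 6 * y ^ 5 - 9900 * x ^ 5 * y ^ 6
    - 330 * x ^ 4 * y ^ 7 + 3960 * x ^ 3 * y ^ 8 - 330 * x * y ^ 10) * tab_11_4 ζ hζ +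
    (-396 * x ^ 10 * y + 4950 * x ^ 8 * y ^ 3 + 2310 * x ^ 7 * y ^ 4 - 13200 * x ^ 6 * y ^ 5 - 3234 * x ^ 5 * y ^ 6
    + 9900 * x ^ 4 * y ^ 7 - 1980 * x ^ 2 * y ^ 9 + 66 * y ^ 11) * tab_11_5 ζ hζ +
    (-66 * x ^ 11 + 1980 * x ^ 9 * y ^ 2 - 9900 * x ^ 7 * y ^ 4 - 3234 * x ^ 6 * y ^ 5 + 13200 * x ^ 5 * y ^ 6
    + 2310 * x ^ 4 * y ^ 7 - 4950 * x ^ 3 * y ^ 8 + 396 * x * y ^ 10) * tab_11_6 ζ hζ +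
    (330 * x ^ 10 * y - 3960 * x ^ 8 * y ^ 3 - 330 * x ^ 7 * y ^ 4 + 9900 * x ^ 6 * y ^ 5 + 2310 * x ^ 5 * y ^ 6
    - 6600 * x ^ 4 * y ^ 7 - 1320 * x ^ 3 * y ^ 8 + 990 * x ^ 2 * y ^ 9) * tab_11_7 ζ hζ +
    (-660 * x ^ 9 * y ^ 2 - 165 * x ^ 8 * y ^ 3 + 3960 * x ^ 7 * y ^ 4 - 4950 * x ^ 5 * y ^ 6 - 1320 * x ^ 4 * y ^ 7
    + 1320 * x ^ 3 * y ^ 8 + 495 * x ^ 2 * y ^ 9) * tab_11_8 ζ hζ +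
    (-55 * x ^ 9 * y ^ 2 + 660 * x ^ 8 * y ^ 3 - 1980 * x ^ 6 * y ^ 5 + 990 * x ^ 4 * y ^ 7 + 495 * x ^ 3 * y ^ 8
    - 110 * x * y ^ 10) * tab_11_9 ζ hζ +
    (-11 * x ^ 10 * y - 330 * x ^ 7 * y ^ 4 + 396 * x ^ 5 * y ^ 6 - 110 * x ^ 2 * y ^ 9 + 11 * y ^ 11) * tab_11_10 ζ hζ +
    (-x ^ 11 + 66 * x ^ 6 * y ^ 5 + 11 * x * y ^ 10) * tab_11_11 ζ hζ +
    (9765625 * x ^ 11 + 644531250 * x ^ 6 * y ^ 5 - 107421875 * x * y ^ 10) * uA_def ζ +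
    (-107421875 * x ^ 10 * y - 644531250 * x ^ 5 * y ^ 6 + 9765625 * y ^ 11) * uB_def ζ

theorem cov_U5_2 (hζ : ζ ^ 4 + ζ ^ 3 + ζ ^ 2 + ζ + 1 = 0) :
    fKx (uA ζ * x + uB ζ * y) (uB ζ * x - uA ζ * y) = 5 ^ 10 * (uB ζ * -fKy x y - uA ζ * fKx x y) := by
  simp only [fKx, fKy]
  linear_combination
    (-x ^ 11 + 66 * x ^ 6 * y ^ 5 + 11 * x * y ^ 10) * tab_11_0 ζ hζ +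
    (11 * x ^ 10 * y + 330 * x ^ 7 * y ^ 4 - 396 * x ^ 5 * y ^ 6 + 110 * x ^ 2 * y ^ 9 - 11 * y ^ 11) * tab_11_1 ζ hζ +
    (-55 * x ^ 9 * y ^ 2 + 660 * x ^ 8 * y ^ 3 - 1980 * x ^ 6 * y ^ 5 + 990 * x ^ 4 * y ^ 7 + 495 * x ^ 3 * y ^ 8
    - 110 * x * y ^ 10) * tab_11_2 ζ hζ +
    (660 * x ^ 9 * y ^ 2 + 165 * x ^ 8 * y ^ 3 - 3960 * x ^ 7 * y ^ 4 + 4950 * x ^ 5 * y ^ 6 + 1320 * x ^ 4 * y ^ 7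
    - 1320 * x ^ 3 * y ^ 8 - 495 * x ^ 2 * y ^ 9) * tab_11_3 ζ hζ +
    (330 * x ^ 10 * y - 3960 * x ^ 8 * y ^ 3 - 330 * x ^ 7 * y ^ 4 + 9900 * x ^ 6 * y ^ 5 + 2310 * x ^ 5 * y ^ 6
    - 6600 * x ^ 4 * y ^ 7 - 1320 * x ^ 3 * y ^ 8 + 990 * x ^ 2 * y ^ 9) * tab_11_4 ζ hζ +
    (66 * x ^ 11 - 1980 * x ^ 9 * y ^ 2 + 9900 * x ^ 7 * y ^ 4 + 3234 * x ^ 6 * y ^ 5 - 13200 * x ^ 5 * y ^ 6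
    - 2310 * x ^ 4 * y ^ 7 + 4950 * x ^ 3 * y ^ 8 - 396 * x * y ^ 10) * tab_11_5 ζ hζ +
    (-396 * x ^ 10 * y + 4950 * x ^ 8 * y ^ 3 + 2310 * x ^ 7 * y ^ 4 - 13200 * x ^ 6 * y ^ 5 - 3234 * x ^ 5 * y ^ 6
    + 9900 * x ^ 4 * y ^ 7 - 1980 * x ^ 2 * y ^ 9 + 66 * y ^ 11) * tab_11_6 ζ hζ +
    (990 * x ^ 9 * y ^ 2 + 1320 * x ^ 8 * y ^ 3 - 6600 * x ^ 7 * y ^ 4 - 2310 * x ^ 6 * y ^ 5 + 9900 * x ^ 5 * y ^ 6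
    + 330 * x ^ 4 * y ^ 7 - 3960 * x ^ 3 * y ^ 8 + 330 * x * y ^ 10) * tab_11_7 ζ hζ +
    (495 * x ^ 9 * y ^ 2 - 1320 * x ^ 8 * y ^ 3 - 1320 * x ^ 7 * y ^ 4 + 4950 * x ^ 6 * y ^ 5 - 3960 * x ^ 4 * y ^ 7
    - 165 * x ^ 3 * y ^ 8 + 660 * x ^ 2 * y ^ 9) * tab_11_8 ζ hζ +
    (110 * x ^ 10 * y - 495 * x ^ 8 * y ^ 3 + 990 * x ^ 7 * y ^ 4 - 1980 * x ^ 5 * y ^ 6 + 660 * x ^ 3 * y ^ 8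
    + 55 * x ^ 2 * y ^ 9) * tab_11_9 ζ hζ +
    (11 * x ^ 11 - 110 * x ^ 9 * y ^ 2 - 396 * x ^ 6 * y ^ 5 + 330 * x ^ 4 * y ^ 7 - 11 * x * y ^ 10) * tab_11_10 ζ hζ +
    (-11 * x ^ 10 * y + 66 * x ^ 5 * y ^ 6 + y ^ 11) * tab_11_11 ζ hζ +
    (107421875 * x ^ 10 * y + 644531250 * x ^ 5 * y ^ 6 - 9765625 * y ^ 11) * uA_def ζ +
    (9765625 * x ^ 11 + 644531250 * x ^ 6 * y ^ 5 - 107421875 * x * y ^ 10) * uB_def ζ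

end Fermat.Agent.S52K.Klein
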