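/-
S52K (3–5 switch), layer K2: the identities over `ℤ[ζ₅]` behind the level structure of Klein's
family.  The heavy ring identities are in `KleinZetaA`–`KleinZetaE`; this file
holds the field-level statements.  GENERATED (helper34) from an exact computation in `ℚ(ζ₅)[x, y]`; every proof is `ring` or
`linear_combination e * hζ` with `hζ : ζ⁴ + ζ³ + ζ² + ζ + 1 = 0`.

Notation: `Ũ = (1/5) [[uA, uB], [uB, -uA]]`, `T̃ = diag(ζ³, ζ²)`, `S̃ (x, y) = (y, -x)`.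
* `fK_U, HK_U, TK_U, fK_T, HK_T, TK_T` : invariance of the forms;
* `cov_U_1, cov_U_2, cov_T_1, cov_T_2` : covariance of `J∇fK = (-fKy, fKx)`;
* `XP_U, YP_U` : `P_{Ũ w} = (XQ, YQ)`; `XP_T, YP_T` : `P_{T̃ w} = (XPT, YPT)`; `XQ_T, YQ_T`;
* `chord_X, chord_Y` : `P_{T̃ w} = P_w + Q_w` (chord formulas with denominators cleared);
* `XQ_sub_XP, XQ_sub_X2P` : `X(Q) ≠ X(P), X(2P)` (cofactor identities with `fK²`);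
* `XQ_sub_S, XQ_add_S, s5_sq` : the shape of `X(Q)` and `X(2Q)`;
* `uA_sq_add, uA_zeta_sq, uB_zeta_sq, zeta_pow_five` : `det Ũ = 1`, `Ũ_{ζ²} = S̃ Ũ_ζ`, `ζ⁵ = 1`;
* `bezout_y, bezout_x` : `HK`, `fK` generate `(5⁵ y³¹, 5⁵ x³¹)`.
-/
import Mathlib
import Fermat.Agent.S52K.KleinZetaA
import Fermat.Agent.S52K.KleinZetaB
import Fermat.Agent.S52K.KleinZetaC
import Fermat.Agent.S52K.KleinZetaE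

set_option autoImplicit false
set_option maxHeartbeats 1600000

namespace Fermat.Agent.S52K.Klein

section field

set_option linter.unusedSectionVars false

variable {K : Type*} [Field K] [CharZero K] (ζ x y : K)

/-- `X(Q_w)`, `Q_w = P_{Ũ w}`. -/
def XQ (ζ x y : K) : K := XQ5 ζ x y / 5

/-- `Y(Q_w)`. -/
def YQ (ζ x y : K) : K := YQ5 ζ x y / 5

/-- The cofactor of `X(Q) - X(P)` in `fK²`. -/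
def G1K (ζ x y : K) : K :=
  (1 / 36) * ζ ^ 3 * x ^ 12 * y ^ 2 + (1 / 36) * ζ ^ 2 * x ^ 12 * y ^ 2 - (1 / 18) * x ^ 12 * y ^ 2
  - (5 / 36) * ζ ^ 3 * x ^ 10 * y ^ 4 - (5 / 36) * ζ ^ 2 * x ^ 10 * y ^ 4 + (5 / 36) * x ^ 10 * y ^ 4
  + (5 / 36) * ζ ^ 3 * x ^ 9 * y ^ 5 + (5 / 36) * ζ ^ 2 * x ^ 9 * y ^ 5 - (5 / 36) * x ^ 9 * y ^ 5
  + (5 / 18) * ζ ^ 3 * x ^ 8 * y ^ 6 + (5 / 18) * ζ ^ 2 * x ^ 8 * y ^ 6 - (5 / 36) * x ^ 8 * y ^ 6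
  - (7 / 18) * ζ ^ 3 * x ^ 7 * y ^ 7 - (7 / 18) * ζ ^ 2 * x ^ 7 * y ^ 7 - (7 / 36) * x ^ 7 * y ^ 7
  + (5 / 18) * ζ ^ 3 * x ^ 5 * y ^ 9 + (5 / 18) * ζ ^ 2 * x ^ 5 * y ^ 9 + (5 / 12) * x ^ 5 * y ^ 9
  - (5 / 18) * ζ ^ 3 * x ^ 4 * y ^ 10 - (5 / 18) * ζ ^ 2 * x ^ 4 * y ^ 10 - (5 / 12) * x ^ 4 * y ^ 10
  + (5 / 36) * ζ ^ 3 * x ^ 3 * y ^ 11 + (5 / 36) * ζ ^ 2 * x ^ 3 * y ^ 11 + (5 / 18) * x ^ 3 * y ^ 11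
  - (1 / 36) * ζ ^ 3 * x ^ 2 * y ^ 12 - (1 / 36) * ζ ^ 2 * x ^ 2 * y ^ 12 - (1 / 12) * x ^ 2 * y ^ 12

/-- The cofactor of `X(Q) - X(2P)` in `fK²`. -/
def G2K (ζ x y : K) : K :=
  (1 / 36) * ζ ^ 3 * x ^ 12 * y ^ 2 + (1 / 36) * ζ ^ 2 * x ^ 12 * y ^ 2 - (1 / 18) * x ^ 12 * y ^ 2
  + (5 / 36) * ζ ^ 3 * x ^ 11 * y ^ 3 + (5 / 36) * ζ ^ 2 * x ^ 11 * y ^ 3 - (5 / 36) * x ^ 11 * y ^ 3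
  + (5 / 18) * ζ ^ 3 * x ^ 10 * y ^ 4 + (5 / 18) * ζ ^ 2 * x ^ 10 * y ^ 4 - (5 / 36) * x ^ 10 * y ^ 4
  + (5 / 18) * ζ ^ 3 * x ^ 9 * y ^ 5 + (5 / 18) * ζ ^ 2 * x ^ 9 * y ^ 5 - (5 / 36) * x ^ 9 * y ^ 5
  - (7 / 18) * ζ ^ 3 * x ^ 7 * y ^ 7 - (7 / 18) * ζ ^ 2 * x ^ 7 * y ^ 7 - (7 / 36) * x ^ 7 * y ^ 7
  - (5 / 18) * ζ ^ 3 * x ^ 6 * y ^ 8 - (5 / 18) * ζ ^ 2 * x ^ 6 * y ^ 8 - (5 / 12) * x ^ 6 * y ^ 8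
  + (5 / 36) * ζ ^ 3 * x ^ 5 * y ^ 9 + (5 / 36) * ζ ^ 2 * x ^ 5 * y ^ 9 + (5 / 18) * x ^ 5 * y ^ 9
  + (5 / 36) * ζ ^ 3 * x ^ 4 * y ^ 10 + (5 / 36) * ζ ^ 2 * x ^ 4 * y ^ 10 + (5 / 18) * x ^ 4 * y ^ 10
  - (1 / 36) * ζ ^ 3 * x ^ 2 * y ^ 12 - (1 / 36) * ζ ^ 2 * x ^ 2 * y ^ 12 - (1 / 12) * x ^ 2 * y ^ 12

theorem fK_U (hζ : ζ ^ 4 + ζ ^ 3 + ζ ^ 2 + ζ + 1 = 0) :
    fK ((uA ζ * x + uB ζ * y) / 5) ((uB ζ * x - uA ζ * y) / 5) = fK x y := by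
  have h5 : (5 : K) ≠ 0 := by norm_num
  rw [div_eq_inv_mul, div_eq_inv_mul, fK_smul, fK_U5 ζ x y hζ]
  field_simp

theorem HK_U (hζ : ζ ^ 4 + ζ ^ 3 + ζ ^ 2 + ζ + 1 = 0) :
    HK ((uA ζ * x + uB ζ * y) / 5) ((uB ζ * x - uA ζ * y) / 5) = HK x y := by
  have h5 : (5 : K) ≠ 0 := by norm_num
  rw [div_eq_inv_mul, div_eq_inv_mul, HK_smul, HK_U5 ζ x y hζ]
  field_simp

theorem TK_U (hζ : ζ ^ 4 + ζ ^ 3 + ζ ^ 2 + ζ + 1 = 0) :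
    TK ((uA ζ * x + uB ζ * y) / 5) ((uB ζ * x - uA ζ * y) / 5) = TK x y := by
  have h5 : (5 : K) ≠ 0 := by norm_num
  rw [div_eq_inv_mul, div_eq_inv_mul, TK_smul, TK_U5 ζ x y hζ]
  field_simp

theorem XP_U (hζ : ζ ^ 4 + ζ ^ 3 + ζ ^ 2 + ζ + 1 = 0) :
    XP ((uA ζ * x + uB ζ * y) / 5) ((uB ζ * x - uA ζ * y) / 5) = XQ ζ x y := by
  have h5 : (5 : K) ≠ 0 := by norm_num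
  rw [div_eq_inv_mul, div_eq_inv_mul, XP_smul, XP_U5 ζ x y hζ, XQ]
  field_simp

theorem YP_U (hζ : ζ ^ 4 + ζ ^ 3 + ζ ^ 2 + ζ + 1 = 0) :
    YP ((uA ζ * x + uB ζ * y) / 5) ((uB ζ * x - uA ζ * y) / 5) = YQ ζ x y := by
  have h5 : (5 : K) ≠ 0 := by norm_num
  rw [div_eq_inv_mul, div_eq_inv_mul, YP_smul, YP_U5 ζ x y hζ, YQ]
  field_simp

theorem cov_U_1 (hζ : ζ ^ 4 + ζ ^ 3 + ζ ^ 2 + ζ + 1 = 0) :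
    -fKy ((uA ζ * x + uB ζ * y) / 5) ((uB ζ * x - uA ζ * y) / 5) = (uA ζ * -fKy x y + uB ζ * fKx x y) / 5 := by
  have h5 : (5 : K) ≠ 0 := by norm_num
  have h := cov_U5_1 ζ x y hζ
  have h2 : fKy (uA ζ * x + uB ζ * y) (uB ζ * x - uA ζ * y)
      = -(5 ^ 10 * (uA ζ * -fKy x y + uB ζ * fKx x y)) := by linear_combination -h
  rw [div_eq_inv_mul, div_eq_inv_mul, fKy_smul, h2]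
  have e : ((5 : K)⁻¹) ^ 11 * 5 ^ 10 = 5⁻¹ := by field_simp
  linear_combination (uA ζ * -fKy x y + uB ζ * fKx x y) * e

theorem cov_U_2 (hζ : ζ ^ 4 + ζ ^ 3 + ζ ^ 2 + ζ + 1 = 0) :
    fKx ((uA ζ * x + uB ζ * y) / 5) ((uB ζ * x - uA ζ * y) / 5) = (uB ζ * -fKy x y - uA ζ * fKx x y) / 5 := by
  have h5 : (5 : K) ≠ 0 := by norm_num
  have h := cov_U5_2 ζ x y hζ
  rw [div_eq_inv_mul, div_eq_inv_mul, fKx_smul, h]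
  have e : ((5 : K)⁻¹) ^ 11 * 5 ^ 10 = 5⁻¹ := by field_simp
  linear_combination (uB ζ * -fKy x y - uA ζ * fKx x y) * e

theorem XQ_T (hζ : ζ ^ 4 + ζ ^ 3 + ζ ^ 2 + ζ + 1 = 0) : XQ ζ (ζ ^ 3 * x) (ζ ^ 2 * y) = XQ ζ x y := by
  rw [XQ, XQ, XQ5_T ζ x y hζ]

theorem YQ_T (hζ : ζ ^ 4 + ζ ^ 3 + ζ ^ 2 + ζ + 1 = 0) : YQ ζ (ζ ^ 3 * x) (ζ ^ 2 * y) = YQ ζ x y := by
  rw [YQ, YQ, YQ5_T ζ x y hζ]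

/-- **Chord identity, `X`**: `X(P_{T̃ w}) = λ² - X(P) - X(Q)`, `λ = (Y(P) - Y(Q)) / (X(P) - X(Q))`. -/
theorem chord_X (hζ : ζ ^ 4 + ζ ^ 3 + ζ ^ 2 + ζ + 1 = 0) :
    XPT ζ x y * (XP x y - XQ ζ x y) ^ 2 =
      (YP x y - YQ ζ x y) ^ 2 - (XP x y + XQ ζ x y) * (XP x y - XQ ζ x y) ^ 2 := by
  have h := chord_X5 ζ x y hζ
  rw [XQ, YQ]
  field_simp
  linear_combination h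

/-- **Chord identity, `Y`**: `Y(P_{T̃ w}) = -(λ (X(P_{T̃ w}) - X(P)) + Y(P))`. -/
theorem chord_Y (hζ : ζ ^ 4 + ζ ^ 3 + ζ ^ 2 + ζ + 1 = 0) :
    YPT ζ x y * (XP x y - XQ ζ x y) =
      -((YP x y - YQ ζ x y) * (XPT ζ x y - XP x y) + YP x y * (XP x y - XQ ζ x y)) := by
  have h := chord_Y5 ζ x y hζ
  rw [XQ, YQ]
  field_simp
  linear_combination h

/-- `X(Q) - X(P)` divides `fK²`. -/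
theorem XQ_sub_XP (hζ : ζ ^ 4 + ζ ^ 3 + ζ ^ 2 + ζ + 1 = 0) :
    (XQ ζ x y - XP x y) * G1K ζ x y = fK x y ^ 2 := by
  simp only [XQ, XQ5, XP, G1K, fK]
  linear_combination
    (-(1 / 5) * ζ ^ 2 * x ^ 22 * y ^ 2 - (1 / 5) * ζ * x ^ 22 * y ^ 2 + (1 / 5) * x ^ 22 * y ^ 2
    + ζ ^ 2 * x ^ 20 * y ^ 4 + ζ * x ^ 20 * y ^ 4 - x ^ 20 * y ^ 4 - ζ ^ 2 * x ^ 19 * y ^ 5 - ζ * x ^ 19 * y ^ 5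
    + x ^ 19 * y ^ 5 - 2 * ζ ^ 2 * x ^ 18 * y ^ 6 - 2 * ζ * x ^ 18 * y ^ 6 + 2 * x ^ 18 * y ^ 6 + (3 / 5) * ζ ^ 2 * x ^ 17 * y ^ 7
    + (3 / 5) * ζ * x ^ 17 * y ^ 7 - (3 / 5) * x ^ 17 * y ^ 7 + 9 * ζ ^ 2 * x ^ 15 * y ^ 9 + 9 * ζ * x ^ 15 * y ^ 9
    - 9 * x ^ 15 * y ^ 9 - 9 * ζ ^ 2 * x ^ 14 * y ^ 10 - 9 * ζ * x ^ 14 * y ^ 10 + 9 * x ^ 14 * y ^ 10
    - 23 * ζ ^ 2 * x ^ 13 * y ^ 11 - 23 * ζ * x ^ 13 * y ^ 11 + 23 * x ^ 13 * y ^ 11 + (156 / 5) * ζ ^ 2 * x ^ 12 * y ^ 12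
    + (156 / 5) * ζ * x ^ 12 * y ^ 12 - (156 / 5) * x ^ 12 * y ^ 12 - 23 * ζ ^ 2 * x ^ 10 * y ^ 14
    - 23 * ζ * x ^ 10 * y ^ 14 + 23 * x ^ 10 * y ^ 14 + 23 * ζ ^ 2 * x ^ 9 * y ^ 15 + 23 * ζ * x ^ 9 * y ^ 15
    - 23 * x ^ 9 * y ^ 15 - 9 * ζ ^ 2 * x ^ 8 * y ^ 16 - 9 * ζ * x ^ 8 * y ^ 16 + 9 * x ^ 8 * y ^ 16
    - (3 / 5) * ζ ^ 2 * x ^ 7 * y ^ 17 - (3 / 5) * ζ * x ^ 7 * y ^ 17 + (3 / 5) * x ^ 7 * y ^ 17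
    + 2 * ζ ^ 2 * x ^ 5 * y ^ 19 + 2 * ζ * x ^ 5 * y ^ 19 - 2 * x ^ 5 * y ^ 19 - 2 * ζ ^ 2 * x ^ 4 * y ^ 20
    - 2 * ζ * x ^ 4 * y ^ 20 + 2 * x ^ 4 * y ^ 20 + ζ ^ 2 * x ^ 3 * y ^ 21 + ζ * x ^ 3 * y ^ 21 - x ^ 3 * y ^ 21
    - (1 / 5) * ζ ^ 2 * x ^ 2 * y ^ 22 - (1 / 5) * ζ * x ^ 2 * y ^ 22 + (1 / 5) * x ^ 2 * y ^ 22) * hζ

/-- `X(Q) - X(2P)` divides `fK²` (`X(2P) = XP y (-x)`). -/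
theorem XQ_sub_X2P (hζ : ζ ^ 4 + ζ ^ 3 + ζ ^ 2 + ζ + 1 = 0) :
    (XQ ζ x y - XP y (-x)) * G2K ζ x y = fK x y ^ 2 := by
  simp only [XQ, XQ5, XP, G2K, fK]
  linear_combination
    (-(1 / 5) * ζ ^ 2 * x ^ 22 * y ^ 2 - (1 / 5) * ζ * x ^ 22 * y ^ 2 + (1 / 5) * x ^ 22 * y ^ 2
    - ζ ^ 2 * x ^ 21 * y ^ 3 - ζ * x ^ 21 * y ^ 3 + x ^ 21 * y ^ 3 - 2 * ζ ^ 2 * x ^ 20 * y ^ 4 - 2 * ζ * x ^ 20 * y ^ 4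
    + 2 * x ^ 20 * y ^ 4 - 2 * ζ ^ 2 * x ^ 19 * y ^ 5 - 2 * ζ * x ^ 19 * y ^ 5 + 2 * x ^ 19 * y ^ 5
    + (3 / 5) * ζ ^ 2 * x ^ 17 * y ^ 7 + (3 / 5) * ζ * x ^ 17 * y ^ 7 - (3 / 5) * x ^ 17 * y ^ 7
    - 9 * ζ ^ 2 * x ^ 16 * y ^ 8 - 9 * ζ * x ^ 16 * y ^ 8 + 9 * x ^ 16 * y ^ 8 - 23 * ζ ^ 2 * x ^ 15 * y ^ 9
    - 23 * ζ * x ^ 15 * y ^ 9 + 23 * x ^ 15 * y ^ 9 - 23 * ζ ^ 2 * x ^ 14 * y ^ 10 - 23 * ζ * x ^ 14 * y ^ 10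
    + 23 * x ^ 14 * y ^ 10 + (156 / 5) * ζ ^ 2 * x ^ 12 * y ^ 12 + (156 / 5) * ζ * x ^ 12 * y ^ 12
    - (156 / 5) * x ^ 12 * y ^ 12 + 23 * ζ ^ 2 * x ^ 11 * y ^ 13 + 23 * ζ * x ^ 11 * y ^ 13 - 23 * x ^ 11 * y ^ 13
    - 9 * ζ ^ 2 * x ^ 10 * y ^ 14 - 9 * ζ * x ^ 10 * y ^ 14 + 9 * x ^ 10 * y ^ 14 - 9 * ζ ^ 2 * x ^ 9 * y ^ 15
    - 9 * ζ * x ^ 9 * y ^ 15 + 9 * x ^ 9 * y ^ 15 - (3 / 5) * ζ ^ 2 * x ^ 7 * y ^ 17 - (3 / 5) * ζ * x ^ 7 * y ^ 17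
    + (3 / 5) * x ^ 7 * y ^ 17 - 2 * ζ ^ 2 * x ^ 6 * y ^ 18 - 2 * ζ * x ^ 6 * y ^ 18 + 2 * x ^ 6 * y ^ 18
    + ζ ^ 2 * x ^ 5 * y ^ 19 + ζ * x ^ 5 * y ^ 19 - x ^ 5 * y ^ 19 + ζ ^ 2 * x ^ 4 * y ^ 20 + ζ * x ^ 4 * y ^ 20
    - x ^ 4 * y ^ 20 - (1 / 5) * ζ ^ 2 * x ^ 2 * y ^ 22 - (1 / 5) * ζ * x ^ 2 * y ^ 22 + (1 / 5) * x ^ 2 * y ^ 22) * hζ

/-- `X(Q) - X(2Q)`: `X(2Q_w) = XQ ζ y (-x)`. -/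
theorem XQ_sub_S : XQ ζ x y - XQ ζ y (-x) = 36 / 5 * s5 ζ * (x ^ 10 + 11 * x ^ 5 * y ^ 5 - y ^ 10) := by
  simp only [XQ, XQ5, s5]; ring

/-- `X(Q) + X(2Q)`. -/
theorem XQ_add_S : XQ ζ x y + XQ ζ y (-x) = -30 * (x ^ 10 + y ^ 10) := by
  simp only [XQ, XQ5]; ring

end field

end Fermat.Agent.S52K.Klein
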