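/-
S52K (3–5 switch), layer K2, part E: identities over `ℤ[ζ₅]` behind the level structure of
Klein's family (the chord identities).  GENERATED (helper34) from an exact computation in `ℚ(ζ₅)[x, y]`; every
proof is `ring` or `linear_combination e * hζ` with `hζ : ζ⁴ + ζ³ + ζ² + ζ + 1 = 0`.
Notation: `Ũ = (1/5) [[uA, uB], [uB, -uA]]`, `T̃ = diag(ζ³, ζ²)`, `S̃ (x, y) = (y, -x)`.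
-/
import Mathlib
import Fermat.Agent.S52K.KleinForms

set_option autoImplicit false
set_option maxHeartbeats 1600000

namespace Fermat.Agent.S52K.Klein

variable {R : Type*} [CommRing R] (ζ x y : R)

theorem chord_X5 (hζ : ζ ^ 4 + ζ ^ 3 + ζ ^ 2 + ζ + 1 = 0) :
    5 * XPT ζ x y * (5 * XP x y - XQ5 ζ x y) ^ 2 =
      5 * (5 * YP x y - YQ5 ζ x y) ^ 2 - (5 * XP x y + XQ5 ζ x y) * (5 * XP x y - XQ5 ζ x y) ^ 2 := by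
  simp only [XP, YP, XPT, XQ5, YQ5]
  linear_combination
    (-46656 * ζ ^ 5 * x ^ 30 - 93312 * ζ ^ 4 * x ^ 30 - 793152 * ζ ^ 2 * x ^ 30 + 559872 * ζ * x ^ 30
    - 793152 * x ^ 30 + 233280 * ζ ^ 5 * x ^ 28 * y ^ 2 + 233280 * ζ ^ 4 * x ^ 28 * y ^ 2 - 233280 * ζ ^ 3 * x ^ 28 * y ^ 2
    + 933120 * ζ ^ 2 * x ^ 28 * y ^ 2 - 233280 * ζ * x ^ 28 * y ^ 2 - 933120 * x ^ 28 * y ^ 2 - 233280 * ζ ^ 4 * x ^ 27 * y ^ 3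
    - 233280 * ζ ^ 3 * x ^ 27 * y ^ 3 + 466560 * ζ ^ 2 * x ^ 27 * y ^ 3 - 933120 * ζ * x ^ 27 * y ^ 3
    - 233280 * x ^ 27 * y ^ 3 + 466560 * ζ ^ 3 * x ^ 26 * y ^ 4 + 2332800 * ζ ^ 2 * x ^ 26 * y ^ 4
    - 933120 * ζ * x ^ 26 * y ^ 4 + 466560 * x ^ 26 * y ^ 4 - 1539648 * ζ ^ 5 * x ^ 25 * y ^ 5 - 3079296 * ζ ^ 4 * x ^ 25 * y ^ 5
    - 19175616 * ζ ^ 2 * x ^ 25 * y ^ 5 + 10310976 * ζ * x ^ 25 * y ^ 5 - 14510016 * x ^ 25 * y ^ 5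
    - 1166400 * ζ ^ 5 * x ^ 24 * y ^ 6 - 2332800 * ζ ^ 4 * x ^ 24 * y ^ 6 - 1166400 * ζ ^ 3 * x ^ 24 * y ^ 6
    - 3499200 * ζ ^ 2 * x ^ 24 * y ^ 6 - 4665600 * ζ * x ^ 24 * y ^ 6 + 2332800 * x ^ 24 * y ^ 6
    + 5832000 * ζ ^ 5 * x ^ 23 * y ^ 7 + 5832000 * ζ ^ 4 * x ^ 23 * y ^ 7 - 5832000 * ζ ^ 3 * x ^ 23 * y ^ 7
    + 16329600 * ζ ^ 2 * x ^ 23 * y ^ 7 - 10497600 * ζ * x ^ 23 * y ^ 7 - 20995200 * x ^ 23 * y ^ 7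
    - 4665600 * ζ ^ 4 * x ^ 22 * y ^ 8 - 4665600 * ζ ^ 3 * x ^ 22 * y ^ 8 + 9331200 * ζ ^ 2 * x ^ 22 * y ^ 8
    - 23328000 * ζ * x ^ 22 * y ^ 8 - 6998400 * x ^ 22 * y ^ 8 + 10497600 * ζ ^ 3 * x ^ 21 * y ^ 9
    + 51321600 * ζ ^ 2 * x ^ 21 * y ^ 9 - 20995200 * ζ * x ^ 21 * y ^ 9 + 9331200 * x ^ 21 * y ^ 9
    - 16796160 * ζ ^ 5 * x ^ 20 * y ^ 10 - 33592320 * ζ ^ 4 * x ^ 20 * y ^ 10 - 132736320 * ζ ^ 2 * x ^ 20 * y ^ 10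
    + 21928320 * ζ * x ^ 20 * y ^ 10 - 30093120 * x ^ 20 * y ^ 10 - 25660800 * ζ ^ 5 * x ^ 19 * y ^ 11
    - 51321600 * ζ ^ 4 * x ^ 19 * y ^ 11 - 25660800 * ζ ^ 3 * x ^ 19 * y ^ 11 - 76982400 * ζ ^ 2 * x ^ 19 * y ^ 11
    - 102643200 * ζ * x ^ 19 * y ^ 11 + 51321600 * x ^ 19 * y ^ 11 + 43156800 * ζ ^ 5 * x ^ 18 * y ^ 12
    + 43156800 * ζ ^ 4 * x ^ 18 * y ^ 12 - 43156800 * ζ ^ 3 * x ^ 18 * y ^ 12 + 18662400 * ζ ^ 2 * x ^ 18 * y ^ 12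
    - 145800000 * ζ * x ^ 18 * y ^ 12 - 121305600 * x ^ 18 * y ^ 12 - 17496000 * ζ ^ 4 * x ^ 17 * y ^ 13
    - 17496000 * ζ ^ 3 * x ^ 17 * y ^ 13 + 34992000 * ζ ^ 2 * x ^ 17 * y ^ 13 - 172627200 * ζ * x ^ 17 * y ^ 13
    - 68817600 * x ^ 17 * y ^ 13 + 60652800 * ζ ^ 3 * x ^ 16 * y ^ 14 + 277603200 * ζ ^ 2 * x ^ 16 * y ^ 14
    - 121305600 * ζ * x ^ 16 * y ^ 14 + 34992000 * x ^ 16 * y ^ 14 - 59019840 * ζ ^ 5 * x ^ 15 * y ^ 15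
    - 118039680 * ζ ^ 4 * x ^ 15 * y ^ 15 - 196188480 * ζ ^ 2 * x ^ 15 * y ^ 15 - 263373120 * ζ * x ^ 15 * y ^ 15
    + 359017920 * x ^ 15 * y ^ 15 - 138801600 * ζ ^ 5 * x ^ 14 * y ^ 16 - 277603200 * ζ ^ 4 * x ^ 14 * y ^ 16
    - 138801600 * ζ ^ 3 * x ^ 14 * y ^ 16 - 416404800 * ζ ^ 2 * x ^ 14 * y ^ 16 - 555206400 * ζ * x ^ 14 * y ^ 16
    + 277603200 * x ^ 14 * y ^ 16 + 78148800 * ζ ^ 5 * x ^ 13 * y ^ 17 + 78148800 * ζ ^ 4 * x ^ 13 * y ^ 17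
    - 78148800 * ζ ^ 3 * x ^ 13 * y ^ 17 - 520214400 * ζ ^ 2 * x ^ 13 * y ^ 17 - 633355200 * ζ * x ^ 13 * y ^ 17
    - 34992000 * x ^ 13 * y ^ 17 + 60652800 * ζ ^ 4 * x ^ 12 * y ^ 18 + 60652800 * ζ ^ 3 * x ^ 12 * y ^ 18
    - 121305600 * ζ ^ 2 * x ^ 12 * y ^ 18 - 312595200 * ζ * x ^ 12 * y ^ 18 - 216950400 * x ^ 12 * y ^ 18
    + 17496000 * ζ ^ 3 * x ^ 11 * y ^ 19 - 51321600 * ζ ^ 2 * x ^ 11 * y ^ 19 - 34992000 * ζ * x ^ 11 * y ^ 19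
    - 121305600 * x ^ 11 * y ^ 19 + 16796160 * ζ ^ 5 * x ^ 10 * y ^ 20 + 33592320 * ζ ^ 4 * x ^ 10 * y ^ 20
    - 7231680 * ζ ^ 2 * x ^ 10 * y ^ 20 - 21928320 * ζ * x ^ 10 * y ^ 20 - 109874880 * x ^ 10 * y ^ 20
    + 25660800 * ζ ^ 5 * x ^ 9 * y ^ 21 + 51321600 * ζ ^ 4 * x ^ 9 * y ^ 21 + 25660800 * ζ ^ 3 * x ^ 9 * y ^ 21
    + 76982400 * ζ ^ 2 * x ^ 9 * y ^ 21 + 102643200 * ζ * x ^ 9 * y ^ 21 - 51321600 * x ^ 9 * y ^ 21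
    - 15163200 * ζ ^ 5 * x ^ 8 * y ^ 22 - 15163200 * ζ ^ 4 * x ^ 8 * y ^ 22 + 15163200 * ζ ^ 3 * x ^ 8 * y ^ 22
    + 93312000 * ζ ^ 2 * x ^ 8 * y ^ 22 + 117806400 * ζ * x ^ 8 * y ^ 22 + 9331200 * x ^ 8 * y ^ 22
    - 10497600 * ζ ^ 4 * x ^ 7 * y ^ 23 - 10497600 * ζ ^ 3 * x ^ 7 * y ^ 23 + 20995200 * ζ ^ 2 * x ^ 7 * y ^ 23
    + 60652800 * ζ * x ^ 7 * y ^ 23 + 40824000 * x ^ 7 * y ^ 23 - 4665600 * ζ ^ 3 * x ^ 6 * y ^ 24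
    + 2332800 * ζ ^ 2 * x ^ 6 * y ^ 24 + 9331200 * ζ * x ^ 6 * y ^ 24 + 20995200 * x ^ 6 * y ^ 24
    - 1539648 * ζ ^ 5 * x ^ 5 * y ^ 25 - 3079296 * ζ ^ 4 * x ^ 5 * y ^ 25 + 6485184 * ζ ^ 2 * x ^ 5 * y ^ 25
    + 10310976 * ζ * x ^ 5 * y ^ 25 + 11150784 * x ^ 5 * y ^ 25 - 1166400 * ζ ^ 5 * x ^ 4 * y ^ 26
    - 2332800 * ζ ^ 4 * x ^ 4 * y ^ 26 - 1166400 * ζ ^ 3 * x ^ 4 * y ^ 26 - 3499200 * ζ ^ 2 * x ^ 4 * y ^ 26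
    - 4665600 * ζ * x ^ 4 * y ^ 26 + 2332800 * x ^ 4 * y ^ 26 + 699840 * ζ ^ 5 * x ^ 3 * y ^ 27 + 699840 * ζ ^ 4 * x ^ 3 * y ^ 27
    - 699840 * ζ ^ 3 * x ^ 3 * y ^ 27 - 4199040 * ζ ^ 2 * x ^ 3 * y ^ 27 - 5365440 * ζ * x ^ 3 * y ^ 27
    - 466560 * x ^ 3 * y ^ 27 + 466560 * ζ ^ 4 * x ^ 2 * y ^ 28 + 466560 * ζ ^ 3 * x ^ 2 * y ^ 28
    - 933120 * ζ ^ 2 * x ^ 2 * y ^ 28 - 2799360 * ζ * x ^ 2 * y ^ 28 - 1866240 * x ^ 2 * y ^ 28 + 233280 * ζ ^ 3 * x * y ^ 29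
    - 466560 * ζ * x * y ^ 29 - 933120 * x * y ^ 29 + 46656 * ζ ^ 5 * y ^ 30 + 93312 * ζ ^ 4 * y ^ 30
    - 373248 * ζ ^ 2 * y ^ 30 - 559872 * ζ * y ^ 30 - 373248 * y ^ 30) * hζ

theorem chord_Y5 (hζ : ζ ^ 4 + ζ ^ 3 + ζ ^ 2 + ζ + 1 = 0) :
    YPT ζ x y * (5 * XP x y - XQ5 ζ x y) =
      -((5 * YP x y - YQ5 ζ x y) * (XPT ζ x y - XP x y) + YP x y * (5 * XP x y - XQ5 ζ x y)) := by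
  simp only [XP, YP, XPT, YPT, XQ5, YQ5]
  linear_combination
    (15552 * ζ ^ 2 * x ^ 23 * y ^ 2 - 15552 * ζ * x ^ 23 * y ^ 2 + 7776 * x ^ 23 * y ^ 2 - 7776 * ζ * x ^ 22 * y ^ 3
    + 15552 * x ^ 22 * y ^ 3 + 38880 * x ^ 21 * y ^ 4 - 77760 * ζ ^ 2 * x ^ 19 * y ^ 6 - 38880 * x ^ 19 * y ^ 6
    + 225504 * ζ ^ 2 * x ^ 18 * y ^ 7 - 225504 * ζ * x ^ 18 * y ^ 7 + 93312 * x ^ 18 * y ^ 7 + 23328 * ζ * x ^ 17 * y ^ 8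
    + 147744 * x ^ 17 * y ^ 8 + 544320 * x ^ 16 * y ^ 9 - 894240 * ζ ^ 2 * x ^ 14 * y ^ 11 - 349920 * x ^ 14 * y ^ 11
    + 606528 * ζ ^ 2 * x ^ 13 * y ^ 12 - 606528 * ζ * x ^ 13 * y ^ 12 + 31104 * x ^ 13 * y ^ 12 + 1213056 * ζ * x ^ 12 * y ^ 13
    - 287712 * x ^ 12 * y ^ 13 + 1244160 * x ^ 11 * y ^ 14 - 349920 * ζ ^ 2 * x ^ 9 * y ^ 16 + 894240 * x ^ 9 * y ^ 16
    + 202176 * ζ ^ 2 * x ^ 8 * y ^ 17 - 202176 * ζ * x ^ 8 * y ^ 17 - 520992 * x ^ 8 * y ^ 17 - 23328 * ζ * x ^ 7 * y ^ 18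
    - 147744 * x ^ 7 * y ^ 18 - 116640 * x ^ 6 * y ^ 19 + 38880 * ζ ^ 2 * x ^ 4 * y ^ 21 - 77760 * x ^ 4 * y ^ 21
    - 23328 * ζ ^ 2 * x ^ 3 * y ^ 22 + 23328 * ζ * x ^ 3 * y ^ 22 + 46656 * x ^ 3 * y ^ 22 - 7776 * ζ * x ^ 2 * y ^ 23
    + 15552 * x ^ 2 * y ^ 23) * hζ

end Fermat.Agent.S52K.Klein
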