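/-
S52K (3–5 switch), layer K2, part Tab: the monomials `uA ζ ^ k * uB ζ ^ (d - k)` in the basis `1, ζ, ζ², ζ³` for `d = 5, 10, 11, 12, 15, 20, 30`.
GENERATED (helper34) from an exact computation in `ℚ(ζ₅)[x, y]`; every proof is `ring` or
`linear_combination` with `hζ : ζ⁴ + ζ³ + ζ² + ζ + 1 = 0`.
Notation: `Ũ = (1/5) [[uA, uB], [uB, -uA]]`, `T̃ = diag(ζ³, ζ²)`, `S̃ (x, y) = (y, -x)`.
-/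
import Mathlib
import Fermat.Agent.S52K.KleinForms

set_option autoImplicit false
set_option maxHeartbeats 1600000

namespace Fermat.Agent.S52K.Klein

variable {R : Type*} [CommRing R] (ζ x y : R)

theorem uA_def : uA ζ = -1 - 2 * ζ - 3 * ζ ^ 2 + ζ ^ 3 := rfl

theorem uB_def : uB ζ = 2 + 4 * ζ + ζ ^ 2 + 3 * ζ ^ 3 := rfl

theorem tab_5_0 (hζ : ζ ^ 4 + ζ ^ 3 + ζ ^ 2 + ζ + 1 = 0) :
    uA ζ ^ 0 * uB ζ ^ 5 = 875 * ζ ^ 3 - 125 * ζ ^ 2 + 750 * ζ + 375 := by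
  simp only [uA, uB]
  linear_combination
    (243 * ζ ^ 11 + 162 * ζ ^ 10 + 1485 * ζ ^ 9 + 1170 * ζ ^ 8 + 3435 * ζ ^ 7 + 3169 * ζ ^ 6 + 3481 * ζ ^ 5
    + 3915 * ζ ^ 4 + 1080 * ζ ^ 3 + 1915 * ζ ^ 2 - 87 * ζ - 343) * hζ

theorem tab_5_1 (hζ : ζ ^ 4 + ζ ^ 3 + ζ ^ 2 + ζ + 1 = 0) :
    uA ζ ^ 1 * uB ζ ^ 4 = 500 * ζ ^ 3 - 250 * ζ ^ 2 + 250 * ζ + 125 := by
  simp only [uA, uB]
  linear_combination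
    (81 * ζ ^ 11 - 216 * ζ ^ 10 + 135 * ζ ^ 9 - 1095 * ζ ^ 8 - 740 * ζ ^ 7 - 2037 * ζ ^ 6 - 2293 * ζ ^ 5
    - 1460 * ζ ^ 4 - 2030 * ζ ^ 3 - 60 * ζ ^ 2 - 269 * ζ - 141) * hζ

theorem tab_5_2 (hζ : ζ ^ 4 + ζ ^ 3 + ζ ^ 2 + ζ + 1 = 0) :
    uA ζ ^ 2 * uB ζ ^ 3 = 375 * ζ ^ 3 + 125 * ζ ^ 2 + 500 * ζ + 250 := by
  simp only [uA, uB]
  linear_combination
    (27 * ζ ^ 11 - 162 * ζ ^ 10 + 225 * ζ ^ 9 - 260 * ζ ^ 8 + 725 * ζ ^ 7 + 701 * ζ ^ 6 + 1104 * ζ ^ 5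
    + 1625 * ζ ^ 4 + 510 * ζ ^ 3 + 675 * ζ ^ 2 - 178 * ζ - 242) * hζ

theorem tab_5_3 (hζ : ζ ^ 4 + ζ ^ 3 + ζ ^ 2 + ζ + 1 = 0) :
    uA ζ ^ 3 * uB ζ ^ 2 = 125 * ζ ^ 3 - 375 * ζ ^ 2 - 250 * ζ - 125 := by
  simp only [uA, uB]
  linear_combination
    (9 * ζ ^ 11 - 84 * ζ ^ 10 + 235 * ζ ^ 9 - 185 * ζ ^ 8 + 210 * ζ ^ 7 - 373 * ζ ^ 6 - 762 * ζ ^ 5
    - 660 * ζ ^ 4 - 940 * ζ ^ 3 - 35 * ζ ^ 2 + 89 * ζ + 121) * hζ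

theorem tab_5_4 (hζ : ζ ^ 4 + ζ ^ 3 + ζ ^ 2 + ζ + 1 = 0) :
    uA ζ ^ 4 * uB ζ ^ 1 = 250 * ζ ^ 3 + 500 * ζ ^ 2 + 750 * ζ + 375 := by
  simp only [uA, uB]
  linear_combination
    (3 * ζ ^ 11 - 38 * ζ ^ 10 + 165 * ζ ^ 9 - 250 * ζ ^ 8 + 15 * ζ ^ 7 - 71 * ζ ^ 6 + 211 * ζ ^ 5
    + 735 * ζ ^ 4 + 500 * ζ ^ 3 + 335 * ζ ^ 2 - 357 * ζ - 373) * hζ

theorem tab_5_5 (hζ : ζ ^ 4 + ζ ^ 3 + ζ ^ 2 + ζ + 1 = 0) :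
    uA ζ ^ 5 * uB ζ ^ 0 = -125 * ζ ^ 3 - 875 * ζ ^ 2 - 1000 * ζ - 500 := by
  simp only [uA, uB]
  linear_combination
    (ζ ^ 11 - 16 * ζ ^ 10 + 95 * ζ ^ 9 - 235 * ζ ^ 8 + 120 * ζ ^ 7 + 283 * ζ ^ 6 + 117 * ζ ^ 5 - 420 * ζ ^ 4
    - 890 * ζ ^ 3 - 170 * ζ ^ 2 + 491 * ζ + 499) * hζ

theorem tab_10_0 (hζ : ζ ^ 4 + ζ ^ 3 + ζ ^ 2 + ζ + 1 = 0) :
    uA ζ ^ 0 * uB ζ ^ 10 = -859375 * ζ ^ 3 - 859375 * ζ ^ 2 - 1406250 := by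
  linear_combination
    (875 * ζ ^ 3 - 125 * ζ ^ 2 + 750 * ζ + 375) * tab_5_0 ζ hζ + (uA ζ ^ 0 * uB ζ ^ 5) * tab_5_0 ζ hζ
    + (765625 * ζ ^ 2 - 984375 * ζ + 1546875) * hζ

theorem tab_10_1 (hζ : ζ ^ 4 + ζ ^ 3 + ζ ^ 2 + ζ + 1 = 0) :
    uA ζ ^ 1 * uB ζ ^ 9 = -546875 * ζ ^ 3 - 546875 * ζ ^ 2 - 859375 := by
  linear_combination
    (875 * ζ ^ 3 - 125 * ζ ^ 2 + 750 * ζ + 375) * tab_5_1 ζ hζ + (uA ζ ^ 1 * uB ζ ^ 4) * tab_5_0 ζ hζ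
    + (437500 * ζ ^ 2 - 718750 * ζ + 906250) * hζ

theorem tab_10_2 (hζ : ζ ^ 4 + ζ ^ 3 + ζ ^ 2 + ζ + 1 = 0) :
    uA ζ ^ 2 * uB ζ ^ 8 = -312500 * ζ ^ 3 - 312500 * ζ ^ 2 - 546875 := by
  linear_combination
    (875 * ζ ^ 3 - 125 * ζ ^ 2 + 750 * ζ + 375) * tab_5_2 ζ hζ + (uA ζ ^ 2 * uB ζ ^ 3) * tab_5_0 ζ hζ
    + (328125 * ζ ^ 2 - 265625 * ζ + 640625) * hζ

theorem tab_10_3 (hζ : ζ ^ 4 + ζ ^ 3 + ζ ^ 2 + ζ + 1 = 0) :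
    uA ζ ^ 3 * uB ζ ^ 7 = -234375 * ζ ^ 3 - 234375 * ζ ^ 2 - 312500 := by
  linear_combination
    (875 * ζ ^ 3 - 125 * ζ ^ 2 + 750 * ζ + 375) * tab_5_3 ζ hζ + (uA ζ ^ 3 * uB ζ ^ 2) * tab_5_0 ζ hζ
    + (109375 * ζ ^ 2 - 453125 * ζ + 265625) * hζ

theorem tab_10_4 (hζ : ζ ^ 4 + ζ ^ 3 + ζ ^ 2 + ζ + 1 = 0) :
    uA ζ ^ 4 * uB ζ ^ 6 = -78125 * ζ ^ 3 - 78125 * ζ ^ 2 - 234375 := by
  linear_combination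
    (875 * ζ ^ 3 - 125 * ζ ^ 2 + 750 * ζ + 375) * tab_5_4 ζ hζ + (uA ζ ^ 4 * uB ζ ^ 1) * tab_5_0 ζ hζ
    + (218750 * ζ ^ 2 + 187500 * ζ + 375000) * hζ

theorem tab_10_5 (hζ : ζ ^ 4 + ζ ^ 3 + ζ ^ 2 + ζ + 1 = 0) :
    uA ζ ^ 5 * uB ζ ^ 5 = -156250 * ζ ^ 3 - 156250 * ζ ^ 2 - 78125 := by
  linear_combination
    (875 * ζ ^ 3 - 125 * ζ ^ 2 + 750 * ζ + 375) * tab_5_5 ζ hζ + (uA ζ ^ 5 * uB ζ ^ 0) * tab_5_0 ζ hζ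
    + (-109375 * ζ ^ 2 - 640625 * ζ - 109375) * hζ

theorem tab_10_6 (hζ : ζ ^ 4 + ζ ^ 3 + ζ ^ 2 + ζ + 1 = 0) :
    uA ζ ^ 6 * uB ζ ^ 4 = 78125 * ζ ^ 3 + 78125 * ζ ^ 2 - 156250 := by
  linear_combination
    (500 * ζ ^ 3 - 250 * ζ ^ 2 + 250 * ζ + 125) * tab_5_5 ζ hζ + (uA ζ ^ 5 * uB ζ ^ 0) * tab_5_1 ζ hζ
    + (-62500 * ζ ^ 2 - 343750 * ζ + 93750) * hζ

theorem tab_10_7 (hζ : ζ ^ 4 + ζ ^ 3 + ζ ^ 2 + ζ + 1 = 0) :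
    uA ζ ^ 7 * uB ζ ^ 3 = -234375 * ζ ^ 3 - 234375 * ζ ^ 2 + 78125 := by
  linear_combination
    (375 * ζ ^ 3 + 125 * ζ ^ 2 + 500 * ζ + 250) * tab_5_5 ζ hζ + (uA ζ ^ 5 * uB ζ ^ 0) * tab_5_2 ζ hζ
    + (-46875 * ζ ^ 2 - 296875 * ζ - 203125) * hζ

theorem tab_10_8 (hζ : ζ ^ 4 + ζ ^ 3 + ζ ^ 2 + ζ + 1 = 0) :
    uA ζ ^ 8 * uB ζ ^ 2 = 312500 * ζ ^ 3 + 312500 * ζ ^ 2 - 234375 := by
  linear_combination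
    (125 * ζ ^ 3 - 375 * ζ ^ 2 - 250 * ζ - 125) * tab_5_5 ζ hζ + (uA ζ ^ 5 * uB ζ ^ 0) * tab_5_3 ζ hζ
    + (-15625 * ζ ^ 2 - 46875 * ζ + 296875) * hζ

theorem tab_10_9 (hζ : ζ ^ 4 + ζ ^ 3 + ζ ^ 2 + ζ + 1 = 0) :
    uA ζ ^ 9 * uB ζ ^ 1 = -546875 * ζ ^ 3 - 546875 * ζ ^ 2 + 312500 := by
  linear_combination
    (250 * ζ ^ 3 + 500 * ζ ^ 2 + 750 * ζ + 375) * tab_5_5 ζ hζ + (uA ζ ^ 5 * uB ζ ^ 0) * tab_5_4 ζ hζ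
    + (-31250 * ζ ^ 2 - 250000 * ζ - 500000) * hζ

theorem tab_10_10 (hζ : ζ ^ 4 + ζ ^ 3 + ζ ^ 2 + ζ + 1 = 0) :
    uA ζ ^ 10 * uB ζ ^ 0 = 859375 * ζ ^ 3 + 859375 * ζ ^ 2 - 546875 := by
  linear_combination
    (-125 * ζ ^ 3 - 875 * ζ ^ 2 - 1000 * ζ - 500) * tab_5_5 ζ hζ + (uA ζ ^ 5 * uB ζ ^ 0) * tab_5_5 ζ hζ
    + (15625 * ζ ^ 2 + 203125 * ζ + 796875) * hζ

theorem tab_11_0 (hζ : ζ ^ 4 + ζ ^ 3 + ζ ^ 2 + ζ + 1 = 0) :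
    uA ζ ^ 0 * uB ζ ^ 11 = -5078125 * ζ ^ 3 + 1171875 * ζ ^ 2 - 3906250 * ζ - 1953125 := by
  linear_combination
    (3 * ζ ^ 3 + ζ ^ 2 + 4 * ζ + 2) * tab_10_0 ζ hζ + (uA ζ ^ 0 * uB ζ ^ 10) * uB_def ζ + (-2578125 * ζ ^ 2
    - 859375 * ζ - 859375) * hζ

theorem tab_11_1 (hζ : ζ ^ 4 + ζ ^ 3 + ζ ^ 2 + ζ + 1 = 0) :
    uA ζ ^ 1 * uB ζ ^ 10 = -3125000 * ζ ^ 3 + 781250 * ζ ^ 2 - 2343750 * ζ - 1171875 := by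
  linear_combination
    (3 * ζ ^ 3 + ζ ^ 2 + 4 * ζ + 2) * tab_10_1 ζ hζ + (uA ζ ^ 1 * uB ζ ^ 9) * uB_def ζ + (-1640625 * ζ ^ 2
    - 546875 * ζ - 546875) * hζ

theorem tab_11_2 (hζ : ζ ^ 4 + ζ ^ 3 + ζ ^ 2 + ζ + 1 = 0) :
    uA ζ ^ 2 * uB ζ ^ 9 = -1953125 * ζ ^ 3 + 390625 * ζ ^ 2 - 1562500 * ζ - 781250 := by
  linear_combination
    (3 * ζ ^ 3 + ζ ^ 2 + 4 * ζ + 2) * tab_10_2 ζ hζ + (uA ζ ^ 2 * uB ζ ^ 8) * uB_def ζ + (-937500 * ζ ^ 2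
    - 312500 * ζ - 312500) * hζ

theorem tab_11_3 (hζ : ζ ^ 4 + ζ ^ 3 + ζ ^ 2 + ζ + 1 = 0) :
    uA ζ ^ 3 * uB ζ ^ 8 = -1171875 * ζ ^ 3 + 390625 * ζ ^ 2 - 781250 * ζ - 390625 := by
  linear_combination
    (3 * ζ ^ 3 + ζ ^ 2 + 4 * ζ + 2) * tab_10_3 ζ hζ + (uA ζ ^ 3 * uB ζ ^ 7) * uB_def ζ + (-703125 * ζ ^ 2
    - 234375 * ζ - 234375) * hζ

theorem tab_11_4 (hζ : ζ ^ 4 + ζ ^ 3 + ζ ^ 2 + ζ + 1 = 0) :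
    uA ζ ^ 4 * uB ζ ^ 7 = -781250 * ζ ^ 3 - 781250 * ζ - 390625 := by
  linear_combination
    (3 * ζ ^ 3 + ζ ^ 2 + 4 * ζ + 2) * tab_10_4 ζ hζ + (uA ζ ^ 4 * uB ζ ^ 6) * uB_def ζ + (-234375 * ζ ^ 2
    - 78125 * ζ - 78125) * hζ

theorem tab_11_5 (hζ : ζ ^ 4 + ζ ^ 3 + ζ ^ 2 + ζ + 1 = 0) :
    uA ζ ^ 5 * uB ζ ^ 6 = -390625 * ζ ^ 3 + 390625 * ζ ^ 2 := by
  linear_combination
    (3 * ζ ^ 3 + ζ ^ 2 + 4 * ζ + 2) * tab_10_5 ζ hζ + (uA ζ ^ 5 * uB ζ ^ 5) * uB_def ζ + (-468750 * ζ ^ 2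
    - 156250 * ζ - 156250) * hζ

theorem tab_11_6 (hζ : ζ ^ 4 + ζ ^ 3 + ζ ^ 2 + ζ + 1 = 0) :
    uA ζ ^ 6 * uB ζ ^ 5 = -390625 * ζ ^ 3 - 390625 * ζ ^ 2 - 781250 * ζ - 390625 := by
  linear_combination
    (3 * ζ ^ 3 + ζ ^ 2 + 4 * ζ + 2) * tab_10_6 ζ hζ + (uA ζ ^ 6 * uB ζ ^ 4) * uB_def ζ + (234375 * ζ ^ 2
    + 78125 * ζ + 78125) * hζ

theorem tab_11_7 (hζ : ζ ^ 4 + ζ ^ 3 + ζ ^ 2 + ζ + 1 = 0) :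
    uA ζ ^ 7 * uB ζ ^ 4 = 781250 * ζ ^ 2 + 781250 * ζ + 390625 := by
  linear_combination
    (3 * ζ ^ 3 + ζ ^ 2 + 4 * ζ + 2) * tab_10_7 ζ hζ + (uA ζ ^ 7 * uB ζ ^ 3) * uB_def ζ + (-703125 * ζ ^ 2
    - 234375 * ζ - 234375) * hζ

theorem tab_11_8 (hζ : ζ ^ 4 + ζ ^ 3 + ζ ^ 2 + ζ + 1 = 0) :
    uA ζ ^ 8 * uB ζ ^ 3 = -390625 * ζ ^ 3 - 1171875 * ζ ^ 2 - 1562500 * ζ - 781250 := by
  linear_combination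
    (3 * ζ ^ 3 + ζ ^ 2 + 4 * ζ + 2) * tab_10_8 ζ hζ + (uA ζ ^ 8 * uB ζ ^ 2) * uB_def ζ + (937500 * ζ ^ 2
    + 312500 * ζ + 312500) * hζ

theorem tab_11_9 (hζ : ζ ^ 4 + ζ ^ 3 + ζ ^ 2 + ζ + 1 = 0) :
    uA ζ ^ 9 * uB ζ ^ 2 = 390625 * ζ ^ 3 + 1953125 * ζ ^ 2 + 2343750 * ζ + 1171875 := by
  linear_combination
    (3 * ζ ^ 3 + ζ ^ 2 + 4 * ζ + 2) * tab_10_9 ζ hζ + (uA ζ ^ 9 * uB ζ ^ 1) * uB_def ζ + (-1640625 * ζ ^ 2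
    - 546875 * ζ - 546875) * hζ

theorem tab_11_10 (hζ : ζ ^ 4 + ζ ^ 3 + ζ ^ 2 + ζ + 1 = 0) :
    uA ζ ^ 10 * uB ζ ^ 1 = -781250 * ζ ^ 3 - 3125000 * ζ ^ 2 - 3906250 * ζ - 1953125 := by
  linear_combination
    (3 * ζ ^ 3 + ζ ^ 2 + 4 * ζ + 2) * tab_10_10 ζ hζ + (uA ζ ^ 10 * uB ζ ^ 0) * uB_def ζ + (2578125 * ζ ^ 2
    + 859375 * ζ + 859375) * hζ

theorem tab_11_11 (hζ : ζ ^ 4 + ζ ^ 3 + ζ ^ 2 + ζ + 1 = 0) :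
    uA ζ ^ 11 * uB ζ ^ 0 = 1171875 * ζ ^ 3 + 5078125 * ζ ^ 2 + 6250000 * ζ + 3125000 := by
  linear_combination
    (ζ ^ 3 - 3 * ζ ^ 2 - 2 * ζ - 1) * tab_10_10 ζ hζ + (uA ζ ^ 10 * uB ζ ^ 0) * uA_def ζ + (859375 * ζ ^ 2
    - 2578125 * ζ - 2578125) * hζ

theorem tab_12_0 (hζ : ζ ^ 4 + ζ ^ 3 + ζ ^ 2 + ζ + 1 = 0) :
    uA ζ ^ 0 * uB ζ ^ 12 = 15625000 * ζ ^ 3 + 15625000 * ζ ^ 2 + 25390625 := by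
  linear_combination
    (3 * ζ ^ 3 + ζ ^ 2 + 4 * ζ + 2) * tab_11_0 ζ hζ + (uA ζ ^ 0 * uB ζ ^ 11) * uB_def ζ + (-15234375 * ζ ^ 2
    + 13671875 * ζ - 29296875) * hζ

theorem tab_12_1 (hζ : ζ ^ 4 + ζ ^ 3 + ζ ^ 2 + ζ + 1 = 0) :
    uA ζ ^ 1 * uB ζ ^ 11 = 9765625 * ζ ^ 3 + 9765625 * ζ ^ 2 + 15625000 := by
  linear_combination
    (3 * ζ ^ 3 + ζ ^ 2 + 4 * ζ + 2) * tab_11_1 ζ hζ + (uA ζ ^ 1 * uB ζ ^ 10) * uB_def ζ + (-9375000 * ζ ^ 2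
    + 8593750 * ζ - 17968750) * hζ

theorem tab_12_2 (hζ : ζ ^ 4 + ζ ^ 3 + ζ ^ 2 + ζ + 1 = 0) :
    uA ζ ^ 2 * uB ζ ^ 10 = 5859375 * ζ ^ 3 + 5859375 * ζ ^ 2 + 9765625 := by
  linear_combination
    (3 * ζ ^ 3 + ζ ^ 2 + 4 * ζ + 2) * tab_11_2 ζ hζ + (uA ζ ^ 2 * uB ζ ^ 9) * uB_def ζ + (-5859375 * ζ ^ 2
    + 5078125 * ζ - 11328125) * hζ

theorem tab_12_3 (hζ : ζ ^ 4 + ζ ^ 3 + ζ ^ 2 + ζ + 1 = 0) :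
    uA ζ ^ 3 * uB ζ ^ 9 = 3906250 * ζ ^ 3 + 3906250 * ζ ^ 2 + 5859375 := by
  linear_combination
    (3 * ζ ^ 3 + ζ ^ 2 + 4 * ζ + 2) * tab_11_3 ζ hζ + (uA ζ ^ 3 * uB ζ ^ 8) * uB_def ζ + (-3515625 * ζ ^ 2
    + 3515625 * ζ - 6640625) * hζ

theorem tab_12_4 (hζ : ζ ^ 4 + ζ ^ 3 + ζ ^ 2 + ζ + 1 = 0) :
    uA ζ ^ 4 * uB ζ ^ 8 = 1953125 * ζ ^ 3 + 1953125 * ζ ^ 2 + 3906250 := by
  linear_combination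
    (3 * ζ ^ 3 + ζ ^ 2 + 4 * ζ + 2) * tab_11_4 ζ hζ + (uA ζ ^ 4 * uB ζ ^ 7) * uB_def ζ + (-2343750 * ζ ^ 2
    + 1562500 * ζ - 4687500) * hζ

theorem tab_12_5 (hζ : ζ ^ 4 + ζ ^ 3 + ζ ^ 2 + ζ + 1 = 0) :
    uA ζ ^ 5 * uB ζ ^ 7 = 1953125 * ζ ^ 3 + 1953125 * ζ ^ 2 + 1953125 := by
  linear_combination
    (3 * ζ ^ 3 + ζ ^ 2 + 4 * ζ + 2) * tab_11_5 ζ hζ + (uA ζ ^ 5 * uB ζ ^ 6) * uB_def ζ + (-1171875 * ζ ^ 2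
    + 1953125 * ζ - 1953125) * hζ

theorem tab_12_6 (hζ : ζ ^ 4 + ζ ^ 3 + ζ ^ 2 + ζ + 1 = 0) :
    uA ζ ^ 6 * uB ζ ^ 6 = 1953125 := by
  linear_combination
    (3 * ζ ^ 3 + ζ ^ 2 + 4 * ζ + 2) * tab_11_6 ζ hζ + (uA ζ ^ 6 * uB ζ ^ 5) * uB_def ζ + (-1171875 * ζ ^ 2
    - 390625 * ζ - 2734375) * hζ

theorem tab_12_7 (hζ : ζ ^ 4 + ζ ^ 3 + ζ ^ 2 + ζ + 1 = 0) :
    uA ζ ^ 7 * uB ζ ^ 5 = 1953125 * ζ ^ 3 + 1953125 * ζ ^ 2 := by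
  linear_combination
    (3 * ζ ^ 3 + ζ ^ 2 + 4 * ζ + 2) * tab_11_7 ζ hζ + (uA ζ ^ 7 * uB ζ ^ 4) * uB_def ζ + (2343750 * ζ
    + 781250) * hζ

theorem tab_12_8 (hζ : ζ ^ 4 + ζ ^ 3 + ζ ^ 2 + ζ + 1 = 0) :
    uA ζ ^ 8 * uB ζ ^ 4 = -1953125 * ζ ^ 3 - 1953125 * ζ ^ 2 + 1953125 := by
  linear_combination
    (3 * ζ ^ 3 + ζ ^ 2 + 4 * ζ + 2) * tab_11_8 ζ hζ + (uA ζ ^ 8 * uB ζ ^ 3) * uB_def ζ + (-1171875 * ζ ^ 2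
    - 2734375 * ζ - 3515625) * hζ

theorem tab_12_9 (hζ : ζ ^ 4 + ζ ^ 3 + ζ ^ 2 + ζ + 1 = 0) :
    uA ζ ^ 9 * uB ζ ^ 3 = 3906250 * ζ ^ 3 + 3906250 * ζ ^ 2 - 1953125 := by
  linear_combination
    (3 * ζ ^ 3 + ζ ^ 2 + 4 * ζ + 2) * tab_11_9 ζ hζ + (uA ζ ^ 9 * uB ζ ^ 2) * uB_def ζ + (1171875 * ζ ^ 2
    + 5078125 * ζ + 4296875) * hζ

theorem tab_12_10 (hζ : ζ ^ 4 + ζ ^ 3 + ζ ^ 2 + ζ + 1 = 0) :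
    uA ζ ^ 10 * uB ζ ^ 2 = -5859375 * ζ ^ 3 - 5859375 * ζ ^ 2 + 3906250 := by
  linear_combination
    (3 * ζ ^ 3 + ζ ^ 2 + 4 * ζ + 2) * tab_11_10 ζ hζ + (uA ζ ^ 10 * uB ζ ^ 1) * uB_def ζ + (-2343750 * ζ ^ 2
    - 7812500 * ζ - 7812500) * hζ

theorem tab_12_11 (hζ : ζ ^ 4 + ζ ^ 3 + ζ ^ 2 + ζ + 1 = 0) :
    uA ζ ^ 11 * uB ζ ^ 1 = 9765625 * ζ ^ 3 + 9765625 * ζ ^ 2 - 5859375 := by
  linear_combination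
    (3 * ζ ^ 3 + ζ ^ 2 + 4 * ζ + 2) * tab_11_11 ζ hζ + (uA ζ ^ 11 * uB ζ ^ 0) * uB_def ζ + (3515625 * ζ ^ 2
    + 12890625 * ζ + 12109375) * hζ

theorem tab_12_12 (hζ : ζ ^ 4 + ζ ^ 3 + ζ ^ 2 + ζ + 1 = 0) :
    uA ζ ^ 12 * uB ζ ^ 0 = -15625000 * ζ ^ 3 - 15625000 * ζ ^ 2 + 9765625 := by
  linear_combination
    (ζ ^ 3 - 3 * ζ ^ 2 - 2 * ζ - 1) * tab_11_11 ζ hζ + (uA ζ ^ 11 * uB ζ ^ 0) * uA_def ζ + (1171875 * ζ ^ 2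
    + 390625 * ζ - 12890625) * hζ

theorem tab_15_0 (hζ : ζ ^ 4 + ζ ^ 3 + ζ ^ 2 + ζ + 1 = 0) :
    uA ζ ^ 0 * uB ζ ^ 15 = -1660156250 * ζ ^ 3 + 390625000 * ζ ^ 2 - 1269531250 * ζ - 634765625 := by
  linear_combination
    (875 * ζ ^ 3 - 125 * ζ ^ 2 + 750 * ζ + 375) * tab_10_0 ζ hζ + (uA ζ ^ 0 * uB ζ ^ 10) * tab_5_0 ζ hζ
    + (-751953125 * ζ ^ 2 + 107421875 * ζ + 107421875) * hζ

theorem tab_15_1 (hζ : ζ ^ 4 + ζ ^ 3 + ζ ^ 2 + ζ + 1 = 0) :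
    uA ζ ^ 1 * uB ζ ^ 14 = -1025390625 * ζ ^ 3 + 244140625 * ζ ^ 2 - 781250000 * ζ - 390625000 := by
  linear_combination
    (875 * ζ ^ 3 - 125 * ζ ^ 2 + 750 * ζ + 375) * tab_10_1 ζ hζ + (uA ζ ^ 1 * uB ζ ^ 9) * tab_5_0 ζ hζ
    + (-478515625 * ζ ^ 2 + 68359375 * ζ + 68359375) * hζ

theorem tab_15_2 (hζ : ζ ^ 4 + ζ ^ 3 + ζ ^ 2 + ζ + 1 = 0) :
    uA ζ ^ 2 * uB ζ ^ 13 = -634765625 * ζ ^ 3 + 146484375 * ζ ^ 2 - 488281250 * ζ - 244140625 := by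
  linear_combination
    (875 * ζ ^ 3 - 125 * ζ ^ 2 + 750 * ζ + 375) * tab_10_2 ζ hζ + (uA ζ ^ 2 * uB ζ ^ 8) * tab_5_0 ζ hζ
    + (-273437500 * ζ ^ 2 + 39062500 * ζ + 39062500) * hζ

theorem tab_15_3 (hζ : ζ ^ 4 + ζ ^ 3 + ζ ^ 2 + ζ + 1 = 0) :
    uA ζ ^ 3 * uB ζ ^ 12 = -390625000 * ζ ^ 3 + 97656250 * ζ ^ 2 - 292968750 * ζ - 146484375 := by
  linear_combination
    (875 * ζ ^ 3 - 125 * ζ ^ 2 + 750 * ζ + 375) * tab_10_3 ζ hζ + (uA ζ ^ 3 * uB ζ ^ 7) * tab_5_0 ζ hζ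
    + (-205078125 * ζ ^ 2 + 29296875 * ζ + 29296875) * hζ

theorem tab_15_4 (hζ : ζ ^ 4 + ζ ^ 3 + ζ ^ 2 + ζ + 1 = 0) :
    uA ζ ^ 4 * uB ζ ^ 11 = -244140625 * ζ ^ 3 + 48828125 * ζ ^ 2 - 195312500 * ζ - 97656250 := by
  linear_combination
    (875 * ζ ^ 3 - 125 * ζ ^ 2 + 750 * ζ + 375) * tab_10_4 ζ hζ + (uA ζ ^ 4 * uB ζ ^ 6) * tab_5_0 ζ hζ
    + (-68359375 * ζ ^ 2 + 9765625 * ζ + 9765625) * hζ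

theorem tab_15_5 (hζ : ζ ^ 4 + ζ ^ 3 + ζ ^ 2 + ζ + 1 = 0) :
    uA ζ ^ 5 * uB ζ ^ 10 = -146484375 * ζ ^ 3 + 48828125 * ζ ^ 2 - 97656250 * ζ - 48828125 := by
  linear_combination
    (875 * ζ ^ 3 - 125 * ζ ^ 2 + 750 * ζ + 375) * tab_10_5 ζ hζ + (uA ζ ^ 5 * uB ζ ^ 5) * tab_5_0 ζ hζ
    + (-136718750 * ζ ^ 2 + 19531250 * ζ + 19531250) * hζ

theorem tab_15_6 (hζ : ζ ^ 4 + ζ ^ 3 + ζ ^ 2 + ζ + 1 = 0) :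
    uA ζ ^ 6 * uB ζ ^ 9 = -97656250 * ζ ^ 3 - 97656250 * ζ - 48828125 := by
  linear_combination
    (875 * ζ ^ 3 - 125 * ζ ^ 2 + 750 * ζ + 375) * tab_10_6 ζ hζ + (uA ζ ^ 6 * uB ζ ^ 4) * tab_5_0 ζ hζ
    + (68359375 * ζ ^ 2 - 9765625 * ζ - 9765625) * hζ

theorem tab_15_7 (hζ : ζ ^ 4 + ζ ^ 3 + ζ ^ 2 + ζ + 1 = 0) :
    uA ζ ^ 7 * uB ζ ^ 8 = -48828125 * ζ ^ 3 + 48828125 * ζ ^ 2 := by
  linear_combination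
    (875 * ζ ^ 3 - 125 * ζ ^ 2 + 750 * ζ + 375) * tab_10_7 ζ hζ + (uA ζ ^ 7 * uB ζ ^ 3) * tab_5_0 ζ hζ
    + (-205078125 * ζ ^ 2 + 29296875 * ζ + 29296875) * hζ

theorem tab_15_8 (hζ : ζ ^ 4 + ζ ^ 3 + ζ ^ 2 + ζ + 1 = 0) :
    uA ζ ^ 8 * uB ζ ^ 7 = -48828125 * ζ ^ 3 - 48828125 * ζ ^ 2 - 97656250 * ζ - 48828125 := by
  linear_combination
    (875 * ζ ^ 3 - 125 * ζ ^ 2 + 750 * ζ + 375) * tab_10_8 ζ hζ + (uA ζ ^ 8 * uB ζ ^ 2) * tab_5_0 ζ hζ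
    + (273437500 * ζ ^ 2 - 39062500 * ζ - 39062500) * hζ

theorem tab_15_9 (hζ : ζ ^ 4 + ζ ^ 3 + ζ ^ 2 + ζ + 1 = 0) :
    uA ζ ^ 9 * uB ζ ^ 6 = 97656250 * ζ ^ 2 + 97656250 * ζ + 48828125 := by
  linear_combination
    (875 * ζ ^ 3 - 125 * ζ ^ 2 + 750 * ζ + 375) * tab_10_9 ζ hζ + (uA ζ ^ 9 * uB ζ ^ 1) * tab_5_0 ζ hζ
    + (-478515625 * ζ ^ 2 + 68359375 * ζ + 68359375) * hζ

theorem tab_15_10 (hζ : ζ ^ 4 + ζ ^ 3 + ζ ^ 2 + ζ + 1 = 0) :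
    uA ζ ^ 10 * uB ζ ^ 5 = -48828125 * ζ ^ 3 - 146484375 * ζ ^ 2 - 195312500 * ζ - 97656250 := by
  linear_combination
    (875 * ζ ^ 3 - 125 * ζ ^ 2 + 750 * ζ + 375) * tab_10_10 ζ hζ + (uA ζ ^ 10 * uB ζ ^ 0) * tab_5_0 ζ hζ
    + (751953125 * ζ ^ 2 - 107421875 * ζ - 107421875) * hζ

theorem tab_15_11 (hζ : ζ ^ 4 + ζ ^ 3 + ζ ^ 2 + ζ + 1 = 0) :
    uA ζ ^ 11 * uB ζ ^ 4 = 48828125 * ζ ^ 3 + 244140625 * ζ ^ 2 + 292968750 * ζ + 146484375 := by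
  linear_combination
    (500 * ζ ^ 3 - 250 * ζ ^ 2 + 250 * ζ + 125) * tab_10_10 ζ hζ + (uA ζ ^ 10 * uB ζ ^ 0) * tab_5_1 ζ hζ
    + (429687500 * ζ ^ 2 - 214843750 * ζ - 214843750) * hζ

theorem tab_15_12 (hζ : ζ ^ 4 + ζ ^ 3 + ζ ^ 2 + ζ + 1 = 0) :
    uA ζ ^ 12 * uB ζ ^ 3 = -97656250 * ζ ^ 3 - 390625000 * ζ ^ 2 - 488281250 * ζ - 244140625 := by
  linear_combination
    (375 * ζ ^ 3 + 125 * ζ ^ 2 + 500 * ζ + 250) * tab_10_10 ζ hζ + (uA ζ ^ 10 * uB ζ ^ 0) * tab_5_2 ζ hζ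
    + (322265625 * ζ ^ 2 + 107421875 * ζ + 107421875) * hζ

theorem tab_15_13 (hζ : ζ ^ 4 + ζ ^ 3 + ζ ^ 2 + ζ + 1 = 0) :
    uA ζ ^ 13 * uB ζ ^ 2 = 146484375 * ζ ^ 3 + 634765625 * ζ ^ 2 + 781250000 * ζ + 390625000 := by
  linear_combination
    (125 * ζ ^ 3 - 375 * ζ ^ 2 - 250 * ζ - 125) * tab_10_10 ζ hζ + (uA ζ ^ 10 * uB ζ ^ 0) * tab_5_3 ζ hζ
    + (107421875 * ζ ^ 2 - 322265625 * ζ - 322265625) * hζ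

theorem tab_15_14 (hζ : ζ ^ 4 + ζ ^ 3 + ζ ^ 2 + ζ + 1 = 0) :
    uA ζ ^ 14 * uB ζ ^ 1 = -244140625 * ζ ^ 3 - 1025390625 * ζ ^ 2 - 1269531250 * ζ - 634765625 := by
  linear_combination
    (250 * ζ ^ 3 + 500 * ζ ^ 2 + 750 * ζ + 375) * tab_10_10 ζ hζ + (uA ζ ^ 10 * uB ζ ^ 0) * tab_5_4 ζ hζ
    + (214843750 * ζ ^ 2 + 429687500 * ζ + 429687500) * hζ

theorem tab_15_15 (hζ : ζ ^ 4 + ζ ^ 3 + ζ ^ 2 + ζ + 1 = 0) :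
    uA ζ ^ 15 * uB ζ ^ 0 = 390625000 * ζ ^ 3 + 1660156250 * ζ ^ 2 + 2050781250 * ζ + 1025390625 := by
  linear_combination
    (-125 * ζ ^ 3 - 875 * ζ ^ 2 - 1000 * ζ - 500) * tab_10_10 ζ hζ + (uA ζ ^ 10 * uB ζ ^ 0) * tab_5_5 ζ hζ
    + (-107421875 * ζ ^ 2 - 751953125 * ζ - 751953125) * hζ

theorem tab_20_0 (hζ : ζ ^ 4 + ζ ^ 3 + ζ ^ 2 + ζ + 1 = 0) :
    uA ζ ^ 0 * uB ζ ^ 20 = 1678466796875 * ζ ^ 3 + 1678466796875 * ζ ^ 2 + 2716064453125 := by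
  linear_combination
    (-859375 * ζ ^ 3 - 859375 * ζ ^ 2 - 1406250) * tab_10_0 ζ hζ + (uA ζ ^ 0 * uB ζ ^ 10) * tab_10_0 ζ hζ
    + (738525390625 * ζ ^ 2 + 738525390625 * ζ - 738525390625) * hζ

theorem tab_20_1 (hζ : ζ ^ 4 + ζ ^ 3 + ζ ^ 2 + ζ + 1 = 0) :
    uA ζ ^ 1 * uB ζ ^ 19 = 1037597656250 * ζ ^ 3 + 1037597656250 * ζ ^ 2 + 1678466796875 := by
  linear_combination
    (-859375 * ζ ^ 3 - 859375 * ζ ^ 2 - 1406250) * tab_10_1 ζ hζ + (uA ζ ^ 1 * uB ζ ^ 9) * tab_10_0 ζ hζ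
    + (469970703125 * ζ ^ 2 + 469970703125 * ζ - 469970703125) * hζ

theorem tab_20_2 (hζ : ζ ^ 4 + ζ ^ 3 + ζ ^ 2 + ζ + 1 = 0) :
    uA ζ ^ 2 * uB ζ ^ 18 = 640869140625 * ζ ^ 3 + 640869140625 * ζ ^ 2 + 1037597656250 := by
  linear_combination
    (-859375 * ζ ^ 3 - 859375 * ζ ^ 2 - 1406250) * tab_10_2 ζ hζ + (uA ζ ^ 2 * uB ζ ^ 8) * tab_10_0 ζ hζ
    + (268554687500 * ζ ^ 2 + 268554687500 * ζ - 268554687500) * hζ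

theorem tab_20_3 (hζ : ζ ^ 4 + ζ ^ 3 + ζ ^ 2 + ζ + 1 = 0) :
    uA ζ ^ 3 * uB ζ ^ 17 = 396728515625 * ζ ^ 3 + 396728515625 * ζ ^ 2 + 640869140625 := by
  linear_combination
    (-859375 * ζ ^ 3 - 859375 * ζ ^ 2 - 1406250) * tab_10_3 ζ hζ + (uA ζ ^ 3 * uB ζ ^ 7) * tab_10_0 ζ hζ
    + (201416015625 * ζ ^ 2 + 201416015625 * ζ - 201416015625) * hζ

theorem tab_20_4 (hζ : ζ ^ 4 + ζ ^ 3 + ζ ^ 2 + ζ + 1 = 0) :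
    uA ζ ^ 4 * uB ζ ^ 16 = 244140625000 * ζ ^ 3 + 244140625000 * ζ ^ 2 + 396728515625 := by
  linear_combination
    (-859375 * ζ ^ 3 - 859375 * ζ ^ 2 - 1406250) * tab_10_4 ζ hζ + (uA ζ ^ 4 * uB ζ ^ 6) * tab_10_0 ζ hζ
    + (67138671875 * ζ ^ 2 + 67138671875 * ζ - 67138671875) * hζ

theorem tab_20_5 (hζ : ζ ^ 4 + ζ ^ 3 + ζ ^ 2 + ζ + 1 = 0) :
    uA ζ ^ 5 * uB ζ ^ 15 = 152587890625 * ζ ^ 3 + 152587890625 * ζ ^ 2 + 244140625000 := by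
  linear_combination
    (-859375 * ζ ^ 3 - 859375 * ζ ^ 2 - 1406250) * tab_10_5 ζ hζ + (uA ζ ^ 5 * uB ζ ^ 5) * tab_10_0 ζ hζ
    + (134277343750 * ζ ^ 2 + 134277343750 * ζ - 134277343750) * hζ

theorem tab_20_6 (hζ : ζ ^ 4 + ζ ^ 3 + ζ ^ 2 + ζ + 1 = 0) :
    uA ζ ^ 6 * uB ζ ^ 14 = 91552734375 * ζ ^ 3 + 91552734375 * ζ ^ 2 + 152587890625 := by
  linear_combination
    (-859375 * ζ ^ 3 - 859375 * ζ ^ 2 - 1406250) * tab_10_6 ζ hζ + (uA ζ ^ 6 * uB ζ ^ 4) * tab_10_0 ζ hζ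
    + (-67138671875 * ζ ^ 2 - 67138671875 * ζ + 67138671875) * hζ

theorem tab_20_7 (hζ : ζ ^ 4 + ζ ^ 3 + ζ ^ 2 + ζ + 1 = 0) :
    uA ζ ^ 7 * uB ζ ^ 13 = 61035156250 * ζ ^ 3 + 61035156250 * ζ ^ 2 + 91552734375 := by
  linear_combination
    (-859375 * ζ ^ 3 - 859375 * ζ ^ 2 - 1406250) * tab_10_7 ζ hζ + (uA ζ ^ 7 * uB ζ ^ 3) * tab_10_0 ζ hζ
    + (201416015625 * ζ ^ 2 + 201416015625 * ζ - 201416015625) * hζ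

theorem tab_20_8 (hζ : ζ ^ 4 + ζ ^ 3 + ζ ^ 2 + ζ + 1 = 0) :
    uA ζ ^ 8 * uB ζ ^ 12 = 30517578125 * ζ ^ 3 + 30517578125 * ζ ^ 2 + 61035156250 := by
  linear_combination
    (-859375 * ζ ^ 3 - 859375 * ζ ^ 2 - 1406250) * tab_10_8 ζ hζ + (uA ζ ^ 8 * uB ζ ^ 2) * tab_10_0 ζ hζ
    + (-268554687500 * ζ ^ 2 - 268554687500 * ζ + 268554687500) * hζ

theorem tab_20_9 (hζ : ζ ^ 4 + ζ ^ 3 + ζ ^ 2 + ζ + 1 = 0) :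
    uA ζ ^ 9 * uB ζ ^ 11 = 30517578125 * ζ ^ 3 + 30517578125 * ζ ^ 2 + 30517578125 := by
  linear_combination
    (-859375 * ζ ^ 3 - 859375 * ζ ^ 2 - 1406250) * tab_10_9 ζ hζ + (uA ζ ^ 9 * uB ζ ^ 1) * tab_10_0 ζ hζ
    + (469970703125 * ζ ^ 2 + 469970703125 * ζ - 469970703125) * hζ

theorem tab_20_10 (hζ : ζ ^ 4 + ζ ^ 3 + ζ ^ 2 + ζ + 1 = 0) :
    uA ζ ^ 10 * uB ζ ^ 10 = 30517578125 := by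
  linear_combination
    (-859375 * ζ ^ 3 - 859375 * ζ ^ 2 - 1406250) * tab_10_10 ζ hζ + (uA ζ ^ 10 * uB ζ ^ 0) * tab_10_0 ζ hζ
    + (-738525390625 * ζ ^ 2 - 738525390625 * ζ + 738525390625) * hζ

theorem tab_20_11 (hζ : ζ ^ 4 + ζ ^ 3 + ζ ^ 2 + ζ + 1 = 0) :
    uA ζ ^ 11 * uB ζ ^ 9 = 30517578125 * ζ ^ 3 + 30517578125 * ζ ^ 2 := by
  linear_combination
    (-546875 * ζ ^ 3 - 546875 * ζ ^ 2 - 859375) * tab_10_10 ζ hζ + (uA ζ ^ 10 * uB ζ ^ 0) * tab_10_1 ζ hζ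
    + (-469970703125 * ζ ^ 2 - 469970703125 * ζ + 469970703125) * hζ

theorem tab_20_12 (hζ : ζ ^ 4 + ζ ^ 3 + ζ ^ 2 + ζ + 1 = 0) :
    uA ζ ^ 12 * uB ζ ^ 8 = -30517578125 * ζ ^ 3 - 30517578125 * ζ ^ 2 + 30517578125 := by
  linear_combination
    (-312500 * ζ ^ 3 - 312500 * ζ ^ 2 - 546875) * tab_10_10 ζ hζ + (uA ζ ^ 10 * uB ζ ^ 0) * tab_10_2 ζ hζ
    + (-268554687500 * ζ ^ 2 - 268554687500 * ζ + 268554687500) * hζ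

theorem tab_20_13 (hζ : ζ ^ 4 + ζ ^ 3 + ζ ^ 2 + ζ + 1 = 0) :
    uA ζ ^ 13 * uB ζ ^ 7 = 61035156250 * ζ ^ 3 + 61035156250 * ζ ^ 2 - 30517578125 := by
  linear_combination
    (-234375 * ζ ^ 3 - 234375 * ζ ^ 2 - 312500) * tab_10_10 ζ hζ + (uA ζ ^ 10 * uB ζ ^ 0) * tab_10_3 ζ hζ
    + (-201416015625 * ζ ^ 2 - 201416015625 * ζ + 201416015625) * hζ

theorem tab_20_14 (hζ : ζ ^ 4 + ζ ^ 3 + ζ ^ 2 + ζ + 1 = 0) :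
    uA ζ ^ 14 * uB ζ ^ 6 = -91552734375 * ζ ^ 3 - 91552734375 * ζ ^ 2 + 61035156250 := by
  linear_combination
    (-78125 * ζ ^ 3 - 78125 * ζ ^ 2 - 234375) * tab_10_10 ζ hζ + (uA ζ ^ 10 * uB ζ ^ 0) * tab_10_4 ζ hζ
    + (-67138671875 * ζ ^ 2 - 67138671875 * ζ + 67138671875) * hζ

theorem tab_20_15 (hζ : ζ ^ 4 + ζ ^ 3 + ζ ^ 2 + ζ + 1 = 0) :
    uA ζ ^ 15 * uB ζ ^ 5 = 152587890625 * ζ ^ 3 + 152587890625 * ζ ^ 2 - 91552734375 := by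
  linear_combination
    (-156250 * ζ ^ 3 - 156250 * ζ ^ 2 - 78125) * tab_10_10 ζ hζ + (uA ζ ^ 10 * uB ζ ^ 0) * tab_10_5 ζ hζ
    + (-134277343750 * ζ ^ 2 - 134277343750 * ζ + 134277343750) * hζ

theorem tab_20_16 (hζ : ζ ^ 4 + ζ ^ 3 + ζ ^ 2 + ζ + 1 = 0) :
    uA ζ ^ 16 * uB ζ ^ 4 = -244140625000 * ζ ^ 3 - 244140625000 * ζ ^ 2 + 152587890625 := by
  linear_combination
    (78125 * ζ ^ 3 + 78125 * ζ ^ 2 - 156250) * tab_10_10 ζ hζ + (uA ζ ^ 10 * uB ζ ^ 0) * tab_10_6 ζ hζ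
    + (67138671875 * ζ ^ 2 + 67138671875 * ζ - 67138671875) * hζ

theorem tab_20_17 (hζ : ζ ^ 4 + ζ ^ 3 + ζ ^ 2 + ζ + 1 = 0) :
    uA ζ ^ 17 * uB ζ ^ 3 = 396728515625 * ζ ^ 3 + 396728515625 * ζ ^ 2 - 244140625000 := by
  linear_combination
    (-234375 * ζ ^ 3 - 234375 * ζ ^ 2 + 78125) * tab_10_10 ζ hζ + (uA ζ ^ 10 * uB ζ ^ 0) * tab_10_7 ζ hζ
    + (-201416015625 * ζ ^ 2 - 201416015625 * ζ + 201416015625) * hζ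

theorem tab_20_18 (hζ : ζ ^ 4 + ζ ^ 3 + ζ ^ 2 + ζ + 1 = 0) :
    uA ζ ^ 18 * uB ζ ^ 2 = -640869140625 * ζ ^ 3 - 640869140625 * ζ ^ 2 + 396728515625 := by
  linear_combination
    (312500 * ζ ^ 3 + 312500 * ζ ^ 2 - 234375) * tab_10_10 ζ hζ + (uA ζ ^ 10 * uB ζ ^ 0) * tab_10_8 ζ hζ
    + (268554687500 * ζ ^ 2 + 268554687500 * ζ - 268554687500) * hζ

theorem tab_20_19 (hζ : ζ ^ 4 + ζ ^ 3 + ζ ^ 2 + ζ + 1 = 0) :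
    uA ζ ^ 19 * uB ζ ^ 1 = 1037597656250 * ζ ^ 3 + 1037597656250 * ζ ^ 2 - 640869140625 := by
  linear_combination
    (-546875 * ζ ^ 3 - 546875 * ζ ^ 2 + 312500) * tab_10_10 ζ hζ + (uA ζ ^ 10 * uB ζ ^ 0) * tab_10_9 ζ hζ
    + (-469970703125 * ζ ^ 2 - 469970703125 * ζ + 469970703125) * hζ

theorem tab_20_20 (hζ : ζ ^ 4 + ζ ^ 3 + ζ ^ 2 + ζ + 1 = 0) :
    uA ζ ^ 20 * uB ζ ^ 0 = -1678466796875 * ζ ^ 3 - 1678466796875 * ζ ^ 2 + 1037597656250 := by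
  linear_combination
    (859375 * ζ ^ 3 + 859375 * ζ ^ 2 - 546875) * tab_10_10 ζ hζ + (uA ζ ^ 10 * uB ζ ^ 0) * tab_10_10 ζ hζ
    + (738525390625 * ζ ^ 2 + 738525390625 * ζ - 738525390625) * hζ

theorem tab_30_0 (hζ : ζ ^ 4 + ζ ^ 3 + ζ ^ 2 + ζ + 1 = 0) :
    uA ζ ^ 0 * uB ζ ^ 30 = -3252029418945312500 * ζ ^ 3 - 3252029418945312500 * ζ ^ 2 - 5261898040771484375 := by
  linear_combination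
    (-1660156250 * ζ ^ 3 + 390625000 * ζ ^ 2 - 1269531250 * ζ - 634765625) * tab_15_0 ζ hζ + (uA ζ ^ 0 * uB ζ ^ 15) * tab_15_0 ζ hζ
    + (2756118774414062500 * ζ ^ 2 - 4053115844726562500 * ζ + 5664825439453125000) * hζ

theorem tab_30_1 (hζ : ζ ^ 4 + ζ ^ 3 + ζ ^ 2 + ζ + 1 = 0) :
    uA ζ ^ 1 * uB ζ ^ 29 = -2009868621826171875 * ζ ^ 3 - 2009868621826171875 * ζ ^ 2 - 3252029418945312500 := by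
  linear_combination
    (-1660156250 * ζ ^ 3 + 390625000 * ζ ^ 2 - 1269531250 * ζ - 634765625) * tab_15_1 ζ hζ + (uA ζ ^ 1 * uB ζ ^ 14) * tab_15_0 ζ hζ
    + (1702308654785156250 * ζ ^ 2 - 2508163452148437500 * ζ + 3499984741210937500) * hζ

theorem tab_30_2 (hζ : ζ ^ 4 + ζ ^ 3 + ζ ^ 2 + ζ + 1 = 0) :
    uA ζ ^ 2 * uB ζ ^ 28 = -1242160797119140625 * ζ ^ 3 - 1242160797119140625 * ζ ^ 2 - 2009868621826171875 := by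
  linear_combination
    (-1660156250 * ζ ^ 3 + 390625000 * ζ ^ 2 - 1269531250 * ζ - 634765625) * tab_15_2 ζ hζ + (uA ζ ^ 2 * uB ζ ^ 13) * tab_15_0 ζ hζ
    + (1053810119628906250 * ζ ^ 2 - 1544952392578125000 * ζ + 2164840698242187500) * hζ

theorem tab_30_3 (hζ : ζ ^ 4 + ζ ^ 3 + ζ ^ 2 + ζ + 1 = 0) :
    uA ζ ^ 3 * uB ζ ^ 27 = -767707824707031250 * ζ ^ 3 - 767707824707031250 * ζ ^ 2 - 1242160797119140625 := by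
  linear_combination
    (-1660156250 * ζ ^ 3 + 390625000 * ζ ^ 2 - 1269531250 * ζ - 634765625) * tab_15_3 ζ hζ + (uA ζ ^ 3 * uB ζ ^ 12) * tab_15_0 ζ hζ
    + (648498535156250000 * ζ ^ 2 - 963211059570312500 * ζ + 1335144042968750000) * hζ

theorem tab_30_4 (hζ : ζ ^ 4 + ζ ^ 3 + ζ ^ 2 + ζ + 1 = 0) :
    uA ζ ^ 4 * uB ζ ^ 26 = -474452972412109375 * ζ ^ 3 - 474452972412109375 * ζ ^ 2 - 767707824707031250 := by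
  linear_combination
    (-1660156250 * ζ ^ 3 + 390625000 * ζ ^ 2 - 1269531250 * ζ - 634765625) * tab_15_4 ζ hζ + (uA ζ ^ 4 * uB ζ ^ 11) * tab_15_0 ζ hζ
    + (405311584472656250 * ζ ^ 2 - 581741333007812500 * ζ + 829696655273437500) * hζ

theorem tab_30_5 (hζ : ζ ^ 4 + ζ ^ 3 + ζ ^ 2 + ζ + 1 = 0) :
    uA ζ ^ 5 * uB ζ ^ 25 = -293254852294921875 * ζ ^ 3 - 293254852294921875 * ζ ^ 2 - 474452972412109375 := by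
  linear_combination
    (-1660156250 * ζ ^ 3 + 390625000 * ζ ^ 2 - 1269531250 * ζ - 634765625) * tab_15_5 ζ hζ + (uA ζ ^ 5 * uB ζ ^ 10) * tab_15_0 ζ hζ
    + (243186950683593750 * ζ ^ 2 - 381469726562500000 * ζ + 505447387695312500) * hζ

theorem tab_30_6 (hζ : ζ ^ 4 + ζ ^ 3 + ζ ^ 2 + ζ + 1 = 0) :
    uA ζ ^ 6 * uB ζ ^ 24 = -181198120117187500 * ζ ^ 3 - 181198120117187500 * ζ ^ 2 - 293254852294921875 := by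
  linear_combination
    (-1660156250 * ζ ^ 3 + 390625000 * ζ ^ 2 - 1269531250 * ζ - 634765625) * tab_15_6 ζ hζ + (uA ζ ^ 6 * uB ζ ^ 9) * tab_15_0 ζ hζ
    + (162124633789062500 * ζ ^ 2 - 200271606445312500 * ζ + 324249267578125000) * hζ

theorem tab_30_7 (hζ : ζ ^ 4 + ζ ^ 3 + ζ ^ 2 + ζ + 1 = 0) :
    uA ζ ^ 7 * uB ζ ^ 23 = -112056732177734375 * ζ ^ 3 - 112056732177734375 * ζ ^ 2 - 181198120117187500 := by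
  linear_combination
    (-1660156250 * ζ ^ 3 + 390625000 * ζ ^ 2 - 1269531250 * ζ - 634765625) * tab_15_7 ζ hζ + (uA ζ ^ 7 * uB ζ ^ 8) * tab_15_0 ζ hζ
    + (81062316894531250 * ζ ^ 2 - 181198120117187500 * ζ + 181198120117187500) * hζ

theorem tab_30_8 (hζ : ζ ^ 4 + ζ ^ 3 + ζ ^ 2 + ζ + 1 = 0) :
    uA ζ ^ 8 * uB ζ ^ 22 = -69141387939453125 * ζ ^ 3 - 69141387939453125 * ζ ^ 2 - 112056732177734375 := by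
  linear_combination
    (-1660156250 * ζ ^ 3 + 390625000 * ζ ^ 2 - 1269531250 * ζ - 634765625) * tab_15_8 ζ hζ + (uA ζ ^ 8 * uB ζ ^ 7) * tab_15_0 ζ hζ
    + (81062316894531250 * ζ ^ 2 - 19073486328125000 * ζ + 143051147460937500) * hζ

theorem tab_30_9 (hζ : ζ ^ 4 + ζ ^ 3 + ζ ^ 2 + ζ + 1 = 0) :
    uA ζ ^ 9 * uB ζ ^ 21 = -42915344238281250 * ζ ^ 3 - 42915344238281250 * ζ ^ 2 - 69141387939453125 := by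
  linear_combination
    (-1660156250 * ζ ^ 3 + 390625000 * ζ ^ 2 - 1269531250 * ζ - 634765625) * tab_15_9 ζ hζ + (uA ζ ^ 9 * uB ζ ^ 6) * tab_15_0 ζ hζ
    + (-162124633789062500 * ζ + 38146972656250000) * hζ

theorem tab_30_10 (hζ : ζ ^ 4 + ζ ^ 3 + ζ ^ 2 + ζ + 1 = 0) :
    uA ζ ^ 10 * uB ζ ^ 20 = -26226043701171875 * ζ ^ 3 - 26226043701171875 * ζ ^ 2 - 42915344238281250 := by
  linear_combination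
    (-1660156250 * ζ ^ 3 + 390625000 * ζ ^ 2 - 1269531250 * ζ - 634765625) * tab_15_10 ζ hζ + (uA ζ ^ 10 * uB ζ ^ 5) * tab_15_0 ζ hζ
    + (81062316894531250 * ζ ^ 2 + 143051147460937500 * ζ + 104904174804687500) * hζ

theorem tab_30_11 (hζ : ζ ^ 4 + ζ ^ 3 + ζ ^ 2 + ζ + 1 = 0) :
    uA ζ ^ 11 * uB ζ ^ 19 = -16689300537109375 * ζ ^ 3 - 16689300537109375 * ζ ^ 2 - 26226043701171875 := by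
  linear_combination
    (-1660156250 * ζ ^ 3 + 390625000 * ζ ^ 2 - 1269531250 * ζ - 634765625) * tab_15_11 ζ hζ + (uA ζ ^ 11 * uB ζ ^ 4) * tab_15_0 ζ hζ
    + (-81062316894531250 * ζ ^ 2 - 305175781250000000 * ζ - 66757202148437500) * hζ

theorem tab_30_12 (hζ : ζ ^ 4 + ζ ^ 3 + ζ ^ 2 + ζ + 1 = 0) :
    uA ζ ^ 12 * uB ζ ^ 18 = -9536743164062500 * ζ ^ 3 - 9536743164062500 * ζ ^ 2 - 16689300537109375 := by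
  linear_combination
    (-1660156250 * ζ ^ 3 + 390625000 * ζ ^ 2 - 1269531250 * ζ - 634765625) * tab_15_12 ζ hζ + (uA ζ ^ 12 * uB ζ ^ 3) * tab_15_0 ζ hζ
    + (162124633789062500 * ζ ^ 2 + 448226928710937500 * ζ + 171661376953125000) * hζ

theorem tab_30_13 (hζ : ζ ^ 4 + ζ ^ 3 + ζ ^ 2 + ζ + 1 = 0) :
    uA ζ ^ 13 * uB ζ ^ 17 = -7152557373046875 * ζ ^ 3 - 7152557373046875 * ζ ^ 2 - 9536743164062500 := by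
  linear_combination
    (-1660156250 * ζ ^ 3 + 390625000 * ζ ^ 2 - 1269531250 * ζ - 634765625) * tab_15_13 ζ hζ + (uA ζ ^ 13 * uB ζ ^ 2) * tab_15_0 ζ hζ
    + (-243186950683593750 * ζ ^ 2 - 753402709960937500 * ζ - 238418579101562500) * hζ

theorem tab_30_14 (hζ : ζ ^ 4 + ζ ^ 3 + ζ ^ 2 + ζ + 1 = 0) :
    uA ζ ^ 14 * uB ζ ^ 16 = -2384185791015625 * ζ ^ 3 - 2384185791015625 * ζ ^ 2 - 7152557373046875 := by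
  linear_combination
    (-1660156250 * ζ ^ 3 + 390625000 * ζ ^ 2 - 1269531250 * ζ - 634765625) * tab_15_14 ζ hζ + (uA ζ ^ 14 * uB ζ ^ 1) * tab_15_0 ζ hζ
    + (405311584472656250 * ζ ^ 2 + 1201629638671875000 * ζ + 410079956054687500) * hζ

theorem tab_30_15 (hζ : ζ ^ 4 + ζ ^ 3 + ζ ^ 2 + ζ + 1 = 0) :
    uA ζ ^ 15 * uB ζ ^ 15 = -4768371582031250 * ζ ^ 3 - 4768371582031250 * ζ ^ 2 - 2384185791015625 := by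
  linear_combination
    (-1660156250 * ζ ^ 3 + 390625000 * ζ ^ 2 - 1269531250 * ζ - 634765625) * tab_15_15 ζ hζ + (uA ζ ^ 15 * uB ζ ^ 0) * tab_15_0 ζ hζ
    + (-648498535156250000 * ζ ^ 2 - 1955032348632812500 * ζ - 648498535156250000) * hζ

theorem tab_30_16 (hζ : ζ ^ 4 + ζ ^ 3 + ζ ^ 2 + ζ + 1 = 0) :
    uA ζ ^ 16 * uB ζ ^ 14 = 2384185791015625 * ζ ^ 3 + 2384185791015625 * ζ ^ 2 - 4768371582031250 := by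
  linear_combination
    (-1025390625 * ζ ^ 3 + 244140625 * ζ ^ 2 - 781250000 * ζ - 390625000) * tab_15_15 ζ hζ + (uA ζ ^ 15 * uB ζ ^ 0) * tab_15_1 ζ hζ
    + (-400543212890625000 * ζ ^ 2 - 1206398010253906250 * ζ - 395774841308593750) * hζ

theorem tab_30_17 (hζ : ζ ^ 4 + ζ ^ 3 + ζ ^ 2 + ζ + 1 = 0) :
    uA ζ ^ 17 * uB ζ ^ 13 = -7152557373046875 * ζ ^ 3 - 7152557373046875 * ζ ^ 2 + 2384185791015625 := by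
  linear_combination
    (-634765625 * ζ ^ 3 + 146484375 * ζ ^ 2 - 488281250 * ζ - 244140625) * tab_15_15 ζ hζ + (uA ζ ^ 15 * uB ζ ^ 0) * tab_15_2 ζ hζ
    + (-247955322265625000 * ζ ^ 2 - 748634338378906250 * ζ - 252723693847656250) * hζ

theorem tab_30_18 (hζ : ζ ^ 4 + ζ ^ 3 + ζ ^ 2 + ζ + 1 = 0) :
    uA ζ ^ 18 * uB ζ ^ 12 = 9536743164062500 * ζ ^ 3 + 9536743164062500 * ζ ^ 2 - 7152557373046875 := by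
  linear_combination
    (-390625000 * ζ ^ 3 + 97656250 * ζ ^ 2 - 292968750 * ζ - 146484375) * tab_15_15 ζ hζ + (uA ζ ^ 15 * uB ζ ^ 0) * tab_15_3 ζ hζ
    + (-152587890625000000 * ζ ^ 2 - 457763671875000000 * ζ - 143051147460937500) * hζ

theorem tab_30_19 (hζ : ζ ^ 4 + ζ ^ 3 + ζ ^ 2 + ζ + 1 = 0) :
    uA ζ ^ 19 * uB ζ ^ 11 = -16689300537109375 * ζ ^ 3 - 16689300537109375 * ζ ^ 2 + 9536743164062500 := by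
  linear_combination
    (-244140625 * ζ ^ 3 + 48828125 * ζ ^ 2 - 195312500 * ζ - 97656250) * tab_15_15 ζ hζ + (uA ζ ^ 15 * uB ζ ^ 0) * tab_15_4 ζ hζ
    + (-95367431640625000 * ζ ^ 2 - 290870666503906250 * ζ - 109672546386718750) * hζ

theorem tab_30_20 (hζ : ζ ^ 4 + ζ ^ 3 + ζ ^ 2 + ζ + 1 = 0) :
    uA ζ ^ 20 * uB ζ ^ 10 = 26226043701171875 * ζ ^ 3 + 26226043701171875 * ζ ^ 2 - 16689300537109375 := by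
  linear_combination
    (-146484375 * ζ ^ 3 + 48828125 * ζ ^ 2 - 97656250 * ζ - 48828125) * tab_15_15 ζ hζ + (uA ζ ^ 15 * uB ζ ^ 0) * tab_15_5 ζ hζ
    + (-57220458984375000 * ζ ^ 2 - 166893005371093750 * ζ - 33378601074218750) * hζ

theorem tab_30_21 (hζ : ζ ^ 4 + ζ ^ 3 + ζ ^ 2 + ζ + 1 = 0) :
    uA ζ ^ 21 * uB ζ ^ 9 = -42915344238281250 * ζ ^ 3 - 42915344238281250 * ζ ^ 2 + 26226043701171875 := by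
  linear_combination
    (-97656250 * ζ ^ 3 - 97656250 * ζ - 48828125) * tab_15_15 ζ hζ + (uA ζ ^ 15 * uB ζ ^ 0) * tab_15_6 ζ hζ
    + (-38146972656250000 * ζ ^ 2 - 123977661132812500 * ζ - 76293945312500000) * hζ

theorem tab_30_22 (hζ : ζ ^ 4 + ζ ^ 3 + ζ ^ 2 + ζ + 1 = 0) :
    uA ζ ^ 22 * uB ζ ^ 8 = 69141387939453125 * ζ ^ 3 + 69141387939453125 * ζ ^ 2 - 42915344238281250 := by
  linear_combination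
    (-48828125 * ζ ^ 3 + 48828125 * ζ ^ 2) * tab_15_15 ζ hζ + (uA ζ ^ 15 * uB ζ ^ 0) * tab_15_7 ζ hζ
    + (-19073486328125000 * ζ ^ 2 - 42915344238281250 * ζ + 42915344238281250) * hζ

theorem tab_30_23 (hζ : ζ ^ 4 + ζ ^ 3 + ζ ^ 2 + ζ + 1 = 0) :
    uA ζ ^ 23 * uB ζ ^ 7 = -112056732177734375 * ζ ^ 3 - 112056732177734375 * ζ ^ 2 + 69141387939453125 := by
  linear_combination
    (-48828125 * ζ ^ 3 - 48828125 * ζ ^ 2 - 97656250 * ζ - 48828125) * tab_15_15 ζ hζ + (uA ζ ^ 15 * uB ζ ^ 0) * tab_15_8 ζ hζ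
    + (-19073486328125000 * ζ ^ 2 - 81062316894531250 * ζ - 119209289550781250) * hζ

theorem tab_30_24 (hζ : ζ ^ 4 + ζ ^ 3 + ζ ^ 2 + ζ + 1 = 0) :
    uA ζ ^ 24 * uB ζ ^ 6 = 181198120117187500 * ζ ^ 3 + 181198120117187500 * ζ ^ 2 - 112056732177734375 := by
  linear_combination
    (97656250 * ζ ^ 2 + 97656250 * ζ + 48828125) * tab_15_15 ζ hζ + (uA ζ ^ 15 * uB ζ ^ 0) * tab_15_9 ζ hζ
    + (38146972656250000 * ζ + 162124633789062500) * hζ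

theorem tab_30_25 (hζ : ζ ^ 4 + ζ ^ 3 + ζ ^ 2 + ζ + 1 = 0) :
    uA ζ ^ 25 * uB ζ ^ 5 = -293254852294921875 * ζ ^ 3 - 293254852294921875 * ζ ^ 2 + 181198120117187500 := by
  linear_combination
    (-48828125 * ζ ^ 3 - 146484375 * ζ ^ 2 - 195312500 * ζ - 97656250) * tab_15_15 ζ hζ + (uA ζ ^ 15 * uB ζ ^ 0) * tab_15_10 ζ hζ
    + (-19073486328125000 * ζ ^ 2 - 119209289550781250 * ζ - 281333923339843750) * hζ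

theorem tab_30_26 (hζ : ζ ^ 4 + ζ ^ 3 + ζ ^ 2 + ζ + 1 = 0) :
    uA ζ ^ 26 * uB ζ ^ 4 = 474452972412109375 * ζ ^ 3 + 474452972412109375 * ζ ^ 2 - 293254852294921875 := by
  linear_combination
    (48828125 * ζ ^ 3 + 244140625 * ζ ^ 2 + 292968750 * ζ + 146484375) * tab_15_15 ζ hζ + (uA ζ ^ 15 * uB ζ ^ 0) * tab_15_11 ζ hζ
    + (19073486328125000 * ζ ^ 2 + 157356262207031250 * ζ + 443458557128906250) * hζ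

theorem tab_30_27 (hζ : ζ ^ 4 + ζ ^ 3 + ζ ^ 2 + ζ + 1 = 0) :
    uA ζ ^ 27 * uB ζ ^ 3 = -767707824707031250 * ζ ^ 3 - 767707824707031250 * ζ ^ 2 + 474452972412109375 := by
  linear_combination
    (-97656250 * ζ ^ 3 - 390625000 * ζ ^ 2 - 488281250 * ζ - 244140625) * tab_15_15 ζ hζ + (uA ζ ^ 15 * uB ζ ^ 0) * tab_15_12 ζ hζ
    + (-38146972656250000 * ζ ^ 2 - 276565551757812500 * ζ - 724792480468750000) * hζ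

theorem tab_30_28 (hζ : ζ ^ 4 + ζ ^ 3 + ζ ^ 2 + ζ + 1 = 0) :
    uA ζ ^ 28 * uB ζ ^ 2 = 1242160797119140625 * ζ ^ 3 + 1242160797119140625 * ζ ^ 2 - 767707824707031250 := by
  linear_combination
    (146484375 * ζ ^ 3 + 634765625 * ζ ^ 2 + 781250000 * ζ + 390625000) * tab_15_15 ζ hζ + (uA ζ ^ 15 * uB ζ ^ 0) * tab_15_13 ζ hζ
    + (57220458984375000 * ζ ^ 2 + 433921813964843750 * ζ + 1168251037597656250) * hζ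

theorem tab_30_29 (hζ : ζ ^ 4 + ζ ^ 3 + ζ ^ 2 + ζ + 1 = 0) :
    uA ζ ^ 29 * uB ζ ^ 1 = -2009868621826171875 * ζ ^ 3 - 2009868621826171875 * ζ ^ 2 + 1242160797119140625 := by
  linear_combination
    (-244140625 * ζ ^ 3 - 1025390625 * ζ ^ 2 - 1269531250 * ζ - 634765625) * tab_15_15 ζ hζ + (uA ζ ^ 15 * uB ζ ^ 0) * tab_15_14 ζ hζ
    + (-95367431640625000 * ζ ^ 2 - 710487365722656250 * ζ - 1893043518066406250) * hζ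

theorem tab_30_30 (hζ : ζ ^ 4 + ζ ^ 3 + ζ ^ 2 + ζ + 1 = 0) :
    uA ζ ^ 30 * uB ζ ^ 0 = 3252029418945312500 * ζ ^ 3 + 3252029418945312500 * ζ ^ 2 - 2009868621826171875 := by
  linear_combination
    (390625000 * ζ ^ 3 + 1660156250 * ζ ^ 2 + 2050781250 * ζ + 1025390625) * tab_15_15 ζ hζ + (uA ζ ^ 15 * uB ζ ^ 0) * tab_15_15 ζ hζ
    + (152587890625000000 * ζ ^ 2 + 1144409179687500000 * ζ + 3061294555664062500) * hζ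

end Fermat.Agent.S52K.Klein
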