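/-
S52K (3–5 switch), brick (MODEL) (helper22): an integral model with prescribed `(c₄, c₆)` close to
those of a given model `W`.

If `1728 N ∣ c4' - c₄(W)` and `1728 N ∣ c6' - c₆(W)`, the model
`W' = [a₁, a₂, a₃, a₄ - δ, a₆ - ε]` with `δ = (c4' - c₄)/48`, `ε = (c6' - c₆ + 72 b₂ δ)/864` has
`c₄(W') = c4'`, `c₆(W') = c6'`, and `W' ≡ W (mod N)` coefficientwise, hence `N ∣ Δ(W') - Δ(W)`.
-/
import Mathlib
import Fermat.Agent.S52K.Interfaces

set_option autoImplicit false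

namespace Fermat.Agent.S52K.ModelExists22

open WeierstrassCurve

/-- **(MODEL)**, explicit form. -/
theorem exists_model (W : WeierstrassCurve ℤ) (c4' c6' N : ℤ) (h4 : 1728 * N ∣ c4' - W.c₄)
    (h6 : 1728 * N ∣ c6' - W.c₆) :
    ∃ W' : WeierstrassCurve ℤ, W'.c₄ = c4' ∧ W'.c₆ = c6' ∧ N ∣ W'.Δ - W.Δ := by
  obtain ⟨k₁, hk₁⟩ := h4
  obtain ⟨k₂, hk₂⟩ := h6
  refine ⟨⟨W.a₁, W.a₂, W.a₃, W.a₄ - N * (36 * k₁), W.a₆ - N * (2 * k₂ + 3 * W.b₂ * k₁)⟩,
    ?_, ?_, ?_⟩
  · have h : c4' = W.c₄ + 1728 * N * k₁ := by linarith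
    rw [h]
    simp only [WeierstrassCurve.c₄, WeierstrassCurve.b₂, WeierstrassCurve.b₄]
    ring
  · have h : c6' = W.c₆ + 1728 * N * k₂ := by linarith
    rw [h]
    simp only [WeierstrassCurve.c₆, WeierstrassCurve.b₂, WeierstrassCurve.b₄,
      WeierstrassCurve.b₆]
    ring
  · -- the two models agree modulo `N`
    have hN : (Ideal.Quotient.mk (Ideal.span {N})) N = 0 :=
      Ideal.Quotient.eq_zero_iff_mem.2 (Ideal.mem_span_singleton_self N)
    have hmap : (⟨W.a₁, W.a₂, W.a₃, W.a₄ - N * (36 * k₁),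
        W.a₆ - N * (2 * k₂ + 3 * W.b₂ * k₁)⟩ : WeierstrassCurve ℤ).map
          (Ideal.Quotient.mk (Ideal.span {N})) = W.map (Ideal.Quotient.mk (Ideal.span {N})) := by
      ext
      · rfl
      · rfl
      · rfl
      · show (Ideal.Quotient.mk (Ideal.span {N})) (W.a₄ - N * (36 * k₁)) = _
        rw [map_sub, map_mul, hN, zero_mul, sub_zero]
        rfl
      · show (Ideal.Quotient.mk (Ideal.span {N})) (W.a₆ - N * (2 * k₂ + 3 * W.b₂ * k₁)) = _
        rw [map_sub, map_mul, hN, zero_mul, sub_zero]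
        rfl
    have hΔ := congrArg WeierstrassCurve.Δ hmap
    rw [WeierstrassCurve.map_Δ, WeierstrassCurve.map_Δ] at hΔ
    exact Ideal.mem_span_singleton.1 (Ideal.Quotient.eq.1 hΔ)

/-- **(MODEL)**: the literal of the interface. -/
theorem modelExists : ModelExists := fun W c4' c6' N h4 h6 => exists_model W c4' c6' N h4 h6

end Fermat.Agent.S52K.ModelExists22
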