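/-
S52K (3–5 switch), brick (R2) of the `c₆`-root route (helper30).

An algebraic number `θ` fixed by an element `σ` of the absolute Galois group of `ℚ` which negates
the square roots of `3` is congruent to a rational integer modulo a prime of `ℚ̄` over some
rational prime `ℓ` outside any given finite set, at which `3` is not a square.

Proof: the Frobenius density theorem in existence form (`Frob.exists_frobenius_generating`) for
the field `ℚ(θ, √3)` gives a Frobenius element `φ` at a prime `ℓ` generating the same cyclic group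
as `σ` on that field.  Then `φ θ = θ`, so `θ^ℓ ≡ θ` and the residue class of `θ` lies in the prime
field; and `φ √3 = -√3`, which is impossible if `√3` is congruent to an integer.
-/
import Mathlib
import Fermat.Prelude.Def_EllipticCurve_FrobeniusTrace
import Fermat.Prelude.Def_FLTPrelim_Ramification
import Fermat.Agent.Frob.Main
import Fermat.Agent.Lib.ValuationIntegral

set_option autoImplicit false

namespace Fermat.Agent.S52K.PrimeNearInt30

open Polynomial IntermediateField Fermat.Agent.Lib.ValuationIntegral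

section General

variable {K L : Type*} [Field K] [Field L] [Algebra K L]

/-- A Frobenius element at `A` acts as `x ↦ x ^ q` modulo the maximal ideal of `A`. -/
theorem frob_sub_mem (A : ValuationSubring L) (σ : L ≃ₐ[K] L) (q : ℕ)
    (hσ : A.IsFrobeniusAt σ q) {x : L} (hx : x ∈ A) : σ x - x ^ q ∈ A.nonunits := by
  have hdec := hσ.mem_decompositionSubgroup
  have h := hσ.smul_residue_eq (IsLocalRing.residue A ⟨x, hx⟩)
  set g : A.decompositionSubgroup K := ⟨σ, hdec⟩ with hg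
  have hmem : σ x ∈ A := ((g • (⟨x, hx⟩ : A) : A)).2
  rw [← IsLocalRing.ResidueField.residue_smul, ← map_pow] at h
  have h3 : (g • (⟨x, hx⟩ : A) : A) - (⟨x, hx⟩ : A) ^ q ∈ IsLocalRing.maximalIdeal A := by
    rw [← Ideal.Quotient.eq]
    exact h
  rw [ValuationSubring.mem_nonunits_iff_exists_mem_maximalIdeal]
  exact ⟨A.sub_mem hmem (pow_mem hx q), h3⟩

theorem add_mem_nonunits (A : ValuationSubring L) {a b : L} (ha : a ∈ A.nonunits)
    (hb : b ∈ A.nonunits) : a + b ∈ A.nonunits := by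
  rw [ValuationSubring.mem_nonunits_iff] at *
  exact lt_of_le_of_lt (A.valuation.map_add a b) (max_lt ha hb)

theorem neg_mem_nonunits (A : ValuationSubring L) {a : L} (ha : a ∈ A.nonunits) :
    -a ∈ A.nonunits := by
  rw [ValuationSubring.mem_nonunits_iff] at *
  rwa [Valuation.map_neg]

theorem int_mem (A : ValuationSubring L) (n : ℤ) : (n : L) ∈ A :=
  mem_of_isIntegral_int A (by simpa using isIntegral_algebraMap (R := ℤ) (A := L) (x := n))

/-- Two elements of `A` whose product is a non-unit: one of them is a non-unit. -/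
theorem mem_nonunits_or_of_mul (A : ValuationSubring L) {a b : L} (ha : a ∈ A) (hb : b ∈ A)
    (hab : a * b ∈ A.nonunits) : a ∈ A.nonunits ∨ b ∈ A.nonunits := by
  by_contra hcon
  push Not at hcon
  obtain ⟨h1, h2⟩ := hcon
  rw [ValuationSubring.mem_nonunits_iff, not_lt] at h1 h2
  have ha1 : A.valuation a = 1 := le_antisymm ((A.valuation_le_one_iff a).mpr ha) h1
  have hb1 : A.valuation b = 1 := le_antisymm ((A.valuation_le_one_iff b).mpr hb) h2
  rw [ValuationSubring.mem_nonunits_iff, map_mul, ha1, hb1, one_mul] at hab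
  exact lt_irrefl _ hab

/-- An element of `A` congruent to its own `ℓ`-th power modulo the maximal ideal (residue
characteristic `ℓ`) is congruent to a rational integer. -/
theorem exists_int_sub_mem (A : ValuationSubring L) {ℓ : ℕ} (hℓ : ℓ.Prime)
    (hA : (ℓ : L) ∈ A.nonunits) {x : L} (hx : x ∈ A) (hfix : x - x ^ ℓ ∈ A.nonunits) :
    ∃ s : ℤ, x - (s : L) ∈ A.nonunits := by
  have : Fact ℓ.Prime := ⟨hℓ⟩
  have hℓk : ((ℓ : ℕ) : IsLocalRing.ResidueField A) = 0 := by
    obtain ⟨h1, h2⟩ := ValuationSubring.mem_nonunits_iff_exists_mem_maximalIdeal.mp hA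
    have h3 : IsLocalRing.residue A ⟨(ℓ : L), h1⟩ = 0 := (IsLocalRing.residue_eq_zero_iff _).mpr h2
    have e : (⟨(ℓ : L), h1⟩ : A) = ((ℓ : ℕ) : A) := Subtype.ext (by simp)
    rw [e, map_natCast] at h3
    exact h3
  have : CharP (IsLocalRing.ResidueField A) ℓ := (CharP.charP_iff_prime_eq_zero hℓ).mpr hℓk
  have hX : (IsLocalRing.residue A ⟨x, hx⟩) ^ ℓ = IsLocalRing.residue A ⟨x, hx⟩ := by
    obtain ⟨h1, h2⟩ := ValuationSubring.mem_nonunits_iff_exists_mem_maximalIdeal.mp hfix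
    have h3 : IsLocalRing.residue A ⟨x - x ^ ℓ, h1⟩ = 0 :=
      (IsLocalRing.residue_eq_zero_iff _).mpr h2
    have e : (⟨x - x ^ ℓ, h1⟩ : A) = ⟨x, hx⟩ - ⟨x, hx⟩ ^ ℓ := Subtype.ext (by simp)
    rw [e, map_sub, map_pow, sub_eq_zero] at h3
    exact h3.symm
  obtain ⟨n, hn⟩ := (mem_bot_iff_intCast ℓ (IsLocalRing.ResidueField A)).mp
    ((Subfield.mem_bot_iff_pow_eq_self (IsLocalRing.ResidueField A) ℓ).mpr hX)
  refine ⟨n, ?_⟩
  rw [ValuationSubring.mem_nonunits_iff_exists_mem_maximalIdeal]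
  refine ⟨A.sub_mem hx (int_mem A n), ?_⟩
  rw [← IsLocalRing.residue_eq_zero_iff]
  have e : (⟨x - (n : L), A.sub_mem hx (int_mem A n)⟩ : A) = ⟨x, hx⟩ - ((n : ℤ) : A) :=
    Subtype.ext (by simp)
  rw [e, map_sub, map_intCast, hn, sub_self]

end General

local notation "Qb" => AlgebraicClosure ℚ
local notation "GQ" => (AlgebraicClosure ℚ ≃ₐ[ℚ] AlgebraicClosure ℚ)

/-- **(R2)** -/
theorem primeNearInt (θ : Qb) (σ : GQ) (hσθ : σ θ = θ) (hσ3 : ∀ r : Qb, r ^ 2 = 3 → σ r = -r)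
    (S : Finset ℕ) :
    ∃ ℓ : ℕ, ℓ.Prime ∧ ℓ ∉ S ∧ ¬ IsSquare (3 : ZMod ℓ) ∧
      ∃ (A : ValuationSubring Qb) (s : ℤ), A.LiesOverPrime ℓ ∧ θ - (s : Qb) ∈ A.nonunits := by
  -- a square root of `3`
  obtain ⟨r, hr⟩ : ∃ r : Qb, r ^ 2 = 3 := IsAlgClosed.exists_pow_nat_eq 3 (by norm_num)
  have hr0 : r ≠ 0 := by
    rintro rfl
    norm_num at hr
  -- integrality
  have halgQ : Algebra.IsAlgebraic ℚ Qb := Fermat.Agent.Lib.GalQbar.isAlgebraic_rat
  have hθQ : IsIntegral ℚ θ := (Algebra.IsAlgebraic.isAlgebraic (R := ℚ) θ).isIntegral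
  have hθalg : @IsAlgebraic ℤ Qb _ _ (Ring.toIntAlgebra Qb) θ := by
    let _ : Algebra ℤ Qb := Ring.toIntAlgebra Qb
    exact (IsFractionRing.isAlgebraic_iff ℤ ℚ Qb).mpr hθQ.isAlgebraic
  obtain ⟨d, hd0, hdθ⟩ := @IsAlgebraic.exists_integral_multiple ℤ Qb _ _ (Ring.toIntAlgebra Qb) θ
    hθalg
  have hrint : IsIntegral ℤ r :=
    ⟨X ^ 2 - C 3, monic_X_pow_sub_C 3 (by norm_num), by simp [hr]⟩
  have hrQ : IsIntegral ℚ r := (Algebra.IsAlgebraic.isAlgebraic (R := ℚ) r).isIntegral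
  have hfd : FiniteDimensional ℚ ℚ⟮θ, r⟯ := finiteDimensional_adjoin_pair hθQ hrQ
  obtain ⟨ℓ, hℓ, hℓS, A, φ, k, j, hA, hφ, h1, h2⟩ :=
    Fermat.Agent.Frob.exists_frobenius_generating ℚ⟮θ, r⟯
      (S ∪ {2, 3} ∪ d.natAbs.primeFactors) σ
  have hθF : θ ∈ ℚ⟮θ, r⟯ := subset_adjoin ℚ _ (by simp)
  have hrF : r ∈ ℚ⟮θ, r⟯ := subset_adjoin ℚ _ (by simp)
  simp only [Finset.mem_union, Finset.mem_insert, Finset.mem_singleton, not_or] at hℓS
  obtain ⟨⟨hℓS', hℓ2, hℓ3⟩, hℓd⟩ := hℓS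
  have hℓ' : Prime (ℓ : ℤ) := Nat.prime_iff_prime_int.mp hℓ
  have hℓd' : ¬ (ℓ : ℤ) ∣ d := by
    intro h
    apply hℓd
    rw [Nat.mem_primeFactors]
    exact ⟨hℓ, Int.natCast_dvd.mp h, Int.natAbs_ne_zero.mpr hd0⟩
  -- `φ` fixes `θ`
  have hσj : ∀ n : ℕ, (σ ^ n) θ = θ := by
    intro n
    induction n with
    | zero => simp
    | succ n ih => rw [pow_succ, AlgEquiv.mul_apply, hσθ, ih]
  have hφθ : φ θ = θ := by rw [h2 θ hθF, hσj]
  -- `φ` negates `r`
  have hφr2 : (φ r) ^ 2 = 3 := by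
    rw [← map_pow, hr, map_ofNat]
  have hφr : φ r = -r := by
    have hcases : φ r = r ∨ φ r = -r := by
      have h0 : (φ r - r) * (φ r + r) = 0 := by linear_combination hφr2 - hr
      rcases mul_eq_zero.mp h0 with h | h
      · left; linear_combination h
      · right; linear_combination h
    rcases hcases with h | h
    · exfalso
      have hk : ∀ n : ℕ, (φ ^ n) r = r := by
        intro n
        induction n with
        | zero => simp
        | succ n ih => rw [pow_succ, AlgEquiv.mul_apply, h, ih]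
      have h3 := h1 r hrF
      rw [hk, hσ3 r hr] at h3
      apply hr0
      linear_combination (-1 / 2 : Qb) * h3
    · exact h
  -- `θ ∈ A`, `r ∈ A`
  have hA' : (ℓ : Qb) ∈ A.nonunits := hA
  have hdA : (d : Qb) ∉ A.nonunits := intCast_notMem_nonunits A hℓ hA' hℓd'
  have hdθA : (d : Qb) * θ ∈ A := by
    have h0 := mem_of_isIntegral_int A hdθ
    rwa [zsmul_eq_mul] at h0
  have hθA : θ ∈ A := by
    rw [← A.valuation_le_one_iff] at hdθA ⊢
    rw [ValuationSubring.mem_nonunits_iff, not_lt] at hdA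
    have hd1 : A.valuation (d : Qb) = 1 :=
      le_antisymm ((A.valuation_le_one_iff _).mpr (int_mem A d)) hdA
    rwa [map_mul, hd1, one_mul] at hdθA
  have hrA : r ∈ A := mem_of_isIntegral_int A hrint
  refine ⟨ℓ, hℓ, hℓS', ?_, A, ?_⟩
  · -- `3` is not a square modulo `ℓ`
    rintro ⟨c, hc⟩
    obtain ⟨c', rfl⟩ := ZMod.intCast_surjective c
    have hdiv : (ℓ : ℤ) ∣ c' ^ 2 - 3 := by
      rw [← ZMod.intCast_zmod_eq_zero_iff_dvd]
      push_cast
      rw [hc]
      ring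
    obtain ⟨m, hm⟩ := hdiv
    have hprod : (r - (c' : Qb)) * (r + (c' : Qb)) ∈ A.nonunits := by
      have e : (r - (c' : Qb)) * (r + (c' : Qb)) = (ℓ : Qb) * (-(m : Qb)) := by
        have h0 := congrArg (Int.cast : ℤ → Qb) hm
        push_cast at h0
        linear_combination hr - h0
      rw [e]
      exact mul_mem_nonunits A hA' (A.neg_mem _ (int_mem A m))
    have hfac : ∃ ε : ℤ, (ε = 1 ∨ ε = -1) ∧ r - ((ε * c' : ℤ) : Qb) ∈ A.nonunits := by
      rcases mem_nonunits_or_of_mul A (A.sub_mem hrA (int_mem A c'))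
        (A.add_mem _ _ hrA (int_mem A c')) hprod with h | h
      · exact ⟨1, Or.inl rfl, by simpa using h⟩
      · refine ⟨-1, Or.inr rfl, ?_⟩
        have e : r - (((-1 : ℤ) * c' : ℤ) : Qb) = r + (c' : Qb) := by push_cast; ring
        rw [e]; exact h
    obtain ⟨ε, hε, hmem⟩ := hfac
    have hxA : r - ((ε * c' : ℤ) : Qb) ∈ A := ValuationSubring.nonunits_subset hmem
    have hfrob := frob_sub_mem A φ ℓ hφ hxA
    have hpow : (r - ((ε * c' : ℤ) : Qb)) ^ ℓ ∈ A.nonunits := by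
      obtain ⟨n, hn⟩ : ∃ n, ℓ = n + 1 := ⟨ℓ - 1, by have := hℓ.pos; omega⟩
      rw [hn, pow_succ, mul_comm]
      exact mul_mem_nonunits A hmem (pow_mem hxA n)
    have hφx : φ (r - ((ε * c' : ℤ) : Qb)) ∈ A.nonunits := by
      have h0 := add_mem_nonunits A hfrob hpow
      rwa [sub_add_cancel] at h0
    rw [map_sub, hφr, map_intCast] at hφx
    have hsum := add_mem_nonunits A hmem hφx
    have h2c : ((2 * (ε * c') : ℤ) : Qb) ∈ A.nonunits := by
      have e : r - ((ε * c' : ℤ) : Qb) + (-r - ((ε * c' : ℤ) : Qb))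
          = -((2 * (ε * c') : ℤ) : Qb) := by push_cast; ring
      rw [e] at hsum
      have h0 := neg_mem_nonunits A hsum
      rwa [neg_neg] at h0
    have hdvd2c : (ℓ : ℤ) ∣ 2 * (ε * c') := by
      by_contra hnd
      exact intCast_notMem_nonunits A hℓ hA' hnd h2c
    have hℓc : (ℓ : ℤ) ∣ c' := by
      rcases hℓ'.dvd_or_dvd hdvd2c with h | h
      · exfalso
        have h0 : ℓ ∣ 2 := by exact_mod_cast h
        exact hℓ2 ((Nat.prime_dvd_prime_iff_eq hℓ Nat.prime_two).mp h0)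
      · rcases hℓ'.dvd_or_dvd h with h' | h'
        · exfalso
          rcases hε with rfl | rfl
          · exact hℓ'.not_dvd_one h'
          · exact hℓ'.not_dvd_one ((dvd_neg).mp h')
        · exact h'
    have h3dvd : (ℓ : ℤ) ∣ 3 := by
      have h0 : (ℓ : ℤ) ∣ c' ^ 2 := dvd_pow hℓc (by norm_num)
      have h1 : (ℓ : ℤ) ∣ c' ^ 2 - 3 := ⟨m, hm⟩
      have h2 := dvd_sub h0 h1
      rwa [sub_sub_cancel] at h2
    have h0 : ℓ ∣ 3 := by exact_mod_cast h3dvd
    exact hℓ3 ((Nat.prime_dvd_prime_iff_eq hℓ Nat.prime_three).mp h0)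
  · -- the integer congruent to `θ`
    have hfix : θ - θ ^ ℓ ∈ A.nonunits := by
      have h0 := frob_sub_mem A φ ℓ hφ hθA
      rwa [hφθ] at h0
    obtain ⟨s, hs⟩ := exists_int_sub_mem A hℓ hA' hθA hfix
    exact ⟨s, hA, hs⟩

end Fermat.Agent.S52K.PrimeNearInt30
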